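import Fermat.Agent.S15.Defs
import Fermat.Agent.RED.KD.H22_CuspPlaces
import Fermat.Agent.S24.H72_FF1
import Fermat.Agent.S24.Asm.Degree
import Fermat.Agent.S24.Closure.Final

/-!
# S15 package CUSP-ex (helper22): the two cusps of `X₀(p)` exist

`stmt_cuspExists p : Stmt_cuspExists p`, for every `p ≠ 0`, with the explicit places
`RED.KD.H22.cuspInf p` (the `q`-order) and `RED.KD.H22.cuspZero p` (order of the expansion at the
cusp `0`).
-/

set_option autoImplicit false

noncomputable section

open HahnSeries ModularCurve AlgebraicCurve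

namespace Fermat.Agent.S15.H22

open Fermat.Agent.S24 Fermat.Agent.RED.KD.H22

/-- The order of `x(q^n)`. -/
theorem order_qExpand {K : Type*} [Field K] (n : ℕ) [NeZero n] (x : LaurentSeries K)
    (hx : x ≠ 0) : (qExpand K n x).order = (n : ℤ) * x.order := by
  have hn : (0 : ℤ) < n := by exact_mod_cast Nat.pos_of_ne_zero (NeZero.ne n)
  have hc : x.coeff x.order ≠ 0 := fun h => hx (HahnSeries.coeff_order_eq_zero.mp h)
  have hne : qExpand K n x ≠ 0 := fun h0 => hx (qExpand_injective n (by rw [h0, map_zero]))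
  apply le_antisymm
  · apply HahnSeries.order_le_of_coeff_ne_zero
    rw [qExpand_coeff_mul]
    exact hc
  · by_contra hcon
    rw [not_le] at hcon
    apply hne
    apply HahnSeries.coeff_order_eq_zero.mp
    set m := (qExpand K n x).order with hm
    by_cases hdvd : (n : ℤ) ∣ m
    · obtain ⟨k, hk⟩ := hdvd
      rw [hk, qExpand_coeff_mul]
      apply HahnSeries.coeff_eq_zero_of_lt_order
      by_contra hk1
      rw [not_lt] at hk1
      have : (n : ℤ) * x.order ≤ (n : ℤ) * k := mul_le_mul_of_nonneg_left hk1 hn.le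
      omega
    · exact qExpand_coeff_of_not_dvd _ _ hdvd

theorem jBar_eq (p : ℕ) [NeZero p] : Fermat.Agent.S15.jBar p = jF p := rfl

theorem jBarN_eq (p : ℕ) [NeZero p] : Fermat.Agent.S15.jBarN p = jdF p p dvd_rfl := rfl

theorem jdF_coe (p : ℕ) [NeZero p] (d : ℕ) [NeZero d] (hd : d ∣ p) :
    ((jdF p d hd : FN p) : LaurentSeries Kbar) = qExpand Kbar d Fermat.Agent.S24.jBar := by
  show coeffEmb Kbar (qExpand ℚ d jq) = _
  rw [coeffEmb, coeffMap_qExpand]
  rfl

theorem place_deg_eq_one (p : ℕ) [NeZero p] (P : Place Kbar (FN p)) : P.deg = 1 := by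
  have : FiniteDimensional (IntermediateField.adjoin Kbar {jF p}) (FN p) :=
    asm_finiteDimensional (modClosure p)
  exact ff_deg_eq_one (jF p) (asm_transcendental_jF (modClosure p)) P

theorem isCuspPair (p : ℕ) [NeZero p] : IsCuspPair p (cuspInf p) (cuspZero p) where
  ord_j_inf := by rw [jBar_eq]; exact ord_cuspInf_jF p
  ord_jN_inf := by
    rw [jBarN_eq, ord_cuspInf p _ (jdF_self_ne_zero p), jdF_coe,
      order_qExpand p _ jBar_ne_zero, jBar_order]
    ring
  ord_j_zero := by rw [jBar_eq]; exact ord_cuspZero_jF p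
  ord_jN_zero := by
    rw [jBarN_eq, ord_cuspZero p _ (jdF_self_ne_zero p), iota0_jdF_self, jBar_order]
  deg_inf := place_deg_eq_one p _
  deg_zero := place_deg_eq_one p _

/-- **CUSP-ex**: the two cusps of `X₀(p)` exist. -/
theorem stmt_cuspExists (p : ℕ) [NeZero p] : Stmt_cuspExists p :=
  ⟨cuspInf p, cuspZero p, isCuspPair p⟩

end Fermat.Agent.S15.H22
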