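import Fermat.Agent.S15.Defs
import Fermat.Agent.S24.Asm.Degree
import Fermat.Agent.S24.Closure.Final
import Fermat.Agent.S24.H85_FF3
import Fermat.Agent.S24.H72_FF1d
import Fermat.Agent.S20.H19_Arith

/-!
# S15, package CUSP-gal (helper30): the cusps of `X₀(p)` are rational

For `p` prime, `[F_p : ℚ̄(j)] = p + 1` and the poles of `j` have orders summing to `p + 1`, so the
two places of a cusp pair (`ord j = -1`, `ord j = -p`) are the only poles of `j`
(`pole_eq_of_isCuspPair`).  The Galois action fixes `j`, hence permutes the poles of `j`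
preserving `ord j`; so it fixes both cusps.
-/

set_option autoImplicit false
set_option synthInstance.maxHeartbeats 400000

noncomputable section

open HahnSeries IntermediateField AlgebraicCurve ModularCurve

namespace Fermat.Agent.S15.H30

open Fermat.Agent.S24 (Kbar FN jF modClosure asm_finrank asm_finiteDimensional
  asm_transcendental_jF h72_zerosStmt)

theorem jBar_eq_jF (p : ℕ) [NeZero p] : jBar p = jF p := rfl

/-- The two places of a cusp pair are different (`p ≥ 2`). -/
theorem isCuspPair_ne {p : ℕ} [NeZero p] (hp : 2 ≤ p) {Pinf P0 : PlaceBar p}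
    (h : IsCuspPair p Pinf P0) : Pinf ≠ P0 := by
  intro e
  have h1 := h.ord_j_inf
  rw [e, h.ord_j_zero] at h1
  have : (2 : ℤ) ≤ (p : ℤ) := by exact_mod_cast hp
  omega

/-- For `p` prime, every pole of `j` on `X₀(p)` is one of the two cusps. -/
theorem pole_eq_of_isCuspPair {p : ℕ} [NeZero p] (hp : p.Prime) {Pinf P0 : PlaceBar p}
    (h : IsCuspPair p Pinf P0) (P : PlaceBar p) (hP : P.ord (jBar p) < 0) :
    P = Pinf ∨ P = P0 := by
  classical
  have := asm_finiteDimensional (modClosure p)
  obtain ⟨S, hS, hsum, -⟩ := Fermat.Agent.S24.H85.poles (K := Kbar) (F := FN p) (jF p)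
    (asm_transcendental_jF (modClosure p)) (fun y hy _ => h72_zerosStmt y hy)
  have hpsi : dedekindPsi p = p + 1 := by
    have := Fermat.Agent.S20.H19.dedekindPsi_prime_pow hp (n := 1) one_pos
    simpa using this
  rw [asm_finrank (modClosure p), hpsi] at hsum
  by_contra hne
  rw [not_or] at hne
  have hp2 : (2 : ℤ) ≤ (p : ℤ) := by exact_mod_cast hp.two_le
  have hPinf : Pinf ∈ S := (hS Pinf).2 (by
    have := h.ord_j_inf; rw [jBar_eq_jF] at this; omega)
  have hP0 : P0 ∈ S := (hS P0).2 (by
    have := h.ord_j_zero; rw [jBar_eq_jF] at this; omega)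
  have hPS : P ∈ S := (hS P).2 hP
  have hne' : Pinf ≠ P0 := isCuspPair_ne hp.two_le h
  -- the three distinct poles
  have hsub : ({P, Pinf, P0} : Finset (PlaceBar p)) ⊆ S := by
    intro x hx
    simp only [Finset.mem_insert, Finset.mem_singleton] at hx
    rcases hx with rfl | rfl | rfl
    · exact hPS
    · exact hPinf
    · exact hP0
  have hle' : ∑ v ∈ ({P, Pinf, P0} : Finset (PlaceBar p)), (-(v.ord (jF p)))
      ≤ ∑ v ∈ S, (-(v.ord (jF p))) :=
    Finset.sum_le_sum_of_subset_of_nonneg hsub fun v hv _ => by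
      have := (hS v).1 hv
      omega
  rw [Finset.sum_neg_distrib, Finset.sum_neg_distrib, neg_le_neg_iff] at hle'
  have hle : ∑ v ∈ S, v.ord (jF p) ≤ ∑ v ∈ ({P, Pinf, P0} : Finset (PlaceBar p)), v.ord (jF p) :=
    hle'
  rw [Finset.sum_insert (by simp [hne.1, hne.2]), Finset.sum_insert (by simp [hne']),
    Finset.sum_singleton, hsum] at hle
  have h1 := h.ord_j_inf
  have h2 := h.ord_j_zero
  rw [jBar_eq_jF] at h1 h2 hP
  rw [h1, h2] at hle
  push_cast at hle
  omega

/-- The Galois action fixes `j`. -/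
theorem gal_smul_jBar (p : ℕ) [NeZero p] (σ : GalQ) :
    arithmeticGalois (modularFunctionFieldFull p) σ • jBar p = jBar p := by
  apply Subtype.ext
  rw [coe_arithmeticGalois_smul]
  exact coeffMap_coeffEmb σ jq

/-- The Galois action fixes `j(q^p)`. -/
theorem gal_smul_jBarN (p : ℕ) [NeZero p] (σ : GalQ) :
    arithmeticGalois (modularFunctionFieldFull p) σ • jBarN p = jBarN p := by
  apply Subtype.ext
  rw [coe_arithmeticGalois_smul]
  exact coeffMap_coeffEmb σ (qExpand ℚ p jq)

theorem ord_galPlace_jBar (p : ℕ) [NeZero p] (σ : GalQ) (P : PlaceBar p) :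
    (galPlace p σ P).ord (jBar p) = P.ord (jBar p) := by
  have h := SemilinearAut.ord_smul (arithmeticGalois (modularFunctionFieldFull p) σ) P (jBar p)
  rw [gal_smul_jBar] at h
  exact h

theorem ord_galPlace_jBarN (p : ℕ) [NeZero p] (σ : GalQ) (P : PlaceBar p) :
    (galPlace p σ P).ord (jBarN p) = P.ord (jBarN p) := by
  have h := SemilinearAut.ord_smul (arithmeticGalois (modularFunctionFieldFull p) σ) P (jBarN p)
  rw [gal_smul_jBarN] at h
  exact h

/-- A cusp pair is unique. -/
theorem isCuspPair_unique {p : ℕ} [NeZero p] (hp : p.Prime) {Pinf P0 Pinf' P0' : PlaceBar p}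
    (h : IsCuspPair p Pinf P0) (h' : IsCuspPair p Pinf' P0') : Pinf' = Pinf ∧ P0' = P0 := by
  have hp2 : (2 : ℤ) ≤ (p : ℤ) := by exact_mod_cast hp.two_le
  constructor
  · rcases pole_eq_of_isCuspPair hp h Pinf' (by rw [h'.ord_j_inf]; omega) with e | e
    · exact e
    · exfalso
      have h1 := h'.ord_j_inf
      rw [e, h.ord_j_zero] at h1
      omega
  · rcases pole_eq_of_isCuspPair hp h P0' (by rw [h'.ord_j_zero]; omega) with e | e
    · exfalso
      have h1 := h'.ord_j_zero
      rw [e, h.ord_j_inf] at h1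
      omega
    · exact e

/-- The Galois conjugate of a cusp pair is a cusp pair. -/
theorem isCuspPair_galPlace {p : ℕ} [NeZero p] {Pinf P0 : PlaceBar p}
    (h : IsCuspPair p Pinf P0) (σ : GalQ) :
    IsCuspPair p (galPlace p σ Pinf) (galPlace p σ P0) where
  ord_j_inf := by rw [ord_galPlace_jBar, h.ord_j_inf]
  ord_jN_inf := by rw [ord_galPlace_jBarN, h.ord_jN_inf]
  ord_j_zero := by rw [ord_galPlace_jBar, h.ord_j_zero]
  ord_jN_zero := by rw [ord_galPlace_jBarN, h.ord_jN_zero]
  deg_inf := by
    rw [← h.deg_inf]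
    exact SemilinearAut.deg_smul _ _
  deg_zero := by
    rw [← h.deg_zero]
    exact SemilinearAut.deg_smul _ _

/-- **CUSP-gal**: the cusps of `X₀(p)` are rational. -/
theorem stmt_cuspGal (p : ℕ) [NeZero p] (hp : p.Prime) : Stmt_cuspGal p :=
  fun _ _ h σ => isCuspPair_unique hp h (isCuspPair_galPlace h σ)

end Fermat.Agent.S15.H30
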