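import Fermat.Agent.S15.H30_CuspUnitL
import Fermat.Agent.S15.H30_CuspGal
import Fermat.Agent.S15.H22_CuspEx
import Fermat.Agent.RED.H73_GAModular
import Fermat.Agent.RED.H73_GADegMod

/-!
# S15, package CUSP-tors (helper30): `(p - 1) [P∞ - P0] = 0` on `X₀(p)`

The modular unit `u = Δ(z)/Δ(pz)` lies in `F_p = ℚ̄(j, j_p)` (Lagrange with exchanged roles,
helper73), `u` and `u⁻¹` are integral over `ℚ̄[j]` (the norm of `u` is a constant), so `u` has
neither zeros nor poles outside the poles of `j`, i.e. outside `{P∞, P0}`.  Its `q`-order is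
`-(p - 1)`, and principal divisors have degree zero: `div u = (p - 1)(P0 - P∞)`.
-/

set_option autoImplicit false
set_option synthInstance.maxHeartbeats 400000

noncomputable section

open HahnSeries IntermediateField AlgebraicCurve ModularCurve Polynomial

namespace Fermat.Agent.S15.H30

/-! ### Integrality and places -/

section General

variable {K F E : Type*} [Field K] [Field F] [Algebra K F] [CommRing E] [Algebra K E]

/-- The valuation ring of a place, as a `K`-subalgebra. -/
def placeSubalgebra (P : Place K F) : Subalgebra K F :=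
  { P.toValuationSubring.toSubring with algebraMap_mem' := P.algebraMap_mem' }

theorem mem_placeSubalgebra (P : Place K F) (x : F) :
    x ∈ placeSubalgebra P ↔ x ∈ P.toValuationSubring := Iff.rfl

/-- If `Ψ y` is integral over `K[Ψ j]` for an embedding `Ψ` and `j` is regular at `P`, then `y`
is regular at `P`. -/
theorem mem_of_isIntegral_map (Ψ : F →ₐ[K] E) (hΨ : Function.Injective Ψ) (P : Place K F) (j : F)
    (hj : j ∈ P.toValuationSubring) (y : F)
    (hy : IsIntegral (Algebra.adjoin K ({Ψ j} : Set E)) (Ψ y)) : y ∈ P.toValuationSubring := by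
  obtain ⟨G', hG'm, hG'r⟩ := hy
  let φ : P.toValuationSubring →+* E :=
    (Ψ : F →+* E).comp (algebraMap P.toValuationSubring F)
  have hle : Algebra.adjoin K ({Ψ j} : Set E) ≤ (placeSubalgebra P).map Ψ :=
    Algebra.adjoin_le (by
      rintro x hx
      rw [Set.mem_singleton_iff] at hx
      subst hx
      exact ⟨j, hj, rfl⟩)
  have hl : G'.map (algebraMap (Algebra.adjoin K ({Ψ j} : Set E)) E) ∈ Polynomial.lifts φ := by
    rw [Polynomial.lifts_iff_coeff_lifts]
    intro n
    rw [Polynomial.coeff_map]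
    obtain ⟨x, hx, hxe⟩ := hle (G'.coeff n).2
    exact ⟨⟨x, hx⟩, hxe⟩
  obtain ⟨G, hGmap, -, hGm⟩ := Polynomial.lifts_and_natDegree_eq_and_monic hl (hG'm.map _)
  have hint : IsIntegral P.toValuationSubring y := by
    refine ⟨G, hGm, ?_⟩
    apply hΨ
    rw [map_zero]
    have h1 := Polynomial.hom_eval₂ G (algebraMap P.toValuationSubring F) (Ψ : F →+* E) y
    have h2 : Polynomial.eval₂ φ (Ψ y) G
        = Polynomial.eval₂ (algebraMap (Algebra.adjoin K ({Ψ j} : Set E)) E) (Ψ y) G' := by
      rw [← Polynomial.eval_map, hGmap, Polynomial.eval_map]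
    exact h1.trans (h2.trans hG'r)
  obtain ⟨z, hz⟩ := IsIntegrallyClosed.isIntegral_iff.mp hint
  rw [← hz]
  exact z.2

end General

/-! ### The modular unit in `F_p` -/

open Fermat.Agent.S24 (Kbar FN jF modClosure asm_finiteDimensional asm_transcendental_jF)
open Fermat.Agent.RED.H73 (CADataL JL conjHyp_of_caDataL ConjHyp coreField coreField_le_map_fullC
  laurentBaseChange_full_eq)
open Fermat.Agent.S28.H90 (chi chi_eval_self)

variable (p : ℕ) [NeZero p]

/-- `q ↦ q^p` on `F_p`. -/
def psi : FN p →ₐ[Kbar] LaurentSeries Kbar :=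
  (qExpandAlgHomC Kbar p).comp (modularFunctionFieldBar p).val

theorem psi_apply (x : FN p) : psi p x = qExpand Kbar p (x : LaurentSeries Kbar) := rfl

theorem psi_injective : Function.Injective (psi p) := fun _ _ h =>
  Subtype.ext (qExpand_injective p h)

theorem psi_jF : psi p (jF p) = JL Kbar p := by
  rw [psi_apply]
  show qExpand Kbar p (coeffEmb Kbar jq) = qExpand Kbar p (jqModC Kbar)
  have h := Fermat.Agent.RED.H73.coeffEmb_qExpand_jq (L := Kbar) 1
  rw [qExpand_one_apply, qExpand_one_apply] at h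
  rw [h]

section Data

variable {p}
variable (D : CADataL Kbar p)

theorem isIntegral_U (q : D.Q) :
    IsIntegral ↥(Algebra.adjoin Kbar ({JL Kbar p} : Set (LaurentSeries Kbar))) (D.U q) := by
  have h := conjHyp_of_caDataL D
  refine ⟨h.chiR, h.monic_chiR, ?_⟩
  rw [← aeval_def, aeval_def, ← eval_map, h.map_chiR]
  exact chi_eval_self D.U q

theorem isIntegral_U_inv {c : Kbar} (hc : c ≠ 0) (hprod : ∏ q, D.U q = HahnSeries.C c) :
    IsIntegral ↥(Algebra.adjoin Kbar ({JL Kbar p} : Set (LaurentSeries Kbar)))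
      (D.U D.q₀)⁻¹ := by
  classical
  have hU0 : D.U D.q₀ ≠ 0 := D.U_ne D.q₀
  have hsplit : D.U D.q₀ * ∏ q ∈ Finset.univ.erase D.q₀, D.U q = HahnSeries.C c := by
    rw [Finset.mul_prod_erase Finset.univ D.U (Finset.mem_univ D.q₀), hprod]
  have hinv : (D.U D.q₀)⁻¹
      = algebraMap Kbar (LaurentSeries Kbar) c⁻¹ * ∏ q ∈ Finset.univ.erase D.q₀, D.U q := by
    have hC : (HahnSeries.C c : LaurentSeries Kbar) ≠ 0 := by
      rw [Ne, map_eq_zero]
      exact hc
    rw [LaurentSeries.algebraMap_apply, map_inv₀, inv_mul_eq_div, eq_div_iff hC, ← hsplit,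
      ← mul_assoc, inv_mul_cancel₀ hU0, one_mul]
  rw [hinv]
  refine IsIntegral.mul ?_ (IsIntegral.prod _ fun q _ => isIntegral_U D q)
  have : algebraMap Kbar (LaurentSeries Kbar) c⁻¹
      = algebraMap ↥(Algebra.adjoin Kbar ({JL Kbar p} : Set (LaurentSeries Kbar)))
          (LaurentSeries Kbar) (algebraMap Kbar _ c⁻¹) := rfl
  rw [this]
  exact isIntegral_algebraMap

end Data

/-- **The modular unit**: an element of `F_p` of `q`-order `-(p - 1)` without zeros or poles
outside the poles of `j`. -/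
theorem exists_unit (hp : p.Prime) :
    ∃ u : FN p, u ≠ 0 ∧ (u : LaurentSeries Kbar).order = -((p : ℤ) - 1) ∧
      ∀ P : Place Kbar (FN p), 0 ≤ P.ord (jF p) → P.ord u = 0 := by
  obtain ⟨D, hDD, c, hc, hprod⟩ := exists_unitDataBar p hp
  have hp0 : (0 : ℤ) < (p : ℤ) := by exact_mod_cast hp.pos
  -- `u ∈ F_p`
  have hU : D.U D.q₀ ∈ (modularFunctionFieldFullC Kbar p).map (qExpandAlgHomC Kbar p) :=
    coreField_le_map_fullC D (IntermediateField.subset_adjoin _ _ (by simp))
  obtain ⟨u₀, hu₀mem, hu₀⟩ := hU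
  have hu₀mem' : u₀ ∈ modularFunctionFieldBar p := by
    show u₀ ∈ laurentBaseChange Kbar (modularFunctionFieldFull p)
    rw [laurentBaseChange_full_eq]
    exact hu₀mem
  have hu₀' : qExpand Kbar p u₀ = D.U D.q₀ := hu₀
  let u : FN p := ⟨u₀, hu₀mem'⟩
  have hpsi : psi p u = D.U D.q₀ := hu₀'
  have hu0 : u ≠ 0 := by
    intro h
    apply D.U_ne D.q₀
    rw [← hpsi, h, map_zero]
  have hu₀0 : u₀ ≠ 0 := fun h => hu0 (Subtype.ext h)
  refine ⟨u, hu0, ?_, ?_⟩
  · -- the order
    have h1 := Fermat.Agent.S15.H22.order_qExpand p u₀ hu₀0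
    rw [hu₀', D.U_order₀, hDD, Nat.cast_sub hp.one_le] at h1
    have h2 : (p : ℤ) * (u₀.order + ((p : ℤ) - 1)) = 0 := by
      push_cast at h1
      linear_combination -h1
    rcases mul_eq_zero.mp h2 with h3 | h3
    · omega
    · show u₀.order = _
      omega
  · intro P hP
    have hj : jF p ∈ P.toValuationSubring := Fermat.Agent.S24.H85.mem_of_ord_nonneg P hP
    have h1 : u ∈ P.toValuationSubring := by
      refine mem_of_isIntegral_map (psi p) (psi_injective p) P (jF p) hj u ?_
      rw [psi_jF, hpsi]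
      exact isIntegral_U D D.q₀
    have h2 : u⁻¹ ∈ P.toValuationSubring := by
      refine mem_of_isIntegral_map (psi p) (psi_injective p) P (jF p) hj u⁻¹ ?_
      rw [psi_jF, map_inv₀, hpsi]
      exact isIntegral_U_inv D hc hprod
    have h3 := Fermat.Agent.S24.H85.ord_nonneg_of_mem P h1
    have h4 := Fermat.Agent.S24.H85.ord_nonneg_of_mem P h2
    rw [Place.ord_inv] at h4
    omega

/-- **CUSP-tors**: `(p - 1) [P∞ - P0] = 0`. -/
theorem stmt_cuspTors (hp : p.Prime) : Stmt_cuspTors p := by
  classical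
  intro Pinf P0 h
  obtain ⟨u, hu0, hord, hreg⟩ := exists_unit p hp
  obtain ⟨e1, e2⟩ := isCuspPair_unique hp h (Fermat.Agent.S15.H22.isCuspPair p)
  have hinf : Pinf.ord u = -((p : ℤ) - 1) := by
    rw [← e1, Fermat.Agent.RED.KD.H22.ord_cuspInf p u hu0, hord]
  have hne : Pinf ≠ P0 := isCuspPair_ne hp.two_le h
  set m := P0.ord u with hm
  let Dv : Divisor Kbar (FN p) := Finsupp.single Pinf (-((p : ℤ) - 1)) + Finsupp.single P0 m
  have hDv : ∀ v : Place Kbar (FN p), Dv v = v.ord u := by
    intro v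
    show (Finsupp.single Pinf (-((p : ℤ) - 1)) + Finsupp.single P0 m) v = v.ord u
    rw [Finsupp.add_apply, Finsupp.single_apply, Finsupp.single_apply]
    by_cases h1 : Pinf = v
    · subst h1
      rw [if_pos rfl, if_neg hne.symm, add_zero, hinf]
    · by_cases h2 : P0 = v
      · subst h2
        rw [if_neg h1, if_pos rfl, zero_add]
      · rw [if_neg h1, if_neg h2, add_zero]
        have hv : 0 ≤ v.ord (jF p) := by
          by_contra hneg
          rw [not_le] at hneg
          rcases pole_eq_of_isCuspPair hp h v hneg with e | e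
          · exact h1 e.symm
          · exact h2 e.symm
        exact (hreg v hv).symm
  have hfd := asm_finiteDimensional (modClosure p)
  have hdeg := (Fermat.Agent.S24.ff_degree_principal (jF p)
    (asm_transcendental_jF (modClosure p)) u hu0).2 Dv hDv
  have hm' : m = (p : ℤ) - 1 := by
    have : Divisor.degree Dv = -((p : ℤ) - 1) * (Pinf.deg : ℤ) + m * (P0.deg : ℤ) := by
      show Divisor.degree (Finsupp.single Pinf (-((p : ℤ) - 1)) + Finsupp.single P0 m) = _
      rw [map_add, Divisor.degree_single, Divisor.degree_single]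
    rw [this, h.deg_inf, h.deg_zero] at hdeg
    push_cast at hdeg
    linarith
  -- conclude in `Pic⁰`
  unfold ptClass Pic0.mk
  rw [← QuotientAddGroup.mk_nsmul, QuotientAddGroup.eq_zero_iff, AddSubgroup.mem_addSubgroupOf]
  refine ⟨u⁻¹, inv_ne_zero hu0, fun v => ?_⟩
  rw [Place.ord_inv, ← hDv v]
  show ((p - 1) • (Finsupp.single Pinf (1 : ℤ) - Finsupp.single P0 (1 : ℤ)) : Divisor Kbar (FN p)) v
    = -((Finsupp.single Pinf (-((p : ℤ) - 1)) + Finsupp.single P0 m) v)
  rw [hm', Finsupp.smul_apply, Finsupp.sub_apply, Finsupp.add_apply, Finsupp.single_apply,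
    Finsupp.single_apply, Finsupp.single_apply, Finsupp.single_apply, nsmul_eq_mul,
    Nat.cast_sub hp.one_le]
  split_ifs <;> push_cast <;> ring

end Fermat.Agent.S15.H30
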