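import Fermat.Agent.S15.H30_CuspGal
import Fermat.Agent.S15.H22_CuspEx
import Fermat.Agent.Lib.HeckeComm.H2_CommOf
import Fermat.Agent.RED.ES.H95_NormAlpha
import Fermat.Agent.RED.ES.H95_ES2

/-!
# S15, package CUSP-eis at the good primes (helper26): `T_ℓ [P∞ - P0] = (1 + ℓ) [P∞ - P0]`, `ℓ ≠ p`

Divisor level.  `T_ℓ = α_* β^*` on `Div(F_p)`.
* `T_ℓ (div f) = div (n_ℓ f)`, `n_ℓ f = Norm_α (β f)` (helper2), and the `q`-expansion of `n_ℓ f`
  (helper95's norm series) has order `(ℓ + 1) ord_q f`.  By helper2's principle (additive maps on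
  divisors are determined by the principal divisors): `(T_ℓ D)(P∞) = (ℓ + 1) D(P∞)` for ALL `D`.
* `T_ℓ v` is effective of degree `ℓ + 1` (helper95: `[F_{pℓ} : β F_p] = ℓ + 1`), so
  `T_ℓ P∞ = (ℓ + 1) P∞`.
* `T_ℓ P0` is supported on the poles of `j` (`j(q^ℓ)` is integral over `ℚ̄[j]`), i.e. on
  `{P∞, P0}`, and its coefficient at `P∞` is `0`: `T_ℓ P0 = (ℓ + 1) P0`.
-/

set_option autoImplicit false
set_option synthInstance.maxHeartbeats 400000
set_option linter.style.haveILetI false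
set_option linter.unusedSectionVars false
set_option linter.unusedVariables false

noncomputable section

open HahnSeries IntermediateField AlgebraicCurve ModularCurve

namespace Fermat.Agent.S15.H26

open Fermat.Agent.S24 (Kbar FN jF jdF modClosure asm_finrank asm_finiteDimensional
  asm_transcendental_jF h72_zerosStmt)
open Fermat.Agent.RED.KD.H22 (cuspInf cuspZero ord_cuspInf)
open Fermat.Agent.RED (H10.rot)

/-! ## Orders of Laurent series -/

theorem order_rot (u : Kbarˣ) (x : LaurentSeries Kbar) :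
    (Fermat.Agent.RED.H10.rot u x).order = x.order := by
  rcases eq_or_ne x 0 with rfl | hx
  · rw [map_zero]
  have hrx : Fermat.Agent.RED.H10.rot u x ≠ 0 := by
    intro h0
    apply hx
    ext n
    have := congrArg (fun y : LaurentSeries Kbar => y.coeff n) h0
    simp only [Fermat.Agent.RED.H10.rot_coeff, HahnSeries.coeff_zero] at this
    rcases mul_eq_zero.mp this with h | h
    · exact absurd h (Units.ne_zero _)
    · rw [h]; rfl
  apply le_antisymm
  · apply HahnSeries.order_le_of_coeff_ne_zero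
    rw [Fermat.Agent.RED.H10.rot_coeff]
    exact mul_ne_zero (Units.ne_zero _) (fun h => hx (HahnSeries.coeff_order_eq_zero.mp h))
  · apply HahnSeries.order_le_of_coeff_ne_zero
    intro h
    apply hrx
    apply HahnSeries.coeff_order_eq_zero.mp
    rw [Fermat.Agent.RED.H10.rot_coeff, h, mul_zero]

theorem rot_ne_zero (u : Kbarˣ) {x : LaurentSeries Kbar} (hx : x ≠ 0) :
    Fermat.Agent.RED.H10.rot u x ≠ 0 := by
  intro h0
  apply hx
  ext n
  have := congrArg (fun y : LaurentSeries Kbar => y.coeff n) h0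
  simp only [Fermat.Agent.RED.H10.rot_coeff, HahnSeries.coeff_zero] at this
  rcases mul_eq_zero.mp this with h | h
  · exact absurd h (Units.ne_zero _)
  · rw [h]; rfl

theorem order_prod_rot (ζ : Kbarˣ) {x : LaurentSeries Kbar} (hx : x ≠ 0) (n : ℕ) :
    (∏ b ∈ Finset.range n, Fermat.Agent.RED.H10.rot (ζ ^ b) x) ≠ 0 ∧
    (∏ b ∈ Finset.range n, Fermat.Agent.RED.H10.rot (ζ ^ b) x).order = (n : ℤ) * x.order := by
  induction n with
  | zero => simp
  | succ n ih =>
    rw [Finset.prod_range_succ]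
    refine ⟨mul_ne_zero ih.1 (rot_ne_zero _ hx), ?_⟩
    rw [HahnSeries.order_mul ih.1 (rot_ne_zero _ hx), ih.2, order_rot]
    push_cast
    ring

/-- The `q`-order of the norm function `n_ℓ f` is `(ℓ + 1) ord_q f`. -/
theorem order_heckeNormFn (N ℓ : ℕ) [NeZero N] [NeZero ℓ] (hℓ : ℓ.Prime) (hN : ¬ ℓ ∣ N)
    (f : FN N) (hf : f ≠ 0) :
    ((Fermat.Agent.GTor.H2.heckeNormFn Kbar N ℓ f : FN N) : LaurentSeries Kbar).order
      = ((ℓ : ℤ) + 1) * (f : LaurentSeries Kbar).order := by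
  obtain ⟨ζ, hζ⟩ : ∃ ζ : Kbarˣ, IsPrimitiveRoot ζ ℓ := by
    obtain ⟨z, hz⟩ := HasEnoughRootsOfUnity.exists_primitiveRoot Kbar ℓ
    have hz0 : z ≠ 0 := hz.ne_zero (NeZero.ne ℓ)
    exact ⟨Units.mk0 z hz0, IsPrimitiveRoot.coe_units_iff.mp (by simpa using hz)⟩
  have hfin : FiniteAlong Kbar (heckeAlphaBar Kbar N ℓ) :=
    (Fermat.Agent.RED.H51.stmt_HKA N ℓ).snd.snd.snd.fst
  have hg0 : Fermat.Agent.GTor.H2.heckeNormFn Kbar N ℓ f ≠ 0 :=
    Fermat.Agent.GTor.H2.heckeNormFn_ne_zero Kbar N ℓ hfin hf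
  have hg0' : ((Fermat.Agent.GTor.H2.heckeNormFn Kbar N ℓ f : FN N) : LaurentSeries Kbar) ≠ 0 :=
    fun h => hg0 (Subtype.ext h)
  have hf' : (f : LaurentSeries Kbar) ≠ 0 := fun h => hf (Subtype.ext h)
  have key := Fermat.Agent.RED.H95.stmt_NormSeries N ℓ hℓ hN ζ hζ f
  have hk : qExpand Kbar ℓ
      ((Fermat.Agent.GTor.H2.heckeNormFn Kbar N ℓ f : FN N) : LaurentSeries Kbar)
      = qExpand Kbar ℓ (qExpand Kbar ℓ (f : LaurentSeries Kbar))
        * ∏ b ∈ Finset.range ℓ, Fermat.Agent.RED.H10.rot (ζ ^ b) (f : LaurentSeries Kbar) := key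
  have h1 := congrArg HahnSeries.order hk
  have hq1 : qExpand Kbar ℓ (f : LaurentSeries Kbar) ≠ 0 :=
    fun h0 => hf' (qExpand_injective ℓ (by rw [h0, map_zero]))
  have hq2 : qExpand Kbar ℓ (qExpand Kbar ℓ (f : LaurentSeries Kbar)) ≠ 0 :=
    fun h0 => hq1 (qExpand_injective ℓ (by rw [h0, map_zero]))
  obtain ⟨hp0, hpord⟩ := order_prod_rot ζ hf' ℓ
  rw [Fermat.Agent.S15.H22.order_qExpand ℓ _ hg0', HahnSeries.order_mul hq2 hp0,
    Fermat.Agent.S15.H22.order_qExpand ℓ _ hq1, Fermat.Agent.S15.H22.order_qExpand ℓ _ hf',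
    hpord] at h1
  have hℓ0 : (0 : ℤ) < ℓ := by exact_mod_cast hℓ.pos
  have : (ℓ : ℤ) * ((Fermat.Agent.GTor.H2.heckeNormFn Kbar N ℓ f : FN N) :
      LaurentSeries Kbar).order = (ℓ : ℤ) * (((ℓ : ℤ) + 1) * (f : LaurentSeries Kbar).order) := by
    rw [h1]; ring
  exact mul_left_cancel₀ hℓ0.ne' this

/-! ## Coefficient projections -/

section Coeff

variable {K F : Type*} [Field K] [Field F] [Algebra K F]

/-- `D ↦ n D(P) [P]`. -/
def coeffAtMul (P : Place K F) (n : ℤ) : Divisor K F →+ Divisor K F :=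
  (Finsupp.singleAddHom P).comp ((AddMonoidHom.mulLeft n).comp (Finsupp.applyAddHom P))

theorem coeffAtMul_apply (P : Place K F) (n : ℤ) (D : Divisor K F) :
    coeffAtMul P n D = Finsupp.single P (n * D P) := rfl

theorem finPre_coeffAtMul (P : Place K F) (n : ℤ) :
    Fermat.Agent.Lib.HeckeComm.FinPre (coeffAtMul P n) := by
  intro w
  refine (Set.finite_singleton P).subset fun v hv => ?_
  rw [Set.mem_ofPred_eq, coeffAtMul_apply] at hv
  rw [Set.mem_singleton_iff]
  by_contra hne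
  apply hv
  have h0 : (Finsupp.single v (1 : ℤ)) P = 0 := Finsupp.single_eq_of_ne (fun h => hne h.symm)
  rw [h0, mul_zero, Finsupp.single_zero]
  rfl

end Coeff

/-! ## Correspondences on places -/

section Corr

variable {K F F' : Type*} [Field K] [Field F] [Field F'] [Algebra K F] [Algebra K F']
  [HasPrincipalDivisors K F']
  (φ ψ : F →ₐ[K] F') (hφ : φ.toRingHom.IsIntegral) (hψ : ψ.toRingHom.IsIntegral)

theorem correspondence_single_nonneg (v u : Place K F) :
    0 ≤ Divisor.correspondence φ ψ hφ hψ (Finsupp.single v 1) u := by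
  classical
  rw [Divisor.correspondence_apply, Divisor.pullbackAlong_single, map_sum,
    Finsupp.finsetSum_apply]
  refine Finset.sum_nonneg fun W _ => ?_
  rw [Divisor.pushforwardAlong_single, Finsupp.single_apply]
  split_ifs
  · positivity
  · exact le_rfl

theorem correspondence_single_support (v u : Place K F)
    (hu : Divisor.correspondence φ ψ hφ hψ (Finsupp.single v 1) u ≠ 0) :
    ∃ W : Place K F', W.restrictAlong φ hφ = v ∧ W.restrictAlong ψ hψ = u := by
  classical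
  rw [Divisor.correspondence_apply, Divisor.pullbackAlong_single, map_sum,
    Finsupp.finsetSum_apply] at hu
  obtain ⟨W, hW, hne⟩ := Finset.exists_ne_zero_of_sum_ne_zero hu
  refine ⟨W, Place.mem_fiberAlong.mp hW, ?_⟩
  rw [Divisor.pushforwardAlong_single, Finsupp.single_apply] at hne
  by_contra h
  exact hne (if_neg h)

end Corr

/-! ## The coefficient of `T_ℓ D` at `P∞` -/

section Good

variable (N ℓ : ℕ) [NeZero N] [NeZero ℓ]
  (hα : HeckeAlphaBarIntegral Kbar N ℓ) (hβ : HeckeBetaBarIntegral Kbar N ℓ)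
  [HasPrincipalDivisors Kbar (laurentBaseChange Kbar (modularFunctionFieldFull (N * ℓ)))]

/-- `(T_ℓ D)(P∞) = (ℓ + 1) D(P∞)` for every divisor `D` of `X₀(N)`, `ℓ ∤ N`. -/
theorem heckeDivBar_apply_cuspInf (hℓ : ℓ.Prime) (hN : ¬ ℓ ∣ N)
    (hfin : FiniteAlong Kbar (heckeAlphaBar Kbar N ℓ))
    (hNF : NormFormulaAlong Kbar (heckeAlphaBar Kbar N ℓ) hfin)
    (D : Divisor Kbar (FN N)) :
    heckeDivBar (L := Kbar) hα hβ D (cuspInf N) = ((ℓ : ℤ) + 1) * D (cuspInf N) := by
  haveI := Fermat.Agent.Lib.HeckeComm.hasPrincipalDivisors_FN N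
  have key : (coeffAtMul (cuspInf N) 1).comp (heckeDivBar (L := Kbar) hα hβ)
      = coeffAtMul (cuspInf N) ((ℓ : ℤ) + 1) := by
    refine Fermat.Agent.Lib.HeckeComm.eq_of_eq_on_principal _ _
      (Fermat.Agent.Lib.HeckeComm.FinPre.comp (finPre_coeffAtMul _ _)
        (Fermat.Agent.Lib.HeckeComm.finPre_heckeDivBar N ℓ hα hβ))
      (finPre_coeffAtMul _ _) ?_
    intro f D hf hD
    rw [AddMonoidHom.comp_apply, coeffAtMul_apply, coeffAtMul_apply, one_mul,
      Fermat.Agent.Lib.HeckeComm.heckeDivBar_ord N ℓ hα hβ hfin hNF D hf hD, hD,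
      ord_cuspInf N _ (Fermat.Agent.GTor.H2.heckeNormFn_ne_zero Kbar N ℓ hfin hf),
      ord_cuspInf N f hf, order_heckeNormFn N ℓ hℓ hN f hf]
  have h := congrArg (fun Φ : Divisor Kbar (FN N) →+ Divisor Kbar (FN N) => Φ D (cuspInf N)) key
  simp only [AddMonoidHom.comp_apply, coeffAtMul_apply, one_mul, Finsupp.single_eq_same] at h
  exact h

/-- `T_ℓ` of a place is an effective divisor. -/
theorem heckeDivBar_single_nonneg (v u : Place Kbar (FN N)) :
    0 ≤ heckeDivBar (L := Kbar) hα hβ (Finsupp.single v 1) u :=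
  correspondence_single_nonneg (heckeBetaBar Kbar N ℓ) (heckeAlphaBar Kbar N ℓ) hβ hα v u

/-- The support of `T_ℓ v`: the places `α_* W`, `W` over `v` along `β`. -/
theorem heckeDivBar_single_support (v u : Place Kbar (FN N))
    (hu : heckeDivBar (L := Kbar) hα hβ (Finsupp.single v 1) u ≠ 0) :
    ∃ W : Place Kbar (laurentBaseChange Kbar (modularFunctionFieldFull (N * ℓ))),
      W.restrictAlong (heckeBetaBar Kbar N ℓ) hβ = v ∧
      W.restrictAlong (heckeAlphaBar Kbar N ℓ) hα = u :=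
  correspondence_single_support (heckeBetaBar Kbar N ℓ) (heckeAlphaBar Kbar N ℓ) hβ hα v u hu

end Good

/-! ## `j(q^d)` is integral over `ℚ̄[j]`: the poles of `j(q^d)` are poles of `j` -/

open Fermat.Agent.S24 in
theorem isIntegral_jdF (N : ℕ) [NeZero N] (d : ℕ) [NeZero d] (hd : d ∣ N) :
    IsIntegral (Polynomial Kbar) (jdF N d hd) := by
  haveI : Algebra.IsInvariant (Polynomial Kbar) (AT N) (G0 N) := (isGaloisGroup_G0 N).isInvariant
  haveI : Algebra.IsIntegral (Polynomial Kbar) (AT N) :=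
    Algebra.IsInvariant.isIntegral (Polynomial Kbar) (AT N) (G0 N)
  obtain ⟨P, hP, hPx⟩ := Algebra.IsIntegral.isIntegral (R := Polynomial Kbar) (toAT N (jdA N d))
  refine ⟨P, hP, ?_⟩
  apply (phi N).toRingHom.injective
  have hcomp : ((phi N).toRingHom).comp (algebraMap (Polynomial Kbar) (FN N))
      = (algebraMap (AT N) (LN N)).comp (algebraMap (Polynomial Kbar) (AT N)) := by
    refine Polynomial.ringHom_ext (fun q => ?_) ?_
    · show phi N (algebraMap (Polynomial Kbar) (FN N) (Polynomial.C q)) = _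
      rw [algebraMap_poly_FN, phi_aeval_jF]
      rfl
    · show phi N (algebraMap (Polynomial Kbar) (FN N) Polynomial.X) = _
      rw [algebraMap_poly_FN, phi_aeval_jF]
      rfl
  rw [map_zero, Polynomial.hom_eval₂, hcomp]
  show Polynomial.eval₂ _ (phi N (jdF N d hd)) P = 0
  rw [phi_jdF, ← Polynomial.hom_eval₂, hPx, map_zero]

open Fermat.Agent.S24 in
/-- A place of `X₀(N)` which is not a pole of `j` is not a pole of `j(q^d)`. -/
theorem ord_jdF_nonneg (N : ℕ) [NeZero N] (d : ℕ) [NeZero d] (hd : d ∣ N)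
    (W : Place Kbar (FN N)) (h : 0 ≤ W.ord (jF N)) : 0 ≤ W.ord (jdF N d hd) := by
  apply Fermat.Agent.S24.H85.ord_nonneg_of_mem
  have hj : jF N ∈ W.toValuationSubring := Fermat.Agent.S24.H85.mem_of_ord_nonneg W h
  refine h95_mem_valuationSubring_of_isIntegral (A := Polynomial Kbar) W.toValuationSubring ?_
    (isIntegral_jdF N d hd)
  intro a
  rw [algebraMap_poly_FN]
  induction a using Polynomial.induction_on' with
  | add p q hp hq => rw [map_add]; exact W.toValuationSubring.add_mem _ _ hp hq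
  | monomial n c =>
    rw [← Polynomial.C_mul_X_pow_eq_monomial, map_mul, map_pow, Polynomial.aeval_C,
      Polynomial.aeval_X]
    exact W.toValuationSubring.mul_mem _ _ (W.algebraMap_mem' c)
      (W.toValuationSubring.pow_mem hj n)

/-! ## Effective divisors -/

section Along

variable {K F F' : Type*} [Field K] [Field F] [Field F'] [Algebra K F] [Algebra K F']

theorem ramificationIndexAlong_pos (φ : F →ₐ[K] F') (hφ : φ.toRingHom.IsIntegral)
    (w : Place K F') : 0 < Place.ramificationIndexAlong φ w := by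
  letI := algebraAlong φ
  haveI := isScalarTower_along φ
  haveI := isIntegral_along φ hφ
  exact w.ramificationIndex_pos (F := F)

end Along

section Effective

variable {K F : Type*} [Field K] [Field F] [Algebra K F]

/-- An effective divisor whose coefficient at `P` is its degree is a multiple of `P`. -/
theorem eq_single_of_effective (hdeg : ∀ v : Place K F, v.deg = 1) (E : Divisor K F)
    (hE : ∀ u, 0 ≤ E u) (P : Place K F) (hP : E P = Divisor.degree E) :
    E = Finsupp.single P (E P) := by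
  classical
  rw [Fermat.Agent.S24.H59.degree_eq_sum_of_deg_eq_one hdeg E] at hP
  have hsub : E.support ⊆ insert P E.support := Finset.subset_insert _ _
  have h1 : ∑ v ∈ E.support, E v = ∑ v ∈ insert P E.support, E v :=
    Finset.sum_subset hsub (fun v _ hv => Finsupp.notMem_support_iff.mp hv)
  rw [h1, ← Finset.add_sum_erase _ _ (Finset.mem_insert_self P _)] at hP
  have h2 : ∑ v ∈ (insert P E.support).erase P, E v = 0 := by linarith
  have h3 := (Finset.sum_eq_zero_iff_of_nonneg (fun v _ => hE v)).mp h2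
  apply Finsupp.ext
  intro u
  by_cases hu : u = P
  · rw [hu, Finsupp.single_eq_same]
  · rw [Finsupp.single_eq_of_ne hu]
    by_cases hus : u ∈ E.support
    · exact h3 u (Finset.mem_erase.mpr ⟨hu, Finset.mem_insert_of_mem hus⟩)
    · exact Finsupp.notMem_support_iff.mp hus

/-- A divisor supported on `{P, Q}` with coefficient `0` at `P` is `(deg E) Q`. -/
theorem eq_single_of_support (hdeg : ∀ v : Place K F, v.deg = 1) (E : Divisor K F)
    (P Q : Place K F) (hPQ : ∀ u, E u ≠ 0 → u = P ∨ u = Q) (hP : E P = 0) :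
    E = Finsupp.single Q (Divisor.degree E) := by
  classical
  have h : E = Finsupp.single Q (E Q) := by
    apply Finsupp.ext
    intro u
    by_cases hu : u = Q
    · rw [hu, Finsupp.single_eq_same]
    · rw [Finsupp.single_eq_of_ne hu]
      by_contra h0
      rcases hPQ u h0 with e | e
      · exact h0 (e ▸ hP)
      · exact hu e
  have hd : Divisor.degree E = E Q := by
    conv_lhs => rw [h]
    rw [Divisor.degree_single, hdeg Q, Nat.cast_one, mul_one]
  rw [hd]
  exact h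

end Effective

/-! ## `T_ℓ P∞ = (ℓ + 1) P∞`, `T_ℓ P0 = (ℓ + 1) P0` -/

section Main

variable (p ℓ : ℕ) [NeZero p] [NeZero ℓ]
  (hα : HeckeAlphaBarIntegral Kbar p ℓ) (hβ : HeckeBetaBarIntegral Kbar p ℓ)
  [HasPrincipalDivisors Kbar (laurentBaseChange Kbar (modularFunctionFieldFull (p * ℓ)))]

theorem alpha_jF : heckeAlphaBar Kbar p ℓ (jF p) = jF (p * ℓ) := Subtype.ext rfl

theorem beta_jF : heckeBetaBar Kbar p ℓ (jF p) = jdF (p * ℓ) ℓ (dvd_mul_left ℓ p) := by
  apply Subtype.ext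
  rw [coe_heckeBetaBar, Fermat.Agent.S15.H22.jdF_coe]
  rfl

/-- A place of `X₀(pℓ)` over a pole of `j` along `β` lies over a pole of `j` along `α`. -/
theorem pole_alpha_of_pole_beta
    (W : Place Kbar (laurentBaseChange Kbar (modularFunctionFieldFull (p * ℓ))))
    (h : (W.restrictAlong (heckeBetaBar Kbar p ℓ) hβ).ord (jF p) < 0) :
    (W.restrictAlong (heckeAlphaBar Kbar p ℓ) hα).ord (jF p) < 0 := by
  by_contra hcon
  rw [not_lt] at hcon
  have h1 := Place.ord_restrictAlong (heckeAlphaBar Kbar p ℓ) hα W (jF p)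
  have h2 := Place.ord_restrictAlong (heckeBetaBar Kbar p ℓ) hβ W (jF p)
  rw [alpha_jF] at h1
  rw [beta_jF] at h2
  have h3 : 0 ≤ W.ord (jF (p * ℓ)) := by
    rw [h1]
    exact mul_nonneg (Nat.cast_nonneg _) hcon
  have h4 := ord_jdF_nonneg (p * ℓ) ℓ (dvd_mul_left ℓ p) W h3
  rw [h2] at h4
  have h5 : (0 : ℤ) < (Place.ramificationIndexAlong (heckeBetaBar Kbar p ℓ) W : ℤ) := by
    exact_mod_cast ramificationIndexAlong_pos (heckeBetaBar Kbar p ℓ) hβ W
  nlinarith

theorem degree_heckeDivBar (hℓ : ℓ.Prime) (hℓp : ¬ ℓ ∣ p)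
    (hFI : FundamentalIdentityAlong Kbar (heckeBetaBar Kbar p ℓ) hβ)
    (D : Divisor Kbar (FN p)) :
    Divisor.degree (heckeDivBar (L := Kbar) hα hβ D) = ((ℓ : ℤ) + 1) * Divisor.degree D := by
  have h := Divisor.degree_correspondence (heckeBetaBar Kbar p ℓ) (heckeAlphaBar Kbar p ℓ)
    hβ hα hFI D
  rw [Fermat.Agent.RED.H95.finrankAlong_beta hℓ hℓp] at h
  push_cast at h
  exact h

/-- `T_ℓ P∞ = (ℓ + 1) P∞`. -/
theorem heckeDivBar_single_cuspInf (hℓ : ℓ.Prime) (hℓp : ¬ ℓ ∣ p)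
    (hfin : FiniteAlong Kbar (heckeAlphaBar Kbar p ℓ))
    (hFI : FundamentalIdentityAlong Kbar (heckeBetaBar Kbar p ℓ) hβ)
    (hNF : NormFormulaAlong Kbar (heckeAlphaBar Kbar p ℓ) hfin) :
    heckeDivBar (L := Kbar) hα hβ (Finsupp.single (cuspInf p) 1)
      = Finsupp.single (cuspInf p) ((ℓ : ℤ) + 1) := by
  have hc := heckeDivBar_apply_cuspInf p ℓ hα hβ hℓ hℓp hfin hNF (Finsupp.single (cuspInf p) 1)
  rw [Finsupp.single_eq_same, mul_one] at hc
  have hd := degree_heckeDivBar p ℓ hα hβ hℓ hℓp hFI (Finsupp.single (cuspInf p) 1)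
  rw [Divisor.degree_single, Fermat.Agent.S15.H22.place_deg_eq_one, Nat.cast_one, mul_one,
    mul_one] at hd
  have := eq_single_of_effective (Fermat.Agent.S15.H22.place_deg_eq_one p) _
    (heckeDivBar_single_nonneg p ℓ hα hβ (cuspInf p)) (cuspInf p) (by rw [hc, hd])
  rw [hc] at this
  exact this

/-- `T_ℓ P0 = (ℓ + 1) P0`. -/
theorem heckeDivBar_single_cuspZero (hp : p.Prime) (hℓ : ℓ.Prime) (hℓp : ¬ ℓ ∣ p)
    (hfin : FiniteAlong Kbar (heckeAlphaBar Kbar p ℓ))
    (hFI : FundamentalIdentityAlong Kbar (heckeBetaBar Kbar p ℓ) hβ)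
    (hNF : NormFormulaAlong Kbar (heckeAlphaBar Kbar p ℓ) hfin) :
    heckeDivBar (L := Kbar) hα hβ (Finsupp.single (cuspZero p) 1)
      = Finsupp.single (cuspZero p) ((ℓ : ℤ) + 1) := by
  have hcp := Fermat.Agent.S15.H22.isCuspPair p
  have hne : cuspInf p ≠ cuspZero p := Fermat.Agent.S15.H30.isCuspPair_ne hp.two_le hcp
  have hc := heckeDivBar_apply_cuspInf p ℓ hα hβ hℓ hℓp hfin hNF (Finsupp.single (cuspZero p) 1)
  rw [Finsupp.single_eq_of_ne hne, mul_zero] at hc
  have hd := degree_heckeDivBar p ℓ hα hβ hℓ hℓp hFI (Finsupp.single (cuspZero p) 1)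
  rw [Divisor.degree_single, Fermat.Agent.S15.H22.place_deg_eq_one, Nat.cast_one, mul_one,
    mul_one] at hd
  have hsupp : ∀ u, heckeDivBar (L := Kbar) hα hβ (Finsupp.single (cuspZero p) 1) u ≠ 0 →
      u = cuspInf p ∨ u = cuspZero p := by
    intro u hu
    obtain ⟨W, hWβ, hWα⟩ := heckeDivBar_single_support p ℓ hα hβ _ u hu
    apply Fermat.Agent.S15.H30.pole_eq_of_isCuspPair hp hcp u
    rw [← hWα]
    apply pole_alpha_of_pole_beta p ℓ hα hβ W
    rw [hWβ]
    have h0 := hcp.ord_j_zero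
    have hp0 : (0 : ℤ) < p := by exact_mod_cast hp.pos
    have h1 : (cuspZero p).ord (jF p) = -(p : ℤ) := h0
    rw [h1]
    omega
  have := eq_single_of_support (Fermat.Agent.S15.H22.place_deg_eq_one p) _ (cuspInf p)
    (cuspZero p) hsupp hc
  rw [hd] at this
  exact this

/-- `T_ℓ (P∞ - P0) = (ℓ + 1) (P∞ - P0)` on divisors of degree zero. -/
theorem degZeroCorrespondence_cusp (hp : p.Prime) (hℓ : ℓ.Prime) (hℓp : ¬ ℓ ∣ p)
    (hfin : FiniteAlong Kbar (heckeAlphaBar Kbar p ℓ))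
    (hFI : FundamentalIdentityAlong Kbar (heckeBetaBar Kbar p ℓ) hβ)
    (hNF : NormFormulaAlong Kbar (heckeAlphaBar Kbar p ℓ) hfin)
    (D : Divisor.degZero (K := Kbar) (F := FN p))
    (hD : (D : Divisor Kbar (FN p))
      = Finsupp.single (cuspInf p) 1 - Finsupp.single (cuspZero p) 1) :
    Pic0.degZeroCorrespondence (heckeBetaBar Kbar p ℓ) (heckeAlphaBar Kbar p ℓ) hβ hα hFI D
      = ((ℓ : ℤ) + 1) • D := by
  apply Subtype.ext
  have e1 := heckeDivBar_single_cuspInf p ℓ hα hβ hℓ hℓp hfin hFI hNF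
  have e2 := heckeDivBar_single_cuspZero p ℓ hα hβ hp hℓ hℓp hfin hFI hNF
  have e3 : heckeDivBar (L := Kbar) hα hβ (D : Divisor Kbar (FN p))
      = ((ℓ : ℤ) + 1) • (D : Divisor Kbar (FN p)) := by
    rw [hD, map_sub, e1, e2, smul_sub, Finsupp.smul_single, Finsupp.smul_single, smul_eq_mul,
      mul_one]
  exact e3

end Main

/-! ## The cuspidal class is an eigenvector of `T_ℓ`, `ℓ ≠ p` -/

/-- **CUSP-eis at the good primes**: `T_ℓ [P∞ - P0] = (ℓ + 1) [P∞ - P0]` on `J₀(p)`, `ℓ ≠ p`. -/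
theorem heckeOperatorBar_ptClass (p : ℕ) [NeZero p] (hp : p.Prime) (ℓ : Nat.Primes)
    (hℓp : (ℓ : ℕ) ≠ p) (Pinf P0 : PlaceBar p) (h : IsCuspPair p Pinf P0) :
    heckeOperatorBar p ℓ (ptClass Pinf P0 h.deg_inf h.deg_zero)
      = (((ℓ : ℕ) : ℤ) + 1) • ptClass Pinf P0 h.deg_inf h.deg_zero := by
  obtain ⟨rfl, rfl⟩ := Fermat.Agent.S15.H30.isCuspPair_unique hp
    (Fermat.Agent.S15.H22.isCuspPair p) h
  haveI : NeZero (ℓ : ℕ) := ⟨ℓ.2.ne_zero⟩
  have hℓp' : ¬ (ℓ : ℕ) ∣ p := fun hd => hℓp ((Nat.prime_dvd_prime_iff_eq ℓ.2 hp).mp hd)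
  obtain ⟨hα, hβ, hP, hfin, hFI, hNF⟩ := Fermat.Agent.RED.H51.stmt_HKA p ℓ
  haveI := hP
  set D : Divisor.degZero (K := Kbar) (F := FN p) :=
    ⟨Finsupp.single (cuspInf p) 1 - Finsupp.single (cuspZero p) 1, by
      rw [Divisor.mem_degZero, map_sub, Divisor.degree_single, Divisor.degree_single,
        h.deg_inf, h.deg_zero, sub_self]⟩ with hD
  have key := degZeroCorrespondence_cusp p ℓ hα hβ hp ℓ.2 hℓp' hfin hFI hNF D rfl
  have h1 := Fermat.Agent.Lib.HeckeComm.heckeOperatorBar_mk p ℓ hα hβ hP hfin hFI hNF D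
  have h2 : heckeOperatorBar p ℓ (Pic0.mk D) = (((ℓ : ℕ) : ℤ) + 1) • Pic0.mk D := by
    rw [h1, key]
    rfl
  exact h2

end Fermat.Agent.S15.H26
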