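import Mathlib
import Fermat.Prelude.Def_EllipticCurve_ZeroComponentAt
import Fermat.Prelude.Def_FLTPrelim_Ramification
import Fermat.Prelude.Def_ModularCurve_ReductionModL
import Fermat.Prelude.Def_ModularCurve_HeckeModule
import Fermat.Prelude.Def_EllipticCurve_FrobeniusTrace

/-!
# S15 (Mazur's key step): interfaces  (wiring owner helper83; plan `NOTES/plan/S15.md`)

Route (Mazur, "Modular curves and the Eisenstein ideal" III.5; Nakayama form due to helper97):
`S15 = BRIDGE + ELEM + CORE`,  `CORE = key_algebra + (S18, RI, GH, HR, FG, CUSP, DESC)`.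

* `F = modularFunctionFieldBar p = ℚ̄(j(q), j(q^p)) ⊂ ℚ̄((q))`, `J = JZero p = Pic⁰(F)`;
* the cusps: places `P∞`, `P0` of `F` with `(ord j, ord j_p) = (-1, -p)`, resp. `(-p, -1)`
  (`IsCuspPair`), `κ = [P∞ - P0]`;
* the Hecke ring `HeckeAlg = ℤ[X_ℓ]` acts on `J` by the prelude's `heckeModuleBar p` (`hsmul`),
  `ε = eisEval p : HeckeAlg → ℤ`, `X_ℓ ↦ 1 + ℓ` (`ℓ ≠ p`), `X_p ↦ 1`.

This file contains definitions and statements only.
-/

set_option autoImplicit false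
set_option synthInstance.maxHeartbeats 400000

noncomputable section

open HahnSeries IntermediateField AlgebraicCurve ModularCurve
open WeierstrassCurve WeierstrassCurve.Affine

namespace Fermat.Agent.S15

/-- The absolute Galois group of `ℚ`. -/
abbrev GalQ : Type := AlgebraicClosure ℚ ≃ₐ[ℚ] AlgebraicClosure ℚ

/-- Places of `X₀(N)` over `ℚ̄`. -/
abbrev PlaceBar (N : ℕ) : Type :=
  Place (AlgebraicClosure ℚ) (modularFunctionFieldBar N)

/-- The Galois action on places of `X₀(N)` (through the action on `q`-expansion coefficients). -/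
def galPlace (N : ℕ) (σ : GalQ) (P : PlaceBar N) : PlaceBar N :=
  arithmeticGalois (modularFunctionFieldFull N) σ • P

/-- The Hecke action of the prelude on `J₀(N)`, as a plain function. -/
def hsmul (N : ℕ) [NeZero N] (t : HeckeAlg) (z : JZero N) : JZero N :=
  letI := heckeModuleBar N
  t • z

/-- The Eisenstein character `X_ℓ ↦ 1 + ℓ` (`ℓ ∤ N`), `X_ℓ ↦ 1` (`ℓ ∣ N`). -/
def eisEval (N : ℕ) : HeckeAlg →+* ℤ :=
  (MvPolynomial.aeval (R := ℤ) (eisensteinSystem N)).toRingHom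

/-- The rational points of `J₀(N)`: the Galois-fixed divisor classes. -/
def ratPts (N : ℕ) : AddSubgroup (JZero N) where
  carrier := {z | ∀ σ : GalQ, σ • z = z}
  zero_mem' := fun σ => smul_zero σ
  add_mem' := fun {a b} ha hb σ => by rw [smul_add, ha σ, hb σ]
  neg_mem' := fun {a} ha σ => by rw [smul_neg, ha σ]

theorem mem_ratPts {N : ℕ} {z : JZero N} : z ∈ ratPts N ↔ ∀ σ : GalQ, σ • z = z := Iff.rfl

/-- `j(q)` as an element of the function field of `X₀(N)` over `ℚ̄`. -/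
def jBar (N : ℕ) : modularFunctionFieldBar N :=
  ⟨coeffEmb (AlgebraicClosure ℚ) jq, coeffEmb_mem_laurentBaseChange _ (by
    have h := jqd_mem_full N (one_dvd N)
    rwa [qExpand_one_apply] at h)⟩

/-- `j(q^N)` as an element of the function field of `X₀(N)` over `ℚ̄`. -/
def jBarN (N : ℕ) [NeZero N] : modularFunctionFieldBar N :=
  ⟨coeffEmb (AlgebraicClosure ℚ) (qExpand ℚ N jq),
    coeffEmb_mem_laurentBaseChange _ (jqd_mem_full N dvd_rfl)⟩

/-- `P∞`, `P0` are the two cusps of `X₀(p)`: `j` has a simple pole at `P∞` and a pole of order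
`p` at `P0`; `j_p = j(q^p)` has a pole of order `p` at `P∞` and a simple pole at `P0`. -/
structure IsCuspPair (p : ℕ) [NeZero p] (Pinf P0 : PlaceBar p) : Prop where
  ord_j_inf : Pinf.ord (jBar p) = -1
  ord_jN_inf : Pinf.ord (jBarN p) = -(p : ℤ)
  ord_j_zero : P0.ord (jBar p) = -(p : ℤ)
  ord_jN_zero : P0.ord (jBarN p) = -1
  deg_inf : Pinf.deg = 1
  deg_zero : P0.deg = 1

/-- The class of `P - Q` in `Pic⁰`, for two places of degree one. -/
def ptClass {K F : Type*} [Field K] [Field F] [Algebra K F] (P Q : Place K F)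
    (hP : P.deg = 1) (hQ : Q.deg = 1) : Pic0 K F :=
  Pic0.mk ⟨Finsupp.single P 1 - Finsupp.single Q 1, by
    rw [Divisor.mem_degZero, map_sub, Divisor.degree_single, Divisor.degree_single, hP, hQ,
      sub_self]⟩

/-! ## Inputs from cluster G (reduction of `J₀(p)` modulo `ℓ ≠ p`) -/

/-- The frozen statement S18 (type copied verbatim). -/
def Stmt_S18 : Prop :=
  ∀ (N : ℕ) [NeZero N] {ℓ : ℕ} [Fact ℓ.Prime] (_ : ¬ ℓ ∣ N)
    (A : ValuationSubring (AlgebraicClosure ℚ)) (_ : A.LiesOverPrime ℓ)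
    (_ : ModularCurve.ReductionInputsModL A N) (m : ℕ) (_ : ¬ ℓ ∣ m) (z : ModularCurve.JZero N)
    (_ : m • z = 0) (_ : ModularCurve.reductionModL A N z = 0), z = 0

/-- The frozen statement S17 for the level `p` (type copied verbatim, specialised). -/
def Stmt_S17 (N : ℕ) : Prop :=
  AddGroup.FG ↥(FixedPoints.addSubgroup ((AlgebraicClosure ℚ) ≃ₐ[ℚ] (AlgebraicClosure ℚ))
    (JZero N))

/-- (RI) the reduction inputs hold at every prime `ℓ ≠ p` (G-RED package PL). -/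
def Stmt_redInputs (p : ℕ) : Prop :=
  ∀ ℓ : ℕ, ℓ.Prime → ℓ ≠ p → ∀ A : ValuationSubring (AlgebraicClosure ℚ), A.LiesOverPrime ℓ →
    ReductionInputsModL A p

/-- (GH) the Hecke operators commute with the Galois action on `J₀(p)`. -/
def Stmt_GH (p : ℕ) [NeZero p] : Prop :=
  ∀ (σ : GalQ) (t : HeckeAlg) (z : JZero p), σ • hsmul p t z = hsmul p t (σ • z)

/-- (HR) on rational points the kernel of reduction modulo `ℓ ≠ p` is stable under the Hecke
ring. -/
def Stmt_HR (p : ℕ) [NeZero p] : Prop :=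
  ∀ ℓ : ℕ, ℓ.Prime → ℓ ≠ p → ∀ A : ValuationSubring (AlgebraicClosure ℚ), A.LiesOverPrime ℓ →
    ∀ (t : HeckeAlg) (z : JZero p), z ∈ ratPts p → reductionModL A p z = 0 →
      reductionModL A p (hsmul p t z) = 0

/-- (FG) the reduction modulo `ℓ ≠ p` of the rational points is a finitely generated group
(it is finite: it lies in the group of `𝔽_ℓ`-rational divisor classes; it also follows
from Mordell–Weil, `stmt_redFG_of_S17`). -/
def Stmt_redFG (p : ℕ) : Prop :=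
  ∀ ℓ : ℕ, ℓ.Prime → ℓ ≠ p → ∀ A : ValuationSubring (AlgebraicClosure ℚ), A.LiesOverPrime ℓ →
    (AddSubgroup.map (reductionModL A p) (ratPts p)).FG

/-! ## Inputs on the cusps of `X₀(p)` -/

/-- (CUSP-gal) the cusps are rational. -/
def Stmt_cuspGal (p : ℕ) [NeZero p] : Prop :=
  ∀ Pinf P0 : PlaceBar p, IsCuspPair p Pinf P0 →
    ∀ σ : GalQ, galPlace p σ Pinf = Pinf ∧ galPlace p σ P0 = P0

/-- (CUSP-ne) `[P∞ - P0] ≠ 0`: the genus of `X₀(p)` is positive (`p ∉ {2, 3, 5, 7, 13}`). -/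
def Stmt_cuspNe (p : ℕ) [NeZero p] : Prop :=
  ∀ (Pinf P0 : PlaceBar p) (h : IsCuspPair p Pinf P0),
    ptClass Pinf P0 h.deg_inf h.deg_zero ≠ 0

/-- (CUSP-tors) `(p - 1) [P∞ - P0] = 0`: the divisor of the modular unit `Δ(z)/Δ(pz)`
(prelude `modularUnitSeries p`). -/
def Stmt_cuspTors (p : ℕ) [NeZero p] : Prop :=
  ∀ (Pinf P0 : PlaceBar p) (h : IsCuspPair p Pinf P0),
    (p - 1) • ptClass Pinf P0 h.deg_inf h.deg_zero = 0

/-- (CUSP-eis) the cuspidal class is Eisenstein: `T_ℓ κ = (1 + ℓ) κ` (`ℓ ≠ p`), `U_p κ = κ`. -/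
def Stmt_cuspEis (p : ℕ) [NeZero p] : Prop :=
  ∀ (Pinf P0 : PlaceBar p) (h : IsCuspPair p Pinf P0) (t : HeckeAlg),
    hsmul p t (ptClass Pinf P0 h.deg_inf h.deg_zero) =
      eisEval p t • ptClass Pinf P0 h.deg_inf h.deg_zero

/-! ## The Eisenstein descent (Mazur's core) -/

/-- `𝔓_r M`: the subgroup of `J₀(p)` generated by the `t • w`, `w` rational and
`t ∈ 𝔓_r = {t | r ∣ ε(t)}` (the Eisenstein prime of residue characteristic `r`). -/
def eisPrimeSMul (p : ℕ) [NeZero p] (r : ℕ) : AddSubgroup (JZero p) :=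
  AddSubgroup.closure {v | ∃ t : HeckeAlg, (r : ℤ) ∣ eisEval p t ∧ ∃ w ∈ ratPts p, v = hsmul p t w}

/-- (DESC) **Eisenstein descent**: for some prime `r` dividing the order of the cuspidal class
`κ`, the group `J₀(p)(ℚ) / 𝔓_r J₀(p)(ℚ)` is generated by the image of `κ`. -/
def Stmt_descent (p : ℕ) [NeZero p] : Prop :=
  ∀ (Pinf P0 : PlaceBar p) (h : IsCuspPair p Pinf P0),
    ∃ r : ℕ, r.Prime ∧ r ∣ addOrderOf (ptClass Pinf P0 h.deg_inf h.deg_zero) ∧
      ∀ z ∈ ratPts p, ∃ m : ℤ,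
        z - m • ptClass Pinf P0 h.deg_inf h.deg_zero ∈ eisPrimeSMul p r

/-! ## The bridge from elliptic curves to `X₀(p)` and the elementary local input -/

/-- (BRIDGE) a rational point `Q` of order `p` on `W` gives a rational place `x` of `X₀(p)`
(the point `(W, ⟨Q⟩)`); at a prime `ℓ ≠ p` of multiplicative reduction `x` reduces to the cusp
`P∞` if `Q` lies in the identity component, and to the cusp `P0` otherwise.  (The hypotheses at
`2` and `3` are those of S15: `j(W)` is not integral, so `W` has no complex multiplication and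
`j(W) ≠ 0, 1728`.) -/
def Stmt_bridge (p : ℕ) [NeZero p] : Prop :=
  ∀ (W : WeierstrassCurve ℤ), W.Δ ≠ 0 →
  ∀ Q : ((W.map (Int.castRingHom ℚ))⁄(AlgebraicClosure ℚ)).Point,
    (∀ σ : GalQ, σ • Q = Q) → addOrderOf Q = p →
    (2 : ℤ) ∣ W.Δ → ¬ (2 : ℤ) ∣ W.c₄ → (3 : ℤ) ∣ W.Δ → ¬ (3 : ℤ) ∣ W.c₄ →
    ∀ Pinf P0 : PlaceBar p, IsCuspPair p Pinf P0 →
    ∃ x : PlaceBar p, x.deg = 1 ∧ (∀ σ : GalQ, galPlace p σ x = x) ∧
      ∀ ℓ : ℕ, ℓ.Prime → ℓ ≠ p → (ℓ : ℤ) ∣ W.Δ → ¬ (ℓ : ℤ) ∣ W.c₄ →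
        ∀ (A : ValuationSubring (AlgebraicClosure ℚ)), A.LiesOverPrime ℓ →
        ∀ h : ReductionInputsModL A p,
          (¬ W.InZeroComponentAt A Q → placeReductionModL h x = placeReductionModL h P0) ∧
          (W.InZeroComponentAt A Q → placeReductionModL h x = placeReductionModL h Pinf)

/-- (ELEM) a rational point of prime order `p` in the identity component at a prime `ℓ ≠ p` of
multiplicative reduction injects into `E_ns(𝔽_ℓ)`, a group of order `ℓ - 1` or `ℓ + 1`. -/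
def Stmt_elem : Prop :=
  ∀ (p : ℕ), p.Prime → ∀ (W : WeierstrassCurve ℤ), W.Δ ≠ 0 →
  ∀ Q : ((W.map (Int.castRingHom ℚ))⁄(AlgebraicClosure ℚ)).Point,
    (∀ σ : GalQ, σ • Q = Q) → addOrderOf Q = p →
    ∀ ℓ : ℕ, ℓ.Prime → ℓ ≠ p → (ℓ : ℤ) ∣ W.Δ → ¬ (ℓ : ℤ) ∣ W.c₄ →
      ∀ (A : ValuationSubring (AlgebraicClosure ℚ)), A.LiesOverPrime ℓ →
        W.InZeroComponentAt A Q → p ∣ (ℓ - 1) * (ℓ + 1)

/-- (CUSP-ex) the two cusps exist. -/
def Stmt_cuspExists (p : ℕ) [NeZero p] : Prop :=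
  ∃ Pinf P0 : PlaceBar p, IsCuspPair p Pinf P0

end Fermat.Agent.S15
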