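/-
S15, package BRIDGE (coordinator helper67): shared definitions and the EXACT statements
(interfaces) of the sub-packages.  Plan: NOTES/plan/S15_BRIDGE.md.

`E = W_ℚ`, `Q ∈ E(ℚ)` of exact order `p`, `C = ⟨Q⟩`, `α = j(E)`, `β = j(E/C)` where `E/C` is the
explicit quotient curve of helper11 (`S12/H11_Key.lean`): roots `e'_i` with
`e'_j - e'_i = (e_j - e_i)^p Ξ_k / (Ξ_i Ξ_j)`.  We construct the FRICKE-DUAL place `x'` of `X₀(p)`:
`j(x') = β`, `j_p(x') = α`.  At a prime `ℓ ≠ p` of multiplicative reduction: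
`Q ∉ E⁰  ⇒  |β|^p = |α|  ⇒  x' ≡ P∞`,   `Q ∈ E⁰  ⇒  |β| = |α|^p  ⇒  x' ≡ P0`.
-/
import Fermat.Agent.S15.Defs
import Fermat.Agent.S12.H11_Key
import Fermat.Agent.S24.Closure.Defs

set_option autoImplicit false
set_option synthInstance.maxHeartbeats 400000

noncomputable section

open AlgebraicCurve ModularCurve
open WeierstrassCurve WeierstrassCurve.Affine

namespace Fermat.Agent.S15

/-- `Q̄`. -/
abbrev Qb : Type := AlgebraicClosure ℚ

/-- The curve `W` over `Q̄`. -/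
abbrev EBar (W : WeierstrassCurve ℤ) : Affine Qb := (W.map (Int.castRingHom ℚ))⁄Qb

/-- `α = j(W) = c₄³ / Δ`, as a rational number. -/
def jRat (W : WeierstrassCurve ℤ) : ℚ := (W.c₄ : ℚ) ^ 3 / (W.Δ : ℚ)

/-- The `j`-invariant of a curve `y² = 4 (x - e₁) (x - e₂) (x - e₃)` in terms of the root
differences `d₁₂ = e₂ - e₁`, `d₁₃ = e₃ - e₁`, `d₂₃ = e₃ - e₂`. -/
def jOfDiff {K : Type*} [Field K] (d12 d13 d23 : K) : K :=
  32 * (d12 ^ 2 + d13 ^ 2 + d23 ^ 2) ^ 3 / (d12 * d13 * d23) ^ 2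

section quot

variable {K : Type*} [Field K] [DecidableEq K] (W : Affine K) (N : AddSubgroup W.Point)
  [Fintype N]

/-- The root difference `e'_j - e'_i = (e_j - e_i)^n Ξ_k / (Ξ_i Ξ_j)` of the quotient curve
(`quotDiff W N e_i e_j e_k`). -/
def quotDiff (e e' e'' : K) : K :=
  (e' - e) ^ Fintype.card N * Fermat.Agent.S12.H11.Xi W N e'' /
    (Fermat.Agent.S12.H11.Xi W N e * Fermat.Agent.S12.H11.Xi W N e')

/-- The `j`-invariant of the quotient curve. -/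
def quotJ (e1 e2 e3 : K) : K :=
  jOfDiff (quotDiff W N e1 e2 e3) (quotDiff W N e1 e3 e2) (quotDiff W N e2 e3 e1)

end quot

/-- `β` is the `j`-invariant of `E / ⟨Q⟩`. -/
def IsQuotJ (W : WeierstrassCurve ℤ) (Q : (EBar W).Point) (β : ℚ) : Prop :=
  ∀ (e1 e2 e3 : Qb) (_inst : Fintype ↥(AddSubgroup.zmultiples Q)),
    Fermat.Agent.S12.H11.TwoTors (EBar W) e1 e2 e3 →
      ((β : ℚ) : Qb) = quotJ (EBar W) (AddSubgroup.zmultiples Q) e1 e2 e3

/-- The place `x` has the values `j(x) = b`, `j_p(x) = a`. -/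
def HasValues (p : ℕ) [NeZero p] (x : PlaceBar p) (b a : Qb) : Prop :=
  0 < x.ord (jBar p - algebraMap Qb (modularFunctionFieldBar p) b) ∧
    0 < x.ord (jBarN p - algebraMap Qb (modularFunctionFieldBar p) a)

/-! ### Packages -/

/-- (BR-DEF) `β = j(E/⟨Q⟩)` exists as a rational number (Galois invariance of the explicit
formula; independence of the numbering of the roots). -/
def Stmt_BRdef : Prop :=
  ∀ (p : ℕ), p.Prime → p ≠ 2 → ∀ (W : WeierstrassCurve ℤ), W.Δ ≠ 0 →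
  ∀ Q : (EBar W).Point, (∀ σ : GalQ, σ • Q = Q) → addOrderOf Q = p →
    ∃ β : ℚ, IsQuotJ W Q β

/-- (BR-VAL) coarse local valuations of `β` at a prime `ℓ ≠ p` of multiplicative reduction. -/
def Stmt_BRval : Prop :=
  ∀ (p : ℕ), p.Prime → p ≠ 2 → ∀ (W : WeierstrassCurve ℤ), W.Δ ≠ 0 →
  ∀ Q : (EBar W).Point, (∀ σ : GalQ, σ • Q = Q) → addOrderOf Q = p →
  ∀ β : ℚ, IsQuotJ W Q β →
  ∀ ℓ : ℕ, ℓ.Prime → ℓ ≠ p → (ℓ : ℤ) ∣ W.Δ → ¬ (ℓ : ℤ) ∣ W.c₄ →
  ∀ A : ValuationSubring Qb, A.LiesOverPrime ℓ →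
    (W.InZeroComponentAt A Q → A.valuation ((jRat W : ℚ) : Qb) ≤ A.valuation ((β : ℚ) : Qb)) ∧
    (¬ W.InZeroComponentAt A Q →
      A.valuation ((β : ℚ) : Qb) < A.valuation ((jRat W : ℚ) : Qb) ^ p)

/-- (BR-AN) the modular equation on the isogenous pair, in analytic form: there is `τ₁ ∈ ℍ`
with `j(τ₁) = β` and `j(p τ₁) = α`.  [complex uniformisation]
(`j(E)` is not integral at `2`, so `j(E) ≠ 0, 1728`.) -/
def Stmt_BRan : Prop :=
  ∀ (p : ℕ), p.Prime → p ≠ 2 → ∀ (W : WeierstrassCurve ℤ), W.Δ ≠ 0 →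
  (2 : ℤ) ∣ W.Δ → ¬ (2 : ℤ) ∣ W.c₄ →
  ∀ Q : (EBar W).Point, addOrderOf Q = p →
  ∀ β : ℚ, IsQuotJ W Q β →
    ∃ τ₁ τ₂ : UpperHalfPlane, (τ₂ : ℂ) = (p : ℂ) * (τ₁ : ℂ) ∧
      Fermat.Agent.S24.jAn τ₁ = Fermat.Agent.S24.iotaC ((β : ℚ) : Qb) ∧
      Fermat.Agent.S24.jAn τ₂ = Fermat.Agent.S24.iotaC ((jRat W : ℚ) : Qb)

/-- (BR-PLACE) a point `τ₁ ∈ ℍ` with algebraic values `j(τ₁) = b`, `j(p τ₁) = a` gives a place
of `X₀(p)` with these values. -/
def Stmt_BRplace : Prop :=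
  ∀ (p : ℕ) [NeZero p], p.Prime → ∀ (b a : Qb),
    (∃ τ₁ τ₂ : UpperHalfPlane, (τ₂ : ℂ) = (p : ℂ) * (τ₁ : ℂ) ∧
      Fermat.Agent.S24.jAn τ₁ = Fermat.Agent.S24.iotaC b ∧
      Fermat.Agent.S24.jAn τ₂ = Fermat.Agent.S24.iotaC a) →
    ∃ x : PlaceBar p, x.deg = 1 ∧ HasValues p x b a

/-- (BR-NEWTON a) dichotomy: if `(b, a)` are the values of a place and `|a| > 1` then
`|b|^p = |a|` or `|b| = |a|^p`.
[modular polynomial `X^(p+1) + Y^(p+1) - X^p Y^p + Σ_{i,k ≤ p} c_ik X^i Y^k`, `c_ik` integral] -/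
def Stmt_BRnewton_dich : Prop :=
  ∀ (p : ℕ) [NeZero p], p.Prime → ∀ (x : PlaceBar p) (b a : Qb), HasValues p x b a →
  ∀ A : ValuationSubring Qb, 1 < A.valuation a →
    A.valuation b ^ p = A.valuation a ∨ A.valuation b = A.valuation a ^ p

/-- (BR-NEWTON b) uniqueness: if `|a| = |b|^p > 1` at some `A`, the place with the values
`(b, a)` is unique.  [`a` is the unique root of `Φ_p(b, Y)` of absolute value `|b|^p`, and a
simple root] -/
def Stmt_BRnewton_uniq : Prop :=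
  ∀ (p : ℕ) [NeZero p], p.Prime → ∀ (x y : PlaceBar p) (b a : Qb),
    HasValues p x b a → HasValues p y b a →
  ∀ A : ValuationSubring Qb, 1 < A.valuation a → A.valuation b ^ p = A.valuation a → x = y

/-- (BR-GAL) the Galois action on places is compatible with values. -/
def Stmt_BRgal : Prop :=
  ∀ (p : ℕ) [NeZero p], p.Prime → ∀ (x : PlaceBar p) (b a : Qb) (σ : GalQ),
    HasValues p x b a → HasValues p (galPlace p σ x) (σ b) (σ a)

/-- (B3) reduction of a place from the absolute values of its `j`-values.  [helper83] -/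
def Stmt_B3 : Prop :=
  ∀ (p : ℕ) [NeZero p], p.Prime → ∀ (Pinf P0 : PlaceBar p), IsCuspPair p Pinf P0 →
  ∀ (x : PlaceBar p) (b a : Qb), HasValues p x b a →
  ∀ ℓ : ℕ, ℓ.Prime → ℓ ≠ p → ∀ A : ValuationSubring Qb, A.LiesOverPrime ℓ →
  ∀ h : ReductionInputsModL A p, 1 < A.valuation a →
    (A.valuation b ^ p = A.valuation a →
      placeReductionModL h x = placeReductionModL h Pinf) ∧
    (A.valuation b = A.valuation a ^ p →
      placeReductionModL h x = placeReductionModL h P0)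

/-- (BRIDGE, Fricke-dual form) a rational point `Q` of order `p` on `W` which is off the
identity component at `2` gives a rational place `x'` of `X₀(p)`; at a prime `ℓ ≠ p` of
multiplicative reduction `x'` reduces to the cusp `P∞` if `Q` is off the identity component, and
to the cusp `P0` otherwise. -/
def Stmt_bridge' (p : ℕ) [NeZero p] : Prop :=
  ∀ (W : WeierstrassCurve ℤ), W.Δ ≠ 0 →
  ∀ Q : (EBar W).Point,
    (∀ σ : GalQ, σ • Q = Q) → addOrderOf Q = p →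
    (2 : ℤ) ∣ W.Δ → ¬ (2 : ℤ) ∣ W.c₄ →
    (∀ A : ValuationSubring Qb, A.LiesOverPrime 2 → ¬ W.InZeroComponentAt A Q) →
    ∀ Pinf P0 : PlaceBar p, IsCuspPair p Pinf P0 →
    ∃ x : PlaceBar p, x.deg = 1 ∧ (∀ σ : GalQ, galPlace p σ x = x) ∧
      ∀ ℓ : ℕ, ℓ.Prime → ℓ ≠ p → (ℓ : ℤ) ∣ W.Δ → ¬ (ℓ : ℤ) ∣ W.c₄ →
        ∀ (A : ValuationSubring Qb), A.LiesOverPrime ℓ →
        ∀ h : ReductionInputsModL A p,
          (¬ W.InZeroComponentAt A Q →
            placeReductionModL h x = placeReductionModL h Pinf) ∧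
          (W.InZeroComponentAt A Q → placeReductionModL h x = placeReductionModL h P0)

end Fermat.Agent.S15
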