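/-
S15 / BRIDGE, package BR-NEWTON (helper63): interface.

The modular equation of level `p`, in the form needed for the Newton polygon:
`Φ_p(X, Y) = X^(p+1) + Y^(p+1) - X^p Y^p + Σ_{i,k ≤ p} c_ik X^i Y^k`, `c_pp = 0`, `c_ik` integral
over `ℤ`, and `Φ_p(j, j_p) = 0` in `F_p = Q̄(j(q), j(q^p))`.

BR-NEWTON = MODEQ (`Stmt_modEq`, analytic input: S24 `Closure` layer, `lemmaJ`)
          + NEWTON-VAL (pure valuation theory, `H63_NewtonVal.lean`)
          + PLACE-UNIQ (a simple point of the plane model carries one place, `H63_PlaceUniq.lean`).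
-/
import Fermat.Agent.S15.BridgeDefs

set_option autoImplicit false
set_option synthInstance.maxHeartbeats 400000

noncomputable section

open AlgebraicCurve ModularCurve

namespace Fermat.Agent.S15

/-- The value at `(x, y)` of `X^(p+1) + Y^(p+1) - X^p Y^p + Σ_{i,k ≤ p} c_ik X^i Y^k`. -/
def modEqVal {K R : Type*} [CommRing K] [CommRing R] [Algebra K R] (p : ℕ) (c : ℕ → ℕ → K)
    (x y : R) : R :=
  x ^ (p + 1) + y ^ (p + 1) - x ^ p * y ^ p +
    ∑ i ∈ Finset.range (p + 1), ∑ k ∈ Finset.range (p + 1),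
      algebraMap K R (c i k) * x ^ i * y ^ k

/-- The value at `(x, y)` of `∂/∂Y` of `X^(p+1) + Y^(p+1) - X^p Y^p + Σ_{i,k ≤ p} c_ik X^i Y^k`. -/
def modEqDerivY {K : Type*} [CommRing K] (p : ℕ) (c : ℕ → ℕ → K) (x y : K) : K :=
  (p + 1 : ℕ) * y ^ p - (p : ℕ) * x ^ p * y ^ (p - 1) +
    ∑ i ∈ Finset.range (p + 1), ∑ k ∈ Finset.range (p + 1),
      c i k * x ^ i * ((k : ℕ) * y ^ (k - 1))

/-- `c` is the coefficient system of the modular equation of level `p`. -/
structure IsModEq (p : ℕ) [NeZero p] (c : ℕ → ℕ → Qb) : Prop where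
  integral : ∀ i k, IsIntegral ℤ (c i k)
  top : c p p = 0
  rel : modEqVal p c (jBar p) (jBarN p) = 0

/-- (MODEQ) the modular equation of prime level `p` exists, with integral coefficients.
[`Φ_p(j, Y) = ∏_A (Y - j∘A)` over the `p + 1` classes `A = (p 0; 0 1), (1 b; 0 p)`; the
coefficients are `SL₂(ℤ)`-invariant, hence polynomials in `j` (S24 `lemmaJ`); their `u`-expansions
have coefficients in `ℤ[ζ_p]` and pole order `≤ p + (m-1)/p`, resp. exactly `p + 1` with leading
coefficient `1` for the norm, and `-e₁ = -j^p + …`.] -/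
def Stmt_modEq : Prop :=
  ∀ (p : ℕ) [NeZero p], p.Prime → ∃ c : ℕ → ℕ → Qb, IsModEq p c

/-- (NEWTON-VAL a) the dichotomy, for any valuation. -/
def Stmt_newtonVal_dich : Prop :=
  ∀ (K : Type) [Field K] (A : ValuationSubring K) (p : ℕ), 1 ≤ p → ∀ (c : ℕ → ℕ → K),
    (∀ i k, A.valuation (c i k) ≤ 1) → c p p = 0 → ∀ b a : K, modEqVal p c b a = 0 →
    1 < A.valuation a →
      A.valuation b ^ p = A.valuation a ∨ A.valuation b = A.valuation a ^ p

/-- (NEWTON-VAL b) on the branch `|a| = |b|^p` the point `(b, a)` is a simple root in `Y`. -/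
def Stmt_newtonVal_simple : Prop :=
  ∀ (K : Type) [Field K] (A : ValuationSubring K) (p : ℕ), 2 ≤ p → ∀ (c : ℕ → ℕ → K),
    (∀ i k, A.valuation (c i k) ≤ 1) → c p p = 0 → ∀ b a : K, modEqVal p c b a = 0 →
    1 < A.valuation a → A.valuation b ^ p = A.valuation a → modEqDerivY p c b a ≠ 0

/-- (PLACE-UNIQ) a simple point of a plane model carries at most one place. -/
def Stmt_placeUniq : Prop :=
  ∀ (K F : Type) [Field K] [Field F] [Algebra K F] (X Y : F),
    IntermediateField.adjoin K ({X, Y} : Set F) = ⊤ →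
  ∀ (p : ℕ) (c : ℕ → ℕ → K), modEqVal p c X Y = 0 →
  ∀ b a : K, modEqDerivY p c b a ≠ 0 →
  ∀ x y : Place K F, 0 < x.ord (X - algebraMap K F b) → 0 < x.ord (Y - algebraMap K F a) →
    0 < y.ord (X - algebraMap K F b) → 0 < y.ord (Y - algebraMap K F a) → x = y

end Fermat.Agent.S15
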