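/-
S15 / BRIDGE, package BR-NEWTON / MODEQ (helper63): the shape lemma.

From polynomials `E k ∈ K[X]` (`k ≤ p`), the coefficients of `Y^k` in the modular polynomial
`Φ_p(X, Y) = Y^(p+1) + Σ_{k ≤ p} E_k(X) Y^k`, with
`deg E_k ≤ p` (`1 ≤ k ≤ p`), `deg E_0 ≤ p + 1`, `[X^(p+1)] E_0 = 1`, `[X^p] E_p = -1`,
to the coefficient system `c` of `H63_NewtonDefs.lean` (`modEqVal`, `IsModEq`).
-/
import Fermat.Agent.S15.H63_NewtonDefs

set_option autoImplicit false
set_option synthInstance.maxHeartbeats 400000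

noncomputable section

open Polynomial Finset

namespace Fermat.Agent.S15.H63

/-- The coefficient system attached to the polynomials `E k`. -/
def cOf {K : Type*} [Field K] (p : ℕ) (E : ℕ → K[X]) (i k : ℕ) : K :=
  if i = p ∧ k = p then 0 else (E k).coeff i

section

variable {K R : Type*} [Field K] [CommRing R] [Algebra K R] (p : ℕ) (E : ℕ → K[X])

theorem cOf_top : cOf p E p p = 0 := by
  unfold cOf
  rw [if_pos ⟨rfl, rfl⟩]

theorem cOf_of_ne {i k : ℕ} (h : ¬ (i = p ∧ k = p)) : cOf p E i k = (E k).coeff i := by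
  unfold cOf
  rw [if_neg h]

/-- The column `k = 0`. -/
theorem col_zero (hp : 1 ≤ p) (hdeg0 : (E 0).natDegree ≤ p + 1) (h0 : (E 0).coeff (p + 1) = 1)
    (x : R) :
    ∑ i ∈ range (p + 1), algebraMap K R (cOf p E i 0) * x ^ i = aeval x (E 0) - x ^ (p + 1) := by
  rw [Polynomial.aeval_eq_sum_range' (n := p + 2) (by omega), Finset.sum_range_succ _ (p + 1), h0,
    one_smul, add_sub_cancel_right]
  refine Finset.sum_congr rfl fun i _ => ?_
  rw [cOf_of_ne p E (by omega), Algebra.smul_def]

/-- The columns `0 < k < p`. -/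
theorem col_mid {k : ℕ} (hk : k < p) (hdeg : (E k).natDegree ≤ p) (x : R) :
    ∑ i ∈ range (p + 1), algebraMap K R (cOf p E i k) * x ^ i = aeval x (E k) := by
  rw [Polynomial.aeval_eq_sum_range' (n := p + 1) (by omega)]
  refine Finset.sum_congr rfl fun i _ => ?_
  rw [cOf_of_ne p E (by omega), Algebra.smul_def]

/-- The column `k = p`. -/
theorem col_top (hdeg : (E p).natDegree ≤ p) (hpp : (E p).coeff p = -1) (x : R) :
    ∑ i ∈ range (p + 1), algebraMap K R (cOf p E i p) * x ^ i = aeval x (E p) + x ^ p := by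
  rw [Polynomial.aeval_eq_sum_range' (n := p + 1) (by omega), Finset.sum_range_succ _ p,
    Finset.sum_range_succ _ p, hpp, cOf_top, map_zero, zero_mul, add_zero, neg_smul, one_smul,
    neg_add_cancel_right]
  refine Finset.sum_congr rfl fun i hi => ?_
  rw [Finset.mem_range] at hi
  rw [cOf_of_ne p E (by omega), Algebra.smul_def]

/-- **Shape lemma**: `modEqVal` of the coefficient system `cOf p E` is
`Y^(p+1) + Σ_{k ≤ p} E_k(X) Y^k`. -/
theorem modEqVal_cOf (hp : 1 ≤ p) (hdeg : ∀ k, 1 ≤ k → k ≤ p → (E k).natDegree ≤ p)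
    (hdeg0 : (E 0).natDegree ≤ p + 1) (h0 : (E 0).coeff (p + 1) = 1)
    (hpp : (E p).coeff p = -1) (x y : R) :
    modEqVal p (cOf p E) x y =
      y ^ (p + 1) + ∑ k ∈ range (p + 1), aeval x (E k) * y ^ k := by
  unfold modEqVal
  rw [Finset.sum_comm]
  have hcol : ∀ k ∈ range (p + 1),
      ∑ i ∈ range (p + 1), algebraMap K R (cOf p E i k) * x ^ i * y ^ k =
        (aeval x (E k) - (if k = 0 then x ^ (p + 1) else 0) + (if k = p then x ^ p else 0)) *
          y ^ k := by
    intro k hk
    rw [Finset.mem_range] at hk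
    rw [← Finset.sum_mul]
    congr 1
    rcases Nat.eq_zero_or_pos k with h | h
    · subst h
      rw [if_pos rfl, if_neg (by omega), add_zero]
      exact col_zero p E hp hdeg0 h0 x
    · rcases Nat.lt_or_ge k p with h' | h'
      · rw [if_neg (by omega), if_neg (by omega), sub_zero, add_zero]
        exact col_mid p E h' (hdeg k h (by omega)) x
      · have hkp : k = p := by omega
        subst hkp
        rw [if_neg (by omega), if_pos rfl, sub_zero]
        exact col_top k E (hdeg k h le_rfl) hpp x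
  rw [Finset.sum_congr rfl hcol]
  simp only [add_mul, sub_mul, Finset.sum_add_distrib, Finset.sum_sub_distrib, ite_mul,
    zero_mul]
  rw [Finset.sum_ite_eq' (range (p + 1)) 0, Finset.sum_ite_eq' (range (p + 1)) p,
    if_pos (Finset.mem_range.mpr (by omega)), if_pos (Finset.mem_range.mpr (by omega)), pow_zero,
    mul_one]
  ring

end

/-- **MODEQ from the polynomials `E k`.** -/
theorem isModEq_of_polys (p : ℕ) [NeZero p] (hp : 1 ≤ p) (E : ℕ → Qb[X])
    (hdeg : ∀ k, 1 ≤ k → k ≤ p → (E k).natDegree ≤ p)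
    (hdeg0 : (E 0).natDegree ≤ p + 1) (h0 : (E 0).coeff (p + 1) = 1)
    (hpp : (E p).coeff p = -1) (hint : ∀ k i, IsIntegral ℤ ((E k).coeff i))
    (hrel : (jBarN p) ^ (p + 1) +
      ∑ k ∈ range (p + 1), aeval (jBar p) (E k) * (jBarN p) ^ k = 0) :
    IsModEq p (cOf p E) where
  integral := fun i k => by
    unfold cOf
    split_ifs
    · exact isIntegral_zero
    · exact hint k i
  top := cOf_top p E
  rel := by
    rw [modEqVal_cOf p E hp hdeg hdeg0 h0 hpp]
    exact hrel

end Fermat.Agent.S15.H63
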