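import Fermat.Agent.S15.H23_ModEqRoots
import Fermat.Agent.S15.H63_ModEqShape
import Fermat.Agent.S24.Closure.Phi

/-!
# S15 / BRIDGE / MODEQ (helper23), part 2b: the modular equation of prime level

`Φ_p(j, Y) = ∏_A (Y - j ∘ A)`; the coefficients are `SL(2, ℤ)`-invariant, hence polynomials in `j`
(S24 `lemmaJ`), with integral coefficients and the degrees read off from the `u`-expansions.

Main result: `stmt_modEq : Stmt_modEq`.
-/

set_option autoImplicit false

noncomputable section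

namespace Fermat.Agent.S15.H23

open Fermat.Agent.S24 ModularCurve UpperHalfPlane Polynomial
open scoped MatrixGroups

/-! ## Series facts -/

section Series

variable {K : Type*} [Field K]

theorem ordGE_qExpand (N : ℕ) [NeZero N] {f : LaurentSeries K} {n : ℤ} (hf : OrdGE f n) :
    OrdGE (qExpand K N f) ((N : ℤ) * n) := by
  intro k hk
  by_cases hd : (N : ℤ) ∣ k
  · obtain ⟨m, rfl⟩ := hd
    rw [qExpand_coeff_mul]
    apply hf
    have hN : (0 : ℤ) < N := by exact_mod_cast Nat.pos_of_ne_zero (NeZero.ne N)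
    exact lt_of_mul_lt_mul_left hk hN.le
  · exact qExpand_coeff_of_not_dvd N f hd

theorem qExpand_mem_intSer (N : ℕ) [NeZero N] {f : LaurentSeries K} (hf : f ∈ intSer K) :
    qExpand K N f ∈ intSer K := by
  rw [mem_intSer] at hf ⊢
  intro k
  by_cases hd : (N : ℤ) ∣ k
  · obtain ⟨m, rfl⟩ := hd
    rw [qExpand_coeff_mul]
    exact hf m
  · rw [qExpand_coeff_of_not_dvd N f hd]
    exact isIntegral_zero

theorem ordGE_twist (z : K) {f : LaurentSeries K} {n : ℤ} (hf : OrdGE f n) :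
    OrdGE (twist z f) n := by
  intro k hk
  rw [twist_coeff, hf k hk, mul_zero]

theorem twist_mem_intSer (z : K) (m : ℕ) (hm : 0 < m) (hz : z ^ m = 1) {f : LaurentSeries K}
    (hf : f ∈ intSer K) : twist z f ∈ intSer K := by
  rw [mem_intSer] at hf ⊢
  intro k
  rw [twist_coeff]
  refine IsIntegral.mul ?_ (hf k)
  apply IsIntegral.of_pow hm
  have : (z ^ k) ^ m = 1 := by
    rw [← zpow_natCast, ← zpow_mul, mul_comm, zpow_mul, zpow_natCast, hz, one_zpow]
  rw [this]
  exact isIntegral_one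

end Series

theorem ordGE_jBar : OrdGE S24.jBar (-1) := fun _ hk => jBar_coeff_of_lt hk

theorem jBar_mem_intSer : S24.jBar ∈ intSer Kbar := by
  rw [mem_intSer]
  intro k
  rw [S24.jBar, coeffEmb_coeff]
  obtain ⟨m, hm⟩ := Fermat.Agent.S28.jq_coeff_int k
  rw [hm]
  have : algebraMap ℚ Kbar (m : ℚ) = algebraMap ℤ Kbar m := by simp
  rw [this]
  exact isIntegral_algebraMap

/-! ## The polynomial `Φ_p(j, Y) = ∏ (Y - j ∘ A)` -/

variable (p : ℕ) [NeZero p]

/-- The roots, in `AT p`. -/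
def rootSetT : Multiset (AT p) := rootSet p

/-- `Φ_p(j, Y) = ∏ (Y - j ∘ A)`. -/
def PhiT : (AT p)[X] := ((rootSetT p).map (fun r => X - C r)).prod

theorem map_smul_rootSetT (hp : p.Prime) (γ : SL(2, ℤ)) :
    (rootSetT p).map (fun r => γ • r) = rootSetT p := map_smul_rootSet p hp γ

theorem PhiT_map_smul (hp : p.Prime) (γ : SL(2, ℤ)) :
    (PhiT p).map (MulSemiringAction.toRingHom SL(2, ℤ) (AT p) γ) = PhiT p := by
  rw [PhiT, Polynomial.map_multiset_prod, Multiset.map_map]
  conv_rhs => rw [← map_smul_rootSetT p hp γ, Multiset.map_map]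
  congr 1
  apply Multiset.map_congr rfl
  intro r _
  simp only [Function.comp_apply, Polynomial.map_sub, Polynomial.map_X, Polynomial.map_C,
    MulSemiringAction.toRingHom_apply]

theorem smul_PhiT_coeff (hp : p.Prime) (γ : SL(2, ℤ)) (k : ℕ) :
    γ • (PhiT p).coeff k = (PhiT p).coeff k := by
  have h := congrArg (fun P => P.coeff k) (PhiT_map_smul p hp γ)
  simp only [Polynomial.coeff_map, MulSemiringAction.toRingHom_apply] at h
  exact h

/-- `J = j (u ^ p)`. -/
def Jser : LaurentSeries Kbar := qExpand Kbar p S24.jBar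

/-- Lemma J, in terms of expansions. -/
theorem lemmaJT (f : AT p) (hf : ∀ γ : SL(2, ℤ), γ • f = f) :
    ∃ P : Kbar[X], aeval (Jser p) P = uExpT p f := by
  obtain ⟨P, hP⟩ := lemmaJ p f hf
  refine ⟨P, ?_⟩
  have h1 : uExp p (aeval (jA p) P) = aeval (uExp p (jA p)) P :=
    (Polynomial.aeval_algHom_apply (uExp p) (jA p) P).symm
  rw [hP, uExp_jA] at h1
  exact h1.symm

/-- The coefficients `Q_k ∈ Q̄[X]` of `Φ_p = ∑ Q_k(j) Y ^ k`. -/
def Qpol (hp : p.Prime) (k : ℕ) : Kbar[X] :=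
  (lemmaJT p ((PhiT p).coeff k) (fun γ => smul_PhiT_coeff p hp γ k)).choose

theorem aeval_Qpol (hp : p.Prime) (k : ℕ) :
    aeval (Jser p) (Qpol p hp k) = uExpT p ((PhiT p).coeff k) :=
  (lemmaJT p ((PhiT p).coeff k) (fun γ => smul_PhiT_coeff p hp γ k)).choose_spec

/-! ## The expansion of `Φ_p` -/

/-- `R_∞ = j (u ^ (p²))`. -/
def Rinf : LaurentSeries Kbar := qExpand Kbar p (Jser p)

/-- `R_b = j (ζ ^ b u)`. -/
def Rb (b : ℕ) : LaurentSeries Kbar := twist (zetaK p ^ (b : ℤ)) S24.jBar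

theorem uExpT_rootInf : uExpT p (toAT p (rootInf p)) = Rinf p := by
  show uExp p (rootInf p) = Rinf p
  rw [uExp_rootInf, Rinf, Jser, qExpand_qExpand]

theorem uExpT_rootB (b : ℕ) : uExpT p (toAT p (rootB p (b : ℤ))) = Rb p b :=
  uExp_rootB p b

theorem rootSetT_eq : rootSetT p =
    toAT p (rootInf p) ::ₘ (Multiset.range p).map (fun b : ℕ => toAT p (rootB p (b : ℤ))) := rfl

/-- The expansion of `Φ_p`. -/
def PhiU : (LaurentSeries Kbar)[X] :=
  (X - C (Rinf p)) * ∏ b ∈ Finset.range p, (X - C (Rb p b))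

theorem PhiT_map_uExpT :
    (PhiT p).map (uExpT p : AT p →+* LaurentSeries Kbar) = PhiU p := by
  rw [PhiT, rootSetT_eq, Multiset.map_cons, Multiset.prod_cons, Polynomial.map_mul,
    Polynomial.map_multiset_prod, Multiset.map_map, Multiset.map_map, PhiU,
    Finset.prod_eq_multiset_prod, Finset.range_val]
  congr 1
  · rw [Polynomial.map_sub, Polynomial.map_X, Polynomial.map_C]
    congr 2
    exact uExpT_rootInf p
  · congr 1
    apply Multiset.map_congr rfl
    intro b _
    simp only [Function.comp_apply, Polynomial.map_sub, Polynomial.map_X, Polynomial.map_C]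
    congr 2
    exact uExpT_rootB p b

theorem PhiU_coeff (k : ℕ) : (PhiU p).coeff k = uExpT p ((PhiT p).coeff k) := by
  rw [← PhiT_map_uExpT, Polynomial.coeff_map]
  rfl

theorem aeval_Qpol' (hp : p.Prime) (k : ℕ) :
    aeval (Jser p) (Qpol p hp k) = (PhiU p).coeff k := by
  rw [aeval_Qpol, PhiU_coeff]

/-! ### Orders and integrality of the roots -/

theorem ordGE_Jser : OrdGE (Jser p) (-(p : ℤ)) := by
  have h := ordGE_qExpand p ordGE_jBar
  rwa [mul_neg_one] at h

theorem Jser_coeff : (Jser p).coeff (-(p : ℤ)) = 1 := by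
  have h := qExpand_coeff_mul p S24.jBar (-1)
  rw [mul_neg_one, jBar_coeff_neg_one] at h
  exact h

theorem Jser_mem_intSer : Jser p ∈ intSer Kbar := qExpand_mem_intSer p jBar_mem_intSer

theorem ordGE_Rinf : OrdGE (Rinf p) (-((p * p : ℕ) : ℤ)) := by
  have h := ordGE_qExpand p (ordGE_Jser p)
  have e : (p : ℤ) * -(p : ℤ) = -((p * p : ℕ) : ℤ) := by push_cast; ring
  rwa [e] at h

theorem Rinf_coeff : (Rinf p).coeff (-((p * p : ℕ) : ℤ)) = 1 := by
  have h := qExpand_coeff_mul p (Jser p) (-(p : ℤ))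
  have e : (p : ℤ) * -(p : ℤ) = -((p * p : ℕ) : ℤ) := by push_cast; ring
  rw [e, Jser_coeff] at h
  exact h

theorem Rinf_mem_intSer : Rinf p ∈ intSer Kbar := qExpand_mem_intSer p (Jser_mem_intSer p)

theorem ordGE_Rb (b : ℕ) : OrdGE (Rb p b) (-1) := ordGE_twist _ ordGE_jBar

theorem Rb_coeff (b : ℕ) : (Rb p b).coeff (-1 : ℤ) = (zetaK p ^ b)⁻¹ := by
  rw [Rb, twist_coeff, jBar_coeff_neg_one, mul_one, zpow_neg_one, zpow_natCast]

theorem Rb_mem_intSer (b : ℕ) : Rb p b ∈ intSer Kbar := by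
  refine twist_mem_intSer _ p (p_pos p) ?_ jBar_mem_intSer
  rw [zpow_natCast, ← pow_mul, mul_comm, pow_mul, (isPrimitiveRoot_zetaK p).pow_eq_one, one_pow]

theorem PhiU_coeff_mem_intSer (k : ℕ) : (PhiU p).coeff k ∈ intSer Kbar := by
  have hX : (X : (LaurentSeries Kbar)[X]) ∈ Polynomial.liftsRing (intSer Kbar).subtype :=
    (Polynomial.lifts_iff_liftsRing _ _).mp (Polynomial.X_mem_lifts _)
  have hC : ∀ r : LaurentSeries Kbar, r ∈ intSer Kbar →
      (C r : (LaurentSeries Kbar)[X]) ∈ Polynomial.liftsRing (intSer Kbar).subtype := by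
    intro r hr
    exact (Polynomial.lifts_iff_liftsRing _ _).mp
      (Polynomial.C_mem_lifts (intSer Kbar).subtype ⟨r, hr⟩)
  have h : PhiU p ∈ Polynomial.liftsRing (intSer Kbar).subtype := by
    rw [PhiU]
    refine Subring.mul_mem _ (Subring.sub_mem _ hX (hC _ (Rinf_mem_intSer p)))
      (Subring.prod_mem _ fun b _ => Subring.sub_mem _ hX (hC _ (Rb_mem_intSer p b)))
  have h2 := (Polynomial.lifts_iff_coeff_lifts _).mp
    ((Polynomial.lifts_iff_liftsRing _ _).mpr h) k
  obtain ⟨⟨x, hx⟩, hxe⟩ := h2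
  rw [← hxe]
  exact hx

/-! ## Degrees, leading coefficients, integrality -/

theorem PhiU_coeff_ordGE (k : ℕ) :
    OrdGE ((PhiU p).coeff k) ((k : ℤ) - p - ((p * p : ℕ) : ℤ)) := by
  have h := modEq_coeff_ordGE (Finset.range p) (fun b => Rb p b) (fun b _ => ordGE_Rb p b)
    (Rinf p) (p * p) (Nat.mul_pos (p_pos p) (p_pos p)) (ordGE_Rinf p) k
  rw [Finset.card_range] at h
  exact h

theorem natDegree_Qpol_le (hp : p.Prime) (k : ℕ) (hk : 1 ≤ k) : (Qpol p hp k).natDegree ≤ p := by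
  apply natDegree_le_of_ordGE (Jser p) p (p_pos p) (ordGE_Jser p) (Jser_coeff p) (Qpol p hp k) p
    ((k : ℤ) - p - ((p * p : ℕ) : ℤ))
  · push_cast
    have : (1 : ℤ) ≤ k := by exact_mod_cast hk
    nlinarith
  · rw [aeval_Qpol']
    exact PhiU_coeff_ordGE p k

theorem natDegree_Qpol_zero_le (hp : p.Prime) : (Qpol p hp 0).natDegree ≤ p + 1 := by
  apply natDegree_le_of_ordGE (Jser p) p (p_pos p) (ordGE_Jser p) (Jser_coeff p) (Qpol p hp 0)
    (p + 1) (((0 : ℕ) : ℤ) - p - ((p * p : ℕ) : ℤ))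
  · push_cast
    have : (1 : ℤ) ≤ p := by exact_mod_cast (p_pos p)
    nlinarith
  · rw [aeval_Qpol']
    exact PhiU_coeff_ordGE p 0

theorem prod_neg_inv_pow {K : Type*} [Field K] {ζ : K} {n : ℕ} (hn : 0 < n)
    (h : IsPrimitiveRoot ζ n) : ∏ b ∈ Finset.range n, (-(ζ ^ b)⁻¹) = -1 := by
  have h1 : Polynomial.nthRoots n (1 : K) = (Multiset.range n).map (fun b => ζ ^ b * 1) :=
    h.nthRoots_eq (one_pow n)
  have h2 : ((Polynomial.nthRoots n (1 : K)).map (fun a => X - C a)).prod = X ^ n - C (1 : K) := by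
    rw [Polynomial.nthRoots]
    apply Polynomial.prod_multiset_X_sub_C_of_monic_of_roots_card_eq
      (Polynomial.monic_X_pow_sub_C 1 hn.ne')
    rw [← Polynomial.nthRoots, h.card_nthRoots_one, Polynomial.natDegree_X_pow_sub_C]
  rw [h1, Multiset.map_map] at h2
  have h3 := congrArg (Polynomial.eval 0) h2
  rw [Polynomial.eval_multiset_prod, Multiset.map_map] at h3
  simp only [Function.comp_apply, mul_one, Polynomial.eval_sub, Polynomial.eval_X,
    Polynomial.eval_C, Polynomial.eval_pow, zero_sub, zero_pow hn.ne'] at h3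
  have h4 : ∏ b ∈ Finset.range n, (-(ζ ^ b)) = -1 := by
    rw [Finset.prod_eq_multiset_prod, Finset.range_val]
    exact h3
  have h5 : ∏ b ∈ Finset.range n, (-(ζ ^ b)⁻¹) = (∏ b ∈ Finset.range n, (-(ζ ^ b)))⁻¹ := by
    rw [← Finset.prod_inv_distrib]
    refine Finset.prod_congr rfl fun b _ => ?_
    rw [inv_neg]
  rw [h5, h4, inv_neg, inv_one]

theorem Qpol_zero_coeff (hp : p.Prime) : (Qpol p hp 0).coeff (p + 1) = 1 := by
  have h1 := aeval_coeff_lead (Jser p) p (p_pos p) (ordGE_Jser p) (Jser_coeff p) (Qpol p hp 0)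
    (p + 1) (natDegree_Qpol_zero_le p hp)
  rw [← h1, aeval_Qpol', PhiU]
  have h2 := modEq_coeff_zero_lead (Finset.range p) (fun b => Rb p b) (fun b _ => ordGE_Rb p b)
    (Rinf p) (p * p) (ordGE_Rinf p)
  rw [Finset.card_range] at h2
  have e : -((p : ℤ) * ((p + 1 : ℕ) : ℤ)) = -((p : ℤ) + ((p * p : ℕ) : ℤ)) := by
    push_cast; ring
  rw [e, h2, Rinf_coeff]
  simp only [Rb_coeff]
  rw [prod_neg_inv_pow (p_pos p) (isPrimitiveRoot_zetaK p)]
  ring

theorem Qpol_p_coeff (hp : p.Prime) : (Qpol p hp p).coeff p = -1 := by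
  have h1 := aeval_coeff_lead (Jser p) p (p_pos p) (ordGE_Jser p) (Jser_coeff p) (Qpol p hp p)
    p (natDegree_Qpol_le p hp p hp.one_le)
  rw [← h1, aeval_Qpol', PhiU]
  have h2 := modEq_coeff_card_lead (Finset.range p) (fun b => Rb p b) (fun b _ => ordGE_Rb p b)
    (Rinf p) (p * p) (by nlinarith [hp.two_le])
  rw [Finset.card_range] at h2
  have e : -((p : ℤ) * (p : ℤ)) = -((p * p : ℕ) : ℤ) := by
    push_cast; ring
  rw [e, h2, Rinf_coeff]

theorem isIntegral_Qpol_coeff (hp : p.Prime) (k i : ℕ) :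
    IsIntegral ℤ ((Qpol p hp k).coeff i) := by
  apply isIntegral_coeff_of_aeval_mem (Jser p) p (p_pos p) (ordGE_Jser p) (Jser_coeff p)
    (Jser_mem_intSer p)
  rw [aeval_Qpol']
  exact PhiU_coeff_mem_intSer p k

/-! ## The relation -/

theorem PhiU_eval_Rinf : (PhiU p).eval (Rinf p) = 0 := by
  rw [PhiU, Polynomial.eval_mul, Polynomial.eval_sub, Polynomial.eval_X, Polynomial.eval_C,
    sub_self, zero_mul]

theorem PhiU_monic : (PhiU p).Monic :=
  (Polynomial.monic_X_sub_C _).mul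
    (Polynomial.monic_prod_of_monic _ _ fun _ _ => Polynomial.monic_X_sub_C _)

theorem PhiU_natDegree : (PhiU p).natDegree = p + 1 := by
  rw [PhiU, Polynomial.Monic.natDegree_mul (Polynomial.monic_X_sub_C _)
    (Polynomial.monic_prod_of_monic _ _ fun _ _ => Polynomial.monic_X_sub_C _),
    Polynomial.natDegree_X_sub_C,
    Polynomial.natDegree_prod_of_monic _ _ fun _ _ => Polynomial.monic_X_sub_C _]
  simp only [Polynomial.natDegree_X_sub_C, Finset.sum_const, Finset.card_range, smul_eq_mul,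
    mul_one]
  ring

theorem PhiU_rel (hp : p.Prime) :
    (Rinf p) ^ (p + 1) +
      ∑ k ∈ Finset.range (p + 1), aeval (Jser p) (Qpol p hp k) * (Rinf p) ^ k = 0 := by
  have h := PhiU_eval_Rinf p
  rw [Polynomial.eval_eq_sum_range' (n := p + 2) (by rw [PhiU_natDegree]; omega),
    Finset.sum_range_succ] at h
  have h1 : (PhiU p).coeff (p + 1) = 1 := by
    have := (PhiU_monic p).coeff_natDegree
    rwa [PhiU_natDegree] at this
  rw [h1, one_mul, add_comm] at h
  rw [← h]
  congr 1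
  refine Finset.sum_congr rfl fun k _ => ?_
  rw [aeval_Qpol']

theorem series_rel (hp : p.Prime) :
    (Jser p) ^ (p + 1) +
      ∑ k ∈ Finset.range (p + 1), aeval S24.jBar (Qpol p hp k) * (Jser p) ^ k = 0 := by
  apply qExpand_injective (R := Kbar) p
  rw [map_zero, map_add, map_pow, map_sum, ← PhiU_rel p hp]
  congr 1
  refine Finset.sum_congr rfl fun k _ => ?_
  rw [map_mul, map_pow]
  congr 1
  exact (Polynomial.aeval_algHom_apply (qExpandAlgHomC Kbar p) S24.jBar (Qpol p hp k)).symm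

/-! ## Transport to the function field and conclusion -/

theorem coeffEmb_qExpand_eq (x : LaurentSeries ℚ) :
    coeffEmb Kbar (qExpand ℚ p x) = qExpand Kbar p (coeffEmb Kbar x) := by
  ext k
  by_cases hd : (p : ℤ) ∣ k
  · obtain ⟨m, rfl⟩ := hd
    rw [coeffEmb_coeff, qExpand_coeff_mul, qExpand_coeff_mul, coeffEmb_coeff]
  · rw [coeffEmb_coeff, qExpand_coeff_of_not_dvd p _ hd, qExpand_coeff_of_not_dvd p _ hd,
      map_zero]

set_option synthInstance.maxHeartbeats 400000 in
set_option maxHeartbeats 1000000 in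
theorem rel_of_series (E : ℕ → Kbar[X])
    (h : (Jser p) ^ (p + 1) +
      ∑ k ∈ Finset.range (p + 1), aeval S24.jBar (E k) * (Jser p) ^ k = 0) :
    (S15.jBarN p) ^ (p + 1) +
      ∑ k ∈ Finset.range (p + 1), aeval (S15.jBar p) (E k) * (S15.jBarN p) ^ k = 0 := by
  have hinj : Function.Injective (modularFunctionFieldBar p).val :=
    (modularFunctionFieldBar p).val.injective
  apply hinj
  have e1 : (modularFunctionFieldBar p).val (S15.jBarN p) = Jser p := by
    show coeffEmb Kbar (qExpand ℚ p jq) = _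
    rw [coeffEmb_qExpand_eq]
    rfl
  have e2 : (modularFunctionFieldBar p).val (S15.jBar p) = S24.jBar := rfl
  rw [map_zero, map_add, map_pow, map_sum, e1, ← h]
  congr 1
  refine Finset.sum_congr rfl fun k _ => ?_
  rw [map_mul, map_pow, e1, ← Polynomial.aeval_algHom_apply, e2]

/-- **MODEQ**: the modular equation of prime level `p` exists, with integral coefficients. -/
theorem stmt_modEq : Stmt_modEq := by
  intro p _ hp
  exact ⟨_, H63.isModEq_of_polys p hp.one_le (Qpol p hp)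
    (fun k hk _ => natDegree_Qpol_le p hp k hk) (natDegree_Qpol_zero_le p hp)
    (Qpol_zero_coeff p hp) (Qpol_p_coeff p hp) (isIntegral_Qpol_coeff p hp)
    (rel_of_series p _ (series_rel p hp))⟩

end Fermat.Agent.S15.H23
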