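/-
S15 / BRIDGE, package BR-NEWTON, part NEWTON-VAL (helper63): the Newton polygon of the modular
equation, as pure ultrametric estimates.

`Φ(X, Y) = X^(p+1) + Y^(p+1) - X^p Y^p + Σ_{i,k ≤ p} c_ik X^i Y^k`, `c_pp = 0`, `|c_ik| ≤ 1`.
If `Φ(b, a) = 0` and `|a| > 1` then `|b|^p = |a|` or `|b| = |a|^p` (`newtonVal_dich`); on the branch
`|b|^p = |a|` one has `∂Φ/∂Y (b, a) ≠ 0` (`newtonVal_simple`).
-/
import Fermat.Agent.S15.H63_NewtonDefs

set_option autoImplicit false

namespace Fermat.Agent.S15.H63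

open Finset

variable {K : Type*} [Field K] (A : ValuationSubring K)

/-- Integers have absolute value `≤ 1`. -/
lemma val_natCast_le_one (n : ℕ) : A.valuation (n : K) ≤ 1 := by
  rw [ValuationSubring.valuation_le_one_iff]
  exact natCast_mem A n

section sums

variable (p : ℕ) (c : ℕ → ℕ → K) (hc : ∀ i k, A.valuation (c i k) ≤ 1) (hcpp : c p p = 0)
include hc hcpp

/-- Strict bound for the lower terms. -/
lemma val_lower_lt (b a : K) (M : A.ValueGroup) (hM : M ≠ 0)
    (h : ∀ i k, i ≤ p → k ≤ p → ¬ (i = p ∧ k = p) →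
      A.valuation b ^ i * A.valuation a ^ k < M) :
    A.valuation (∑ i ∈ range (p + 1), ∑ k ∈ range (p + 1), c i k * b ^ i * a ^ k) < M := by
  apply Valuation.map_sum_lt _ hM
  intro i hi
  apply Valuation.map_sum_lt _ hM
  intro k hk
  rw [mem_range] at hi hk
  by_cases hik : i = p ∧ k = p
  · obtain ⟨rfl, rfl⟩ := hik
    rw [hcpp, zero_mul, zero_mul, map_zero]
    exact zero_lt_iff.mpr hM
  · have h1 := h i k (by omega) (by omega) hik
    calc A.valuation (c i k * b ^ i * a ^ k)
        = A.valuation (c i k) * (A.valuation b ^ i * A.valuation a ^ k) := by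
          rw [map_mul, map_mul, map_pow, map_pow, mul_assoc]
      _ ≤ 1 * (A.valuation b ^ i * A.valuation a ^ k) := mul_le_mul_left (hc i k) _
      _ = A.valuation b ^ i * A.valuation a ^ k := one_mul _
      _ < M := h1

/-- Weak bound for the lower terms, with an extra factor `w i k` of absolute value `≤ 1`. -/
lemma val_lower_le (b : K) (t : ℕ → K) (M : A.ValueGroup)
    (h : ∀ i k, i ≤ p → k ≤ p → ¬ (i = p ∧ k = p) →
      A.valuation b ^ i * A.valuation (t k) ≤ M) :
    A.valuation (∑ i ∈ range (p + 1), ∑ k ∈ range (p + 1), c i k * b ^ i * t k) ≤ M := by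
  apply Valuation.map_sum_le
  intro i hi
  apply Valuation.map_sum_le
  intro k hk
  rw [mem_range] at hi hk
  by_cases hik : i = p ∧ k = p
  · obtain ⟨rfl, rfl⟩ := hik
    rw [hcpp, zero_mul, zero_mul, map_zero]
    exact zero_le
  · have h1 := h i k (by omega) (by omega) hik
    calc A.valuation (c i k * b ^ i * t k)
        = A.valuation (c i k) * (A.valuation b ^ i * A.valuation (t k)) := by
          rw [map_mul, map_mul, map_pow, mul_assoc]
      _ ≤ 1 * (A.valuation b ^ i * A.valuation (t k)) := mul_le_mul_left (hc i k) _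
      _ = A.valuation b ^ i * A.valuation (t k) := one_mul _
      _ ≤ M := h1

end sums

/-! ### Monomials in a linearly ordered group with zero -/

section mono

variable {Γ : Type*} [LinearOrderedCommGroupWithZero Γ]

lemma mono_lt_of_lt_left {v u : Γ} (hv : 1 < v) (hu : 1 < u) {i k p : ℕ} (hi : i < p)
    (hk : k ≤ p) : v ^ i * u ^ k < v ^ p * u ^ p := by
  have h1 : v ^ i < v ^ p := pow_lt_pow_right₀ hv hi
  have h2 : u ^ k ≤ u ^ p := pow_le_pow_right₀ hu.le hk
  have hu0 : 0 < u ^ k := pow_pos (zero_lt_one.trans hu) k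
  have hv0 : 0 < v ^ p := pow_pos (zero_lt_one.trans hv) p
  calc v ^ i * u ^ k < v ^ p * u ^ k := mul_lt_mul_of_pos_right h1 hu0
    _ ≤ v ^ p * u ^ p := mul_le_mul_of_nonneg_left h2 hv0.le

lemma mono_lt_of_lt_right {v u : Γ} (hv : 1 < v) (hu : 1 < u) {i k p : ℕ} (hi : i ≤ p)
    (hk : k < p) : v ^ i * u ^ k < v ^ p * u ^ p := by
  rw [mul_comm (v ^ i), mul_comm (v ^ p)]
  exact mono_lt_of_lt_left hu hv hk hi

lemma mono_lt {v u : Γ} (hv : 1 < v) (hu : 1 < u) {i k p : ℕ} (hi : i ≤ p) (hk : k ≤ p)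
    (hik : ¬ (i = p ∧ k = p)) : v ^ i * u ^ k < v ^ p * u ^ p := by
  rcases Nat.lt_or_ge i p with h | h
  · exact mono_lt_of_lt_left hv hu h hk
  · have hip : i = p := le_antisymm hi h
    have hkp : k < p := by
      rcases Nat.lt_or_ge k p with h' | h'
      · exact h'
      · exact absurd ⟨hip, le_antisymm hk h'⟩ hik
    exact mono_lt_of_lt_right hv hu hi hkp

end mono

/-! ### The dichotomy -/

/-- **(NEWTON-VAL a)** -/
theorem newtonVal_dich (p : ℕ) (hp : 1 ≤ p) (c : ℕ → ℕ → K)
    (hc : ∀ i k, A.valuation (c i k) ≤ 1) (hcpp : c p p = 0) (b a : K)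
    (h : modEqVal p c b a = 0) (ha : 1 < A.valuation a) :
    A.valuation b ^ p = A.valuation a ∨ A.valuation b = A.valuation a ^ p := by
  set v := A.valuation b with hv
  set u := A.valuation a with hu
  have hu0 : 0 < u := zero_lt_one.trans ha
  -- the equation
  unfold modEqVal at h
  simp only [Algebra.algebraMap_self_apply] at h
  set S := ∑ i ∈ range (p + 1), ∑ k ∈ range (p + 1), c i k * b ^ i * a ^ k with hS
  have hT1 : A.valuation (b ^ (p + 1)) = v ^ p * v := by rw [map_pow, pow_succ]
  have hT2 : A.valuation (a ^ (p + 1)) = u ^ p * u := by rw [map_pow, pow_succ]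
  have hT3 : A.valuation (b ^ p * a ^ p) = v ^ p * u ^ p := by rw [map_mul, map_pow, map_pow]
  -- Step 1: `1 < v`
  have hv1 : 1 < v := by
    by_contra hcon
    rw [not_lt] at hcon
    have hup : 0 < u ^ p * u := mul_pos (pow_pos hu0 p) hu0
    have hupu : u ^ p < u ^ p * u := by
      calc u ^ p = u ^ p * 1 := (mul_one _).symm
        _ < u ^ p * u := mul_lt_mul_of_pos_left ha (pow_pos hu0 p)
    have b1 : A.valuation (b ^ (p + 1)) < u ^ p * u := by
      rw [map_pow]
      calc v ^ (p + 1) ≤ 1 := pow_le_one₀ zero_le hcon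
        _ ≤ u ^ p := one_le_pow₀ ha.le
        _ < u ^ p * u := hupu
    have b3 : A.valuation (b ^ p * a ^ p) < u ^ p * u := by
      rw [hT3]
      calc v ^ p * u ^ p ≤ 1 * u ^ p := mul_le_mul_left (pow_le_one₀ zero_le hcon) _
        _ = u ^ p := one_mul _
        _ < u ^ p * u := hupu
    have bS : A.valuation S < u ^ p * u := by
      apply val_lower_lt A p c hc hcpp b a _ hup.ne'
      intro i k _ hk _
      calc v ^ i * u ^ k ≤ 1 * u ^ k := mul_le_mul_left (pow_le_one₀ zero_le hcon) _
        _ = u ^ k := one_mul _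
        _ ≤ u ^ p := pow_le_pow_right₀ ha.le hk
        _ < u ^ p * u := hupu
    have hrest : A.valuation (b ^ (p + 1) - b ^ p * a ^ p + S) < A.valuation (a ^ (p + 1)) := by
      rw [hT2]
      exact Valuation.map_add_lt _ (Valuation.map_sub_lt _ b1 b3) bS
    have := Valuation.map_add_eq_of_lt_left _ hrest
    have e : a ^ (p + 1) + (b ^ (p + 1) - b ^ p * a ^ p + S) = 0 := by linear_combination h
    rw [e, map_zero, hT2] at this
    exact hup.ne this
  have hv0 : 0 < v := zero_lt_one.trans hv1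
  have hvp : 0 < v ^ p := pow_pos hv0 p
  have hup : 0 < u ^ p := pow_pos hu0 p
  -- Step 2: the lower terms are smaller than `v^p u^p`
  have bS : A.valuation S < v ^ p * u ^ p := by
    apply val_lower_lt A p c hc hcpp b a _ (mul_pos hvp hup).ne'
    intro i k hi hk hik
    exact mono_lt hv1 ha hi hk hik
  -- Step 3: trichotomy
  rcases lt_trichotomy v (u ^ p) with h1 | h1 | h1
  · rcases lt_trichotomy u (v ^ p) with h2 | h2 | h2
    · -- `T3` dominates
      exfalso
      have b1 : A.valuation (b ^ (p + 1)) < v ^ p * u ^ p := by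
        rw [hT1]; exact mul_lt_mul_of_pos_left h1 hvp
      have b2 : A.valuation (a ^ (p + 1)) < v ^ p * u ^ p := by
        rw [hT2, mul_comm (v ^ p)]; exact mul_lt_mul_of_pos_left h2 hup
      have hrest : A.valuation (b ^ (p + 1) + a ^ (p + 1) + S) <
          A.valuation (b ^ p * a ^ p) := by
        rw [hT3]
        exact Valuation.map_add_lt _ (Valuation.map_add_lt _ b1 b2) bS
      have := Valuation.map_sub_eq_of_lt_left _ hrest
      have e : b ^ p * a ^ p - (b ^ (p + 1) + a ^ (p + 1) + S) = 0 := by linear_combination -h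
      rw [e, map_zero, hT3] at this
      exact (mul_pos hvp hup).ne this
    · exact Or.inl h2.symm
    · -- `T2` dominates
      exfalso
      have hvu : v < u := by
        calc v = v ^ 1 := (pow_one v).symm
          _ ≤ v ^ p := pow_le_pow_right₀ hv1.le hp
          _ < u := h2
      have b1 : A.valuation (b ^ (p + 1)) < u ^ p * u := by
        rw [hT1, ← pow_succ, ← pow_succ]
        exact pow_lt_pow_left₀ hvu zero_le (Nat.succ_ne_zero p)
      have b3 : A.valuation (b ^ p * a ^ p) < u ^ p * u := by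
        rw [hT3, mul_comm (v ^ p)]; exact mul_lt_mul_of_pos_left h2 hup
      have bS' : A.valuation S < u ^ p * u := by
        rw [hT3] at b3; exact bS.trans b3
      have hrest : A.valuation (b ^ (p + 1) - b ^ p * a ^ p + S) < A.valuation (a ^ (p + 1)) := by
        rw [hT2]
        exact Valuation.map_add_lt _ (Valuation.map_sub_lt _ b1 b3) bS'
      have := Valuation.map_add_eq_of_lt_left _ hrest
      have e : a ^ (p + 1) + (b ^ (p + 1) - b ^ p * a ^ p + S) = 0 := by linear_combination h
      rw [e, map_zero, hT2] at this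
      exact (mul_pos hup hu0).ne this
  · exact Or.inr h1
  · -- `T1` dominates
    exfalso
    have huv : u < v := by
      calc u = u ^ 1 := (pow_one u).symm
        _ ≤ u ^ p := pow_le_pow_right₀ ha.le hp
        _ < v := h1
    have b2 : A.valuation (a ^ (p + 1)) < v ^ p * v := by
      rw [hT2, ← pow_succ, ← pow_succ]
      exact pow_lt_pow_left₀ huv zero_le (Nat.succ_ne_zero p)
    have b3 : A.valuation (b ^ p * a ^ p) < v ^ p * v := by
      rw [hT3]; exact mul_lt_mul_of_pos_left h1 hvp
    have bS' : A.valuation S < v ^ p * v := by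
      rw [hT3] at b3; exact bS.trans b3
    have hrest : A.valuation (a ^ (p + 1) - b ^ p * a ^ p + S) < A.valuation (b ^ (p + 1)) := by
      rw [hT1]
      exact Valuation.map_add_lt _ (Valuation.map_sub_lt _ b2 b3) bS'
    have := Valuation.map_add_eq_of_lt_left _ hrest
    have e : b ^ (p + 1) + (a ^ (p + 1) - b ^ p * a ^ p + S) = 0 := by linear_combination h
    rw [e, map_zero, hT1] at this
    exact (mul_pos hvp hv0).ne this

theorem stmt_newtonVal_dich : Stmt_newtonVal_dich := by
  intro K _ A p hp c hc hcpp b a h ha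
  exact newtonVal_dich A p hp c hc hcpp b a h ha

/-! ### Simplicity of the root on the branch `|a| = |b|^p` -/

section mono2

variable {Γ : Type*} [LinearOrderedCommGroupWithZero Γ]

/-- `v^i u^k ≤ v^(p-1) u^p` for `(i, k) ≠ (p, p)`, when `u = v^p`. -/
lemma mono_le_branch {v u : Γ} (hv : 1 < v) {p : ℕ} (hvu : v ^ p = u)
    {i k : ℕ} (hi : i ≤ p) (hk : k ≤ p) (hik : ¬ (i = p ∧ k = p)) :
    v ^ i * u ^ k ≤ v ^ (p - 1) * u ^ p := by
  have hv0 : 0 < v := zero_lt_one.trans hv
  have hu1 : 1 ≤ u := by rw [← hvu]; exact one_le_pow₀ hv.le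
  have hu0 : 0 < u := zero_lt_one.trans_le hu1
  rcases Nat.lt_or_ge k p with h | h
  · calc v ^ i * u ^ k ≤ v ^ p * u ^ k :=
          mul_le_mul_left (pow_le_pow_right₀ hv.le hi) _
      _ = u ^ (k + 1) := by rw [hvu, pow_succ, mul_comm]
      _ ≤ u ^ p := pow_le_pow_right₀ hu1 h
      _ = 1 * u ^ p := (one_mul _).symm
      _ ≤ v ^ (p - 1) * u ^ p := mul_le_mul_left (one_le_pow₀ hv.le) _
  · have hkp : k = p := le_antisymm hk h
    have hip : i ≤ p - 1 := by
      rcases Nat.lt_or_ge i p with h' | h'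
      · omega
      · exact absurd ⟨le_antisymm hi h', hkp⟩ hik
    rw [hkp]
    exact mul_le_mul_left (pow_le_pow_right₀ hv.le hip) _

/-- `v^i u^k < u^(p-1) u` for `(i, k+1) ≠ (p, p)`, when `u = v^p`. -/
lemma mono_lt_branch {v u : Γ} (hv : 1 < v) {p : ℕ} (hp : 1 ≤ p) (hvu : v ^ p = u)
    {i k : ℕ} (hi : i ≤ p) (hk : k + 1 ≤ p) (hik : ¬ (i = p ∧ k + 1 = p)) :
    v ^ i * u ^ k < u ^ p := by
  have hv0 : 0 < v := zero_lt_one.trans hv
  have hu1 : 1 < u := by rw [← hvu]; exact one_lt_pow₀ hv (by omega)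
  have hu0 : 0 < u := zero_lt_one.trans hu1
  rcases Nat.lt_or_ge (k + 1) p with h | h
  · calc v ^ i * u ^ k ≤ v ^ p * u ^ k :=
          mul_le_mul_left (pow_le_pow_right₀ hv.le hi) _
      _ = u ^ (k + 1) := by rw [hvu, pow_succ, mul_comm]
      _ < u ^ p := pow_lt_pow_right₀ hu1 h
  · have hkp : k + 1 = p := le_antisymm hk h
    have hip : i < p := by
      rcases Nat.lt_or_ge i p with h' | h'
      · exact h'
      · exact absurd ⟨le_antisymm hi h', hkp⟩ hik
    calc v ^ i * u ^ k < v ^ p * u ^ k :=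
          mul_lt_mul_of_pos_right (pow_lt_pow_right₀ hv hip) (pow_pos hu0 k)
      _ = u ^ (k + 1) := by rw [hvu, pow_succ, mul_comm]
      _ = u ^ p := by rw [hkp]

end mono2

/-- **(NEWTON-VAL b)** -/
theorem newtonVal_simple (p : ℕ) (hp : 2 ≤ p) (c : ℕ → ℕ → K)
    (hc : ∀ i k, A.valuation (c i k) ≤ 1) (hcpp : c p p = 0) (b a : K)
    (h : modEqVal p c b a = 0) (ha : 1 < A.valuation a)
    (hba : A.valuation b ^ p = A.valuation a) : modEqDerivY p c b a ≠ 0 := by
  set v := A.valuation b with hv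
  set u := A.valuation a with hu
  have hp0 : p ≠ 0 := by omega
  have hu0 : 0 < u := zero_lt_one.trans ha
  have hv1 : 1 < v := by
    by_contra hcon
    rw [not_lt] at hcon
    have h1 : v ^ p ≤ 1 := pow_le_one₀ zero_le hcon
    rw [hba] at h1
    exact absurd ha (not_lt.mpr h1)
  have hv0 : 0 < v := zero_lt_one.trans hv1
  have hup : 0 < u ^ p := pow_pos hu0 p
  -- the equation
  unfold modEqVal at h
  simp only [Algebra.algebraMap_self_apply] at h
  set S := ∑ i ∈ range (p + 1), ∑ k ∈ range (p + 1), c i k * b ^ i * a ^ k with hS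
  -- Step A: `|a - b^p| ≤ v^(p-1)`
  have bS : A.valuation S ≤ v ^ (p - 1) * u ^ p := by
    apply val_lower_le A p c hc hcpp b (fun k => a ^ k)
    intro i k hi hk hik
    rw [map_pow]
    exact mono_le_branch hv1 hba hi hk hik
  have b1 : A.valuation (b ^ (p + 1)) ≤ v ^ (p - 1) * u ^ p := by
    rw [map_pow]
    have e : v ^ (p + 1) = v ^ (p - 1) * v ^ 2 := by
      rw [← pow_add]; congr 1; omega
    rw [e]
    have h2 : v ^ 2 ≤ u ^ p := by
      calc v ^ 2 ≤ v ^ p := pow_le_pow_right₀ hv1.le hp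
        _ = u := hba
        _ = u ^ 1 := (pow_one u).symm
        _ ≤ u ^ p := pow_le_pow_right₀ ha.le (by omega)
    exact mul_le_mul_right h2 _
  have e1 : a ^ p * (a - b ^ p) = -(b ^ (p + 1) + S) := by linear_combination h
  have bA : A.valuation (a - b ^ p) ≤ v ^ (p - 1) := by
    have h3 : A.valuation (a ^ p * (a - b ^ p)) ≤ v ^ (p - 1) * u ^ p := by
      rw [e1, Valuation.map_neg]
      exact Valuation.map_add_le _ b1 bS
    rw [map_mul, map_pow, mul_comm] at h3
    exact le_of_mul_le_mul_right h3 hup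
  -- Step B: `|a + p (a - b^p)| = u`
  have bB : A.valuation (a + (p : K) * (a - b ^ p)) = u := by
    apply Valuation.map_add_eq_of_lt_left
    rw [map_mul]
    calc A.valuation (p : K) * A.valuation (a - b ^ p)
        ≤ 1 * v ^ (p - 1) := mul_le_mul' (val_natCast_le_one A p) bA
      _ = v ^ (p - 1) := one_mul _
      _ < v ^ p := pow_lt_pow_right₀ hv1 (by omega)
      _ = u := hba
  -- Step C: the main term
  have hap : a ^ p = a ^ (p - 1) * a := (pow_sub_one_mul hp0 a).symm
  have hup' : u ^ p = u ^ (p - 1) * u := (pow_sub_one_mul hp0 u).symm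
  set T := a ^ (p - 1) * (a + (p : K) * (a - b ^ p)) with hT
  have bT : A.valuation T = u ^ p := by
    rw [hT, map_mul, map_pow, bB, ← hup']
  -- Step D: the lower terms of the derivative
  set S' := ∑ i ∈ range (p + 1), ∑ k ∈ range (p + 1),
      c i k * b ^ i * ((k : ℕ) * a ^ (k - 1)) with hS'
  have bS' : A.valuation S' < u ^ p := by
    apply Valuation.map_sum_lt _ hup.ne'
    intro i hi
    apply Valuation.map_sum_lt _ hup.ne'
    intro k hk
    rw [mem_range] at hi hk
    by_cases hik : i = p ∧ k = p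
    · obtain ⟨rfl, rfl⟩ := hik
      rw [hcpp, zero_mul, zero_mul, map_zero]
      exact hup
    · rcases Nat.eq_zero_or_pos k with hk0 | hk0
      · rw [hk0, Nat.cast_zero, zero_mul, mul_zero, map_zero]
        exact hup
      · obtain ⟨k', rfl⟩ : ∃ k', k = k' + 1 := ⟨k - 1, by omega⟩
        have h4 := mono_lt_branch hv1 (by omega : 1 ≤ p) hba (i := i) (k := k') (by omega)
          (by omega) hik
        calc A.valuation (c i (k' + 1) * b ^ i * (((k' + 1 : ℕ) : K) * a ^ (k' + 1 - 1)))
            = A.valuation (c i (k' + 1)) * A.valuation (((k' + 1 : ℕ) : K)) *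
                (v ^ i * u ^ k') := by
              rw [map_mul, map_mul, map_mul, map_pow, map_pow, Nat.add_sub_cancel]
              exact mul_mul_mul_comm _ _ _ _
          _ ≤ 1 * 1 * (v ^ i * u ^ k') :=
              mul_le_mul_left (mul_le_mul' (hc i (k' + 1)) (val_natCast_le_one A _)) _
          _ = v ^ i * u ^ k' := by rw [one_mul, one_mul]
          _ < u ^ p := h4
  -- Step E
  have eD : modEqDerivY p c b a = T + S' := by
    unfold modEqDerivY
    rw [hT, hap]
    push_cast
    ring
  intro h0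
  have h5 : A.valuation (T + S') = A.valuation T :=
    Valuation.map_add_eq_of_lt_left _ (by rw [bT]; exact bS')
  rw [← eD, h0, map_zero, bT] at h5
  exact hup.ne h5

theorem stmt_newtonVal_simple : Stmt_newtonVal_simple := by
  intro K _ A p hp c hc hcpp b a h ha hba
  exact newtonVal_simple A p hp c hc hcpp b a h ha hba

end Fermat.Agent.S15.H63
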