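/-
S15 / BRIDGE, package BR-VAL (helper11), part A: the valuation estimate.

`K` a field with a valuation `v`, `W` a Weierstrass curve over `K` whose 2-division polynomial is
`4 (x - e₁)(x - e₂)(x - e₃)`, `N` a finite subgroup of odd order `n ≥ 3`.  The quotient curve has
root differences `D₁₂ : D₁₃ : D₂₃ = d₁₂ⁿ Ξ₃² : d₁₃ⁿ Ξ₂² : d₂₃ⁿ Ξ₁²` (`d_ij = e_j - e_i`,
`Ξ_i = ∏_{R ∈ N∖0} (x_R - e_i)`), `D₁₃ = D₁₂ + D₂₃` (KEY), `j' = jD D₁₂ D₁₃ D₂₃`.

Local hypotheses ("multiplicative reduction, node at `e₁ ≡ e₂`"):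
`|4| ≤ 1`, `|e₂ - e₁| < 1`, `|4 (e₃ - e₁)| = |4 (e₃ - e₂)| = 1`.  With `w = (e₂ - e₁)/4`:
* if `|x_R - e₁| ≥ 1` for all `R ∈ N∖0` then `1 ≤ |j'| |w|^(2n)`;
* if `|x_R - e₁| < 1` for all `R ∈ N∖0` then `|j'| |w|^(2n) < 1`.
(For the curve itself `|j| |w|² = 1`.)
-/
import Fermat.Agent.S12.H11_Key
import Mathlib.RingTheory.Valuation.Basic

set_option autoImplicit false

namespace Fermat.Agent.S15.H11

open WeierstrassCurve Polynomial Fermat.Agent.Lib.Torsion.H11 Fermat.Agent.S12.H11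

section lam

variable {K : Type*} [Field K] {Γ₀ : Type*} [LinearOrderedCommGroupWithZero Γ₀]
  (v : Valuation K Γ₀)

/-- The `j`-invariant in terms of the root differences. -/
def jD (d12 d13 d23 : K) : K := 32 * (d12 ^ 2 + d13 ^ 2 + d23 ^ 2) ^ 3 / (d12 * d13 * d23) ^ 2

/-- The normalised form of `j · w^(2n)`. -/
lemma jD_mul_pow {D12 D13 D23 w t : K} (n : ℕ) (h13 : D13 = D12 + D23) (h12 : D12 ≠ 0)
    (h13' : D13 ≠ 0) (h23 : D23 ≠ 0) (hw : w ≠ 0) (ht : t ≠ 0)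
    (hlam : D12 = 16 * w ^ n * t * D23) :
    jD D12 D13 D23 * w ^ (2 * n) =
      ((D12 / D23) ^ 2 + D12 / D23 + 1) ^ 3 / (t * (1 + D12 / D23)) ^ 2 := by
  have h2n : w ^ (2 * n) = (w ^ n) ^ 2 := by rw [mul_comm, pow_mul]
  have hwn : w ^ n ≠ 0 := pow_ne_zero n hw
  rw [h2n]
  generalize w ^ n = W at hlam hwn ⊢
  subst hlam
  subst h13
  have hD12 : 16 * W * t * D23 / D23 = 16 * W * t := by field_simp
  rw [hD12]
  have hs : (1 : K) + 16 * W * t ≠ 0 := by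
    intro h0
    apply h13'
    have : 16 * W * t * D23 + D23 = D23 * (1 + 16 * W * t) := by ring
    rw [this, h0, mul_zero]
  have h16 : (16 : K) ≠ 0 := by
    intro h0
    apply h12
    rw [h0]; ring
  have h2 : (2 : K) ≠ 0 := by
    intro h0
    apply h16
    have : (16 : K) = 2 * 2 * 2 * 2 := by norm_num
    rw [this, h0]; ring
  have e1 : 16 * W * t * D23 + D23 = D23 * (1 + 16 * W * t) := by ring
  unfold jD
  rw [e1]
  have e2 : (32 : K) = 2 * 16 := by norm_num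
  rw [e2]
  field_simp
  ring

variable {v}

lemma val_lam_poly_of_lt {lam : K} (h : v lam < 1) : v (lam ^ 2 + lam + 1) = 1 := by
  have h2 : v (lam ^ 2 + lam) < 1 := by
    apply v.map_add_lt _ h
    rw [map_pow]
    exact pow_lt_one₀ zero_le h (by norm_num)
  have : lam ^ 2 + lam + 1 = 1 + (lam ^ 2 + lam) := by ring
  rw [this]
  exact v.map_one_add_of_lt h2

lemma val_lam_poly_le {lam : K} (h : v lam ≤ 1) : v (lam ^ 2 + lam + 1) ≤ 1 := by
  apply v.map_add_le (v.map_add_le _ h) (le_of_eq v.map_one)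
  rw [map_pow]
  exact pow_le_one₀ zero_le h

lemma val_le_one_of_one_add {lam : K} (h : v (1 + lam) = 1) : v lam ≤ 1 := by
  by_contra hlt
  rw [not_le] at hlt
  have : v (1 + lam) = v lam := by
    apply v.map_add_eq_of_lt_right
    rw [v.map_one]; exact hlt
  rw [this] at h
  exact absurd h (ne_of_gt hlt)

variable (v)

/-- Case (a): `|λ| < 1`, `|t| ≤ 1`. -/
lemma one_le_val_jD {D12 D13 D23 w t : K} (n : ℕ) (h13 : D13 = D12 + D23) (h12 : D12 ≠ 0)
    (h13' : D13 ≠ 0) (h23 : D23 ≠ 0) (hw : w ≠ 0) (ht : t ≠ 0)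
    (hlam : D12 = 16 * w ^ n * t * D23) (hl : v (D12 / D23) < 1) (ht1 : v t ≤ 1) :
    1 ≤ v (jD D12 D13 D23) * v w ^ (2 * n) := by
  rw [← map_pow, ← map_mul, jD_mul_pow n h13 h12 h13' h23 hw ht hlam, map_div₀, map_pow,
    map_pow, map_mul, val_lam_poly_of_lt hl, v.map_one_add_of_lt hl, one_pow, mul_one]
  have ht0 : v t ≠ 0 := (v.ne_zero_iff).mpr ht
  have ht2 : v t ^ 2 ≤ 1 := pow_le_one₀ zero_le ht1
  rw [one_div]
  exact (one_le_inv₀ (pow_pos (zero_lt_iff.mpr ht0) 2)).mpr ht2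

/-- Case (b): `|1 + λ| = 1`, `|t| > 1`. -/
lemma val_jD_lt_one {D12 D13 D23 w t : K} (n : ℕ) (h13 : D13 = D12 + D23) (h12 : D12 ≠ 0)
    (h13' : D13 ≠ 0) (h23 : D23 ≠ 0) (hw : w ≠ 0) (ht : t ≠ 0)
    (hlam : D12 = 16 * w ^ n * t * D23) (h1 : v (1 + D12 / D23) = 1) (ht1 : 1 < v t) :
    v (jD D12 D13 D23) * v w ^ (2 * n) < 1 := by
  rw [← map_pow, ← map_mul, jD_mul_pow n h13 h12 h13' h23 hw ht hlam, map_div₀, map_pow,
    map_pow, map_mul, h1, mul_one]
  have hl : v (D12 / D23) ≤ 1 := val_le_one_of_one_add h1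
  have hp : v ((D12 / D23) ^ 2 + D12 / D23 + 1) ^ 3 ≤ 1 :=
    pow_le_one₀ zero_le (val_lam_poly_le hl)
  have ht2 : 1 < v t ^ 2 := one_lt_pow₀ ht1 (by norm_num)
  have hpos : 0 < v t ^ 2 := lt_trans zero_lt_one ht2
  rw [div_lt_one₀ hpos]
  exact lt_of_le_of_lt hp ht2

/-- From the dimensionless estimate to `|j| ≤ |j'|`. -/
lemma le_of_one_le_mul {a J x : Γ₀} {n : ℕ} (hn : n ≠ 0) (hw : a * x ^ 2 = 1) (hx : x < 1)
    (h : 1 ≤ J * x ^ (2 * n)) : a ≤ J := by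
  have hx0 : x ≠ 0 := by
    rintro rfl
    simp at hw
  have ha1 : 1 ≤ a := by
    by_contra hlt
    rw [not_le] at hlt
    have : a * x ^ 2 < 1 := by
      calc a * x ^ 2 ≤ a * 1 := by
            gcongr
            exact pow_le_one₀ zero_le hx.le
        _ = a := mul_one a
        _ < 1 := hlt
    rw [hw] at this
    exact lt_irrefl _ this
  have hpow : a ^ n * x ^ (2 * n) = 1 := by
    rw [pow_mul, ← mul_pow, hw, one_pow]
  calc a ≤ a ^ n := le_self_pow₀ ha1 hn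
    _ = a ^ n * 1 := (mul_one _).symm
    _ ≤ a ^ n * (J * x ^ (2 * n)) := by gcongr
    _ = J * (a ^ n * x ^ (2 * n)) := by rw [mul_left_comm]
    _ = J := by rw [hpow, mul_one]

/-- From the dimensionless estimate to `|j'| < |j|ⁿ`. -/
lemma lt_pow_of_mul_lt_one {a J x : Γ₀} {n : ℕ} (hw : a * x ^ 2 = 1)
    (h : J * x ^ (2 * n) < 1) : J < a ^ n := by
  have ha0 : a ≠ 0 := by
    rintro rfl
    simp at hw
  have hpow : a ^ n * x ^ (2 * n) = 1 := by
    rw [pow_mul, ← mul_pow, hw, one_pow]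
  have han : 0 < a ^ n := pow_pos (zero_lt_iff.mpr ha0) n
  calc J = J * (a ^ n * x ^ (2 * n)) := by rw [hpow, mul_one]
    _ = a ^ n * (J * x ^ (2 * n)) := by rw [mul_left_comm]
    _ < a ^ n * 1 := by gcongr
    _ = a ^ n := mul_one _

end lam

section curve

variable {K : Type*} [Field K] [DecidableEq K] {Γ₀ : Type*} [LinearOrderedCommGroupWithZero Γ₀]
  (v : Valuation K Γ₀) (W : Affine K) (N : AddSubgroup W.Point) [Fintype N]
  {e₁ e₂ e₃ : K} (H : TwoTors W e₁ e₂ e₃)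
include H

/-- The duplication formula relative to a 2-torsion abscissa. -/
lemma xc_two_smul_sub_root {x y : K} (h : W.Nonsingular x y) (hy : y ≠ W.negY x y) :
    (xc W ((2 : ℕ) • Affine.Point.some x y h) - e₁) * psi2sq W x =
      ((x - e₁) ^ 2 - (e₁ - e₂) * (e₁ - e₃)) ^ 2 := by
  have h1 := xc_two_smul W h hy
  have h2 := symF_self W e₁ x
  have h3 := H.symF_root x x
  rw [symF_comm12, symF_comm23] at h2
  rw [sub_mul, h1, ← h2, h3]
  ring

/-- In the "node" case no nonzero point of `N` is closer to `e₁` than `e₂` is. -/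
lemma dup_bound (hodd : Odd (Fintype.card N)) (h4 : v 4 ≤ 1) (h12 : v (e₂ - e₁) < v 4)
    (h13 : v (4 * (e₃ - e₁)) = 1)
    (hout : ∀ R ∈ N, R ≠ 0 → v (xc W R - e₁) < 1) {R : W.Point} (hR : R ∈ N) (hR0 : R ≠ 0) :
    v (e₂ - e₁) < v (xc W R - e₁) := by
  by_contra hle
  rw [not_lt] at hle
  have h2R0 : (2 : ℕ) • R ≠ 0 := fun h0 => hR0 (eq_zero_of_two_nsmul W N hodd hR h0)
  have h2R : (2 : ℕ) • R ∈ N := N.nsmul_mem hR 2
  have hX2 := hout _ h2R h2R0
  have hx1 : xc W R ≠ e₁ := xc_ne_root W N H hodd hR hR0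
  have hx2 : xc W R ≠ e₂ := xc_ne_root W N H.perm12 hodd hR hR0
  cases R with
  | zero => exact hR0 rfl
  | some x y h =>
    simp only [xc_some] at hle hx1 hx2
    have hy : y ≠ W.negY x y := fun hy => h2R0 ((two_smul_eq_zero_iff W h).mpr hy)
    have key := xc_two_smul_sub_root W H h hy
    rw [H.psi2sq_eq] at key
    set X2 := xc W ((2 : ℕ) • Affine.Point.some x y h) with hX2def
    have key16 : 16 * (X2 - e₁) * ((x - e₁) * (x - e₂) * (4 * (x - e₁) - 4 * (e₃ - e₁))) =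
        (4 * (x - e₁) ^ 2 - (e₂ - e₁) * (4 * (e₃ - e₁))) ^ 2 := by
      linear_combination 16 * key
    have hd1 : v (e₂ - e₁) < 1 := lt_of_lt_of_le h12 h4
    have hd0 : v (e₂ - e₁) ≠ 0 := by
      intro h0
      rw [h0] at hle
      exact (v.ne_zero_iff.mpr (sub_ne_zero.mpr hx1)) (le_antisymm hle zero_le)
    have hdpos : 0 < v (e₂ - e₁) := zero_lt_iff.mpr hd0
    have ht1 : v (x - e₁) < 1 := lt_of_le_of_lt hle hd1
    -- `|4 t - u| = 1`
    have hu : v (4 * (x - e₁) - 4 * (e₃ - e₁)) = 1 := by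
      rw [← h13]
      apply v.map_sub_eq_of_lt_right
      rw [h13, map_mul]
      calc v 4 * v (x - e₁) ≤ 1 * v (x - e₁) := by gcongr
        _ = v (x - e₁) := one_mul _
        _ < 1 := ht1
    -- `|t - d| ≤ |d|`
    have htd : v (x - e₂) ≤ v (e₂ - e₁) := by
      have : x - e₂ = (x - e₁) - (e₂ - e₁) := by ring
      rw [this]
      exact v.map_sub_le hle le_rfl
    -- `|4 t² - d u| = |d|`
    have hnum : v (4 * (x - e₁) ^ 2 - (e₂ - e₁) * (4 * (e₃ - e₁))) = v (e₂ - e₁) := by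
      have hdu : v ((e₂ - e₁) * (4 * (e₃ - e₁))) = v (e₂ - e₁) := by
        rw [map_mul, h13, mul_one]
      rw [← hdu]
      apply v.map_sub_eq_of_lt_right
      rw [hdu, map_mul, map_pow]
      calc v 4 * v (x - e₁) ^ 2 ≤ 1 * v (e₂ - e₁) ^ 2 := by gcongr
        _ = v (e₂ - e₁) * v (e₂ - e₁) := by rw [one_mul, sq]
        _ < 1 * v (e₂ - e₁) := by gcongr
        _ = v (e₂ - e₁) := one_mul _
    have hval := congrArg v key16
    rw [map_mul, map_mul, map_mul, map_mul, map_pow, hu, hnum, mul_one] at hval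
    have h16 : v (16 : K) ≤ 1 := by
      have : (16 : K) = 4 * 4 := by norm_num
      rw [this, map_mul]
      calc v 4 * v 4 ≤ 1 * 1 := by gcongr
        _ = 1 := one_mul _
    have hlt : v 16 * v (X2 - e₁) * (v (x - e₁) * v (x - e₂)) < v (e₂ - e₁) ^ 2 := by
      have hpos1 : 0 < v (x - e₁) := zero_lt_iff.mpr (v.ne_zero_iff.mpr (sub_ne_zero.mpr hx1))
      have hpos2 : 0 < v (x - e₂) := zero_lt_iff.mpr (v.ne_zero_iff.mpr (sub_ne_zero.mpr hx2))
      have hX2' : v 16 * v (X2 - e₁) < 1 := by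
        calc v 16 * v (X2 - e₁) ≤ 1 * v (X2 - e₁) := by gcongr
          _ = v (X2 - e₁) := one_mul _
          _ < 1 := hX2
      calc v 16 * v (X2 - e₁) * (v (x - e₁) * v (x - e₂))
          < 1 * (v (x - e₁) * v (x - e₂)) :=
            mul_lt_mul_of_pos_right hX2' (mul_pos hpos1 hpos2)
        _ = v (x - e₁) * v (x - e₂) := one_mul _
        _ ≤ v (e₂ - e₁) * v (e₂ - e₁) := by gcongr
        _ = v (e₂ - e₁) ^ 2 := (sq _).symm
    rw [hval] at hlt
    exact lt_irrefl _ hlt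

end curve

section quot

variable {K : Type*} [Field K] [DecidableEq K] {Γ₀ : Type*} [LinearOrderedCommGroupWithZero Γ₀]
  (v : Valuation K Γ₀) (W : Affine K) (N : AddSubgroup W.Point) [Fintype N]

/-- The root difference `e'_j - e'_i = (e_j - e_i)ⁿ Ξ_k / (Ξ_i Ξ_j)` of the quotient curve. -/
noncomputable def qD (e e' e'' : K) : K :=
  (e' - e) ^ Fintype.card N * Xi W N e'' / (Xi W N e * Xi W N e')

/-- The normalised ratio `t`. -/
noncomputable def tPar (e₁ e₂ e₃ : K) : K :=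
  (∏ R ∈ nz W N, (4 * (xc W (R : W.Point) - e₃)) / (xc W (R : W.Point) - e₁)) ^ 2 /
    (4 * (e₃ - e₂)) ^ Fintype.card N

lemma prod_ratio (e₁ e₃ : K) :
    (∏ R ∈ nz W N, (4 * (xc W (R : W.Point) - e₃)) / (xc W (R : W.Point) - e₁)) =
      4 ^ (Fintype.card N - 1) * Xi W N e₃ / Xi W N e₁ := by
  rw [Finset.prod_div_distrib, Finset.prod_mul_distrib, Finset.prod_const, card_nz]
  rfl

variable {e₁ e₂ e₃ : K} (H : TwoTors W e₁ e₂ e₃)
include H

lemma qD_ne_zero (hodd : Odd (Fintype.card N)) (h12 : e₁ ≠ e₂) : qD W N e₁ e₂ e₃ ≠ 0 := by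
  unfold qD
  have h1 := Xi_ne_zero W N H hodd
  have h2 := Xi_ne_zero W N H.perm12 hodd
  have h3 := Xi_ne_zero W N H.rot.rot hodd
  exact div_ne_zero (mul_ne_zero (pow_ne_zero _ (sub_ne_zero.mpr h12.symm)) h3)
    (mul_ne_zero h1 h2)

lemma qD_lam (hodd : Odd (Fintype.card N)) (h4 : (4 : K) ≠ 0) (h23 : e₂ ≠ e₃) :
    qD W N e₁ e₂ e₃ =
      16 * ((e₂ - e₁) / 4) ^ Fintype.card N * tPar W N e₁ e₂ e₃ * qD W N e₂ e₃ e₁ := by
  have h1 := Xi_ne_zero W N H hodd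
  have h2 := Xi_ne_zero W N H.perm12 hodd
  have h3 := Xi_ne_zero W N H.rot.rot hodd
  obtain ⟨m, hm⟩ : ∃ m, Fintype.card N = m + 1 := by
    obtain ⟨k, hk⟩ := hodd
    exact ⟨2 * k, hk⟩
  unfold qD tPar
  rw [prod_ratio, hm, Nat.add_sub_cancel, div_pow, mul_pow 4 (e₃ - e₂), pow_succ (4 : K) m]
  have hd : (e₃ - e₂) ^ (m + 1) ≠ 0 := pow_ne_zero _ (sub_ne_zero.mpr h23.symm)
  have hF : (4 : K) ^ m ≠ 0 := pow_ne_zero _ h4
  generalize (e₃ - e₂) ^ (m + 1) = b at hd ⊢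
  generalize (e₂ - e₁) ^ (m + 1) = a
  generalize (4 : K) ^ m = F at hF ⊢
  have e16 : (16 : K) = 4 * 4 := by norm_num
  rw [e16]
  field_simp

variable [IsAlgClosed K]

lemma qD_add (hΔ : W.Δ ≠ 0) (hodd : Odd (Fintype.card N)) (h12 : e₁ ≠ e₂) (h13 : e₁ ≠ e₃) :
    qD W N e₁ e₃ e₂ = qD W N e₁ e₂ e₃ + qD W N e₂ e₃ e₁ := by
  have key := key_identity W N H hΔ h12 h13 hodd
  have h1 := Xi_ne_zero W N H hodd
  have h2 := Xi_ne_zero W N H.perm12 hodd
  have h3 := Xi_ne_zero W N H.rot.rot hodd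
  unfold qD
  field_simp
  linear_combination key

end quot

section main

variable {K : Type*} [Field K] [DecidableEq K] [IsAlgClosed K] {Γ₀ : Type*}
  [LinearOrderedCommGroupWithZero Γ₀]
  (v : Valuation K Γ₀) (W : Affine K) (N : AddSubgroup W.Point) [Fintype N]
  {e₁ e₂ e₃ : K} (H : TwoTors W e₁ e₂ e₃)

omit [DecidableEq K] [IsAlgClosed K] in
lemma prod_lt_one_of_forall {ι : Type*} (s : Finset ι) (hs : s.Nonempty) (g : ι → Γ₀)
    (hg : ∀ i ∈ s, g i < 1) : ∏ i ∈ s, g i < 1 := by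
  classical
  obtain ⟨i₀, hi₀⟩ := hs
  rw [← Finset.mul_prod_erase s g hi₀]
  have h1 : ∏ i ∈ s.erase i₀, g i ≤ 1 :=
    Finset.prod_le_one' fun i hi => (hg i (Finset.mem_of_mem_erase hi)).le
  calc g i₀ * ∏ i ∈ s.erase i₀, g i ≤ g i₀ * 1 := by gcongr
    _ = g i₀ := mul_one _
    _ < 1 := hg i₀ hi₀

include H

/-- **Case (a)**: all nonzero points of `N` stay away from the node. -/
theorem one_le_val_quot (hΔ : W.Δ ≠ 0) (hodd : Odd (Fintype.card N)) (h4 : v 4 ≤ 1)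
    (h12 : v (e₂ - e₁) < v 4) (h12ne : e₁ ≠ e₂) (h13 : v (4 * (e₃ - e₁)) = 1)
    (h23 : v (4 * (e₃ - e₂)) = 1)
    (hin : ∀ R ∈ N, R ≠ 0 → 1 ≤ v (xc W R - e₁)) :
    1 ≤ v (jD (qD W N e₁ e₂ e₃) (qD W N e₁ e₃ e₂) (qD W N e₂ e₃ e₁)) *
      v ((e₂ - e₁) / 4) ^ (2 * Fintype.card N) := by
  have h4ne : (4 : K) ≠ 0 := by
    intro h0
    rw [h0, zero_mul, map_zero] at h13
    exact zero_ne_one h13
  have h13ne : e₁ ≠ e₃ := by
    rintro rfl
    rw [sub_self, mul_zero, map_zero] at h13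
    exact zero_ne_one h13
  have h23ne : e₂ ≠ e₃ := by
    rintro rfl
    rw [sub_self, mul_zero, map_zero] at h23
    exact zero_ne_one h23
  have hv4 : v 4 ≠ 0 := v.ne_zero_iff.mpr h4ne
  have hn0 : Fintype.card N ≠ 0 := by
    obtain ⟨k, hk⟩ := hodd
    omega
  have hw0 : (e₂ - e₁) / 4 ≠ 0 := div_ne_zero (sub_ne_zero.mpr h12ne.symm) h4ne
  have hw1 : v ((e₂ - e₁) / 4) < 1 := by
    rw [map_div₀, div_lt_one₀ (zero_lt_iff.mpr hv4)]
    exact h12
  have hD12 := qD_ne_zero W N H hodd h12ne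
  have hD13 := qD_ne_zero W N H.perm23 hodd h13ne
  have hD23 := qD_ne_zero W N H.rot hodd h23ne
  have hlam := qD_lam W N H hodd h4ne h23ne
  have hadd := qD_add W N H hΔ hodd h12ne h13ne
  -- `t`
  have ht1 : v (tPar W N e₁ e₂ e₃) ≤ 1 := by
    unfold tPar
    rw [map_div₀, map_pow, map_pow, h23, one_pow, div_one, map_prod]
    apply pow_le_one₀ zero_le
    apply Finset.prod_le_one'
    intro R hR
    have hR0 := coe_ne_zero_of_mem_nz W N hR
    have hx1 : xc W (R : W.Point) - e₁ ≠ 0 :=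
      sub_ne_zero.mpr (xc_ne_root W N H hodd R.2 hR0)
    have h1 := hin _ R.2 hR0
    rw [map_div₀, div_le_one₀ (zero_lt_iff.mpr (v.ne_zero_iff.mpr hx1))]
    have : 4 * (xc W (R : W.Point) - e₃) = 4 * (xc W (R : W.Point) - e₁) - 4 * (e₃ - e₁) := by
      ring
    rw [this]
    apply v.map_sub_le
    · rw [map_mul]
      calc v 4 * v (xc W (R : W.Point) - e₁) ≤ 1 * v (xc W (R : W.Point) - e₁) := by gcongr
        _ = _ := one_mul _
    · rw [h13]; exact h1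
  have ht0 : tPar W N e₁ e₂ e₃ ≠ 0 := by
    intro h0
    rw [h0, mul_zero, zero_mul] at hlam
    exact hD12 hlam
  have h16 : v (16 : K) ≤ 1 := by
    have : (16 : K) = 4 * 4 := by norm_num
    rw [this, map_mul]
    calc v 4 * v 4 ≤ 1 * 1 := by gcongr
      _ = 1 := one_mul _
  have hl : v (qD W N e₁ e₂ e₃ / qD W N e₂ e₃ e₁) < 1 := by
    have : qD W N e₁ e₂ e₃ / qD W N e₂ e₃ e₁ =
        16 * ((e₂ - e₁) / 4) ^ Fintype.card N * tPar W N e₁ e₂ e₃ := by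
      rw [div_eq_iff hD23]
      exact hlam
    rw [this, map_mul, map_mul, map_pow]
    calc v 16 * v ((e₂ - e₁) / 4) ^ Fintype.card N * v (tPar W N e₁ e₂ e₃)
        ≤ 1 * v ((e₂ - e₁) / 4) ^ Fintype.card N * 1 := by gcongr
      _ = v ((e₂ - e₁) / 4) ^ Fintype.card N := by rw [one_mul, mul_one]
      _ < 1 := pow_lt_one₀ zero_le hw1 hn0
  exact one_le_val_jD v (Fintype.card N) hadd hD12 hD13 hD23 hw0 ht0 hlam hl ht1

/-- **Case (b)**: all nonzero points of `N` reduce to the node. -/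
theorem val_quot_lt_one (hΔ : W.Δ ≠ 0) (hodd : Odd (Fintype.card N))
    (hcard : 1 < Fintype.card N) (h4 : v 4 ≤ 1)
    (h12 : v (e₂ - e₁) < v 4) (h12ne : e₁ ≠ e₂) (h13 : v (4 * (e₃ - e₁)) = 1)
    (h23 : v (4 * (e₃ - e₂)) = 1)
    (hout : ∀ R ∈ N, R ≠ 0 → v (xc W R - e₁) < 1) :
    v (jD (qD W N e₁ e₂ e₃) (qD W N e₁ e₃ e₂) (qD W N e₂ e₃ e₁)) *
      v ((e₂ - e₁) / 4) ^ (2 * Fintype.card N) < 1 := by
  have h4ne : (4 : K) ≠ 0 := by
    intro h0
    rw [h0, zero_mul, map_zero] at h13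
    exact zero_ne_one h13
  have h13ne : e₁ ≠ e₃ := by
    rintro rfl
    rw [sub_self, mul_zero, map_zero] at h13
    exact zero_ne_one h13
  have h23ne : e₂ ≠ e₃ := by
    rintro rfl
    rw [sub_self, mul_zero, map_zero] at h23
    exact zero_ne_one h23
  have hv4 : v 4 ≠ 0 := v.ne_zero_iff.mpr h4ne
  have hw0 : (e₂ - e₁) / 4 ≠ 0 := div_ne_zero (sub_ne_zero.mpr h12ne.symm) h4ne
  have hD12 := qD_ne_zero W N H hodd h12ne
  have hD13 := qD_ne_zero W N H.perm23 hodd h13ne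
  have hD23 := qD_ne_zero W N H.rot hodd h23ne
  have hlam := qD_lam W N H hodd h4ne h23ne
  have hadd := qD_add W N H hΔ hodd h12ne h13ne
  have hX1 := Xi_ne_zero W N H hodd
  have hX2 := Xi_ne_zero W N H.perm12 hodd
  have hX3 := Xi_ne_zero W N H.rot.rot hodd
  have hnz : (nz W N).Nonempty := by
    rw [← Finset.card_pos, card_nz]
    omega
  -- pointwise facts
  have hpt : ∀ R ∈ nz W N, v (xc W (R : W.Point) - e₂) = v (xc W (R : W.Point) - e₁) ∧
      v (4 * (xc W (R : W.Point) - e₃)) = 1 := by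
    intro R hR
    have hR0 := coe_ne_zero_of_mem_nz W N hR
    have hb := dup_bound v W N H hodd h4 h12 h13 hout R.2 hR0
    have hs := hout _ R.2 hR0
    constructor
    · have : xc W (R : W.Point) - e₂ = (xc W (R : W.Point) - e₁) - (e₂ - e₁) := by ring
      rw [this]
      exact v.map_sub_eq_of_lt_left hb
    · have : 4 * (xc W (R : W.Point) - e₃) =
          4 * (xc W (R : W.Point) - e₁) - 4 * (e₃ - e₁) := by ring
      rw [this, ← h13]
      apply v.map_sub_eq_of_lt_right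
      rw [h13, map_mul]
      calc v 4 * v (xc W (R : W.Point) - e₁) ≤ 1 * v (xc W (R : W.Point) - e₁) := by gcongr
        _ = _ := one_mul _
        _ < 1 := hs
  have hXi12 : v (Xi W N e₂) = v (Xi W N e₁) := by
    unfold Xi
    rw [map_prod, map_prod]
    exact Finset.prod_congr rfl fun R hR => (hpt R hR).1
  have hXi1 : v (Xi W N e₁) < 1 := by
    unfold Xi
    rw [map_prod]
    exact prod_lt_one_of_forall _ hnz _ fun R hR =>
      hout _ R.2 (coe_ne_zero_of_mem_nz W N hR)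
  have hXi3 : v (4 ^ (Fintype.card N - 1) * Xi W N e₃) = 1 := by
    have : 4 ^ (Fintype.card N - 1) * Xi W N e₃ =
        ∏ R ∈ nz W N, 4 * (xc W (R : W.Point) - e₃) := by
      rw [Finset.prod_mul_distrib, Finset.prod_const, card_nz]
      rfl
    rw [this, map_prod]
    exact Finset.prod_eq_one fun R hR => (hpt R hR).2
  -- `|t| > 1`
  have ht1 : 1 < v (tPar W N e₁ e₂ e₃) := by
    unfold tPar
    rw [prod_ratio, map_div₀, map_pow, map_pow, h23, one_pow, div_one, map_div₀, hXi3, one_div]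
    have hpos : 0 < v (Xi W N e₁) := zero_lt_iff.mpr (v.ne_zero_iff.mpr hX1)
    have : 1 < (v (Xi W N e₁))⁻¹ := (one_lt_inv₀ hpos).mpr hXi1
    exact one_lt_pow₀ this (by norm_num)
  have ht0 : tPar W N e₁ e₂ e₃ ≠ 0 := by
    intro h0
    rw [h0, mul_zero, zero_mul] at hlam
    exact hD12 hlam
  -- `|1 + λ| = 1`
  have hd : v (e₃ - e₁) = v (e₃ - e₂) := by
    have h1 : v 4 * v (e₃ - e₁) = v 4 * v (e₃ - e₂) := by
      rw [← map_mul, ← map_mul, h13, h23]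
    exact mul_left_cancel₀ hv4 h1
  have h1 : v (1 + qD W N e₁ e₂ e₃ / qD W N e₂ e₃ e₁) = 1 := by
    have e1 : 1 + qD W N e₁ e₂ e₃ / qD W N e₂ e₃ e₁ = qD W N e₁ e₃ e₂ / qD W N e₂ e₃ e₁ := by
      rw [hadd]
      field_simp
      ring
    rw [e1, map_div₀]
    have e2 : v (qD W N e₁ e₃ e₂) = v (qD W N e₂ e₃ e₁) := by
      unfold qD
      rw [map_div₀, map_div₀, map_mul, map_mul, map_mul, map_mul, map_pow, map_pow, hd,
        hXi12, mul_comm (v (Xi W N e₁)) (v (Xi W N e₃))]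
    rw [e2]
    exact div_self (v.ne_zero_iff.mpr hD23)
  exact val_jD_lt_one v (Fintype.card N) hadd hD12 hD13 hD23 hw0 ht0 hlam h1 ht1

end main

end Fermat.Agent.S15.H11
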