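/-
S15 / BRIDGE, package BR-VAL (helper11): interfaces of the local pieces.

`W / ℤ`, `ℓ ∣ Δ`, `ℓ ∤ c₄` (multiplicative reduction), `A` a valuation subring of `Q̄` over `ℓ`,
`E = W_{Q̄}`.  `e₁, e₂, e₃` are the roots of the 2-division polynomial `4x³ + b₂x² + 2b₄x + b₆`,
numbered so that `e₁ ≡ e₂` is the abscissa of the node:
`|e₂ - e₁| < |4|`, `|4 (e₃ - e₁)| = |4 (e₃ - e₂)| = 1`, `|e₁| ≤ 1` (`NodeRoots`).

* `Stmt_BRroots` : such a numbering exists, and `|j(W)| · |(e₂ - e₁)/4|² = 1`.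
* `Stmt_BRzc ℓ`  : `InZeroComponentAt A P ↔ 1 ≤ |x(P) - e₁|` for `P ≠ 0`.
* `Stmt_BRe0 ℓ`  : `{P = 0 or 1 ≤ |x(P) - e₁|}` is closed under multiples.
-/
import Fermat.Agent.S12.H11_Key
import Fermat.Prelude.Def_EllipticCurve_ZeroComponentAt
import Fermat.Prelude.Def_FLTPrelim_Ramification

set_option autoImplicit false

namespace Fermat.Agent.S15.H11

open WeierstrassCurve Fermat.Agent.Lib.Torsion.H11 Fermat.Agent.S12.H11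

/-- `Q̄`. -/
abbrev QB : Type := AlgebraicClosure ℚ

/-- The curve `W` over `Q̄`. -/
noncomputable abbrev EB (W : WeierstrassCurve ℤ) : Affine QB := (W.map (Int.castRingHom ℚ))⁄QB

/-- `j(W) = c₄³ / Δ` as an element of `Q̄`. -/
noncomputable def jQB (W : WeierstrassCurve ℤ) : QB :=
  (((W.c₄ : ℚ) ^ 3 / (W.Δ : ℚ) : ℚ) : QB)

section coeff

variable (W : WeierstrassCurve ℤ)

lemma EB_a₁ : (EB W).a₁ = ((W.a₁ : ℤ) : QB) := by simp [EB]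
lemma EB_a₂ : (EB W).a₂ = ((W.a₂ : ℤ) : QB) := by simp [EB]
lemma EB_a₃ : (EB W).a₃ = ((W.a₃ : ℤ) : QB) := by simp [EB]
lemma EB_a₄ : (EB W).a₄ = ((W.a₄ : ℤ) : QB) := by simp [EB]
lemma EB_a₆ : (EB W).a₆ = ((W.a₆ : ℤ) : QB) := by simp [EB]

lemma EB_b₂ : (EB W).b₂ = ((W.b₂ : ℤ) : QB) := by
  show ((W.map (Int.castRingHom ℚ)).map (algebraMap ℚ QB)).b₂ = _
  rw [map_b₂, map_b₂]; simp

lemma EB_b₄ : (EB W).b₄ = ((W.b₄ : ℤ) : QB) := by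
  show ((W.map (Int.castRingHom ℚ)).map (algebraMap ℚ QB)).b₄ = _
  rw [map_b₄, map_b₄]; simp

lemma EB_b₆ : (EB W).b₆ = ((W.b₆ : ℤ) : QB) := by
  show ((W.map (Int.castRingHom ℚ)).map (algebraMap ℚ QB)).b₆ = _
  rw [map_b₆, map_b₆]; simp

lemma EB_b₈ : (EB W).b₈ = ((W.b₈ : ℤ) : QB) := by
  show ((W.map (Int.castRingHom ℚ)).map (algebraMap ℚ QB)).b₈ = _
  rw [map_b₈, map_b₈]; simp

lemma EB_c₄ : (EB W).c₄ = ((W.c₄ : ℤ) : QB) := by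
  show ((W.map (Int.castRingHom ℚ)).map (algebraMap ℚ QB)).c₄ = _
  rw [map_c₄, map_c₄]; simp

lemma EB_Δ : (EB W).Δ = ((W.Δ : ℤ) : QB) := by
  show ((W.map (Int.castRingHom ℚ)).map (algebraMap ℚ QB)).Δ = _
  rw [map_Δ, map_Δ]; simp

end coeff

/-- The roots of the 2-division polynomial, numbered along the node at `A`. -/
structure NodeRoots (W : WeierstrassCurve ℤ) (A : ValuationSubring QB) (e₁ e₂ e₃ : QB) :
    Prop where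
  tt : TwoTors (EB W) e₁ e₂ e₃
  ne12 : e₁ ≠ e₂
  e1_le : A.valuation e₁ ≤ 1
  d12_lt : A.valuation (e₂ - e₁) < A.valuation 4
  d13 : A.valuation (4 * (e₃ - e₁)) = 1
  d23 : A.valuation (4 * (e₃ - e₂)) = 1

/-- (BR-ROOTS) the node numbering exists and computes `|j|`. -/
def Stmt_BRroots : Prop :=
  ∀ (W : WeierstrassCurve ℤ), W.Δ ≠ 0 →
  ∀ ℓ : ℕ, ℓ.Prime → (ℓ : ℤ) ∣ W.Δ → ¬ (ℓ : ℤ) ∣ W.c₄ →
  ∀ A : ValuationSubring QB, A.LiesOverPrime ℓ →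
    ∃ e₁ e₂ e₃ : QB, NodeRoots W A e₁ e₂ e₃ ∧
      A.valuation (jQB W) * A.valuation ((e₂ - e₁) / 4) ^ 2 = 1

/-- (BR-ZC at `ℓ`) the identity component in terms of the node abscissa. -/
def Stmt_BRzc (ℓ : ℕ) : Prop :=
  ∀ (W : WeierstrassCurve ℤ), W.Δ ≠ 0 → (ℓ : ℤ) ∣ W.Δ → ¬ (ℓ : ℤ) ∣ W.c₄ →
  ∀ A : ValuationSubring QB, A.LiesOverPrime ℓ →
  ∀ e₁ e₂ e₃ : QB, NodeRoots W A e₁ e₂ e₃ →
  ∀ P : (EB W).Point, P ≠ 0 →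
    (W.InZeroComponentAt A P ↔ 1 ≤ A.valuation (xc (EB W) P - e₁))

/-- (BR-E0 at `ℓ`) the identity component `{P = 0 or 1 ≤ |x(P) - e₁|}` is closed under
multiples.  (Odd `ℓ`: model `y² = x(x² + ax + b)` centred at `e₁`, `S05.M1`; `ℓ = 2`: model
`y² + xy = x³ + ax² + bx` centred at the 2-torsion point over `e₁`, `S13.WP3.E0_add`.) -/
def Stmt_BRe0 (ℓ : ℕ) : Prop :=
  ∀ (W : WeierstrassCurve ℤ), W.Δ ≠ 0 → (ℓ : ℤ) ∣ W.Δ → ¬ (ℓ : ℤ) ∣ W.c₄ →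
  ∀ A : ValuationSubring QB, A.LiesOverPrime ℓ →
  ∀ e₁ e₂ e₃ : QB, NodeRoots W A e₁ e₂ e₃ →
  ∀ P : (EB W).Point, (P = 0 ∨ 1 ≤ A.valuation (xc (EB W) P - e₁)) →
    ∀ n : ℕ, (n • P = 0 ∨ 1 ≤ A.valuation (xc (EB W) (n • P) - e₁))

end Fermat.Agent.S15.H11
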