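/-
S15 / BRIDGE, package BR-VAL (helper11), part B: the roots of the 2-division polynomial at a
prime of multiplicative reduction (`Stmt_BRroots`).
-/
import Fermat.Agent.S15.H11_BRDefs
import Fermat.Agent.S05.H15_Val
import Mathlib.Algebra.Polynomial.Degree.Lemmas
import Mathlib.FieldTheory.IsAlgClosed.Basic

set_option autoImplicit false

namespace Fermat.Agent.S15.H11

open WeierstrassCurve Polynomial Fermat.Agent.Lib.Torsion.H11 Fermat.Agent.S12.H11
open Fermat.Agent.S05.H15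

section exists_roots

variable {K : Type*} [Field K] [IsAlgClosed K]

lemma exists_root_cubic (a b c : K) : ∃ x : K, x ^ 3 + a * x ^ 2 + b * x + c = 0 := by
  have hdeg : (C (1 : K) * X ^ 3 + C a * X ^ 2 + C b * X + C c).degree = 3 :=
    degree_cubic one_ne_zero
  obtain ⟨x, hx⟩ := IsAlgClosed.exists_root (C (1 : K) * X ^ 3 + C a * X ^ 2 + C b * X + C c)
    (by rw [hdeg]; norm_num)
  refine ⟨x, ?_⟩
  simpa [IsRoot] using hx

lemma exists_root_quadratic' (a b : K) : ∃ x : K, x ^ 2 + a * x + b = 0 := by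
  have hdeg : (C (1 : K) * X ^ 2 + C a * X + C b).degree = 2 := degree_quadratic one_ne_zero
  obtain ⟨x, hx⟩ := IsAlgClosed.exists_root (C (1 : K) * X ^ 2 + C a * X + C b)
    (by rw [hdeg]; norm_num)
  refine ⟨x, ?_⟩
  simpa [IsRoot] using hx

/-- Over an algebraically closed field of characteristic `≠ 2` the 2-division polynomial
splits. -/
theorem exists_twoTors (W : Affine K) (h2 : (2 : K) ≠ 0) :
    ∃ e₁ e₂ e₃ : K, TwoTors W e₁ e₂ e₃ := by
  have h4 : (4 : K) ≠ 0 := by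
    have : (4 : K) = 2 * 2 := by norm_num
    rw [this]; exact mul_ne_zero h2 h2
  obtain ⟨B2, hB2⟩ : ∃ B2 : K, W.b₂ = 4 * B2 := ⟨W.b₂ / 4, by field_simp⟩
  obtain ⟨B4, hB4⟩ : ∃ B4 : K, W.b₄ = 2 * B4 := ⟨W.b₄ / 2, by field_simp⟩
  obtain ⟨B6, hB6⟩ : ∃ B6 : K, W.b₆ = 4 * B6 := ⟨W.b₆ / 4, by field_simp⟩
  obtain ⟨e₁, h₁⟩ := exists_root_cubic B2 B4 B6
  obtain ⟨e₂, h₂⟩ := exists_root_quadratic' (B2 + e₁) (B4 + B2 * e₁ + e₁ ^ 2)
  refine ⟨e₁, e₂, -(B2 + e₁) - e₂, h2, ?_, ?_, ?_⟩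
  · rw [hB2]; ring
  · rw [hB4]; linear_combination (2 : K) * h₂
  · rw [hB6]; linear_combination (4 : K) * h₁ - (4 * e₁) * h₂

end exists_roots

section val

variable (W : WeierstrassCurve ℤ) (A : ValuationSubring QB) {e₁ e₂ e₃ : QB}

/-- `4 e` is integral for every root `e` of the 2-division polynomial. -/
lemma val_four_root_le (H : TwoTors (EB W) e₁ e₂ e₃) : A.valuation (4 * e₁) ≤ 1 := by
  have h0 : psi2sq (EB W) e₁ = 0 := by rw [H.psi2sq_eq]; ring
  unfold psi2sq at h0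
  rw [EB_b₂, EB_b₄, EB_b₆] at h0
  set s : QB := 4 * e₁ with hs
  have hrel : s ^ 3 = -(((W.b₂ : ℤ) : QB) * s ^ 2 + ((8 * W.b₄ : ℤ) : QB) * s +
      ((16 * W.b₆ : ℤ) : QB)) := by
    push_cast
    linear_combination 16 * h0
  by_contra hlt
  rw [not_le] at hlt
  have h1 : A.valuation s ≤ A.valuation s ^ 2 := by
    calc A.valuation s = A.valuation s * 1 := (mul_one _).symm
      _ ≤ A.valuation s * A.valuation s := by gcongr
      _ = A.valuation s ^ 2 := (sq _).symm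
  have h2 : (1 : A.ValueGroup) ≤ A.valuation s ^ 2 := le_trans hlt.le h1
  have hle : A.valuation (s ^ 3) ≤ A.valuation s ^ 2 := by
    rw [hrel, Valuation.map_neg]
    apply Valuation.map_add_le _ (Valuation.map_add_le _ _ _)
    · exact le_trans (valuation_intCast_le_one A _) h2
    · rw [map_mul, map_pow]
      calc A.valuation ((W.b₂ : ℤ) : QB) * A.valuation s ^ 2 ≤ 1 * A.valuation s ^ 2 := by
            gcongr; exact valuation_intCast_le_one A _
        _ = _ := one_mul _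
    · rw [map_mul]
      calc A.valuation ((8 * W.b₄ : ℤ) : QB) * A.valuation s ≤ 1 * A.valuation s := by
            gcongr; exact valuation_intCast_le_one A _
        _ = A.valuation s := one_mul _
        _ ≤ _ := h1
  rw [map_pow] at hle
  have hpos : 0 < A.valuation s := lt_trans zero_lt_one hlt
  have : A.valuation s ^ 2 < A.valuation s ^ 3 := by
    calc A.valuation s ^ 2 = A.valuation s ^ 2 * 1 := (mul_one _).symm
      _ < A.valuation s ^ 2 * A.valuation s := by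
          exact mul_lt_mul_of_pos_left hlt (pow_pos hpos 2)
      _ = A.valuation s ^ 3 := by rw [← pow_succ]
  exact absurd hle (not_le.mpr this)

lemma c₄_eq (H : TwoTors (EB W) e₁ e₂ e₃) :
    ((W.c₄ : ℤ) : QB) = (4 * (e₂ - e₁)) ^ 2 + (4 * (e₂ - e₁)) * (4 * (e₃ - e₂)) +
      (4 * (e₃ - e₂)) ^ 2 := by
  rw [← EB_c₄, WeierstrassCurve.c₄, H.hb2, H.hb4]
  ring

lemma Δ_eq (H : TwoTors (EB W) e₁ e₂ e₃) :
    256 * ((W.Δ : ℤ) : QB) = ((4 * (e₂ - e₁)) * (4 * (e₃ - e₁)) * (4 * (e₃ - e₂))) ^ 2 := by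
  rw [← EB_Δ, WeierstrassCurve.Δ, H.hb8, H.hb2, H.hb4, H.hb6]
  ring

variable {W A}

/-- Differences of integral elements are integral. -/
lemma val_four_sub_le (H : TwoTors (EB W) e₁ e₂ e₃) : A.valuation (4 * (e₂ - e₁)) ≤ 1 := by
  have h1 := val_four_root_le W A H
  have h2 := val_four_root_le W A H.perm12
  have : 4 * (e₂ - e₁) = 4 * e₂ - 4 * e₁ := by ring
  rw [this]
  exact Valuation.map_sub_le _ h2 h1

/-- If two of the three scaled differences are small then `c₄` is not a unit. -/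
lemma c₄_small (H : TwoTors (EB W) e₁ e₂ e₃) (h1 : A.valuation (4 * (e₂ - e₁)) < 1)
    (h2 : A.valuation (4 * (e₃ - e₂)) < 1) : A.valuation ((W.c₄ : ℤ) : QB) < 1 := by
  rw [c₄_eq W H]
  apply Valuation.map_add_lt _ (Valuation.map_add_lt _ _ _)
  · rw [map_pow]
    exact pow_lt_one₀ zero_le h2 (by norm_num)
  · rw [map_pow]
    exact pow_lt_one₀ zero_le h1 (by norm_num)
  · rw [map_mul]
    calc A.valuation (4 * (e₂ - e₁)) * A.valuation (4 * (e₃ - e₂))
        ≤ A.valuation (4 * (e₂ - e₁)) * 1 := by gcongr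
      _ = _ := mul_one _
      _ < 1 := h1

/-- The numbering along the node, except for `|e₁| ≤ 1`. -/
lemma node_of_small (hΔ : W.Δ ≠ 0) {ℓ : ℕ} (hℓ : ℓ.Prime) (hd : (ℓ : ℤ) ∣ W.Δ)
    (hc : ¬ (ℓ : ℤ) ∣ W.c₄) (hA : A.LiesOverPrime ℓ) (H : TwoTors (EB W) e₁ e₂ e₃)
    (hs : A.valuation (4 * (e₂ - e₁)) < 1) :
    e₁ ≠ e₂ ∧ A.valuation (e₂ - e₁) < A.valuation 4 ∧ A.valuation (4 * (e₃ - e₁)) = 1 ∧
      A.valuation (4 * (e₃ - e₂)) = 1 ∧
      A.valuation (jQB W) * A.valuation ((e₂ - e₁) / 4) ^ 2 = 1 := by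
  have hc4 : A.valuation ((W.c₄ : ℤ) : QB) = 1 := valuation_intCast_eq_one_of_not_dvd hℓ hA hc
  have hΔlt : A.valuation ((W.Δ : ℤ) : QB) < 1 := valuation_intCast_lt_one_of_dvd hA hd
  have hΔ0 : ((W.Δ : ℤ) : QB) ≠ 0 := Int.cast_ne_zero.mpr hΔ
  have hΔpos : 0 < A.valuation ((W.Δ : ℤ) : QB) :=
    zero_lt_iff.mpr ((Valuation.ne_zero_iff _).mpr hΔ0)
  -- the other two differences are units
  have h23 : A.valuation (4 * (e₃ - e₂)) = 1 := by
    refine le_antisymm (val_four_sub_le H.rot) ?_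
    by_contra hlt
    rw [not_le] at hlt
    exact absurd hc4 (ne_of_lt (c₄_small H hs hlt))
  have h13 : A.valuation (4 * (e₃ - e₁)) = 1 := by
    refine le_antisymm (val_four_sub_le H.perm23) ?_
    by_contra hlt
    rw [not_le] at hlt
    -- use the numbering `(e₂, e₁, e₃)`
    have h21 : A.valuation (4 * (e₁ - e₂)) < 1 := by
      have : 4 * (e₁ - e₂) = -(4 * (e₂ - e₁)) := by ring
      rw [this, Valuation.map_neg]; exact hs
    exact absurd hc4 (ne_of_lt (c₄_small H.perm12 h21 hlt))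
  have h256 : (256 : QB) = 4 ^ 4 := by norm_num
  have hΔv := congrArg A.valuation (Δ_eq W H)
  rw [map_mul, map_pow, map_mul, map_mul, h13, h23, mul_one, mul_one, map_mul (A.valuation) 4,
    mul_pow, h256, map_pow] at hΔv
  have h4ne : (4 : QB) ≠ 0 := by norm_num
  have hv4 : A.valuation (4 : QB) ≠ 0 := (Valuation.ne_zero_iff _).mpr h4ne
  have hv4pos : 0 < A.valuation (4 : QB) := zero_lt_iff.mpr hv4
  -- `|e₂ - e₁|² = |4|² |Δ|`
  have hd12 : A.valuation (e₂ - e₁) ^ 2 = A.valuation 4 ^ 2 * A.valuation ((W.Δ : ℤ) : QB) := by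
    have h1 : A.valuation 4 ^ 2 * A.valuation (e₂ - e₁) ^ 2 =
        A.valuation 4 ^ 2 * (A.valuation 4 ^ 2 * A.valuation ((W.Δ : ℤ) : QB)) := by
      rw [← hΔv, ← mul_assoc, ← pow_add]
    exact mul_left_cancel₀ (pow_ne_zero 2 hv4) h1
  have hne : e₁ ≠ e₂ := by
    rintro rfl
    rw [sub_self, map_zero, zero_pow (by norm_num)] at hd12
    exact (mul_ne_zero (pow_ne_zero 2 hv4) hΔpos.ne') hd12.symm
  refine ⟨hne, ?_, h13, h23, ?_⟩
  · apply lt_of_pow_lt_pow_left₀ 2 zero_le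
    rw [hd12]
    calc A.valuation 4 ^ 2 * A.valuation ((W.Δ : ℤ) : QB) < A.valuation 4 ^ 2 * 1 :=
          mul_lt_mul_of_pos_left hΔlt (pow_pos hv4pos 2)
      _ = _ := mul_one _
  · have hj : jQB W = ((W.c₄ : ℤ) : QB) ^ 3 / ((W.Δ : ℤ) : QB) := by
      unfold jQB
      push_cast
      rfl
    rw [hj, map_div₀, map_pow, hc4, one_pow, map_div₀, div_pow, hd12]
    field_simp

/-- `|e₁| ≤ 1` for the node root. -/
lemma node_e1_le {ℓ : ℕ} (hℓ : ℓ.Prime) (hc : ¬ (ℓ : ℤ) ∣ W.c₄) (hA : A.LiesOverPrime ℓ)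
    (H : TwoTors (EB W) e₁ e₂ e₃) (h12 : A.valuation (e₂ - e₁) < A.valuation 4)
    (h13 : A.valuation (4 * (e₃ - e₁)) = 1) : A.valuation e₁ ≤ 1 := by
  have h4ne : (4 : QB) ≠ 0 := by norm_num
  have hv4 : A.valuation (4 : QB) ≠ 0 := (Valuation.ne_zero_iff _).mpr h4ne
  have hv4pos : 0 < A.valuation (4 : QB) := zero_lt_iff.mpr hv4
  have hv4le : A.valuation (4 : QB) ≤ 1 := by
    have := valuation_intCast_le_one A 4
    simpa using this
  have hs1 := val_four_root_le W A H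
  by_cases hℓ2 : ℓ = 2
  · subst hℓ2
    by_contra hlt
    rw [not_le] at hlt
    have hv2 : A.valuation (2 : QB) < 1 := by
      have := valuation_lt_one_of_mem_nonunits hA
      simpa using this
    have hb2 : A.valuation ((W.b₂ : ℤ) : QB) = 1 := by
      apply valuation_intCast_eq_one_of_not_dvd hℓ hA
      intro hdiv
      apply hc
      have : W.c₄ = W.b₂ ^ 2 - 24 * W.b₄ := rfl
      rw [this]
      obtain ⟨k, hk⟩ := hdiv
      exact ⟨2 * k ^ 2 - 12 * W.b₄, by rw [hk]; push_cast; ring⟩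
    -- `|s₁| > |4|`
    have hs1lt : A.valuation 4 < A.valuation (4 * e₁) := by
      rw [map_mul]
      calc A.valuation 4 = A.valuation 4 * 1 := (mul_one _).symm
        _ < A.valuation 4 * A.valuation e₁ := mul_lt_mul_of_pos_left hlt hv4pos
    -- `|s₂ - s₁| < |s₁|`, hence `|s₂| = |s₁|`
    have hs21 : A.valuation (4 * (e₂ - e₁)) < A.valuation 4 := by
      rw [map_mul]
      calc A.valuation 4 * A.valuation (e₂ - e₁) < A.valuation 4 * A.valuation 4 :=
            mul_lt_mul_of_pos_left h12 hv4pos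
        _ ≤ A.valuation 4 * 1 := by gcongr
        _ = _ := mul_one _
    have hs2 : A.valuation (4 * e₂) = A.valuation (4 * e₁) := by
      have : 4 * e₂ = 4 * e₁ + 4 * (e₂ - e₁) := by ring
      rw [this]
      exact Valuation.map_add_eq_of_lt_left _ (lt_trans hs21 hs1lt)
    have hs3le := val_four_root_le W A H.rot.rot
    -- the product
    have hprod : ((16 * W.b₆ : ℤ) : QB) = -((4 * e₁) * (4 * e₂) * (4 * e₃)) := by
      push_cast
      rw [← EB_b₆, H.hb6]
      ring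
    have hprodv := congrArg A.valuation hprod
    rw [Valuation.map_neg, map_mul, map_mul, hs2] at hprodv
    have h16 : A.valuation (((16 * W.b₆ : ℤ)) : QB) ≤ A.valuation 4 * A.valuation 4 := by
      have : ((16 * W.b₆ : ℤ) : QB) = 4 * 4 * ((W.b₆ : ℤ) : QB) := by push_cast; ring
      rw [this, map_mul, map_mul]
      calc A.valuation 4 * A.valuation 4 * A.valuation ((W.b₆ : ℤ) : QB)
          ≤ A.valuation 4 * A.valuation 4 * 1 := by
            gcongr; exact valuation_intCast_le_one A _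
        _ = _ := mul_one _
    have hs3lt : A.valuation (4 * e₃) < 1 := by
      by_contra h3
      rw [not_lt] at h3
      have h3' : A.valuation (4 * e₃) = 1 := le_antisymm hs3le h3
      rw [h3', mul_one] at hprodv
      rw [hprodv] at h16
      have : A.valuation 4 * A.valuation 4 < A.valuation (4 * e₁) * A.valuation (4 * e₁) :=
        mul_lt_mul'' hs1lt hs1lt zero_le zero_le
      exact absurd h16 (not_le.mpr this)
    have hs1eq : A.valuation (4 * e₁) = 1 := by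
      have : 4 * e₁ = 4 * e₃ - 4 * (e₃ - e₁) := by ring
      rw [this, ← h13]
      apply Valuation.map_sub_eq_of_lt_right
      rw [h13]; exact hs3lt
    have hb2' : ((W.b₂ : ℤ) : QB) = -(2 * (4 * e₁) + 4 * (e₂ - e₁) + 4 * e₃) := by
      rw [← EB_b₂, H.hb2]
      ring
    have : A.valuation ((W.b₂ : ℤ) : QB) < 1 := by
      rw [hb2', Valuation.map_neg]
      apply Valuation.map_add_lt _ (Valuation.map_add_lt _ _ _) hs3lt
      · rw [map_mul, hs1eq, mul_one]; exact hv2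
      · exact lt_of_lt_of_le hs21 hv4le
    rw [hb2] at this
    exact lt_irrefl _ this
  · have hv4eq : A.valuation (4 : QB) = 1 := by
      have h : ¬ (ℓ : ℤ) ∣ (4 : ℤ) := by
        intro hdiv
        have h2 : (ℓ : ℤ) ∣ 2 ^ 2 := by norm_num; exact hdiv
        have h3 := (Nat.prime_iff_prime_int.mp hℓ).dvd_of_dvd_pow h2
        have h4 : ℓ ∣ 2 := Int.natCast_dvd_natCast.mp (by exact_mod_cast h3)
        exact hℓ2 ((Nat.prime_dvd_prime_iff_eq hℓ Nat.prime_two).mp h4)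
      have := valuation_intCast_eq_one_of_not_dvd hℓ hA h
      simpa using this
    rw [map_mul, hv4eq, one_mul] at hs1
    exact hs1

/-- **BR-ROOTS.** -/
theorem stmt_BRroots : Stmt_BRroots := by
  intro W hΔ ℓ hℓ hd hc A hA
  have h2 : (2 : QB) ≠ 0 := by norm_num
  obtain ⟨e₁, e₂, e₃, H⟩ := exists_twoTors (EB W) h2
  have hΔlt : A.valuation ((W.Δ : ℤ) : QB) < 1 := valuation_intCast_lt_one_of_dvd hA hd
  have key : ∀ {e₁ e₂ e₃ : QB}, TwoTors (EB W) e₁ e₂ e₃ → A.valuation (4 * (e₂ - e₁)) < 1 →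
      ∃ e₁ e₂ e₃ : QB, NodeRoots W A e₁ e₂ e₃ ∧
        A.valuation (jQB W) * A.valuation ((e₂ - e₁) / 4) ^ 2 = 1 := by
    intro e₁ e₂ e₃ H hs
    obtain ⟨hne, h12, h13, h23, hw⟩ := node_of_small hΔ hℓ hd hc hA H hs
    exact ⟨e₁, e₂, e₃, ⟨H, hne, node_e1_le hℓ hc hA H h12 h13, h12, h13, h23⟩, hw⟩
  by_cases h12 : A.valuation (4 * (e₂ - e₁)) < 1
  · exact key H h12
  by_cases h13 : A.valuation (4 * (e₃ - e₁)) < 1
  · exact key H.perm23 h13
  by_cases h23 : A.valuation (4 * (e₃ - e₂)) < 1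
  · exact key H.rot h23
  exfalso
  have e12 : A.valuation (4 * (e₂ - e₁)) = 1 :=
    le_antisymm (val_four_sub_le H) (not_lt.mp h12)
  have e13 : A.valuation (4 * (e₃ - e₁)) = 1 :=
    le_antisymm (val_four_sub_le H.perm23) (not_lt.mp h13)
  have e23 : A.valuation (4 * (e₃ - e₂)) = 1 :=
    le_antisymm (val_four_sub_le H.rot) (not_lt.mp h23)
  have hΔv := congrArg A.valuation (Δ_eq W H)
  rw [map_mul, map_pow, map_mul, map_mul, e12, e13, e23, mul_one, mul_one, one_pow] at hΔv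
  have h256 : A.valuation (256 : QB) ≤ 1 := by
    have := valuation_intCast_le_one A 256
    simpa using this
  have : A.valuation (256 : QB) * A.valuation ((W.Δ : ℤ) : QB) < 1 := by
    calc A.valuation (256 : QB) * A.valuation ((W.Δ : ℤ) : QB)
        ≤ 1 * A.valuation ((W.Δ : ℤ) : QB) := by gcongr
      _ = _ := one_mul _
      _ < 1 := hΔlt
  rw [hΔv] at this
  exact lt_irrefl _ this

end val

end Fermat.Agent.S15.H11
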