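import Mathlib

/-!
# S15 (Mazur's key step): the algebraic core  (helper83)

`key_algebra` is the Nakayama argument behind Mazur's specialisation lemma, in a form that needs
NO finite generation of the Mordell–Weil group (remark of helper97):

* `J` a module over a commutative ring `T` (the Hecke polynomial ring acting on `J₀(p)(ℚ̄)`),
  `M ⊆ J` a `T`-submodule (the rational points),
* `red₁ : J →+ Y₁`, `red₂ : J →+ Y₂` two additive maps (reduction modulo two primes) whose kernels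
  on `M` are `T`-stable and whose images of `M` are finitely generated groups,
* `c ∈ M` an eigenvector, `t • c = ε t • c` for a ring hom `ε : T →+* ℤ` (the cuspidal class),
* `𝔓` an ideal with `r ∣ ε t` for `t ∈ 𝔓` (`r` not a unit of `ℤ`),
* descent: every `z ∈ M` is `m • c` modulo `𝔓 M`,
* the multiples `k • c` killed by `red₁` or by `red₂` have `r ∣ k`.

Then no `y ∈ M` has `red₁ y = 0` and `red₂ (y - c) = 0`.
-/

set_option autoImplicit false

namespace Fermat.Agent.S15

open Submodule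

section FG

variable {T J Y₁ Y₂ : Type*} [CommRing T] [AddCommGroup J] [Module T J]
  [AddCommGroup Y₁] [AddCommGroup Y₂]

/-- If the images of an additive subgroup `M` under two additive maps are finitely generated,
then `M` is generated by finitely many elements modulo the common kernel. -/
theorem exists_finset_mod_ker (M : AddSubgroup J) (red₁ : J →+ Y₁) (red₂ : J →+ Y₂)
    (hfg₁ : (AddSubgroup.map red₁ M).FG) (hfg₂ : (AddSubgroup.map red₂ M).FG) :
    ∃ F : Finset J, (↑F : Set J) ⊆ M ∧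
      ∀ z ∈ M, ∃ w ∈ AddSubgroup.closure (↑F : Set J), red₁ (z - w) = 0 ∧ red₂ (z - w) = 0 := by
  classical
  -- the two images as `ℤ`-submodules
  set B₁ : Submodule ℤ Y₁ := AddSubgroup.toIntSubmodule (AddSubgroup.map red₁ M) with hB₁
  set B₂ : Submodule ℤ Y₂ := AddSubgroup.toIntSubmodule (AddSubgroup.map red₂ M) with hB₂
  have hB₁fg : B₁.FG := by
    rw [Submodule.fg_iff_addSubgroup_fg]
    exact hfg₁
  have hB₂fg : B₂.FG := by
    rw [Submodule.fg_iff_addSubgroup_fg]
    exact hfg₂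
  have : Module.Finite ℤ B₁ := Module.Finite.of_fg hB₁fg
  have : Module.Finite ℤ B₂ := Module.Finite.of_fg hB₂fg
  -- the joint map on `M`
  let Mz : Submodule ℤ J := AddSubgroup.toIntSubmodule M
  let ψ : Mz →ₗ[ℤ] B₁ × B₂ :=
    { toFun := fun z => (⟨red₁ z.1, ⟨z.1, z.2, rfl⟩⟩, ⟨red₂ z.1, ⟨z.1, z.2, rfl⟩⟩)
      map_add' := fun a b => by
        ext <;> simp
      map_smul' := fun n a => by
        ext <;> simp }
  have hrange : (LinearMap.range ψ).FG := IsNoetherian.noetherian _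
  obtain ⟨s, hs⟩ := hrange
  -- lift the generators
  have hlift : ∀ x ∈ s, ∃ z : Mz, ψ z = x := by
    intro x hx
    have : x ∈ LinearMap.range ψ := hs ▸ Submodule.subset_span hx
    exact this
  choose! g hg using hlift
  refine ⟨s.image fun x => (g x : J), ?_, ?_⟩
  · intro a ha
    rw [Finset.coe_image] at ha
    obtain ⟨x, -, rfl⟩ := ha
    exact (g x).2
  · intro z hz
    have hzr : ψ ⟨z, hz⟩ ∈ Submodule.span ℤ (s : Set (B₁ × B₂)) := by
      rw [hs]
      exact ⟨_, rfl⟩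
    -- every element of the span of `s` is the image of an element of the closure of the lifts
    have key : ∀ x ∈ Submodule.span ℤ (s : Set (B₁ × B₂)),
        ∃ w : Mz, (w : J) ∈ AddSubgroup.closure (↑(s.image fun x => (g x : J)) : Set J) ∧
          ψ w = x := by
      intro x hx
      induction hx using Submodule.span_induction with
      | mem x hx =>
        refine ⟨g x, AddSubgroup.subset_closure ?_, hg x hx⟩
        rw [Finset.coe_image]
        exact ⟨x, hx, rfl⟩
      | zero => exact ⟨0, AddSubgroup.zero_mem _, map_zero _⟩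
      | add a b _ _ ha hb =>
        obtain ⟨wa, hwa, rfl⟩ := ha
        obtain ⟨wb, hwb, rfl⟩ := hb
        exact ⟨wa + wb, AddSubgroup.add_mem _ hwa hwb, map_add _ _ _⟩
      | smul n a _ ha =>
        obtain ⟨wa, hwa, rfl⟩ := ha
        refine ⟨n • wa, ?_, map_smul _ _ _⟩
        have : ((n • wa : Mz) : J) = n • (wa : J) := rfl
        rw [this]
        exact AddSubgroup.zsmul_mem _ hwa n
    obtain ⟨w, hw, hψ⟩ := key _ hzr
    refine ⟨w, hw, ?_, ?_⟩
    · have h1 := congrArg (fun x : B₁ × B₂ => (x.1 : Y₁)) hψ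
      simp only [ψ, LinearMap.coe_mk, AddHom.coe_mk] at h1
      rw [map_sub, h1, sub_self]
    · have h2 := congrArg (fun x : B₁ × B₂ => (x.2 : Y₂)) hψ
      simp only [ψ, LinearMap.coe_mk, AddHom.coe_mk] at h2
      rw [map_sub, h2, sub_self]

end FG

section Key

open scoped Pointwise

variable {T J Y₁ Y₂ : Type*} [CommRing T] [AddCommGroup J] [Module T J]
  [AddCommGroup Y₁] [AddCommGroup Y₂]

/-- **The Nakayama core of Mazur's specialisation argument.**  See the module docstring. -/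
theorem key_algebra
    (M : Submodule T J) (red₁ : J →+ Y₁) (red₂ : J →+ Y₂)
    (hHR₁ : ∀ t : T, ∀ z ∈ M, red₁ z = 0 → red₁ (t • z) = 0)
    (hHR₂ : ∀ t : T, ∀ z ∈ M, red₂ z = 0 → red₂ (t • z) = 0)
    (hfg₁ : (AddSubgroup.map red₁ M.toAddSubgroup).FG)
    (hfg₂ : (AddSubgroup.map red₂ M.toAddSubgroup).FG)
    (ε : T →+* ℤ) (c : J) (hcM : c ∈ M) (hc : ∀ t : T, t • c = ε t • c)
    (r : ℤ) (hr : ¬ r ∣ 1) (𝔓 : Ideal T) (h𝔓 : ∀ t ∈ 𝔓, r ∣ ε t)
    (hD : ∀ z ∈ M, ∃ m : ℤ, z - m • c ∈ 𝔓 • M)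
    (hinj₁ : ∀ k : ℤ, red₁ (k • c) = 0 → r ∣ k)
    (hinj₂ : ∀ k : ℤ, red₂ (k • c) = 0 → r ∣ k)
    (y : J) (hyM : y ∈ M) (hy₁ : red₁ y = 0) (hy₂ : red₂ (y - c) = 0) : False := by
  classical
  -- the common kernel on `M`
  let K : Submodule T J :=
    { carrier := {z | z ∈ M ∧ red₁ z = 0 ∧ red₂ z = 0}
      zero_mem' := ⟨M.zero_mem, map_zero _, map_zero _⟩
      add_mem' := fun {a b} ha hb =>
        ⟨M.add_mem ha.1 hb.1, by rw [map_add, ha.2.1, hb.2.1, add_zero],
          by rw [map_add, ha.2.2, hb.2.2, add_zero]⟩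
      smul_mem' := fun t z hz =>
        ⟨M.smul_mem t hz.1, hHR₁ t z hz.1 hz.2.1, hHR₂ t z hz.1 hz.2.2⟩ }
  have hK : ∀ z, z ∈ K ↔ z ∈ M ∧ red₁ z = 0 ∧ red₂ z = 0 := fun z => Iff.rfl
  have hKM : K ≤ M := fun z hz => hz.1
  obtain ⟨F, hFM, hF⟩ := exists_finset_mod_ker M.toAddSubgroup red₁ red₂ hfg₁ hfg₂
  set N' : Submodule T J := Submodule.span T (↑F : Set J) with hN'
  have hN'fg : N'.FG := ⟨F, rfl⟩
  have hN'M : N' ≤ M := Submodule.span_le.mpr hFM
  have hclosure : ∀ w ∈ AddSubgroup.closure (↑F : Set J), w ∈ N' := by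
    intro w hw
    have h1 : AddSubgroup.closure (↑F : Set J) ≤ N'.toAddSubgroup :=
      (AddSubgroup.closure_le _).mpr Submodule.subset_span
    exact h1 hw
  have hMKN : M ≤ K ⊔ N' := by
    intro z hz
    obtain ⟨w, hw, h1, h2⟩ := hF z hz
    have hwN : w ∈ N' := hclosure w hw
    have hzw : z - w ∈ K := ⟨M.sub_mem hz (hN'M hwN), h1, h2⟩
    have : z = (z - w) + w := by abel
    rw [this]
    exact Submodule.add_mem_sup hzw hwN
  set N : Submodule T J := K ⊔ Submodule.span T {c} with hN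
  have hPN : M ≤ N ⊔ 𝔓 • N' := by
    intro z hz
    obtain ⟨m, hm⟩ := hD z hz
    have h1 : 𝔓 • M ≤ K ⊔ 𝔓 • N' := by
      calc 𝔓 • M ≤ 𝔓 • (K ⊔ N') := Submodule.smul_mono le_rfl hMKN
        _ = 𝔓 • K ⊔ 𝔓 • N' := Submodule.smul_sup _ _ _
        _ ≤ K ⊔ 𝔓 • N' := sup_le_sup_right Submodule.smul_le_right _
    have h2 : z - m • c ∈ K ⊔ 𝔓 • N' := h1 hm
    have h3 : m • c ∈ Submodule.span T {c} := by
      rw [← Int.cast_smul_eq_zsmul T m c]
      exact Submodule.smul_mem _ _ (Submodule.mem_span_singleton_self c)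
    have h4 : z = (z - m • c) + m • c := by abel
    rw [h4]
    have h5 : K ⊔ 𝔓 • N' ≤ N ⊔ 𝔓 • N' := sup_le_sup_right le_sup_left _
    have h6 : Submodule.span T {c} ≤ N ⊔ 𝔓 • N' := le_sup_of_le_left le_sup_right
    exact Submodule.add_mem _ (h5 h2) (h6 h3)
  obtain ⟨t, ht𝔓, htM⟩ :=
    Submodule.exists_sub_one_mem_and_smul_le_of_fg_of_le_sup hN'fg hN'M hPN
  -- `t • y = w + a • c`
  have hty : t • y ∈ N := htM (Submodule.smul_mem_pointwise_smul y t M hyM)
  obtain ⟨w, hw, v, hv, hwv⟩ := Submodule.mem_sup.mp hty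
  obtain ⟨a, rfl⟩ := Submodule.mem_span_singleton.mp hv
  rw [hc a] at hwv
  -- first reduction
  have h1 : red₁ (ε a • c) = 0 := by
    have e1 : ε a • c = t • y - w := by rw [← hwv]; abel
    rw [e1, map_sub, hHR₁ t y hyM hy₁, hw.2.1, sub_zero]
  have hra : r ∣ ε a := hinj₁ _ h1
  -- second reduction
  have h2 : red₂ ((ε a - ε t) • c) = 0 := by
    have e2 : (ε a - ε t) • c = t • (y - c) - w := by
      rw [smul_sub, hc t, sub_smul, ← hwv]; abel
    rw [e2, map_sub, hHR₂ t (y - c) (M.sub_mem hyM hcM) hy₂, hw.2.2, sub_zero]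
  have hrat : r ∣ ε a - ε t := hinj₂ _ h2
  have hrt : r ∣ ε t := by
    have := dvd_sub hra hrat
    rwa [sub_sub_cancel] at this
  have hrt1 : r ∣ ε (t - 1) := h𝔓 _ ht𝔓
  apply hr
  have := dvd_sub hrt hrt1
  rwa [map_sub, map_one, sub_sub_cancel] at this

end Key

end Fermat.Agent.S15
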