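import Fermat.Agent.S15.Wiring
import Fermat.Agent.GTor.H2_GalHecke

/-!
# S15, package GH (helper2): Galois commutes with the Hecke ring of `J₀(p)`

`stmt_GH p : Stmt_GH p`, unconditional, from `Fermat.Agent.GTor.H2.stmt_GalHecke`.
-/

set_option autoImplicit false

namespace Fermat.Agent.S15.H2

/-- **GH**: `σ • (t • z) = t • (σ • z)` for `t` in the Hecke ring, `z ∈ J₀(p)`. -/
theorem stmt_GH (p : ℕ) [NeZero p] : Fermat.Agent.S15.Stmt_GH p :=
  Fermat.Agent.S15.stmt_GH_of_generators p (Fermat.Agent.GTor.H2.stmt_GalHecke p)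

end Fermat.Agent.S15.H2
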