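import Fermat.Agent.S15.H26_CuspEisGood

/-!
# S15, package CUSP-eis at `ℓ = p` (helper2): `U_p [P∞ - P0] = [P∞ - P0]`

`T = α_* β^*` on `Div(F_p)`, `α, β : F_p → F_{p²}`.  Pole count of `j` at level `p²`
(`ψ(p²) = p² + p`, the cusps `∞`, `0` of `X₀(p²)` contribute `1 + p²`):
* the only place of `X₀(p²)` over `P0` along `α` is `cuspZero (p²)` (`restrict_alpha_zero`),
  it lies over `P0` along `β` with `e_β = 1`;
* so `T P∞ = d P∞`, `T P0 = P0 + (d - 1) P∞` (`d = deg β`), and `T (P∞ - P0) = P∞ - P0`.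
-/

set_option autoImplicit false
set_option synthInstance.maxHeartbeats 400000
set_option linter.style.haveILetI false
set_option linter.unusedSectionVars false
set_option linter.unusedVariables false

noncomputable section

open HahnSeries IntermediateField AlgebraicCurve ModularCurve

namespace Fermat.Agent.S15.H2

open Fermat.Agent.S24 (Kbar FN jF jdF modClosure asm_finrank asm_finiteDimensional
  asm_transcendental_jF h72_zerosStmt)
open Fermat.Agent.RED.KD.H22 (cuspInf cuspZero ord_cuspInf ord_cuspZero ord_cuspInf_jF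
  ord_cuspZero_jF)
open Fermat.Agent.S15.H26

/-! ## The pole count at level `p²` -/

theorem dedekindPsi_sq {p : ℕ} (hp : p.Prime) : dedekindPsi (p * p) = p * p + p := by
  have h := Fermat.Agent.S20.H19.dedekindPsi_prime_pow hp (n := 2) (by norm_num)
  have e : p * p = p ^ 2 := (pow_two p).symm
  rw [e, h]
  simp

theorem ord_cuspZero_jdF_self (N : ℕ) [NeZero N] :
    (cuspZero N).ord (jdF N N dvd_rfl) = -1 := by
  rw [ord_cuspZero N _ (Fermat.Agent.RED.KD.H22.jdF_self_ne_zero N),
    Fermat.Agent.RED.KD.H22.iota0_jdF_self, Fermat.Agent.RED.KD.H22.jBar_order]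

variable (p : ℕ) [NeZero p]

/-- A pole of `j` on `X₀(p²)` other than the cusps `∞`, `0` has order at most `p - 1`. -/
theorem pole_bound (hp : p.Prime) (W : Place Kbar (FN (p * p)))
    (hW : W.ord (jF (p * p)) < 0) (h1 : W ≠ cuspInf (p * p)) (h2 : W ≠ cuspZero (p * p)) :
    -(W.ord (jF (p * p))) ≤ (p : ℤ) - 1 := by
  classical
  have := asm_finiteDimensional (modClosure (p * p))
  obtain ⟨S, hS, hsum, -⟩ := Fermat.Agent.S24.H85.poles (K := Kbar) (F := FN (p * p))
    (jF (p * p)) (asm_transcendental_jF (modClosure (p * p))) (fun y hy _ => h72_zerosStmt y hy)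
  rw [asm_finrank (modClosure (p * p)), dedekindPsi_sq hp] at hsum
  have hp2 : (2 : ℤ) ≤ (p : ℤ) := by exact_mod_cast hp.two_le
  have hinf := ord_cuspInf_jF (p * p)
  have hzero := ord_cuspZero_jF (p * p)
  have hpp : (4 : ℤ) ≤ ((p * p : ℕ) : ℤ) := by
    push_cast
    nlinarith
  have hne : cuspInf (p * p) ≠ cuspZero (p * p) := by
    intro e
    rw [e, hzero] at hinf
    omega
  have hWS : W ∈ S := (hS W).2 hW
  have hIS : cuspInf (p * p) ∈ S := (hS _).2 (by rw [hinf]; omega)
  have hZS : cuspZero (p * p) ∈ S := (hS _).2 (by rw [hzero]; omega)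
  have hsub : ({W, cuspInf (p * p), cuspZero (p * p)} : Finset (Place Kbar (FN (p * p)))) ⊆ S := by
    intro x hx
    simp only [Finset.mem_insert, Finset.mem_singleton] at hx
    rcases hx with rfl | rfl | rfl
    · exact hWS
    · exact hIS
    · exact hZS
  have hle' : ∑ v ∈ ({W, cuspInf (p * p), cuspZero (p * p)} :
      Finset (Place Kbar (FN (p * p)))), (-(v.ord (jF (p * p))))
      ≤ ∑ v ∈ S, (-(v.ord (jF (p * p)))) :=
    Finset.sum_le_sum_of_subset_of_nonneg hsub fun v hv _ => by
      have := (hS v).1 hv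
      omega
  rw [Finset.sum_neg_distrib, Finset.sum_neg_distrib, neg_le_neg_iff] at hle'
  rw [Finset.sum_insert (by simp [h1, h2]), Finset.sum_insert (by simp [hne]),
    Finset.sum_singleton, hsum, hinf, hzero] at hle'
  push_cast at hle'
  linarith

/-! ## Restrictions of the places of `X₀(p²)` -/

section Restr

attribute [local instance] Fermat.Agent.Lib.HeckeComm.hasPrincipalDivisors_FN

variable (hα : HeckeAlphaBarIntegral Kbar p p) (hβ : HeckeBetaBarIntegral Kbar p p)

theorem alpha_jdF_self :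
    heckeAlphaBar Kbar p p (jdF p p dvd_rfl) = jdF (p * p) p (dvd_mul_left p p) :=
  Fermat.Agent.RED.H95.alpha_jdF p p dvd_rfl

theorem beta_jdF_self :
    heckeBetaBar Kbar p p (jdF p p dvd_rfl) = jdF (p * p) (p * p) dvd_rfl :=
  Fermat.Agent.RED.H95.beta_jdF p p dvd_rfl

theorem ord_cusp (hp : p.Prime) :
    (cuspInf p).ord (jF p) = -1 ∧ (cuspInf p).ord (jdF p p dvd_rfl) = -(p : ℤ) ∧
    (cuspZero p).ord (jF p) = -(p : ℤ) ∧ (cuspZero p).ord (jdF p p dvd_rfl) = -1 := by
  have h := Fermat.Agent.S15.H22.isCuspPair p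
  exact ⟨h.ord_j_inf, h.ord_jN_inf, h.ord_j_zero, h.ord_jN_zero⟩

/-- A place of `X₀(p)` which is a pole of `j(q^p)` is a cusp. -/
theorem eq_cusp_of_pole_jp (hp : p.Prime) (u : Place Kbar (FN p))
    (hu : u.ord (jdF p p dvd_rfl) < 0) : u = cuspInf p ∨ u = cuspZero p := by
  apply Fermat.Agent.S15.H30.pole_eq_of_isCuspPair hp (Fermat.Agent.S15.H22.isCuspPair p) u
  by_contra hcon
  rw [not_lt] at hcon
  have := ord_jdF_nonneg p p dvd_rfl u hcon
  omega

/-- The only place of `X₀(p²)` over `P0` along `α` is the cusp `0`. -/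
theorem restrict_alpha_zero (hp : p.Prime) (W : Place Kbar (FN (p * p)))
    (hW : W.restrictAlong (heckeAlphaBar Kbar p p) hα = cuspZero p) : W = cuspZero (p * p) := by
  by_contra hne
  obtain ⟨-, -, hz, -⟩ := ord_cusp p hp
  have h1 := Place.ord_restrictAlong (heckeAlphaBar Kbar p p) hα W (jF p)
  rw [alpha_jF, hW, hz] at h1
  have he : (0 : ℤ) < (Place.ramificationIndexAlong (heckeAlphaBar Kbar p p) W : ℤ) := by
    exact_mod_cast ramificationIndexAlong_pos (heckeAlphaBar Kbar p p) hα W
  have hp2 : (2 : ℤ) ≤ (p : ℤ) := by exact_mod_cast hp.two_le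
  have hneg : W.ord (jF (p * p)) < 0 := by rw [h1]; nlinarith
  have hinf : W ≠ cuspInf (p * p) := by
    intro e
    have h2 := ord_cuspInf_jF (p * p)
    rw [← e, h1] at h2
    nlinarith
  have hb := pole_bound p hp W hneg hinf hne
  rw [h1] at hb
  nlinarith

/-- The cusp `0` of `X₀(p²)` lies over `P0` along `β`, with ramification index `1`. -/
theorem restrict_beta_cuspZero (hp : p.Prime) :
    (cuspZero (p * p)).restrictAlong (heckeBetaBar Kbar p p) hβ = cuspZero p ∧
    Place.ramificationIndexAlong (heckeBetaBar Kbar p p) (cuspZero (p * p)) = 1 := by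
  obtain ⟨hi, hip, hz, hzp⟩ := ord_cusp p hp
  have h1 := Place.ord_restrictAlong (heckeBetaBar Kbar p p) hβ (cuspZero (p * p))
    (jdF p p dvd_rfl)
  rw [beta_jdF_self, ord_cuspZero_jdF_self] at h1
  have he : (0 : ℤ) < (Place.ramificationIndexAlong (heckeBetaBar Kbar p p)
      (cuspZero (p * p)) : ℤ) := by
    exact_mod_cast ramificationIndexAlong_pos (heckeBetaBar Kbar p p) hβ (cuspZero (p * p))
  have hp2 : (2 : ℤ) ≤ (p : ℤ) := by exact_mod_cast hp.two_le
  -- `-1 = e * ord`, `e > 0`: so `e = 1`, `ord = -1`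
  have hord : ((cuspZero (p * p)).restrictAlong (heckeBetaBar Kbar p p) hβ).ord
      (jdF p p dvd_rfl) < 0 := by
    by_contra hcon
    rw [not_lt] at hcon
    nlinarith
  have he1 : (Place.ramificationIndexAlong (heckeBetaBar Kbar p p) (cuspZero (p * p)) : ℤ) = 1 := by
    nlinarith
  have hord1 : ((cuspZero (p * p)).restrictAlong (heckeBetaBar Kbar p p) hβ).ord
      (jdF p p dvd_rfl) = -1 := by
    rw [he1] at h1
    linarith
  refine ⟨?_, by exact_mod_cast he1⟩
  rcases eq_cusp_of_pole_jp p hp _ hord with e | e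
  · exfalso
    rw [e, hip] at hord1
    omega
  · exact e

include hβ in
/-- The cusp `0` of `X₀(p²)` lies over `P0` along `α`. -/
theorem restrict_alpha_cuspZero (hp : p.Prime) :
    (cuspZero (p * p)).restrictAlong (heckeAlphaBar Kbar p p) hα = cuspZero p := by
  obtain ⟨hi, hip, hz, hzp⟩ := ord_cusp p hp
  obtain ⟨hβz, hβe⟩ := restrict_beta_cuspZero p hβ hp
  have hp2 : (2 : ℤ) ≤ (p : ℤ) := by exact_mod_cast hp.two_le
  -- `ord j_p = -p` at the cusp `0` of `X₀(p²)`
  have hB := Place.ord_restrictAlong (heckeBetaBar Kbar p p) hβ (cuspZero (p * p)) (jF p)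
  rw [beta_jF, hβz, hβe, hz] at hB
  have hA := Place.ord_restrictAlong (heckeAlphaBar Kbar p p) hα (cuspZero (p * p)) (jF p)
  rw [alpha_jF, ord_cuspZero_jF] at hA
  have hB' := Place.ord_restrictAlong (heckeAlphaBar Kbar p p) hα (cuspZero (p * p))
    (jdF p p dvd_rfl)
  rw [alpha_jdF_self, hB] at hB'
  have he : (0 : ℤ) < (Place.ramificationIndexAlong (heckeAlphaBar Kbar p p)
      (cuspZero (p * p)) : ℤ) := by
    exact_mod_cast ramificationIndexAlong_pos (heckeAlphaBar Kbar p p) hα (cuspZero (p * p))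
  have hord : ((cuspZero (p * p)).restrictAlong (heckeAlphaBar Kbar p p) hα).ord
      (jdF p p dvd_rfl) < 0 := by
    by_contra hcon
    rw [not_lt] at hcon
    push_cast at hB'
    nlinarith
  rcases eq_cusp_of_pole_jp p hp _ hord with e | e
  · exfalso
    rw [e, hi] at hA
    rw [e, hip] at hB'
    push_cast at hA hB'
    -- `e_α = p²` and `p = e_α p`
    nlinarith
  · exact e

/-- A place of `X₀(p²)` over `P∞` along `β` lies over `P∞` along `α`. -/
theorem restrict_alpha_of_beta_inf (hp : p.Prime) (W : Place Kbar (FN (p * p)))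
    (hW : W.restrictAlong (heckeBetaBar Kbar p p) hβ = cuspInf p) :
    W.restrictAlong (heckeAlphaBar Kbar p p) hα = cuspInf p := by
  obtain ⟨hi, hip, hz, hzp⟩ := ord_cusp p hp
  have hpole : (W.restrictAlong (heckeAlphaBar Kbar p p) hα).ord (jF p) < 0 := by
    apply pole_alpha_of_pole_beta p p hα hβ W
    rw [hW, hi]
    omega
  rcases Fermat.Agent.S15.H30.pole_eq_of_isCuspPair hp (Fermat.Agent.S15.H22.isCuspPair p) _
    hpole with e | e
  · exact e
  · exfalso
    have hWz := restrict_alpha_zero p hα hp W e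
    have := (restrict_beta_cuspZero p hβ hp).1
    rw [← hWz, hW] at this
    exact Fermat.Agent.S15.H30.isCuspPair_ne hp.two_le (Fermat.Agent.S15.H22.isCuspPair p) this

end Restr

/-! ## The correspondence on the cusps -/

section Gen

variable {K F F' : Type*} [Field K] [Field F] [Field F'] [Algebra K F] [Algebra K F']

theorem inertiaDegAlong_eq_one (φ : F →ₐ[K] F') (hφ : φ.toRingHom.IsIntegral) (w : Place K F')
    (h1 : w.deg = 1) : w.inertiaDegAlong φ hφ = 1 := by
  letI := algebraAlong φ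
  haveI := isScalarTower_along φ
  haveI := isIntegral_along φ hφ
  have h := w.deg_restrict_mul_inertiaDeg (F := F)
  rw [h1] at h
  exact Nat.eq_one_of_mul_eq_one_left h

end Gen

section Main

attribute [local instance] Fermat.Agent.Lib.HeckeComm.hasPrincipalDivisors_FN

variable (hα : HeckeAlphaBarIntegral Kbar p p) (hβ : HeckeBetaBarIntegral Kbar p p)

/-- `T P∞ = d P∞`, `d = deg β`. -/
theorem heckeDivBar_self_cuspInf (hp : p.Prime)
    (hFI : FundamentalIdentityAlong Kbar (heckeBetaBar Kbar p p) hβ) :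
    heckeDivBar (L := Kbar) hα hβ (Finsupp.single (cuspInf p) 1)
      = Finsupp.single (cuspInf p) (finrankAlong Kbar (heckeBetaBar Kbar p p) : ℤ) := by
  have hne : cuspInf p ≠ cuspZero p :=
    Fermat.Agent.S15.H30.isCuspPair_ne hp.two_le (Fermat.Agent.S15.H22.isCuspPair p)
  have hsupp : ∀ u, heckeDivBar (L := Kbar) hα hβ (Finsupp.single (cuspInf p) 1) u ≠ 0 →
      u = cuspInf p := by
    intro u hu
    obtain ⟨W, hWβ, hWα⟩ := heckeDivBar_single_support p p hα hβ _ u hu
    rw [← hWα]
    exact restrict_alpha_of_beta_inf p hα hβ hp W hWβ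
  have hd := Divisor.degree_correspondence (heckeBetaBar Kbar p p) (heckeAlphaBar Kbar p p)
    hβ hα hFI (Finsupp.single (cuspInf p) 1)
  rw [Divisor.degree_single, Fermat.Agent.S15.H22.place_deg_eq_one, Nat.cast_one, mul_one,
    mul_one] at hd
  have := eq_single_of_support (Fermat.Agent.S15.H22.place_deg_eq_one p)
    (heckeDivBar (L := Kbar) hα hβ (Finsupp.single (cuspInf p) 1)) (cuspZero p) (cuspInf p)
    (fun u hu => Or.inr (hsupp u hu))
    (by
      by_contra h0
      exact hne (hsupp _ h0).symm)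
  rw [this]
  congr 1

/-- The coefficient of `T P0` at `P0` is `1`. -/
theorem heckeDivBar_self_cuspZero_apply (hp : p.Prime) :
    heckeDivBar (L := Kbar) hα hβ (Finsupp.single (cuspZero p) 1) (cuspZero p) = 1 := by
  classical
  obtain ⟨hβz, hβe⟩ := restrict_beta_cuspZero p hβ hp
  have hαz := restrict_alpha_cuspZero p hα hβ hp
  show Divisor.correspondence (heckeBetaBar Kbar p p) (heckeAlphaBar Kbar p p) hβ hα
    (Finsupp.single (cuspZero p) 1) (cuspZero p) = 1
  rw [Divisor.correspondence_apply, Divisor.pullbackAlong_single, map_sum,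
    Finsupp.finsetSum_apply]
  rw [Finset.sum_eq_single (cuspZero (p * p))]
  · rw [Divisor.pushforwardAlong_single, hαz, Finsupp.single_eq_same, hβe,
      inertiaDegAlong_eq_one _ _ _ (Fermat.Agent.S15.H22.place_deg_eq_one (p * p) _)]
    norm_num
  · intro W _ hW
    rw [Divisor.pushforwardAlong_single, Finsupp.single_apply, if_neg]
    intro hWα
    exact hW (restrict_alpha_zero p hα hp W hWα)
  · intro hnot
    exact absurd (Place.mem_fiberAlong.mpr hβz) hnot

/-- `T P0 = P0 + (d - 1) P∞`. -/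
theorem heckeDivBar_self_cuspZero (hp : p.Prime)
    (hFI : FundamentalIdentityAlong Kbar (heckeBetaBar Kbar p p) hβ) :
    heckeDivBar (L := Kbar) hα hβ (Finsupp.single (cuspZero p) 1)
      = Finsupp.single (cuspZero p) 1
        + Finsupp.single (cuspInf p) ((finrankAlong Kbar (heckeBetaBar Kbar p p) : ℤ) - 1) := by
  have hcp := Fermat.Agent.S15.H22.isCuspPair p
  have hne : cuspInf p ≠ cuspZero p := Fermat.Agent.S15.H30.isCuspPair_ne hp.two_le hcp
  have h1 := heckeDivBar_self_cuspZero_apply p hα hβ hp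
  have hsupp : ∀ u, heckeDivBar (L := Kbar) hα hβ (Finsupp.single (cuspZero p) 1) u ≠ 0 →
      u = cuspInf p ∨ u = cuspZero p := by
    intro u hu
    obtain ⟨W, hWβ, hWα⟩ := heckeDivBar_single_support p p hα hβ _ u hu
    apply Fermat.Agent.S15.H30.pole_eq_of_isCuspPair hp hcp u
    rw [← hWα]
    apply pole_alpha_of_pole_beta p p hα hβ W
    rw [hWβ]
    have h0 : (cuspZero p).ord (jF p) = -(p : ℤ) := hcp.ord_j_zero
    have hp0 : (0 : ℤ) < p := by exact_mod_cast hp.pos
    rw [h0]
    omega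
  have hd := Divisor.degree_correspondence (heckeBetaBar Kbar p p) (heckeAlphaBar Kbar p p)
    hβ hα hFI (Finsupp.single (cuspZero p) 1)
  rw [Divisor.degree_single, Fermat.Agent.S15.H22.place_deg_eq_one, Nat.cast_one, mul_one,
    mul_one] at hd
  set E := heckeDivBar (L := Kbar) hα hβ (Finsupp.single (cuspZero p) 1) with hE
  have hE' := eq_single_of_support (Fermat.Agent.S15.H22.place_deg_eq_one p)
    (E - Finsupp.single (cuspZero p) 1) (cuspZero p) (cuspInf p)
    (fun u hu => by
      by_cases hu0 : u = cuspZero p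
      · exact Or.inl hu0
      · right
        have : E u ≠ 0 := by
          intro h0
          apply hu
          rw [Finsupp.sub_apply, h0, Finsupp.single_eq_of_ne hu0, sub_zero]
        rcases hsupp u this with e | e
        · exact e
        · exact absurd e hu0)
    (by rw [Finsupp.sub_apply, h1, Finsupp.single_eq_same, sub_self])
  have hdeg : Divisor.degree (E - Finsupp.single (cuspZero p) 1)
      = (finrankAlong Kbar (heckeBetaBar Kbar p p) : ℤ) - 1 := by
    rw [map_sub, Divisor.degree_single, Fermat.Agent.S15.H22.place_deg_eq_one, Nat.cast_one,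
      mul_one]
    rw [← hd]
    rfl
  rw [hdeg] at hE'
  rw [← hE', add_sub_cancel]

/-- `T (P∞ - P0) = P∞ - P0` on divisors. -/
theorem heckeDivBar_self_cusp (hp : p.Prime)
    (hFI : FundamentalIdentityAlong Kbar (heckeBetaBar Kbar p p) hβ) :
    heckeDivBar (L := Kbar) hα hβ
        (Finsupp.single (cuspInf p) 1 - Finsupp.single (cuspZero p) 1)
      = Finsupp.single (cuspInf p) 1 - Finsupp.single (cuspZero p) 1 := by
  rw [map_sub, heckeDivBar_self_cuspInf p hα hβ hp hFI, heckeDivBar_self_cuspZero p hα hβ hp hFI]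
  rw [add_comm, ← sub_sub, ← Finsupp.single_sub]
  congr 2
  ring

end Main

/-- **CUSP-eis at `ℓ = p`**: `U_p [P∞ - P0] = [P∞ - P0]` on `J₀(p)`. -/
theorem heckeOperatorBar_ptClass_self (p : ℕ) [NeZero p] (hp : p.Prime)
    (Pinf P0 : PlaceBar p) (h : IsCuspPair p Pinf P0) :
    heckeOperatorBar p ⟨p, hp⟩ (ptClass Pinf P0 h.deg_inf h.deg_zero)
      = ptClass Pinf P0 h.deg_inf h.deg_zero := by
  obtain ⟨rfl, rfl⟩ := Fermat.Agent.S15.H30.isCuspPair_unique hp
    (Fermat.Agent.S15.H22.isCuspPair p) h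
  obtain ⟨hα, hβ, hP, hfin, hFI, hNF⟩ := Fermat.Agent.RED.H51.stmt_HKA p p
  set D : Divisor.degZero (K := Kbar) (F := FN p) :=
    ⟨Finsupp.single (cuspInf p) 1 - Finsupp.single (cuspZero p) 1, by
      rw [Divisor.mem_degZero, map_sub, Divisor.degree_single, Divisor.degree_single,
        h.deg_inf, h.deg_zero, sub_self]⟩ with hD
  have key : Pic0.degZeroCorrespondence (heckeBetaBar Kbar p p) (heckeAlphaBar Kbar p p)
      hβ hα hFI D = D := by
    apply Subtype.ext
    exact heckeDivBar_self_cusp p hα hβ hp hFI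
  have h1 := Fermat.Agent.Lib.HeckeComm.heckeOperatorBar_mk p ⟨p, hp⟩ hα hβ hP hfin hFI hNF D
  have h2 : heckeOperatorBar p ⟨p, hp⟩ (Pic0.mk D) = Pic0.mk D := by
    rw [h1, key]
  exact h2

end Fermat.Agent.S15.H2
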