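import Fermat.Agent.S15.Defs
import Fermat.Agent.RED.H17_RI

/-!
# S15, input (RI) (helper17): `Stmt_redInputs p` from `Stmt_RM`

`stmt_redInputs_of : Stmt_RM → p.Prime → Stmt_redInputs p` (G-RED package RI,
`RED/H17_RI.lean`).
-/

set_option autoImplicit false
set_option synthInstance.maxHeartbeats 400000
set_option linter.style.haveILetI false

noncomputable section

open ModularCurve

namespace Fermat.Agent.S15.H17

/-- **(RI)** from the reduction maps of G-RED. -/
theorem stmt_redInputs_of (hRM : Fermat.Agent.RED.Stmt_RM) {p : ℕ} (hp : p.Prime) :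
    Stmt_redInputs p := by
  intro ℓ hℓ hℓp A hA
  haveI : NeZero p := ⟨hp.ne_zero⟩
  exact Fermat.Agent.RED.H17.reductionInputsModL_of_RM hRM p ℓ hℓ
    ((Nat.prime_dvd_prime_iff_eq hℓ hp).not.mpr hℓp) A hA

end Fermat.Agent.S15.H17
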