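import Fermat.Agent.S15.H30_CuspGal
import Fermat.Agent.S24.Asm.Genus
import Fermat.Agent.S24.Closure.Final
import Fermat.Agent.S24.H72_FF1b

/-!
# S15, package CUSP-ne (helper26): `[P∞ - P0] ≠ 0` on `X₀(p)`, `p ∉ {2, 3, 5, 7, 13}`

If `P∞ - P0 = div f`, then `f` has a single simple zero, so `[F : K(f)] = 1` (zeros theorem) and
every `f - a` has a single simple zero.  Hence `-2 • P0` is the divisor of `df`
(`ff_ordDifferential_zero / pole`), of degree `-2`.  The Riemann–Hurwitz count of S24 for `x = j`
(`ff_riemann_hurwitz_of_zeros` with the counts `asm_card_zeros_*`, `asm_card_poles`) and the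
arithmetic `asm_genus_arith` give `genusFormula p = 0`, which is false for `p ∉ {2, 3, 5, 7, 13}`.
-/

set_option autoImplicit false
set_option linter.style.haveILetI false
set_option linter.unusedSectionVars false
set_option linter.unusedVariables false

noncomputable section

open HahnSeries IntermediateField AlgebraicCurve ModularCurve KaehlerDifferential

namespace Fermat.Agent.S15.H26

open Fermat.Agent.S24 (Kbar FN jF modClosure asm_finrank asm_finiteDimensional
  asm_transcendental_jF h72_zerosStmt)

/-! ## Arithmetic: `genusFormula p > 0` -/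

theorem cuspCount_prime {p : ℕ} (hp : p.Prime) : cuspCount p = 2 := by
  rw [cuspCount, Nat.Prime.divisors hp, Finset.sum_pair hp.one_lt.ne]
  simp [Nat.div_self hp.pos]

theorem nuTwo_le_two {p : ℕ} (hp : p.Prime) : nuTwo p ≤ 2 := by
  haveI : Fact p.Prime := ⟨hp⟩
  classical
  rw [nuTwo]
  have hne : (Polynomial.X ^ 2 + 1 : Polynomial (ZMod p)) ≠ 0 := by
    intro h
    have := congrArg (fun q => Polynomial.coeff q 2) h
    simp [Polynomial.coeff_one] at this
  have hdeg : (Polynomial.X ^ 2 + 1 : Polynomial (ZMod p)).natDegree ≤ 2 := by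
    refine (Polynomial.natDegree_add_le _ _).trans ?_
    simp
  have hsub : {x : ZMod p | x ^ 2 + 1 = 0} ⊆
      ((Polynomial.X ^ 2 + 1 : Polynomial (ZMod p)).roots.toFinset : Set (ZMod p)) := by
    intro x hx
    rw [Finset.mem_coe, Multiset.mem_toFinset, Polynomial.mem_roots hne]
    simpa [Polynomial.IsRoot] using hx
  calc Nat.card {x : ZMod p // x ^ 2 + 1 = 0}
      = Set.ncard {x : ZMod p | x ^ 2 + 1 = 0} := (Nat.card_coe_set_eq _)
    _ ≤ Set.ncard ((Polynomial.X ^ 2 + 1 : Polynomial (ZMod p)).roots.toFinset : Set (ZMod p)) :=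
        Set.ncard_le_ncard hsub (Finset.finite_toSet _)
    _ = ((Polynomial.X ^ 2 + 1 : Polynomial (ZMod p)).roots.toFinset).card :=
        Set.ncard_coe_finset _
    _ ≤ Multiset.card (Polynomial.X ^ 2 + 1 : Polynomial (ZMod p)).roots :=
        Multiset.toFinset_card_le _
    _ ≤ (Polynomial.X ^ 2 + 1 : Polynomial (ZMod p)).natDegree := Polynomial.card_roots' _
    _ ≤ 2 := hdeg

theorem nuThree_le_two {p : ℕ} (hp : p.Prime) : nuThree p ≤ 2 := by
  haveI : Fact p.Prime := ⟨hp⟩
  classical
  rw [nuThree]
  have hne : (Polynomial.X ^ 2 + Polynomial.X + 1 : Polynomial (ZMod p)) ≠ 0 := by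
    intro h
    have := congrArg (fun q => Polynomial.coeff q 2) h
    simp [Polynomial.coeff_one, Polynomial.coeff_X] at this
  have hdeg : (Polynomial.X ^ 2 + Polynomial.X + 1 : Polynomial (ZMod p)).natDegree ≤ 2 := by
    refine (Polynomial.natDegree_add_le _ _).trans ?_
    refine max_le ((Polynomial.natDegree_add_le _ _).trans ?_) (by simp)
    simp
  have hsub : {x : ZMod p | x ^ 2 + x + 1 = 0} ⊆
      ((Polynomial.X ^ 2 + Polynomial.X + 1 : Polynomial (ZMod p)).roots.toFinset :
        Set (ZMod p)) := by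
    intro x hx
    rw [Finset.mem_coe, Multiset.mem_toFinset, Polynomial.mem_roots hne]
    simpa [Polynomial.IsRoot] using hx
  calc Nat.card {x : ZMod p // x ^ 2 + x + 1 = 0}
      = Set.ncard {x : ZMod p | x ^ 2 + x + 1 = 0} := (Nat.card_coe_set_eq _)
    _ ≤ Set.ncard ((Polynomial.X ^ 2 + Polynomial.X + 1 : Polynomial (ZMod p)).roots.toFinset :
          Set (ZMod p)) :=
        Set.ncard_le_ncard hsub (Finset.finite_toSet _)
    _ = ((Polynomial.X ^ 2 + Polynomial.X + 1 : Polynomial (ZMod p)).roots.toFinset).card :=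
        Set.ncard_coe_finset _
    _ ≤ Multiset.card (Polynomial.X ^ 2 + Polynomial.X + 1 : Polynomial (ZMod p)).roots :=
        Multiset.toFinset_card_le _
    _ ≤ (Polynomial.X ^ 2 + Polynomial.X + 1 : Polynomial (ZMod p)).natDegree :=
        Polynomial.card_roots' _
    _ ≤ 2 := hdeg

theorem nuTwo_eleven : nuTwo 11 = 0 := by
  rw [nuTwo]
  haveI : IsEmpty {x : ZMod 11 // x ^ 2 + 1 = 0} := by
    refine ⟨fun ⟨x, hx⟩ => ?_⟩
    revert x
    decide
  exact Nat.card_of_isEmpty

theorem nuThree_eleven : nuThree 11 = 0 := by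
  rw [nuThree]
  haveI : IsEmpty {x : ZMod 11 // x ^ 2 + x + 1 = 0} := by
    refine ⟨fun ⟨x, hx⟩ => ?_⟩
    revert x
    decide
  exact Nat.card_of_isEmpty

theorem dedekindPsi_prime {p : ℕ} (hp : p.Prime) : dedekindPsi p = p + 1 := by
  have := Fermat.Agent.S20.H19.dedekindPsi_prime_pow hp (n := 1) one_pos
  simpa using this

/-- The genus formula is positive at the primes `p ∉ {2, 3, 5, 7, 13}`. -/
theorem genusFormula_pos {p : ℕ} (hp : p.Prime) (hp' : p ∉ ({2, 3, 5, 7, 13} : Finset ℕ)) :
    0 < genusFormula p := by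
  rw [genusFormula, dedekindPsi_prime hp, cuspCount_prime hp]
  have h2 := nuTwo_le_two hp
  have h3 := nuThree_le_two hp
  have h2' : (nuTwo p : ℚ) ≤ 2 := by exact_mod_cast h2
  have h3' : (nuThree p : ℚ) ≤ 2 := by exact_mod_cast h3
  simp only [Finset.mem_insert, Finset.mem_singleton, not_or] at hp'
  obtain ⟨n2, n3, n5, n7, n13⟩ := hp'
  by_cases h11 : p = 11
  · subst h11
    rw [nuTwo_eleven, nuThree_eleven]
    norm_num
  · have hge : 17 ≤ p := by
      by_contra hlt
      rw [not_le] at hlt
      have h1 := hp.two_le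
      interval_cases p <;> first | omega | (exfalso; revert hp; decide)
    have hge' : (17 : ℚ) ≤ (p : ℚ) := by exact_mod_cast hge
    push_cast
    linarith


/-! ## The main argument -/

open Fermat.Agent.S24 in
/-- A function with a zero or a pole is not constant. -/
theorem transcendental_of_ord_ne_zero {p : ℕ} [NeZero p] {f : FN p} (v : PlaceBar p)
    (hv : v.ord f ≠ 0) : Transcendental Kbar f := by
  intro halg
  have hint : IsIntegral Kbar f := halg.isIntegral
  have hdeg1 : (minpoly Kbar f).degree = 1 :=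
    IsAlgClosed.degree_eq_one_of_irreducible Kbar (minpoly.irreducible hint)
  obtain ⟨a, ha⟩ := minpoly.mem_range_of_degree_eq_one Kbar f hdeg1
  apply hv
  rw [← ha]
  exact Fermat.Agent.S24.H59.ord_algebraMap_eq_zero' v a

open Fermat.Agent.S24 ModularGroup in
/-- **CUSP-ne**: the cuspidal class `[P∞ - P0]` of `X₀(p)` is not zero, `p ∉ {2, 3, 5, 7, 13}`. -/
theorem stmt_cuspNe (p : ℕ) [NeZero p] (hp : p.Prime)
    (hp' : p ∉ ({2, 3, 5, 7, 13} : Finset ℕ)) : Stmt_cuspNe p := by
  classical
  intro Pinf P0 h hzero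
  have hne : Pinf ≠ P0 := Fermat.Agent.S15.H30.isCuspPair_ne hp.two_le h
  -- the function `f` with divisor `P∞ - P0`
  have hprin : (Finsupp.single Pinf 1 - Finsupp.single P0 1 : Divisor Kbar (FN p)) ∈
      Divisor.principal (K := Kbar) (F := FN p) := by
    have h1 := (QuotientAddGroup.eq_zero_iff _).mp hzero
    exact AddSubgroup.mem_addSubgroupOf.mp h1
  obtain ⟨f, hf0, hf⟩ := hprin
  have hord : ∀ v : PlaceBar p,
      v.ord f = (if Pinf = v then 1 else 0) - (if P0 = v then 1 else 0) := fun v => by
    rw [← hf v, Finsupp.sub_apply, Finsupp.single_apply, Finsupp.single_apply]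
  have hordInf : Pinf.ord f = 1 := by
    rw [hord Pinf, if_pos rfl, if_neg (Ne.symm hne)]; norm_num
  have hordP0 : P0.ord f = -1 := by
    rw [hord P0, if_neg hne, if_pos rfl]; norm_num
  have hx := asm_transcendental_jF (modClosure p)
  haveI := asm_finiteDimensional (modClosure p)
  have hzeros : H59.ZerosStmt Kbar (FN p) := fun y hy _ => ff_zeros y hy
  have htr : Transcendental Kbar f :=
    transcendental_of_ord_ne_zero Pinf (by rw [hordInf]; norm_num)
  haveI hfd : FiniteDimensional Kbar⟮f⟯ (FN p) := ff_finite_of_transcendental (jF p) hx f htr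
  -- `[F : K(f)] = 1`
  have hn1 : Module.finrank Kbar⟮f⟯ (FN p) = 1 := by
    obtain ⟨hfin, hsum⟩ := hzeros f htr
    have hset : {v : PlaceBar p | 0 < v.ord f} = {Pinf} := by
      ext v
      simp only [Set.mem_ofPred_eq, Set.mem_singleton_iff]
      constructor
      · intro hv
        rw [hord v] at hv
        by_contra hvne
        rw [if_neg (fun e => hvne e.symm)] at hv
        split_ifs at hv <;> omega
      · rintro rfl
        rw [hordInf]; norm_num
    rw [hset, finsum_mem_singleton, hordInf] at hsum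
    exact_mod_cast hsum.symm
  -- every zero of `f - a` is simple
  have hsimple : ∀ (a : Kbar) (v : PlaceBar p), 0 < v.ord (f - algebraMap Kbar (FN p) a) →
      v.ord (f - algebraMap Kbar (FN p) a) = 1 := by
    intro a v hv
    obtain ⟨Z, hZ, hZsum, -⟩ := H85.zeros_sub f htr (fun y hy hfd => @hzeros y hy hfd) a
    rw [hn1] at hZsum
    have hvZ : v ∈ Z := (hZ v).2 hv
    have hle : v.ord (f - algebraMap Kbar (FN p) a) ≤
        ∑ w ∈ Z, w.ord (f - algebraMap Kbar (FN p) a) :=
      Finset.single_le_sum (f := fun w : PlaceBar p => w.ord (f - algebraMap Kbar (FN p) a))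
        (fun w hw => ((hZ w).1 hw).le) hvZ
    rw [hZsum] at hle
    push_cast at hle
    omega
  -- the divisor of `df`
  have hω : D Kbar (FN p) f ≠ 0 := ff_D_ne_zero (jF p) hx f htr
  have hD : ∀ v : PlaceBar p, (Finsupp.single P0 (-2) : Divisor Kbar (FN p)) v
      = v.ordDifferential (D Kbar (FN p) f) := by
    intro v
    by_cases hv : P0 = v
    · subst hv
      rw [Finsupp.single_eq_same,
        ff_ordDifferential_pole (jF p) hx P0 f (by rw [hordP0]; norm_num), hordP0]
      norm_num
    · rw [Finsupp.single_apply, if_neg hv]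
      have hreg : 0 ≤ v.ord f := by
        rw [hord v, if_neg hv]
        split_ifs <;> norm_num
      have hmem : f ∈ v.toValuationSubring := H85.mem_of_ord_nonneg v hreg
      obtain ⟨a, ha⟩ := H85.exists_ord_sub_pos v (ff_deg_eq_one (jF p) hx v) htr hmem
      rw [ff_ordDifferential_zero (jF p) hx v f a ha, hsimple a v ha]
      norm_num
  -- Riemann–Hurwitz for `x = j`
  have hN : 1 < p := hp.one_lt
  have hn := asm_finrank (modClosure p)
  have h01728 : (0 : Kbar) ≠ 1728 := by norm_num
  have key := ff_riemann_hurwitz_of_zeros hzeros (jF p) hx {0, 1728}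
    (fun a => if a = 0 then orbN p (S * T) else orbN p S)
    (by
      intro a ha
      rcases Finset.mem_insert.mp ha with rfl | ha
      · simpa using asm_card_zeros_zero (modClosure p) hN
      · rw [Finset.mem_singleton] at ha
        subst ha
        simpa [h01728.symm] using asm_card_zeros_1728 (modClosure p) hN)
    (by
      intro a ha
      rw [Finset.mem_insert, Finset.mem_singleton, not_or] at ha
      rw [hn]
      exact asm_card_zeros_generic (modClosure p) a ha.1 ha.2)
    (orbN p T) (asm_card_poles (modClosure p)) (D Kbar (FN p) f) hω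
    (Finsupp.single P0 (-2)) hD
  have hdeg : Divisor.degree (Finsupp.single P0 (-2) : Divisor Kbar (FN p)) = -2 := by
    rw [Divisor.degree_single, h.deg_zero]
    norm_num
  have harith := asm_genus_arith p (-2) (by
    rw [← hdeg, key, Finset.sum_pair h01728, hn]
    simp [h01728.symm])
  have h0 : genusFormula p = 0 := by
    rw [← harith]
    norm_num
  exact absurd h0 (genusFormula_pos hp hp').ne'

end Fermat.Agent.S15.H26
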