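/-
S15 / BRIDGE, package BR-VAL (helper11), assembly:
`Stmt_BRval` from the local pieces `Stmt_BRzc ℓ`, `Stmt_BRe0 ℓ` (all primes `ℓ`), the roots
(`stmt_BRroots`) and the valuation estimate (`one_le_val_quot`, `val_quot_lt_one`).
-/
import Fermat.Agent.S15.BridgeDefs
import Fermat.Agent.S15.H11_BRLam
import Fermat.Agent.S15.H11_BRRoots

set_option autoImplicit false

namespace Fermat.Agent.S15.H11

open WeierstrassCurve Fermat.Agent.Lib.Torsion.H11 Fermat.Agent.S12.H11
open Fermat.Agent.S05.H15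

/-- A nonzero multiple `R` of a point `Q` of prime order has `Q` among its multiples. -/
lemma exists_nsmul_eq_of_prime_order {G : Type*} [AddGroup G] {Q R : G} {p : ℕ} (hp : p.Prime)
    (hord : addOrderOf Q = p) (hR : R ∈ AddSubgroup.zmultiples Q) (hR0 : R ≠ 0) :
    ∃ m : ℕ, m • R = Q := by
  have hfin : IsOfFinAddOrder Q := by
    rw [← addOrderOf_pos_iff, hord]
    exact hp.pos
  obtain ⟨n, rfl⟩ : ∃ n : ℕ, n • Q = R := by
    have := (hfin.mem_multiples_iff_mem_zmultiples (y := R)).mpr hR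
    exact (AddSubmonoid.mem_multiples_iff _ _).mp this
  have hnp : ¬ p ∣ n := by
    intro hdvd
    apply hR0
    rw [← hord] at hdvd
    exact addOrderOf_dvd_iff_nsmul_eq_zero.mp hdvd
  have hcop : Nat.Coprime n p := ((Nat.Prime.coprime_iff_not_dvd hp).mpr hnp).symm
  obtain ⟨m, -, hm⟩ := Nat.exists_mul_mod_eq_one_of_coprime hcop hp.one_lt
  refine ⟨m, ?_⟩
  rw [← mul_nsmul, ← mod_addOrderOf_nsmul, hord, hm, one_nsmul]

/-- Every element of `zmultiples Q` is a natural multiple, for `Q` of finite order. -/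
lemma exists_nsmul_of_mem_zmultiples {G : Type*} [AddGroup G] {Q R : G}
    (hfin : IsOfFinAddOrder Q) (hR : R ∈ AddSubgroup.zmultiples Q) : ∃ n : ℕ, n • Q = R := by
  have := (hfin.mem_multiples_iff_mem_zmultiples (y := R)).mpr hR
  exact (AddSubmonoid.mem_multiples_iff _ _).mp this

/-- **(BR-VAL)** from the local pieces. -/
theorem stmt_BRval_of (hzc : ∀ ℓ : ℕ, ℓ.Prime → Stmt_BRzc ℓ)
    (he0 : ∀ ℓ : ℕ, ℓ.Prime → Stmt_BRe0 ℓ) : Fermat.Agent.S15.Stmt_BRval := by
  intro p hp hp2 W hΔ Q _ hord β hβ ℓ hℓ _ hd hc A hA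
  obtain ⟨e₁, e₂, e₃, hN, hw⟩ := stmt_BRroots W hΔ ℓ hℓ hd hc A hA
  have hfin : IsOfFinAddOrder Q := by
    rw [← addOrderOf_pos_iff, hord]
    exact hp.pos
  have : Finite (AddSubgroup.zmultiples Q) := by
    have := hfin.finite_zmultiples
    exact Set.finite_coe_iff.mpr this
  let inst0 : Fintype (AddSubgroup.zmultiples Q) := Fintype.ofFinite _
  have hcard : Fintype.card (AddSubgroup.zmultiples Q) = p := by
    rw [← Nat.card_eq_fintype_card, Nat.card_zmultiples, hord]
  have hodd : Odd (Fintype.card (AddSubgroup.zmultiples Q)) := by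
    rw [hcard]
    exact hp.odd_of_ne_two hp2
  have hQ0 : Q ≠ 0 := by
    intro h0
    rw [h0, addOrderOf_zero] at hord
    exact hp.one_lt.ne hord
  have hβ' := hβ e₁ e₂ e₃ inst0 hN.tt
  have hj : (((Fermat.Agent.S15.jRat W : ℚ)) : QB) = jQB W := rfl
  have hΔ' : (EB W).Δ ≠ 0 := by
    rw [EB_Δ]
    exact_mod_cast hΔ
  have h4 : A.valuation (4 : QB) ≤ 1 := by
    have := valuation_intCast_le_one A 4
    push_cast at this
    exact this
  have h4ne : A.valuation (4 : QB) ≠ 0 := by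
    rw [Valuation.ne_zero_iff]
    norm_num
  have hx : A.valuation ((e₂ - e₁) / 4) < 1 := by
    rw [map_div₀, div_lt_one₀ (lt_of_le_of_ne zero_le h4ne.symm)]
    exact hN.d12_lt
  have hzcQ := hzc ℓ hℓ W hΔ hd hc A hA e₁ e₂ e₃ hN
  have he0Q := he0 ℓ hℓ W hΔ hd hc A hA e₁ e₂ e₃ hN
  rw [hj, hβ']
  constructor
  · intro hin
    have hQin : 1 ≤ A.valuation (xc (EB W) Q - e₁) := (hzcQ Q hQ0).mp hin
    have hall : ∀ R ∈ AddSubgroup.zmultiples Q, R ≠ 0 →
        1 ≤ A.valuation (xc (EB W) R - e₁) := by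
      intro R hR hR0
      obtain ⟨n, rfl⟩ := exists_nsmul_of_mem_zmultiples hfin hR
      rcases he0Q Q (Or.inr hQin) n with h | h
      · exact absurd h hR0
      · exact h
    have key := one_le_val_quot A.valuation (EBar W) (AddSubgroup.zmultiples Q) hN.tt hΔ' hodd h4
      hN.d12_lt hN.ne12 hN.d13 hN.d23 hall
    rw [hcard] at key
    exact le_of_one_le_mul hp.ne_zero hw hx key
  · intro hout
    have hQout : A.valuation (xc (EB W) Q - e₁) < 1 := by
      rw [← not_le]
      intro h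
      exact hout ((hzcQ Q hQ0).mpr h)
    have hall : ∀ R ∈ AddSubgroup.zmultiples Q, R ≠ 0 →
        A.valuation (xc (EB W) R - e₁) < 1 := by
      intro R hR hR0
      rw [← not_le]
      intro h
      obtain ⟨m, hm⟩ := exists_nsmul_eq_of_prime_order hp hord hR hR0
      have hm' : ∀ T : (EB W).Point, T = Q →
          (T = 0 ∨ 1 ≤ A.valuation (xc (EB W) T - e₁)) → False := by
        intro T hT hT'
        subst hT
        rcases hT' with h' | h'
        · exact hQ0 h'
        · exact absurd h' (not_le.mpr hQout)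
      exact hm' _ hm (he0Q R (Or.inr h) m)
    have key := val_quot_lt_one A.valuation (EBar W) (AddSubgroup.zmultiples Q) hN.tt hΔ' hodd
      (by rw [hcard]; exact hp.one_lt) h4 hN.d12_lt hN.ne12 hN.d13 hN.d23 hall
    rw [hcard] at key
    exact lt_pow_of_mul_lt_one hw key

end Fermat.Agent.S15.H11

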