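/-
S15 / BRIDGE, package BR-VAL (helper66): `Stmt_BRe0 ℓ` for odd primes `ℓ`.

The set `{P = 0 or 1 ≤ |x(P) - e₁|}` is the kernel of the component homomorphism of the S05
model `Y² = X (X² + a X + b)`, `X = x - e₁`, `a = -(d₁₂ + d₁₃)`, `b = d₁₂ d₁₃`
(`d₁ⱼ = eⱼ - e₁`), hence closed under multiples.
-/
import Fermat.Agent.S15.H11_BRDefs
import Fermat.Agent.S05.M1Final
import Fermat.Agent.S05.H14_VarChange
import Fermat.Agent.S05.H15_Val

set_option autoImplicit false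

namespace Fermat.Agent.S15.H66

open WeierstrassCurve WeierstrassCurve.Affine WeierstrassCurve.Affine.Point
open Fermat.Agent.Lib.Torsion.H11 Fermat.Agent.S12.H11 Fermat.Agent.S15.H11
open Fermat.Agent.S05 Fermat.Agent.S05.H15

/-- The S05 model centred at the node root `e₁`. -/
noncomputable def nodeModel (e₁ e₂ e₃ : QB) : Affine QB :=
  ⟨0, -((e₂ - e₁) + (e₃ - e₁)), 0, (e₂ - e₁) * (e₃ - e₁), 0⟩

section model

variable {W : WeierstrassCurve ℤ} {A : ValuationSubring QB} {e₁ e₂ e₃ : QB}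

/-- The change of variables `x = X + e₁`, `y = Y - (a₁/2) X - (a₁ e₁ + a₃)/2`. -/
lemma isVarChange_nodeModel (hT : TwoTors (EB W) e₁ e₂ e₃) :
    H14.IsVarChange (nodeModel e₁ e₂ e₃) (EB W) (1 : QB) e₁
      (-(((W.a₁ : ℤ) : QB)) / 2) (-(((W.a₁ : ℤ) : QB) * e₁ + ((W.a₃ : ℤ) : QB)) / 2) := by
  have hb2 := hT.hb2
  have hb4 := hT.hb4
  have hb6 := hT.hb6
  simp only [WeierstrassCurve.b₂, WeierstrassCurve.b₄, WeierstrassCurve.b₆] at hb2 hb4 hb6
  rw [EB_a₁, EB_a₂] at hb2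
  rw [EB_a₁, EB_a₃, EB_a₄] at hb4
  rw [EB_a₃, EB_a₆] at hb6
  refine ⟨one_ne_zero, ?_, ?_, ?_, ?_, ?_⟩
  · rw [EB_a₁]
    show (1 : QB) * 0 = _
    ring
  · rw [EB_a₁, EB_a₂]
    show (1 : QB) ^ 2 * (-((e₂ - e₁) + (e₃ - e₁))) = _
    linear_combination (-1 / 4 : QB) * hb2
  · rw [EB_a₁, EB_a₃]
    show (1 : QB) ^ 3 * 0 = _
    ring
  · rw [EB_a₁, EB_a₂, EB_a₃, EB_a₄]
    show (1 : QB) ^ 4 * ((e₂ - e₁) * (e₃ - e₁)) = _
    linear_combination (-1 / 2 : QB) * hb4 - (e₁ / 2) * hb2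
  · rw [EB_a₁, EB_a₂, EB_a₃, EB_a₄, EB_a₆]
    show (1 : QB) ^ 6 * 0 = _
    linear_combination (-e₁ ^ 2 / 4) * hb2 - (e₁ / 2) * hb4 - (1 / 4 : QB) * hb6

/-- The model hypotheses at an odd place. -/
lemma modelHyp_nodeModel (hN : NodeRoots W A e₁ e₂ e₃) (h2 : A.valuation (2 : QB) = 1) :
    ModelHyp A (nodeModel e₁ e₂ e₃) ∧ A.valuation (nodeModel e₁ e₂ e₃).a₄ < 1 := by
  have h4 : A.valuation (4 : QB) = 1 := by
    have : (4 : QB) = 2 * 2 := by norm_num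
    rw [this, map_mul, h2, mul_one]
  have hd12 : A.valuation (e₂ - e₁) < 1 := by
    have := hN.d12_lt
    rwa [h4] at this
  have hd13 : A.valuation (e₃ - e₁) = 1 := by
    have := hN.d13
    rwa [map_mul, h4, one_mul] at this
  have hd23 : A.valuation (e₃ - e₂) = 1 := by
    have := hN.d23
    rwa [map_mul, h4, one_mul] at this
  have hne12 : e₂ - e₁ ≠ 0 := sub_ne_zero.2 (Ne.symm hN.ne12)
  have hne13 : e₃ - e₁ ≠ 0 := by
    intro h0
    rw [h0, _root_.map_zero] at hd13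
    exact zero_ne_one hd13
  refine ⟨⟨rfl, rfl, rfl, ?_, ?_, ?_, h2, ?_⟩, ?_⟩
  · show A.valuation (-((e₂ - e₁) + (e₃ - e₁))) ≤ 1
    rw [Valuation.map_neg]
    exact Valuation.map_add_le _ hd12.le hd13.le
  · show A.valuation ((e₂ - e₁) * (e₃ - e₁)) ≤ 1
    rw [map_mul, hd13, mul_one]
    exact hd12.le
  · show (e₂ - e₁) * (e₃ - e₁) ≠ 0
    exact mul_ne_zero hne12 hne13
  · show A.valuation ((-((e₂ - e₁) + (e₃ - e₁))) ^ 2 - 4 * ((e₂ - e₁) * (e₃ - e₁))) = 1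
    have : (-((e₂ - e₁) + (e₃ - e₁))) ^ 2 - 4 * ((e₂ - e₁) * (e₃ - e₁)) = (e₃ - e₂) ^ 2 := by
      ring
    rw [this, map_pow, hd23, one_pow]
  · show A.valuation ((e₂ - e₁) * (e₃ - e₁)) < 1
    rw [map_mul, hd13, mul_one]
    exact hd12

end model

/-- (BR-E0) at an odd prime. -/
theorem stmt_BRe0_odd {ℓ : ℕ} (hℓ : ℓ.Prime) (hℓ2 : ℓ ≠ 2) : Stmt_BRe0 ℓ := by
  intro W _ _ _ A hA e₁ e₂ e₃ hN P hP n
  have hqK : ((ℓ : ℕ) : QB) ∈ A.nonunits := hA
  have h2 : A.valuation (2 : QB) = 1 := by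
    have := valuation_natCast_eq_one_of_ne (A := A) hℓ hqK Nat.prime_two (Ne.symm hℓ2)
    simpa using this
  obtain ⟨hyp, hb⟩ := modelHyp_nodeModel hN h2
  obtain ⟨β, hβ⟩ := IsAlgClosed.exists_pow_nat_eq (nodeModel e₁ e₂ e₃).a₂ (n := 2) (by norm_num)
  obtain ⟨φ, hker, -⟩ := S05.M1 A _ hyp hb β hβ
  have hvc := isVarChange_nodeModel (W := W) hN.tt
  set Φ := hvc.addEquiv with hΦ
  -- the key dictionary
  have hdict : ∀ Q : (nodeModel e₁ e₂ e₃).Point,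
      InE0 A Q ↔ (Φ Q = 0 ∨ 1 ≤ A.valuation (xc (EB W) (Φ Q) - e₁)) := by
    intro Q
    rcases Q with _ | ⟨X, Y, hXY⟩
    · constructor
      · intro _; left; rfl
      · intro _; trivial
    · have hsome : Φ (Point.some X Y hXY) = Point.some (H14.fx 1 e₁ X)
          (H14.fy 1 (-(((W.a₁ : ℤ) : QB)) / 2)
            (-(((W.a₁ : ℤ) : QB) * e₁ + ((W.a₃ : ℤ) : QB)) / 2) X Y)
          ((hvc.nonsingular_iff X Y).2 hXY) := hvc.addEquiv_some hXY
      have hx : xc (EB W) (Φ (Point.some X Y hXY)) - e₁ = X := by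
        rw [hsome, xc_some, H14.fx]
        ring
      rw [hx]
      constructor
      · intro h; right; exact h
      · rintro (h | h)
        · rw [hsome] at h
          exact absurd h (Point.some_ne_zero _)
        · exact h
  have hP' : InE0 A (Φ.symm P) := by
    rw [hdict, AddEquiv.apply_symm_apply]
    exact hP
  have hφ : φ (Φ.symm (n • P)) = 0 := by
    rw [map_nsmul, map_nsmul, (hker _).2 hP']
    exact nsmul_zero _
  have := (hdict _).1 ((hker _).1 hφ)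
  rwa [AddEquiv.apply_symm_apply] at this

end Fermat.Agent.S15.H66
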