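/-
S15 / BRIDGE, package BR-VAL (helper66): `Stmt_BRzc ℓ` for odd primes `ℓ`.

For `W / ℤ` with multiplicative reduction at the odd prime `ℓ`, `A` over `ℓ`, and the roots
`e₁ ≡ e₂`, `e₃` of the 2-division polynomial numbered along the node, an affine point `P`
lies in the identity component iff `1 ≤ |x(P) - e₁|`.
-/
import Fermat.Agent.S15.H11_BRDefs
import Fermat.Agent.S12.H66_ZCBridge
import Fermat.Agent.S05.H15_Val

set_option autoImplicit false

namespace Fermat.Agent.S15.H66

open WeierstrassCurve WeierstrassCurve.Affine WeierstrassCurve.Affine.Point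
open Fermat.Agent.Lib.Torsion.H11 Fermat.Agent.S12.H11 Fermat.Agent.S15.H11
open Fermat.Agent.S05.H15

/-- The converse of `S12.H66.zc_unpack`: an integral point one of whose partial derivatives is
a unit lies in the identity component. -/
theorem zc_pack (W : WeierstrassCurve ℤ) (V : ValuationSubring QB) (x y : QB)
    (h : (EB W).Nonsingular x y) (hx : V.valuation x ≤ 1) (hy : V.valuation y ≤ 1)
    (hu : V.valuation (((W.a₁ : ℤ) : QB) * y
          - (3 * x ^ 2 + 2 * ((W.a₂ : ℤ) : QB) * x + ((W.a₄ : ℤ) : QB))) = 1 ∨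
        V.valuation (2 * y + ((W.a₁ : ℤ) : QB) * x + ((W.a₃ : ℤ) : QB)) = 1) :
    W.InZeroComponentAt V (Point.some x y h) := by
  right
  have hxV : x ∈ V := (V.valuation_le_one_iff x).mp hx
  have hyV : y ∈ V := (V.valuation_le_one_iff y).mp hy
  refine ⟨x, y, h, rfl, Or.inr ⟨hxV, hyV, ?_⟩⟩
  set x' : V := ⟨x, hxV⟩ with hx'
  set y' : V := ⟨y, hyV⟩ with hy'
  have heq := h.1
  rw [Affine.equation_iff, EB_a₁, EB_a₂, EB_a₃, EB_a₄, EB_a₆] at heq
  have hVeq : y' ^ 2 + ((W.a₁ : ℤ) : V) * x' * y' + ((W.a₃ : ℤ) : V) * y'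
      = x' ^ 3 + ((W.a₂ : ℤ) : V) * x' ^ 2 + ((W.a₄ : ℤ) : V) * x' + ((W.a₆ : ℤ) : V) := by
    apply Subtype.ext
    push_cast
    simp only [hx', hy']
    linear_combination heq
  have hres := congrArg (IsLocalRing.residue V) hVeq
  simp only [map_add, map_mul, map_pow, map_intCast] at hres
  rw [Affine.nonsingular_iff', Affine.equation_iff]
  have e1 : (W.map (Int.castRingHom (IsLocalRing.ResidueField V))).toAffine.a₁ =
      ((W.a₁ : ℤ) : IsLocalRing.ResidueField V) := by simp
  have e2 : (W.map (Int.castRingHom (IsLocalRing.ResidueField V))).toAffine.a₂ =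
      ((W.a₂ : ℤ) : IsLocalRing.ResidueField V) := by simp
  have e3 : (W.map (Int.castRingHom (IsLocalRing.ResidueField V))).toAffine.a₃ =
      ((W.a₃ : ℤ) : IsLocalRing.ResidueField V) := by simp
  have e4 : (W.map (Int.castRingHom (IsLocalRing.ResidueField V))).toAffine.a₄ =
      ((W.a₄ : ℤ) : IsLocalRing.ResidueField V) := by simp
  have e6 : (W.map (Int.castRingHom (IsLocalRing.ResidueField V))).toAffine.a₆ =
      ((W.a₆ : ℤ) : IsLocalRing.ResidueField V) := by simp
  rw [e1, e2, e3, e4, e6]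
  refine ⟨by linear_combination hres, ?_⟩
  rcases hu with hu | hu
  · left
    have hunit : IsUnit (((W.a₁ : ℤ) : V) * y'
        - (3 * x' ^ 2 + 2 * ((W.a₂ : ℤ) : V) * x' + ((W.a₄ : ℤ) : V))) := by
      rw [V.valuation_eq_one_iff]
      have hcoe : ((((W.a₁ : ℤ) : V) * y'
          - (3 * x' ^ 2 + 2 * ((W.a₂ : ℤ) : V) * x' + ((W.a₄ : ℤ) : V)) : V) : QB)
          = ((W.a₁ : ℤ) : QB) * y
            - (3 * x ^ 2 + 2 * ((W.a₂ : ℤ) : QB) * x + ((W.a₄ : ℤ) : QB)) := by
        push_cast
        rfl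
      rw [hcoe]
      exact hu
    have := (IsLocalRing.residue_ne_zero_iff_isUnit _).mpr hunit
    intro h0
    apply this
    simp only [map_sub, map_add, map_mul, map_pow, map_ofNat, map_intCast]
    linear_combination h0
  · right
    have hunit : IsUnit (2 * y' + ((W.a₁ : ℤ) : V) * x' + ((W.a₃ : ℤ) : V)) := by
      rw [V.valuation_eq_one_iff]
      have hcoe : ((2 * y' + ((W.a₁ : ℤ) : V) * x' + ((W.a₃ : ℤ) : V) : V) : QB)
          = 2 * y + ((W.a₁ : ℤ) : QB) * x + ((W.a₃ : ℤ) : QB) := by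
        push_cast
        rfl
      rw [hcoe]
      exact hu
    have := (IsLocalRing.residue_ne_zero_iff_isUnit _).mpr hunit
    intro h0
    apply this
    simp only [map_add, map_mul, map_ofNat, map_intCast]
    linear_combination h0


/-- The `y`-coordinate of a point with integral `x`-coordinate is integral. -/
theorem val_y_le_one_int (W : WeierstrassCurve ℤ) (V : ValuationSubring QB) (x y : QB)
    (h : (EB W).Equation x y) (hx : V.valuation x ≤ 1) : V.valuation y ≤ 1 := by
  rw [Affine.equation_iff, EB_a₁, EB_a₂, EB_a₃, EB_a₄, EB_a₆] at h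
  by_contra hy
  rw [not_le] at hy
  have hc : V.valuation (((W.a₁ : ℤ) : QB) * x + ((W.a₃ : ℤ) : QB)) ≤ 1 := by
    apply Valuation.map_add_le
    · rw [map_mul]; exact mul_le_one₀ (valuation_intCast_le_one V _) zero_le hx
    · exact valuation_intCast_le_one V _
  have hr : V.valuation (x ^ 3 + ((W.a₂ : ℤ) : QB) * x ^ 2 + ((W.a₄ : ℤ) : QB) * x
      + ((W.a₆ : ℤ) : QB)) ≤ 1 := by
    apply Valuation.map_add_le
    · apply Valuation.map_add_le
      · apply Valuation.map_add_le
        · rw [map_pow]; exact pow_le_one₀ zero_le hx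
        · rw [map_mul, map_pow]
          exact mul_le_one₀ (valuation_intCast_le_one V _) zero_le (pow_le_one₀ zero_le hx)
      · rw [map_mul]; exact mul_le_one₀ (valuation_intCast_le_one V _) zero_le hx
    · exact valuation_intCast_le_one V _
  have hfac : y * (y + (((W.a₁ : ℤ) : QB) * x + ((W.a₃ : ℤ) : QB)))
      = x ^ 3 + ((W.a₂ : ℤ) : QB) * x ^ 2 + ((W.a₄ : ℤ) : QB) * x + ((W.a₆ : ℤ) : QB) := by
    linear_combination h
  have hsum : V.valuation (y + (((W.a₁ : ℤ) : QB) * x + ((W.a₃ : ℤ) : QB)))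
      = V.valuation y := Valuation.map_add_eq_of_lt_left _ (lt_of_le_of_lt hc hy)
  rw [← hfac, map_mul, hsum] at hr
  have : 1 < V.valuation y * V.valuation y := by
    calc (1 : V.ValueGroup) < V.valuation y := hy
      _ = V.valuation y * 1 := (mul_one _).symm
      _ ≤ V.valuation y * V.valuation y := mul_le_mul_right hy.le _
  exact absurd hr (not_le.2 this)

section main

variable {W : WeierstrassCurve ℤ} {A : ValuationSubring QB} {e₁ e₂ e₃ : QB}

/-- `ψ₂² = 4 (x - e₁)(x - e₂)(x - e₃)` on the curve. -/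
lemma psi_sq (hN : NodeRoots W A e₁ e₂ e₃) {x y : QB} (h : (EB W).Equation x y) :
    (2 * y + ((W.a₁ : ℤ) : QB) * x + ((W.a₃ : ℤ) : QB)) ^ 2
      = 4 * ((x - e₁) * (x - e₂) * (x - e₃)) := by
  have hb2 := hN.tt.hb2
  have hb4 := hN.tt.hb4
  have hb6 := hN.tt.hb6
  simp only [WeierstrassCurve.b₂, WeierstrassCurve.b₄, WeierstrassCurve.b₆] at hb2 hb4 hb6
  rw [EB_a₁, EB_a₂] at hb2
  rw [EB_a₁, EB_a₃, EB_a₄] at hb4
  rw [EB_a₃, EB_a₆] at hb6
  rw [Affine.equation_iff, EB_a₁, EB_a₂, EB_a₃, EB_a₄, EB_a₆] at h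
  linear_combination 4 * h + x ^ 2 * hb2 + 2 * x * hb4 + hb6

/-- `4 F_x = 2 a₁ ψ₂ - f'(x)`. -/
lemma four_Fx (hN : NodeRoots W A e₁ e₂ e₃) (x y : QB) :
    4 * (((W.a₁ : ℤ) : QB) * y - (3 * x ^ 2 + 2 * ((W.a₂ : ℤ) : QB) * x + ((W.a₄ : ℤ) : QB)))
      = 2 * ((W.a₁ : ℤ) : QB) * (2 * y + ((W.a₁ : ℤ) : QB) * x + ((W.a₃ : ℤ) : QB))
        - 4 * ((x - e₂) * (x - e₃) + (x - e₁) * (x - e₃))
        - 4 * ((x - e₁) * (x - e₂)) := by
  have hb2 := hN.tt.hb2
  have hb4 := hN.tt.hb4
  simp only [WeierstrassCurve.b₂, WeierstrassCurve.b₄] at hb2 hb4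
  rw [EB_a₁, EB_a₂] at hb2
  rw [EB_a₁, EB_a₃, EB_a₄] at hb4
  linear_combination (-2 * x) * hb2 - 2 * hb4

end main

/-- (BR-ZC) at an odd prime. -/
theorem stmt_BRzc_odd {ℓ : ℕ} (hℓ : ℓ.Prime) (hℓ2 : ℓ ≠ 2) : Stmt_BRzc ℓ := by
  intro W _ _ _ A hA e₁ e₂ e₃ hN P hP
  have hqK : ((ℓ : ℕ) : QB) ∈ A.nonunits := hA
  have h2 : A.valuation (2 : QB) = 1 := by
    have := valuation_natCast_eq_one_of_ne (A := A) hℓ hqK Nat.prime_two (Ne.symm hℓ2)
    simpa using this
  have h4 : A.valuation (4 : QB) = 1 := by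
    have : (4 : QB) = 2 * 2 := by norm_num
    rw [this, map_mul, h2, mul_one]
  have hd12 : A.valuation (e₂ - e₁) < 1 := by
    have := hN.d12_lt
    rwa [h4] at this
  have hd13 : A.valuation (e₃ - e₁) = 1 := by
    have := hN.d13
    rwa [map_mul, h4, one_mul] at this
  have hd23 : A.valuation (e₃ - e₂) = 1 := by
    have := hN.d23
    rwa [map_mul, h4, one_mul] at this
  have ha1 : A.valuation ((W.a₁ : ℤ) : QB) ≤ 1 := valuation_intCast_le_one A _
  rcases P with _ | ⟨x, y, h⟩
  · exact absurd rfl hP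
  show W.InZeroComponentAt A (Point.some x y h) ↔ 1 ≤ A.valuation (x - e₁)
  -- the relations between the three differences
  have hx2 : x - e₂ = (x - e₁) - (e₂ - e₁) := by ring
  have hx3 : x - e₃ = (x - e₁) - (e₃ - e₁) := by ring
  constructor
  · intro hZ
    rcases Fermat.Agent.S12.H66.zc_unpack W A x y h hZ with hx | ⟨hx, hy, hpart⟩
    · have hx1 : 1 < A.valuation x := by
        rw [← not_le, A.valuation_le_one_iff]; exact hx
      rw [Valuation.map_sub_eq_of_lt_left _ (lt_of_le_of_lt hN.e1_le hx1)]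
      exact hx1.le
    · by_contra hlt
      rw [not_le] at hlt
      have hlt2 : A.valuation (x - e₂) < 1 := by
        rw [hx2]; exact Valuation.map_sub_lt _ hlt hd12
      have hle3 : A.valuation (x - e₃) ≤ 1 := by
        rw [hx3]; exact Valuation.map_sub_le _ hlt.le hd13.le
      have hψ : A.valuation (2 * y + ((W.a₁ : ℤ) : QB) * x + ((W.a₃ : ℤ) : QB)) < 1 := by
        by_contra hge
        rw [not_lt] at hge
        have h1 : 1 ≤ A.valuation ((2 * y + ((W.a₁ : ℤ) : QB) * x + ((W.a₃ : ℤ) : QB)) ^ 2) := by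
          rw [map_pow]; exact one_le_pow₀ hge
        rw [psi_sq hN h.1, map_mul, h4, one_mul, map_mul, map_mul] at h1
        have h2' : A.valuation (x - e₁) * A.valuation (x - e₂) * A.valuation (x - e₃) < 1 :=
          mul_lt_one_of_nonneg_of_lt_one_left zero_le
            (mul_lt_one_of_nonneg_of_lt_one_left zero_le hlt hlt2.le) hle3
        exact absurd h1 (not_le.2 h2')
      have hFx : A.valuation (((W.a₁ : ℤ) : QB) * y
          - (3 * x ^ 2 + 2 * ((W.a₂ : ℤ) : QB) * x + ((W.a₄ : ℤ) : QB))) < 1 := by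
        have h4F : A.valuation (4 * (((W.a₁ : ℤ) : QB) * y
            - (3 * x ^ 2 + 2 * ((W.a₂ : ℤ) : QB) * x + ((W.a₄ : ℤ) : QB)))) < 1 := by
          rw [four_Fx hN x y]
          apply Valuation.map_sub_lt
          · apply Valuation.map_sub_lt
            · rw [map_mul, map_mul, h2, one_mul]
              exact mul_lt_one_of_nonneg_of_lt_one_right ha1 zero_le hψ
            · rw [map_mul, h4, one_mul]
              apply Valuation.map_add_lt
              · rw [map_mul]
                exact mul_lt_one_of_nonneg_of_lt_one_left zero_le hlt2 hle3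
              · rw [map_mul]
                exact mul_lt_one_of_nonneg_of_lt_one_left zero_le hlt hle3
          · rw [map_mul, h4, one_mul, map_mul]
            exact mul_lt_one_of_nonneg_of_lt_one_left zero_le hlt hlt2.le
        rwa [map_mul, h4, one_mul] at h4F
      rcases hpart with hp | hp
      · exact hp hFx
      · exact hp hψ
  · intro hge
    by_cases hx : A.valuation x ≤ 1
    · have hy : A.valuation y ≤ 1 := val_y_le_one_int W A x y h.1 hx
      have hle1 : A.valuation (x - e₁) ≤ 1 := Valuation.map_sub_le _ hx hN.e1_le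
      have heq1 : A.valuation (x - e₁) = 1 := le_antisymm hle1 hge
      have heq2 : A.valuation (x - e₂) = 1 := by
        rw [hx2, Valuation.map_sub_eq_of_lt_left _ (by rw [heq1]; exact hd12), heq1]
      have hle3 : A.valuation (x - e₃) ≤ 1 := by
        rw [hx3]; exact Valuation.map_sub_le _ hle1 hd13.le
      apply zc_pack W A x y h hx hy
      rcases lt_or_eq_of_le hle3 with hlt3 | heq3
      · left
        have hψ : A.valuation (2 * y + ((W.a₁ : ℤ) : QB) * x + ((W.a₃ : ℤ) : QB)) < 1 := by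
          by_contra hge'
          rw [not_lt] at hge'
          have h1 : 1 ≤ A.valuation
              ((2 * y + ((W.a₁ : ℤ) : QB) * x + ((W.a₃ : ℤ) : QB)) ^ 2) := by
            rw [map_pow]; exact one_le_pow₀ hge'
          rw [psi_sq hN h.1, map_mul, h4, one_mul, map_mul, map_mul, heq1, heq2, one_mul,
            one_mul] at h1
          exact absurd h1 (not_le.2 hlt3)
        have h4F : A.valuation (4 * (((W.a₁ : ℤ) : QB) * y
            - (3 * x ^ 2 + 2 * ((W.a₂ : ℤ) : QB) * x + ((W.a₄ : ℤ) : QB)))) = 1 := by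
          rw [four_Fx hN x y]
          have hlast : A.valuation (4 * ((x - e₁) * (x - e₂))) = 1 := by
            rw [map_mul, h4, one_mul, map_mul, heq1, heq2, one_mul]
          rw [Valuation.map_sub_eq_of_lt_right, hlast]
          rw [hlast]
          apply Valuation.map_sub_lt
          · rw [map_mul, map_mul, h2, one_mul]
            exact mul_lt_one_of_nonneg_of_lt_one_right ha1 zero_le hψ
          · rw [map_mul, h4, one_mul]
            apply Valuation.map_add_lt
            · rw [map_mul, heq2, one_mul]; exact hlt3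
            · rw [map_mul, heq1, one_mul]; exact hlt3
        rwa [map_mul, h4, one_mul] at h4F
      · right
        have hsq : A.valuation ((2 * y + ((W.a₁ : ℤ) : QB) * x + ((W.a₃ : ℤ) : QB)) ^ 2)
            = 1 := by
          rw [psi_sq hN h.1, map_mul, h4, one_mul, map_mul, map_mul, heq1, heq2, heq3,
            one_mul, one_mul]
        rw [map_pow] at hsq
        exact (pow_eq_one_iff_of_nonneg zero_le two_ne_zero).1 hsq
    · right
      refine ⟨x, y, h, rfl, Or.inl ?_⟩
      rw [← A.valuation_le_one_iff]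
      exact hx

end Fermat.Agent.S15.H66
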