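/-
S15 / BRIDGE, package BR-VAL (helper87): the identity component at `2` for a general integral
Weierstrass curve `W` with multiplicative reduction at `2` (`2 ∣ Δ`, `2 ∤ c₄`, so `a₁` is odd).

Variable change `X = a₁² x + e₁`, `Y = a₁³ y + t₁`, `t₁ = -(a₁ e₁ + a₃)/2`, to the model
`y² + x y = x³ + a x² + b x` of S13/WP3 (`ModelHyp2`), `a = (a₂ + 3 e₁)/a₁²`,
`b = (e₂ - e₁)(e₃ - e₁)/a₁⁴`.

Main results:
* `Fermat.Agent.S15.H87.stmt_BRe0_two : H11.Stmt_BRe0 2`
* `Fermat.Agent.S15.H87.stmt_BRzc_two : H11.Stmt_BRzc 2`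
-/
import Fermat.Agent.S15.H11_BRDefs
import Fermat.Agent.S13.WP3.H6_E0Cases
import Fermat.Agent.S13.WP3.H6_Pigeonhole
import Fermat.Agent.S05.H14_VarChange
import Fermat.Agent.S05.H15_Val
import Fermat.Agent.S12.H66_ZCBridge

set_option autoImplicit false

namespace Fermat.Agent.S15.H87

open WeierstrassCurve WeierstrassCurve.Affine WeierstrassCurve.Affine.Point
open Fermat.Agent.Lib.Torsion.H11 Fermat.Agent.S12.H11 Fermat.Agent.S15.H11

/-! ### General facts on integral points -/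

section general

variable (W : WeierstrassCurve ℤ) (V : ValuationSubring QB)

/-- The equation of `W` over `Q̄` with integer coefficients. -/
lemma equation_EB {X Y : QB} (h : (EB W).Equation X Y) :
    Y ^ 2 + ((W.a₁ : ℤ) : QB) * X * Y + ((W.a₃ : ℤ) : QB) * Y
      = X ^ 3 + ((W.a₂ : ℤ) : QB) * X ^ 2 + ((W.a₄ : ℤ) : QB) * X + ((W.a₆ : ℤ) : QB) := by
  rw [Affine.equation_iff, EB_a₁, EB_a₂, EB_a₃, EB_a₄, EB_a₆] at h
  exact h

/-- A point with integral `x`-coordinate has integral `y`-coordinate. -/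
lemma val_y_le_one {X Y : QB} (h : (EB W).Equation X Y) (hX : V.valuation X ≤ 1) :
    V.valuation Y ≤ 1 := by
  by_contra hcon
  have hy : 1 < V.valuation Y := not_le.1 hcon
  have e := equation_EB W h
  have hi : ∀ n : ℤ, V.valuation ((n : ℤ) : QB) ≤ 1 :=
    fun n => Fermat.Agent.S05.H15.valuation_intCast_le_one V n
  have hy0 : (0 : V.ValueGroup) < V.valuation Y := lt_trans zero_lt_one hy
  have hc : V.valuation (((W.a₁ : ℤ) : QB) * X + ((W.a₃ : ℤ) : QB)) ≤ 1 :=
    Valuation.map_add_le _ (by rw [map_mul]; exact mul_le_one' (hi _) hX) (hi _)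
  have h1 : V.valuation ((((W.a₁ : ℤ) : QB) * X + ((W.a₃ : ℤ) : QB)) * Y) < V.valuation (Y ^ 2) := by
    rw [map_mul, map_pow, pow_two]
    calc V.valuation (((W.a₁ : ℤ) : QB) * X + ((W.a₃ : ℤ) : QB)) * V.valuation Y
        ≤ 1 * V.valuation Y := by gcongr
      _ < V.valuation Y * V.valuation Y := mul_lt_mul_of_pos_right hy hy0
  have hL : V.valuation (Y ^ 2 + (((W.a₁ : ℤ) : QB) * X + ((W.a₃ : ℤ) : QB)) * Y)
      = V.valuation (Y ^ 2) := Valuation.map_add_eq_of_lt_left _ h1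
  have hL1 : 1 < V.valuation (Y ^ 2 + (((W.a₁ : ℤ) : QB) * X + ((W.a₃ : ℤ) : QB)) * Y) := by
    rw [hL, map_pow]
    exact one_lt_pow₀ hy (by norm_num)
  have hR : V.valuation (X ^ 3 + ((W.a₂ : ℤ) : QB) * X ^ 2 + ((W.a₄ : ℤ) : QB) * X
      + ((W.a₆ : ℤ) : QB)) ≤ 1 := by
    refine Valuation.map_add_le _ (Valuation.map_add_le _ (Valuation.map_add_le _ ?_ ?_) ?_) (hi _)
    · rw [map_pow]; exact pow_le_one₀ zero_le hX
    · rw [map_mul, map_pow]; exact mul_le_one' (hi _) (pow_le_one₀ zero_le hX)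
    · rw [map_mul]; exact mul_le_one' (hi _) hX
  have e' : Y ^ 2 + (((W.a₁ : ℤ) : QB) * X + ((W.a₃ : ℤ) : QB)) * Y
      = X ^ 3 + ((W.a₂ : ℤ) : QB) * X ^ 2 + ((W.a₄ : ℤ) : QB) * X + ((W.a₆ : ℤ) : QB) := by
    linear_combination e
  rw [e'] at hL1
  exact absurd hL1 (not_lt.2 hR)

/-- An integral point at which `F_Y = 2 Y + a₁ X + a₃` is a unit lies in the identity
component. -/
lemma inZeroComponentAt_of_unit {X Y : QB} (hns : (EB W).Nonsingular X Y)
    (hX : V.valuation X ≤ 1) (hY : V.valuation Y ≤ 1)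
    (hunit : V.valuation (2 * Y + ((W.a₁ : ℤ) : QB) * X + ((W.a₃ : ℤ) : QB)) = 1) :
    W.InZeroComponentAt V (Point.some X Y hns) := by
  right
  have hXV : X ∈ V := (V.valuation_le_one_iff X).mp hX
  have hYV : Y ∈ V := (V.valuation_le_one_iff Y).mp hY
  refine ⟨X, Y, hns, rfl, Or.inr ⟨hXV, hYV, ?_⟩⟩
  set x : V := ⟨X, hXV⟩ with hx
  set y : V := ⟨Y, hYV⟩ with hy
  have heq := equation_EB W hns.1
  have hVeq : y ^ 2 + ((W.a₁ : ℤ) : V) * x * y + ((W.a₃ : ℤ) : V) * y
      = x ^ 3 + ((W.a₂ : ℤ) : V) * x ^ 2 + ((W.a₄ : ℤ) : V) * x + ((W.a₆ : ℤ) : V) := by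
    apply Subtype.ext
    push_cast
    simp only [hx, hy]
    exact heq
  have hres := congrArg (IsLocalRing.residue V) hVeq
  simp only [map_add, map_mul, map_pow, map_intCast] at hres
  rw [Affine.nonsingular_iff', Affine.equation_iff]
  have e1 : (W.map (Int.castRingHom (IsLocalRing.ResidueField V))).toAffine.a₁ =
      (((W.a₁ : ℤ)) : IsLocalRing.ResidueField V) := by simp
  have e2 : (W.map (Int.castRingHom (IsLocalRing.ResidueField V))).toAffine.a₂ =
      (((W.a₂ : ℤ)) : IsLocalRing.ResidueField V) := by simp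
  have e3 : (W.map (Int.castRingHom (IsLocalRing.ResidueField V))).toAffine.a₃ =
      (((W.a₃ : ℤ)) : IsLocalRing.ResidueField V) := by simp
  have e4 : (W.map (Int.castRingHom (IsLocalRing.ResidueField V))).toAffine.a₄ =
      (((W.a₄ : ℤ)) : IsLocalRing.ResidueField V) := by simp
  have e6 : (W.map (Int.castRingHom (IsLocalRing.ResidueField V))).toAffine.a₆ =
      (((W.a₆ : ℤ)) : IsLocalRing.ResidueField V) := by simp
  rw [e1, e2, e3, e4, e6]
  refine ⟨hres, Or.inr ?_⟩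
  have hu : IsUnit (2 * y + ((W.a₁ : ℤ) : V) * x + ((W.a₃ : ℤ) : V)) := by
    rw [V.valuation_eq_one_iff]
    have hcoe : ((2 * y + ((W.a₁ : ℤ) : V) * x + ((W.a₃ : ℤ) : V) : V) : QB)
        = 2 * Y + ((W.a₁ : ℤ) : QB) * X + ((W.a₃ : ℤ) : QB) := by
      push_cast
      rfl
    rw [hcoe]
    exact hunit
  have := (IsLocalRing.residue_ne_zero_iff_isUnit _).mpr hu
  intro h0
  apply this
  rw [map_add, map_add, map_mul, map_mul, map_ofNat, map_intCast, map_intCast]
  exact h0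

end general

/-! ### The model at `2` -/

section model

open Fermat.Agent.S05 Fermat.Agent.S13.WP3

variable {W : WeierstrassCurve ℤ} {A : ValuationSubring QB} {e₁ e₂ e₃ : QB}

/-- `|2| < 1`. -/
lemma val_two_lt (hA : A.LiesOverPrime 2) : A.valuation (2 : QB) < 1 := by
  have h : ((2 : ℕ) : QB) ∈ A.nonunits := hA
  rw [ValuationSubring.mem_nonunits_iff] at h
  simpa using h

/-- `a₁` is a unit at `2`. -/
lemma val_a₁ (hA : A.LiesOverPrime 2) (hc : ¬ (2 : ℤ) ∣ W.c₄) :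
    A.valuation ((W.a₁ : ℤ) : QB) = 1 := by
  apply Fermat.Agent.S05.H15.valuation_intCast_eq_one_of_not_dvd Nat.prime_two hA
  intro h
  apply hc
  obtain ⟨k, hk⟩ := h
  refine ⟨8 * k ^ 4 + 16 * k ^ 2 * W.a₂ + 8 * W.a₂ ^ 2 - 12 * W.b₄, ?_⟩
  simp only [WeierstrassCurve.c₄, WeierstrassCurve.b₂]
  rw [hk]
  ring

/-- The WP3 model of `W` centred at the node over `e₁`. -/
noncomputable def model2 (W : WeierstrassCurve ℤ) (e₁ e₂ e₃ : QB) : Affine QB :=
  ⟨1, (((W.a₂ : ℤ) : QB) + 3 * e₁) / ((W.a₁ : ℤ) : QB) ^ 2, 0,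
    (e₂ - e₁) * (e₃ - e₁) / ((W.a₁ : ℤ) : QB) ^ 4, 0⟩

/-- The `y`-coordinate of the `2`-torsion point over `e₁`. -/
noncomputable def t2 (W : WeierstrassCurve ℤ) (e₁ : QB) : QB :=
  -(((W.a₁ : ℤ) : QB) * e₁ + ((W.a₃ : ℤ) : QB)) / 2

lemma varChange2 (H : TwoTors (EB W) e₁ e₂ e₃) (ha : ((W.a₁ : ℤ) : QB) ≠ 0) :
    H14.IsVarChange (model2 W e₁ e₂ e₃) (EB W) ((W.a₁ : ℤ) : QB) e₁ 0 (t2 W e₁) := by
  have hb2 := H.hb2
  have hb4 := H.hb4
  have hb6 := H.hb6
  simp only [WeierstrassCurve.b₂, WeierstrassCurve.b₄, WeierstrassCurve.b₆] at hb2 hb4 hb6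
  rw [EB_a₁, EB_a₂] at hb2
  rw [EB_a₁, EB_a₃, EB_a₄] at hb4
  rw [EB_a₃, EB_a₆] at hb6
  have h2 : (2 : QB) ≠ 0 := two_ne_zero
  refine ⟨ha, ?_, ?_, ?_, ?_, ?_⟩
  · rw [EB_a₁]; simp [model2]
  · rw [EB_a₁, EB_a₂]
    simp only [model2]
    field_simp
    ring
  · rw [EB_a₁, EB_a₃]
    simp only [model2, t2]
    field_simp
    ring
  · rw [EB_a₁, EB_a₂, EB_a₃, EB_a₄]
    simp only [model2, t2]
    field_simp
    linear_combination (-1 : QB) * hb4 - e₁ * hb2
  · rw [EB_a₁, EB_a₂, EB_a₃, EB_a₄, EB_a₆]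
    simp only [model2, t2]
    field_simp
    linear_combination (-1 : QB) * hb6 - 2 * e₁ * hb4 - e₁ ^ 2 * hb2

lemma modelHyp2 (hA : A.LiesOverPrime 2) (hc : ¬ (2 : ℤ) ∣ W.c₄)
    (hN : NodeRoots W A e₁ e₂ e₃) : ModelHyp2 A (model2 W e₁ e₂ e₃) := by
  have ha1 := val_a₁ hA hc
  have h4 : A.valuation (4 : QB) ≠ 0 := by
    rw [Valuation.ne_zero_iff]; norm_num
  have h13 : A.valuation (e₃ - e₁) * A.valuation (4 : QB) = 1 := by
    rw [← map_mul, mul_comm]; exact hN.d13
  refine ⟨rfl, rfl, rfl, ?_, ?_, ?_, val_two_lt hA⟩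
  · show A.valuation ((((W.a₂ : ℤ) : QB) + 3 * e₁) / ((W.a₁ : ℤ) : QB) ^ 2) ≤ 1
    rw [map_div₀, map_pow, ha1, one_pow, div_one]
    refine Valuation.map_add_le _ (Fermat.Agent.S05.H15.valuation_intCast_le_one A _) ?_
    rw [map_mul]
    have h3 : A.valuation (3 : QB) ≤ 1 := by
      have := Fermat.Agent.S05.H15.valuation_intCast_le_one A 3
      rwa [Int.cast_ofNat] at this
    exact mul_le_one' h3 hN.e1_le
  · show A.valuation ((e₂ - e₁) * (e₃ - e₁) / ((W.a₁ : ℤ) : QB) ^ 4) < 1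
    rw [map_div₀, map_pow, ha1, one_pow, div_one, map_mul]
    calc A.valuation (e₂ - e₁) * A.valuation (e₃ - e₁)
        < A.valuation (4 : QB) * A.valuation (e₃ - e₁) := by
          apply mul_lt_mul_of_pos_right hN.d12_lt
          rw [zero_lt_iff]
          intro h0
          rw [h0, zero_mul] at h13
          exact zero_ne_one h13
      _ = 1 := by rw [mul_comm]; exact h13
  · show (e₂ - e₁) * (e₃ - e₁) / ((W.a₁ : ℤ) : QB) ^ 4 ≠ 0
    have hne1 : ((W.a₁ : ℤ) : QB) ≠ 0 := by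
      intro h0
      rw [h0, _root_.map_zero] at ha1
      exact zero_ne_one ha1
    have hne13 : e₃ - e₁ ≠ 0 := by
      intro h0
      rw [h0, _root_.map_zero, zero_mul] at h13
      exact zero_ne_one h13
    exact div_ne_zero (mul_ne_zero (sub_ne_zero.2 (Ne.symm hN.ne12)) hne13) (pow_ne_zero _ hne1)

end model

/-! ### The statements at `2` -/

section main

open Fermat.Agent.S05 Fermat.Agent.S13.WP3

variable {W : WeierstrassCurve ℤ} {A : ValuationSubring QB} {e₁ e₂ e₃ : QB}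

/-- On the model, `|x| < 1` implies `|y| < 1`. -/
lemma model_y_lt {M : Affine QB} (hyp : ModelHyp2 A M) {x y : QB} (he : M.Equation x y)
    (hx : A.valuation x < 1) : A.valuation y < 1 := by
  by_contra hcon
  have hy : 1 ≤ A.valuation y := not_lt.1 hcon
  have e := (H6P.pg_equation_iff hyp.a₁ hyp.a₃ hyp.a₆ x y).1 he
  have hyx : A.valuation (y + x) = A.valuation y :=
    Valuation.map_add_eq_of_lt_left _ (lt_of_lt_of_le hx hy)
  have hL : 1 ≤ A.valuation (y * (y + x)) := by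
    rw [map_mul, hyx]
    exact one_le_mul_of_one_le_of_one_le hy hy
  have hR : A.valuation (x * (x ^ 2 + M.a₂ * x + M.a₄)) < 1 := by
    rw [map_mul]
    have h1 : A.valuation (x ^ 2 + M.a₂ * x + M.a₄) ≤ 1 := by
      refine Valuation.map_add_le _ (Valuation.map_add_le _ ?_ ?_) hyp.b_lt.le
      · rw [map_pow]; exact pow_le_one₀ zero_le hx.le
      · rw [map_mul]; exact mul_le_one' hyp.a_le hx.le
    calc A.valuation x * A.valuation (x ^ 2 + M.a₂ * x + M.a₄)
        ≤ A.valuation x * 1 := by gcongr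
      _ = A.valuation x := mul_one _
      _ < 1 := hx
  have e' : y * (y + x) = x * (x ^ 2 + M.a₂ * x + M.a₄) := by linear_combination e
  rw [e'] at hL
  exact absurd hR (not_lt.2 hL)

/-- The identity component in the two coordinate systems. -/
lemma e0_iff {M : Affine QB} {a t : QB} (hvc : H14.IsVarChange M (EB W) a e₁ 0 t)
    (ha : A.valuation a = 1) (P' : M.Point) :
    (hvc.addEquiv P' = 0 ∨ 1 ≤ A.valuation (xc (EB W) (hvc.addEquiv P') - e₁)) ↔
      Fermat.Agent.S13.WP3.InE0 A P' := by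
  rcases P' with _ | ⟨x, y, h⟩
  · constructor
    · intro _; trivial
    · intro _; exact Or.inl rfl
  · rw [hvc.addEquiv_some h]
    have hx : xc (EB W) (Point.some (H14.fx a e₁ x) (H14.fy a 0 t x y)
        ((hvc.nonsingular_iff x y).2 h)) - e₁ = a ^ 2 * x := by
      rw [xc_some, H14.fx]; ring
    rw [hx, map_mul, map_pow, ha, one_pow, one_mul]
    constructor
    · rintro (h0 | h1)
      · exact absurd h0 (Point.some_ne_zero _)
      · exact h1
    · intro h1; exact Or.inr h1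

/-- (BR-E0 at `2`). -/
theorem stmt_BRe0_two : Stmt_BRe0 2 := by
  intro W _ _ hc A hA e₁ e₂ e₃ hN P hP n
  have ha1 := val_a₁ hA hc
  have hne1 : ((W.a₁ : ℤ) : QB) ≠ 0 := by
    intro h0
    rw [h0, _root_.map_zero] at ha1
    exact zero_ne_one ha1
  have hvc := varChange2 hN.tt hne1
  have hyp := modelHyp2 hA hc hN
  obtain ⟨P', rfl⟩ := hvc.addEquiv.surjective P
  have h0 : Fermat.Agent.S13.WP3.InE0 A P' := (e0_iff hvc ha1 P').1 hP
  have hn : Fermat.Agent.S13.WP3.InE0 A (n • P') := H6P.pg_nsmul_InE0 H6.E0_add hyp P' h0 n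
  rw [← map_nsmul]
  exact (e0_iff hvc ha1 (n • P')).2 hn

/-- (BR-ZC at `2`). -/
theorem stmt_BRzc_two : Stmt_BRzc 2 := by
  intro W _ _ hc A hA e₁ e₂ e₃ hN P hP0
  have ha1 := val_a₁ hA hc
  have hne1 : ((W.a₁ : ℤ) : QB) ≠ 0 := by
    intro h0
    rw [h0, _root_.map_zero] at ha1
    exact zero_ne_one ha1
  have hvc := varChange2 hN.tt hne1
  have hyp := modelHyp2 hA hc hN
  have h2 := val_two_lt hA
  obtain ⟨P', rfl⟩ := hvc.addEquiv.surjective P
  rcases P' with _ | ⟨x, y, h⟩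
  · exact absurd rfl hP0
  rw [hvc.addEquiv_some h]
  set X := H14.fx ((W.a₁ : ℤ) : QB) e₁ x with hXdef
  set Y := H14.fy ((W.a₁ : ℤ) : QB) 0 (t2 W e₁) x y with hYdef
  have hns : (EB W).Nonsingular X Y := (hvc.nonsingular_iff x y).2 h
  have hX : X - e₁ = ((W.a₁ : ℤ) : QB) ^ 2 * x := by
    rw [hXdef, H14.fx]; ring
  have hvX : A.valuation (X - e₁) = A.valuation x := by
    rw [hX, map_mul, map_pow, ha1, one_pow, one_mul]
  have hFy : 2 * Y + ((W.a₁ : ℤ) : QB) * X + ((W.a₃ : ℤ) : QB)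
      = ((W.a₁ : ℤ) : QB) ^ 3 * (2 * y + x) := by
    rw [hXdef, hYdef, H14.fx, H14.fy, t2]; ring
  have hFx : ((W.a₁ : ℤ) : QB) * Y
        - (3 * X ^ 2 + 2 * ((W.a₂ : ℤ) : QB) * X + ((W.a₄ : ℤ) : QB))
      = ((W.a₁ : ℤ) : QB) ^ 4 * (y - (3 * x ^ 2 + 2 * (model2 W e₁ e₂ e₃).a₂ * x
          + (model2 W e₁ e₂ e₃).a₄)) := by
    have h4 := hvc.h₄
    have h2' := hvc.h₂
    rw [EB_a₁, EB_a₂, EB_a₃, EB_a₄] at h4
    rw [EB_a₁, EB_a₂] at h2'
    rw [hXdef, hYdef, H14.fx, H14.fy]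
    linear_combination h4 + 2 * ((W.a₁ : ℤ) : QB) ^ 2 * x * h2'
  show W.InZeroComponentAt A (Point.some X Y hns) ↔ 1 ≤ A.valuation (xc (EB W) (Point.some X Y hns) - e₁)
  rw [xc_some, hvX]
  constructor
  · intro hZ
    rcases Fermat.Agent.S12.H66.zc_unpack W A X Y hns hZ with hXn | ⟨hXm, hYm, hder⟩
    · -- `X ∉ A`
      have hX1 : 1 < A.valuation X := by
        by_contra hle
        exact hXn ((A.valuation_le_one_iff X).1 (not_lt.1 hle))
      rw [← hvX, Valuation.map_sub_eq_of_lt_left _ (lt_of_le_of_lt hN.e1_le hX1)]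
      exact hX1.le
    · by_contra hlt
      rw [not_le] at hlt
      have hy := model_y_lt hyp h.1 hlt
      rcases hder with hder | hder
      · apply hder
        rw [hFx, map_mul, map_pow, ha1, one_pow, one_mul]
        refine lt_of_le_of_lt (A.valuation.map_sub _ _) (max_lt hy ?_)
        refine lt_of_le_of_lt (A.valuation.map_add _ _) (max_lt ?_ hyp.b_lt)
        refine lt_of_le_of_lt (A.valuation.map_add _ _) (max_lt ?_ ?_)
        · rw [map_mul, map_pow]
          have h3 : A.valuation (3 : QB) ≤ 1 := by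
            have := Fermat.Agent.S05.H15.valuation_intCast_le_one A 3
            rwa [Int.cast_ofNat] at this
          calc A.valuation (3 : QB) * A.valuation x ^ 2 ≤ 1 * A.valuation x ^ 2 := by gcongr
            _ = A.valuation x ^ 2 := one_mul _
            _ < 1 := pow_lt_one₀ zero_le hlt (by norm_num)
        · rw [map_mul, map_mul]
          calc A.valuation (2 : QB) * A.valuation (model2 W e₁ e₂ e₃).a₂ * A.valuation x
              ≤ 1 * 1 * A.valuation x := by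
                gcongr
                exact hyp.a_le
            _ = A.valuation x := by rw [one_mul, one_mul]
            _ < 1 := hlt
      · apply hder
        rw [hFy, map_mul, map_pow, ha1, one_pow, one_mul]
        refine lt_of_le_of_lt (A.valuation.map_add _ _) (max_lt ?_ hlt)
        rw [map_mul]
        calc A.valuation (2 : QB) * A.valuation y ≤ 1 * A.valuation y := by
              gcongr
          _ = A.valuation y := one_mul _
          _ < 1 := hy
  · intro hge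
    by_cases hXm : A.valuation X ≤ 1
    · have hx1 : A.valuation x = 1 := by
        refine le_antisymm ?_ hge
        rw [← hvX]
        exact le_trans (A.valuation.map_sub _ _) (max_le hXm hN.e1_le)
      have hy1 : A.valuation y ≤ 1 := H6P.pg_y_le hyp h.1 hx1
      have hYm : A.valuation Y ≤ 1 := val_y_le_one W A hns.1 hXm
      apply inZeroComponentAt_of_unit W A hns hXm hYm
      rw [hFy, map_mul, map_pow, ha1, one_pow, one_mul]
      rw [add_comm, Valuation.map_add_eq_of_lt_left _ ?_, hx1]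
      rw [hx1, map_mul]
      calc A.valuation (2 : QB) * A.valuation y ≤ A.valuation (2 : QB) * 1 := by gcongr
        _ = A.valuation (2 : QB) := mul_one _
        _ < 1 := h2
    · right
      exact ⟨X, Y, hns, rfl, Or.inl (fun hmem => hXm ((A.valuation_le_one_iff X).2 hmem))⟩

end main

end Fermat.Agent.S15.H87
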