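/-
S15 / BRIDGE, package BR-VAL (helper11): final statement `stmt_BRval : Stmt_BRval`.

Pieces: roots + valuation estimate + assembly (helper11, `H11_BRRoots`, `H11_BRLam`,
`H11_BRVal`), identity component at `ℓ = 2` (helper87, `H87_BR2`), at odd `ℓ` (helper66,
`H66_BRzcOdd`, `H66_BRe0Odd`).
-/
import Fermat.Agent.S15.H11_BRVal
import Fermat.Agent.S15.H87_BR2
import Fermat.Agent.S15.H66_BRzcOdd
import Fermat.Agent.S15.H66_BRe0Odd

set_option autoImplicit false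

namespace Fermat.Agent.S15.H11

/-- (BR-ZC) at every prime. -/
theorem stmt_BRzc_all (ℓ : ℕ) (hℓ : ℓ.Prime) : Stmt_BRzc ℓ := by
  rcases eq_or_ne ℓ 2 with rfl | h2
  · exact Fermat.Agent.S15.H87.stmt_BRzc_two
  · exact Fermat.Agent.S15.H66.stmt_BRzc_odd hℓ h2

/-- (BR-E0) at every prime. -/
theorem stmt_BRe0_all (ℓ : ℕ) (hℓ : ℓ.Prime) : Stmt_BRe0 ℓ := by
  rcases eq_or_ne ℓ 2 with rfl | h2
  · exact Fermat.Agent.S15.H87.stmt_BRe0_two
  · exact Fermat.Agent.S15.H66.stmt_BRe0_odd hℓ h2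

/-- **(BR-VAL)** coarse local valuations of `β = j(E/⟨Q⟩)` at a prime of multiplicative
reduction. -/
theorem stmt_BRval : Fermat.Agent.S15.Stmt_BRval :=
  stmt_BRval_of stmt_BRzc_all stmt_BRe0_all

end Fermat.Agent.S15.H11
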