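import Fermat.Agent.S15.H23_ModEqSeries
import Fermat.Agent.S24.Closure.LemmaJ
import Fermat.Agent.S28.GlueA

/-!
# S15 / BRIDGE / MODEQ (helper23), part 2a: the roots `j ∘ A` of the modular equation

For a prime `p` the roots are `ρ_∞ = j(p τ)` and `ρ_b = j((τ + b) / p)`, `0 ≤ b < p`, elements of
the ring `Atil p` of the S24 closure layer.  We compute their `u`-expansions
(`u = exp (2 π i τ / p)`) and show that `SL(2, ℤ)` permutes them.
-/

set_option autoImplicit false

noncomputable section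

namespace Fermat.Agent.S15.H23

open Fermat.Agent.S24 ModularCurve UpperHalfPlane Polynomial
open scoped MatrixGroups

variable (p : ℕ) [NeZero p]

/-- The matrix of `τ ↦ p τ`. -/
def matInf : Matrix (Fin 2) (Fin 2) ℤ := !![(p : ℤ), 0; 0, 1]

/-- The matrix of `τ ↦ (τ + b) / p`. -/
def matB (b : ℤ) : Matrix (Fin 2) (Fin 2) ℤ := !![1, b; 0, (p : ℤ)]

theorem p_pos : 0 < p := Nat.pos_of_ne_zero (NeZero.ne p)

theorem det_matInf : (matInf p).det = p := by
  rw [matInf, Matrix.det_fin_two_of]; ring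

theorem det_matB (b : ℤ) : (matB p b).det = p := by
  rw [matB, Matrix.det_fin_two_of]; ring

theorem det_matInf_pos : 0 < (matInf p).det := by
  rw [det_matInf]; exact_mod_cast p_pos p

theorem det_matB_pos (b : ℤ) : 0 < (matB p b).det := by
  rw [det_matB]; exact_mod_cast p_pos p

/-- `ρ_∞ = j (p τ)`. -/
def rootInf : Atil p :=
  ⟨JA (matInf p), JA_mem_Atil p _ (det_matInf_pos p) (by rw [det_matInf])⟩

/-- `ρ_b = j ((τ + b) / p)`. -/
def rootB (b : ℤ) : Atil p :=
  ⟨JA (matB p b), JA_mem_Atil p _ (det_matB_pos p b) (by rw [det_matB])⟩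

/-! ## Expansions -/

/-- The expansion of `ρ_∞` is `j (u ^ (p²))`. -/
theorem uExp_rootInf :
    haveI : NeZero (p * p) := ⟨Nat.mul_ne_zero (NeZero.ne p) (NeZero.ne p)⟩
    uExp p (rootInf p) = qExpand Kbar (p * p) jBar := by
  haveI : NeZero (p * p) := ⟨Nat.mul_ne_zero (NeZero.ne p) (NeZero.ne p)⟩
  obtain ⟨c, hc, hc1, hc2⟩ := hasUExp_JA_upper p p 1 0 (p_pos p) one_pos (one_dvd p)
  have e : uExp p (rootInf p) = c := by
    apply uExp_eq
    show HasUExp p (JA (matInf p) : ℍ → ℂ) (coeffMap iotaC c)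
    have : matInf p = !![((p : ℕ) : ℤ), 0; 0, ((1 : ℕ) : ℤ)] := by
      rw [matInf]; simp
    rw [this]
    exact hc
  rw [e]
  ext m
  simp only [Nat.div_one, zero_mul, zpow_zero, one_mul] at hc1 hc2
  by_cases hm : (((p * p : ℕ) : ℤ)) ∣ m
  · obtain ⟨n, rfl⟩ := hm
    rw [hc1, qExpand_coeff_mul]
  · rw [hc2 m hm, qExpand_coeff_of_not_dvd _ _ hm]

/-- The expansion of `ρ_b` is `j (ζ^b u)`. -/
theorem uExp_rootB (b : ℤ) : uExp p (rootB p b) = twist (zetaK p ^ b) jBar := by
  obtain ⟨c, hc, hc1, hc2⟩ := hasUExp_JA_upper p 1 p b one_pos (p_pos p) dvd_rfl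
  have e : uExp p (rootB p b) = c := by
    apply uExp_eq
    show HasUExp p (JA (matB p b) : ℍ → ℂ) (coeffMap iotaC c)
    have : matB p b = !![((1 : ℕ) : ℤ), b; 0, ((p : ℕ) : ℤ)] := by
      rw [matB]; simp
    rw [this]
    exact hc
  rw [e]
  ext m
  have h1 : p / p * 1 = 1 := by rw [Nat.div_self (p_pos p)]
  rw [h1] at hc1
  have := hc1 m
  simp only [Nat.cast_one, one_mul] at this
  rw [this, twist_coeff, ← zpow_mul]

theorem uExp_jA' : uExp p (jA p) = qExpand Kbar p jBar := uExp_jA p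

/-! ## `SL(2, ℤ)` permutes the roots -/

/-- The multiset of the `p + 1` roots. -/
def rootSet : Multiset (Atil p) :=
  rootInf p ::ₘ (Multiset.range p).map (fun b : ℕ => rootB p (b : ℤ))

theorem card_rootSet : Multiset.card (rootSet p) = p + 1 := by
  rw [rootSet, Multiset.card_cons, Multiset.card_map, Multiset.card_range]

theorem JA_shift_inf (b : ℤ) : JA !![(p : ℤ), b; 0, 1] = JA (matInf p) := by
  have h : !![(p : ℤ), b; 0, 1] = (ModularGroup.T ^ b : SL(2, ℤ)).1 * matInf p := by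
    rw [show ((ModularGroup.T ^ b : SL(2, ℤ)).1 : Matrix (Fin 2) (Fin 2) ℤ) = !![1, b; 0, 1] from
      ModularGroup.coe_T_zpow b, matInf]
    ext i j
    fin_cases i <;> fin_cases j <;> simp [Matrix.mul_apply, Fin.sum_univ_two]
  rw [h, JA_mul_left _ _ (det_matInf_pos p)]

theorem JA_shift_B (b k : ℤ) : JA (matB p (b + k * p)) = JA (matB p b) := by
  have h : matB p (b + k * p) = (ModularGroup.T ^ k : SL(2, ℤ)).1 * matB p b := by
    rw [show ((ModularGroup.T ^ k : SL(2, ℤ)).1 : Matrix (Fin 2) (Fin 2) ℤ) = !![1, k; 0, 1] from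
      ModularGroup.coe_T_zpow k, matB, matB]
    ext i j
    fin_cases i <;> fin_cases j <;> simp [Matrix.mul_apply, Fin.sum_univ_two]
  rw [h, JA_mul_left _ _ (det_matB_pos p b)]

/-- Every `j ∘ A`, `det A = p` prime, is one of the roots. -/
theorem exists_mem_rootSet (hp : p.Prime) (A : Matrix (Fin 2) (Fin 2) ℤ) (hA : A.det = p) :
    ∃ r ∈ rootSet p, ((r : Atil p) : Hol) = JA A := by
  have hA0 : 0 < A.det := by rw [hA]; exact_mod_cast p_pos p
  obtain ⟨δ, a, d, b, ha, hd, had, rfl⟩ := hermite_general A hA0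
  have hupper : 0 < (!![(a : ℤ), b; 0, (d : ℤ)]).det := det_upper_pos a d b ha hd
  rw [JA_mul_left δ _ hupper]
  have had' : a * d = p := by
    have : ((a * d : ℕ) : ℤ) = (p : ℤ) := by
      rw [← hA, ← had]; push_cast; ring
    exact_mod_cast this
  rcases (Nat.dvd_prime hp).mp ⟨d, had'.symm⟩ with h1 | h1
  · -- a = 1, d = p
    subst h1
    rw [one_mul] at had'
    subst had'
    refine ⟨rootB d ((b % (d : ℤ)).toNat : ℤ), ?_, ?_⟩
    · rw [rootSet]
      refine Multiset.mem_cons_of_mem (Multiset.mem_map.mpr ⟨(b % (d : ℤ)).toNat, ?_, rfl⟩)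
      rw [Multiset.mem_range]
      have hd0 : (0 : ℤ) < d := by exact_mod_cast hd
      have h1 := Int.emod_lt_of_pos b hd0
      have h2 := Int.emod_nonneg b hd0.ne'
      omega
    · show JA (matB d _) = _
      have hd0 : (0 : ℤ) < d := by exact_mod_cast hd
      have h2 := Int.emod_nonneg b hd0.ne'
      rw [Int.toNat_of_nonneg h2]
      have h3 : b = b % (d : ℤ) + (b / (d : ℤ)) * d := by
        have := Int.emod_add_mul_ediv b d
        linarith [mul_comm (d : ℤ) (b / d)]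
      have h4 : (!![((1 : ℕ) : ℤ), b; 0, (d : ℤ)]) = matB d b := by
        rw [matB]; simp
      rw [h4]
      conv_rhs => rw [h3]
      rw [JA_shift_B]
  · -- a = p, d = 1
    subst h1
    have hd1 : d = 1 := by
      have := Nat.eq_of_mul_eq_mul_left ha (by rw [had', mul_one] : a * d = a * 1)
      exact this
    subst hd1
    refine ⟨rootInf a, Multiset.mem_cons_self _ _, ?_⟩
    show JA (matInf a) = _
    have h4 : (!![((a : ℕ) : ℤ), b; 0, ((1 : ℕ) : ℤ)]) = !![(a : ℤ), b; 0, 1] := by simp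
    rw [h4, JA_shift_inf]

theorem smul_mem_rootSet (hp : p.Prime) (γ : SL(2, ℤ)) (r : Atil p) (hr : r ∈ rootSet p) :
    γ • r ∈ rootSet p := by
  have key : ∀ A : Matrix (Fin 2) (Fin 2) ℤ, A.det = p → ∀ r : Atil p, (r : Hol) = JA A →
      γ • r ∈ rootSet p := by
    intro A hA r hr
    have hA0 : 0 < A.det := by rw [hA]; exact_mod_cast p_pos p
    have hdet : (A * (γ⁻¹ : SL(2, ℤ)).1).det = p := by
      rw [Matrix.det_mul, (γ⁻¹ : SL(2, ℤ)).2, mul_one, hA]
    obtain ⟨r', hr', e⟩ := exists_mem_rootSet p hp _ hdet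
    have : γ • r = r' := by
      apply Subtype.ext
      show γ • (r : Hol) = (r' : Hol)
      rw [hr, smul_JA γ A hA0, e]
    rw [this]
    exact hr'
  rw [rootSet, Multiset.mem_cons, Multiset.mem_map] at hr
  rcases hr with rfl | ⟨b, -, rfl⟩
  · exact key (matInf p) (det_matInf p) _ rfl
  · exact key (matB p b) (det_matB p b) _ rfl

/-! ## The roots are distinct -/

theorem jBar_coeff_neg_one : jBar.coeff (-1 : ℤ) = 1 := by
  rw [jBar, coeffEmb_coeff, coeff_jq_neg_one, map_one]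

theorem jBar_coeff_of_lt {k : ℤ} (hk : k < -1) : jBar.coeff k = 0 := by
  rw [jBar, coeffEmb_coeff, coeff_jq_of_lt hk, map_zero]

theorem uExp_rootB_coeff_neg_one (b : ℤ) :
    (uExp p (rootB p b)).coeff (-1 : ℤ) = (zetaK p ^ b)⁻¹ := by
  rw [uExp_rootB, twist_coeff, jBar_coeff_neg_one, mul_one, zpow_neg_one]

theorem uExp_rootInf_coeff_neg_one (hp : 2 ≤ p) : (uExp p (rootInf p)).coeff (-1 : ℤ) = 0 := by
  haveI : NeZero (p * p) := ⟨Nat.mul_ne_zero (NeZero.ne p) (NeZero.ne p)⟩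
  rw [uExp_rootInf]
  apply qExpand_coeff_of_not_dvd
  intro h
  have h2 : ((p * p : ℕ) : ℤ) ∣ 1 := (dvd_neg).mp h
  have h3 := Int.le_of_dvd one_pos h2
  have : 4 ≤ p * p := by nlinarith
  have : (4 : ℤ) ≤ ((p * p : ℕ) : ℤ) := by exact_mod_cast this
  omega

theorem nodup_rootSet (hp : p.Prime) : (rootSet p).Nodup := by
  rw [rootSet, Multiset.nodup_cons]
  constructor
  · intro h
    obtain ⟨b, -, hb⟩ := Multiset.mem_map.mp h
    have h1 := congrArg (fun r => (uExp p r).coeff (-1 : ℤ)) hb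
    simp only [uExp_rootB_coeff_neg_one, uExp_rootInf_coeff_neg_one p hp.two_le] at h1
    exact inv_ne_zero (zpow_ne_zero _ (zetaK_ne_zero p)) h1
  · refine Multiset.Nodup.map_on ?_ (Multiset.nodup_range p)
    intro b hb b' hb' h
    rw [Multiset.mem_range] at hb hb'
    have h1 := congrArg (fun r => (uExp p r).coeff (-1 : ℤ)) h
    simp only [uExp_rootB_coeff_neg_one, inv_inj, zpow_natCast] at h1
    exact (isPrimitiveRoot_zetaK p).pow_inj hb hb' h1

/-- `SL(2, ℤ)` permutes the roots. -/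
theorem map_smul_rootSet (hp : p.Prime) (γ : SL(2, ℤ)) :
    (rootSet p).map (fun r => γ • r) = rootSet p := by
  have hinj : Function.Injective (fun r : Atil p => γ • r) := MulAction.injective γ
  have hnd : ((rootSet p).map (fun r => γ • r)).Nodup := (nodup_rootSet p hp).map hinj
  apply Multiset.eq_of_le_of_card_le
  · rw [Multiset.le_iff_subset hnd]
    intro x hx
    obtain ⟨r, hr, rfl⟩ := Multiset.mem_map.mp hx
    exact smul_mem_rootSet p hp γ r hr
  · rw [Multiset.card_map]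

end Fermat.Agent.S15.H23
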