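import Mathlib

/-!
# S15 / BRIDGE / MODEQ (helper23), part 1: pure algebra of Laurent series

* `OrdGE x n` : all coefficients of `x` below `n` vanish.
* bounds for the coefficients of `(Y - R∞) ∏ (Y - r i)` when `r i` has a pole of order `≤ 1` and
  `R∞` a pole of order `≤ n`.
* `intSer` : the subring of Laurent series with coefficients integral over `ℤ`.
* "integral Lemma J": a polynomial `P` with `P(J)` integral has integral coefficients, and
  its degree and leading coefficient are read off from the pole order.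

Skeleton by helper23, proofs by helper63.
-/

set_option autoImplicit false

noncomputable section

namespace Fermat.Agent.S15.H23

open Polynomial

section OrdGE

variable {R : Type*} [CommRing R]

/-- All coefficients of `x` below `n` vanish. -/
def OrdGE (x : LaurentSeries R) (n : ℤ) : Prop := ∀ k : ℤ, k < n → x.coeff k = 0

theorem OrdGE.mono {x : LaurentSeries R} {n m : ℤ} (h : OrdGE x n) (hmn : m ≤ n) : OrdGE x m :=
  fun k hk => h k (lt_of_lt_of_le hk hmn)

theorem ordGE_zero (n : ℤ) : OrdGE (0 : LaurentSeries R) n := fun _ _ => rfl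

theorem ordGE_one : OrdGE (1 : LaurentSeries R) 0 := fun k hk => by
  rw [HahnSeries.coeff_one, if_neg (ne_of_lt hk)]

theorem OrdGE.add {x y : LaurentSeries R} {n : ℤ} (hx : OrdGE x n) (hy : OrdGE y n) :
    OrdGE (x + y) n := fun k hk => by
  rw [HahnSeries.coeff_add, hx k hk, hy k hk, add_zero]

theorem OrdGE.neg {x : LaurentSeries R} {n : ℤ} (hx : OrdGE x n) : OrdGE (-x) n := fun k hk => by
  rw [HahnSeries.coeff_neg, hx k hk, neg_zero]

theorem OrdGE.sub {x y : LaurentSeries R} {n : ℤ} (hx : OrdGE x n) (hy : OrdGE y n) :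
    OrdGE (x - y) n := by
  rw [sub_eq_add_neg]
  exact hx.add hy.neg

theorem OrdGE.mul {x y : LaurentSeries R} {a b : ℤ} (hx : OrdGE x a) (hy : OrdGE y b) :
    OrdGE (x * y) (a + b) := fun k hk => by
  rw [HahnSeries.coeff_mul]
  apply Finset.sum_eq_zero
  intro ij hij
  rw [Finset.mem_antidiagonal] at hij
  obtain ⟨-, -, h3⟩ := hij
  rcases lt_or_ge ij.1 a with h | h
  · rw [hx _ h, zero_mul]
  · rw [hy _ (by omega), mul_zero]

/-- The lowest coefficient of a product. -/
theorem coeff_mul_of_ordGE {x y : LaurentSeries R} {a b : ℤ} (hx : OrdGE x a) (hy : OrdGE y b) :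
    (x * y).coeff (a + b) = x.coeff a * y.coeff b := by
  rw [HahnSeries.coeff_mul]
  refine (Finset.sum_eq_single (a, b) ?_ ?_)
  · intro ij hij hne
    rw [Finset.mem_antidiagonal] at hij
    obtain ⟨-, -, h3⟩ := hij
    rcases lt_trichotomy ij.1 a with h | h | h
    · rw [hx _ h, zero_mul]
    · exfalso
      apply hne
      ext
      · exact h
      · show ij.2 = b
        omega
    · rw [hy _ (by omega), mul_zero]
  · intro hnot
    rw [Finset.mem_antidiagonal] at hnot
    by_cases h1 : x.coeff a = 0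
    · rw [h1, zero_mul]
    · by_cases h2 : y.coeff b = 0
      · rw [h2, mul_zero]
      · exact absurd ⟨h1, h2, rfl⟩ hnot

theorem OrdGE.pow {x : LaurentSeries R} {a : ℤ} (hx : OrdGE x a) (n : ℕ) :
    OrdGE (x ^ n) (n * a) := by
  induction n with
  | zero =>
    rw [pow_zero, Nat.cast_zero, zero_mul]
    exact ordGE_one
  | succ n ih =>
    rw [pow_succ]
    have h := ih.mul hx
    have e : ((n + 1 : ℕ) : ℤ) * a = (n : ℤ) * a + a := by push_cast; ring
    rw [e]
    exact h

theorem coeff_pow_of_ordGE {x : LaurentSeries R} {a : ℤ} (hx : OrdGE x a) (n : ℕ) :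
    (x ^ n).coeff (n * a) = x.coeff a ^ n := by
  induction n with
  | zero =>
    rw [pow_zero, pow_zero, Nat.cast_zero, zero_mul, HahnSeries.coeff_one, if_pos rfl]
  | succ n ih =>
    have e : ((n + 1 : ℕ) : ℤ) * a = (n : ℤ) * a + a := by push_cast; ring
    rw [pow_succ, pow_succ, e, coeff_mul_of_ordGE (hx.pow n) hx, ih]

theorem ordGE_sum {ι : Type*} (s : Finset ι) (f : ι → LaurentSeries R) (n : ℤ)
    (h : ∀ i ∈ s, OrdGE (f i) n) : OrdGE (∑ i ∈ s, f i) n :=
  Finset.sum_induction f (fun x => OrdGE x n) (fun _ _ hx hy => hx.add hy) (ordGE_zero n) h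

/-- One linear factor more: coefficient bounds. -/
theorem lin_mul_coeff_ordGE (P : (LaurentSeries R)[X]) (c : ℤ)
    (hP : ∀ k : ℕ, OrdGE (P.coeff k) ((k : ℤ) - c)) (r : LaurentSeries R) (n : ℕ) (hn : 1 ≤ n)
    (hr : OrdGE r (-(n : ℤ))) (k : ℕ) :
    OrdGE (((X - C r) * P).coeff k) ((k : ℤ) - c - n) := by
  rcases k with _ | k
  · rw [Polynomial.mul_coeff_zero, Polynomial.coeff_sub, Polynomial.coeff_X_zero,
      Polynomial.coeff_C_zero, zero_sub]
    have h := hr.neg.mul (hP 0)
    exact h.mono (by omega)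
  · rw [Polynomial.coeff_X_sub_C_mul]
    refine OrdGE.sub ((hP k).mono (by push_cast; omega)) ?_
    have h := hr.mul (hP (k + 1))
    exact h.mono (by push_cast; omega)

/-- Coefficient bounds for `∏ (Y - r i)`, all `r i` with a pole of order at most one. -/
theorem prod_coeff_ordGE {ι : Type*} (s : Finset ι) (r : ι → LaurentSeries R)
    (hr : ∀ i ∈ s, OrdGE (r i) (-1)) (k : ℕ) :
    OrdGE ((∏ i ∈ s, (X - C (r i))).coeff k) ((k : ℤ) - s.card) := by
  classical
  induction s using Finset.induction_on generalizing k with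
  | empty =>
    rw [Finset.prod_empty, Finset.card_empty, Nat.cast_zero, sub_zero, Polynomial.coeff_one]
    split_ifs with h
    · subst h
      exact ordGE_one
    · exact ordGE_zero _
  | insert a s ha ih =>
    rw [Finset.prod_insert ha, Finset.card_insert_of_notMem ha]
    have h1 := lin_mul_coeff_ordGE (∏ i ∈ s, (X - C (r i))) (s.card : ℤ)
      (fun k => ih (fun i hi => hr i (Finset.mem_insert_of_mem hi)) k) (r a) 1 le_rfl
      (by simpa using hr a (Finset.mem_insert_self a s)) k
    exact h1.mono (by push_cast; omega)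

/-- The lowest coefficient of the constant term of `∏ (Y - r i)`. -/
theorem prod_coeff_zero_lead {ι : Type*} (s : Finset ι) (r : ι → LaurentSeries R)
    (hr : ∀ i ∈ s, OrdGE (r i) (-1)) :
    ((∏ i ∈ s, (X - C (r i))).coeff 0).coeff (-(s.card : ℤ)) = ∏ i ∈ s, (-(r i).coeff (-1)) := by
  classical
  induction s using Finset.induction_on with
  | empty =>
    rw [Finset.prod_empty, Finset.prod_empty, Finset.card_empty, Nat.cast_zero, neg_zero,
      Polynomial.coeff_one_zero, HahnSeries.coeff_one, if_pos rfl]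
  | insert a s ha ih =>
    rw [Finset.prod_insert ha, Finset.prod_insert ha, Finset.card_insert_of_notMem ha,
      Polynomial.mul_coeff_zero, Polynomial.coeff_sub, Polynomial.coeff_X_zero,
      Polynomial.coeff_C_zero, zero_sub]
    have hs : ∀ i ∈ s, OrdGE (r i) (-1) := fun i hi => hr i (Finset.mem_insert_of_mem hi)
    have h0 : OrdGE ((∏ i ∈ s, (X - C (r i))).coeff 0) (-(s.card : ℤ)) := by
      have := prod_coeff_ordGE s r hs 0
      simpa using this
    have h1 := coeff_mul_of_ordGE (hr a (Finset.mem_insert_self a s)).neg h0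
    have e : -((s.card + 1 : ℕ) : ℤ) = -1 + -(s.card : ℤ) := by push_cast; ring
    rw [e, h1, ih hs, HahnSeries.coeff_neg]

/-- Coefficient bounds for `(Y - R∞) ∏ (Y - r i)`. -/
theorem modEq_coeff_ordGE {ι : Type*} (s : Finset ι) (r : ι → LaurentSeries R)
    (hr : ∀ i ∈ s, OrdGE (r i) (-1)) (Rinf : LaurentSeries R) (n : ℕ) (hn : 1 ≤ n)
    (hR : OrdGE Rinf (-(n : ℤ))) (k : ℕ) :
    OrdGE (((X - C Rinf) * ∏ i ∈ s, (X - C (r i))).coeff k) ((k : ℤ) - s.card - n) :=
  lin_mul_coeff_ordGE _ _ (fun k => prod_coeff_ordGE s r hr k) Rinf n hn hR k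

/-- The lowest coefficient of the constant term of `(Y - R∞) ∏ (Y - r i)`. -/
theorem modEq_coeff_zero_lead {ι : Type*} (s : Finset ι) (r : ι → LaurentSeries R)
    (hr : ∀ i ∈ s, OrdGE (r i) (-1)) (Rinf : LaurentSeries R) (n : ℕ)
    (hR : OrdGE Rinf (-(n : ℤ))) :
    ((((X - C Rinf) * ∏ i ∈ s, (X - C (r i))).coeff 0).coeff (-((s.card : ℤ) + n)))
      = -Rinf.coeff (-(n : ℤ)) * ∏ i ∈ s, (-(r i).coeff (-1)) := by
  rw [Polynomial.mul_coeff_zero, Polynomial.coeff_sub, Polynomial.coeff_X_zero,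
    Polynomial.coeff_C_zero, zero_sub]
  have h0 : OrdGE ((∏ i ∈ s, (X - C (r i))).coeff 0) (-(s.card : ℤ)) := by
    have := prod_coeff_ordGE s r hr 0
    simpa using this
  have h1 := coeff_mul_of_ordGE hR.neg h0
  have e : -((s.card : ℤ) + n) = -(n : ℤ) + -(s.card : ℤ) := by ring
  rw [e, h1, prod_coeff_zero_lead s r hr, HahnSeries.coeff_neg]

/-- The coefficient of `Y ^ card` in `(Y - R∞) ∏ (Y - r i)` is `-R∞ + (pole order ≤ 1)`. -/
theorem modEq_coeff_card_lead {ι : Type*} (s : Finset ι) (r : ι → LaurentSeries R)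
    (hr : ∀ i ∈ s, OrdGE (r i) (-1)) (Rinf : LaurentSeries R) (n : ℕ) (hn : 1 < n) :
    ((((X - C Rinf) * ∏ i ∈ s, (X - C (r i))).coeff s.card).coeff (-(n : ℤ)))
      = -Rinf.coeff (-(n : ℤ)) := by
  have hmonic : (∏ i ∈ s, (X - C (r i))).Monic :=
    Polynomial.monic_prod_of_monic _ _ fun i _ => Polynomial.monic_X_sub_C (r i)
  have hlead : (∏ i ∈ s, (X - C (r i))).coeff s.card = 1 := by
    nontriviality (LaurentSeries R)
    have hdeg : (∏ i ∈ s, (X - C (r i))).natDegree = s.card := by
      rw [Polynomial.natDegree_prod_of_monic _ _ fun i _ => Polynomial.monic_X_sub_C (r i)]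
      simp
    rw [← hdeg]
    exact hmonic.coeff_natDegree
  rcases Nat.eq_zero_or_pos s.card with h0 | h0
  · rw [h0] at hlead ⊢
    rw [Polynomial.mul_coeff_zero, Polynomial.coeff_sub, Polynomial.coeff_X_zero,
      Polynomial.coeff_C_zero, zero_sub, hlead, mul_one, HahnSeries.coeff_neg]
  · obtain ⟨m, hm⟩ : ∃ m, s.card = m + 1 := ⟨s.card - 1, by omega⟩
    rw [hm] at hlead ⊢
    rw [Polynomial.coeff_X_sub_C_mul, hlead, mul_one, HahnSeries.coeff_sub]
    have h1 := prod_coeff_ordGE s r hr m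
    rw [h1 (-(n : ℤ)) (by rw [hm]; push_cast; omega), zero_sub]

end OrdGE

section IntSer

variable (K : Type*) [Field K]

/-- The Laurent series with coefficients integral over `ℤ`. -/
def intSer : Subring (LaurentSeries K) where
  carrier := {x | ∀ n : ℤ, IsIntegral ℤ (x.coeff n)}
  zero_mem' := fun _ => isIntegral_zero
  one_mem' := fun n => by
    rw [HahnSeries.coeff_one]
    split_ifs
    · exact isIntegral_one
    · exact isIntegral_zero
  add_mem' := fun {x y} hx hy n => by
    rw [HahnSeries.coeff_add]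
    exact (hx n).add (hy n)
  neg_mem' := fun {x} hx n => by
    rw [HahnSeries.coeff_neg]
    exact (hx n).neg
  mul_mem' := fun {x y} hx hy n => by
    rw [HahnSeries.coeff_mul]
    exact IsIntegral.sum _ fun ij _ => (hx ij.1).mul (hy ij.2)

variable {K}

theorem mem_intSer {x : LaurentSeries K} : x ∈ intSer K ↔ ∀ n : ℤ, IsIntegral ℤ (x.coeff n) :=
  Iff.rfl

theorem C_mem_intSer {a : K} (ha : IsIntegral ℤ a) : HahnSeries.C a ∈ intSer K := by
  intro n
  rw [HahnSeries.C_apply]
  rcases eq_or_ne n 0 with rfl | hn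
  · rw [HahnSeries.coeff_single_same]
    exact ha
  · rw [HahnSeries.coeff_single_of_ne hn]
    exact isIntegral_zero

theorem algebraMap_eq_C (c : K) : algebraMap K (LaurentSeries K) c = HahnSeries.C c := by
  have h1 : algebraMap K (PowerSeries K) c = PowerSeries.C c := by simp
  rw [HahnSeries.algebraMap_apply', h1, HahnSeries.ofPowerSeries_C]

theorem ordGE_C (c : K) : OrdGE (HahnSeries.C c : LaurentSeries K) 0 := fun k hk => by
  rw [HahnSeries.C_apply, HahnSeries.coeff_single_of_ne (ne_of_lt hk)]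

theorem coeff_C_zero_eq (c : K) : (HahnSeries.C c : LaurentSeries K).coeff 0 = c := by
  rw [HahnSeries.C_apply, HahnSeries.coeff_single_same]

theorem OrdGE.C_mul {x : LaurentSeries K} {n : ℤ} (hx : OrdGE x n) (c : K) :
    OrdGE (HahnSeries.C c * x) n := by
  have h := (ordGE_C c).mul hx
  rwa [zero_add] at h

theorem coeff_C_mul_of_ordGE {x : LaurentSeries K} {n : ℤ} (hx : OrdGE x n) (c : K) :
    (HahnSeries.C c * x).coeff n = c * x.coeff n := by
  have h := coeff_mul_of_ordGE (ordGE_C c) hx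
  rwa [zero_add, coeff_C_zero_eq] at h

variable (J : LaurentSeries K) (N : ℕ) (hN : 0 < N) (hJ : OrdGE J (-(N : ℤ)))
  (hJ1 : J.coeff (-(N : ℤ)) = 1)

include hJ in
/-- Pole order of `P(J)`. -/
theorem aeval_ordGE (P : K[X]) (d : ℕ) (hd : P.natDegree ≤ d) :
    OrdGE (aeval J P) (-((N : ℤ) * d)) := by
  rw [Polynomial.aeval_eq_sum_range' (Nat.lt_succ_of_le hd)]
  simp only [Algebra.smul_def, algebraMap_eq_C]
  apply ordGE_sum
  intro i hi
  rw [Finset.mem_range] at hi
  refine ((hJ.pow i).C_mul (P.coeff i)).mono ?_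
  have h1 : (i : ℤ) ≤ d := by exact_mod_cast Nat.lt_succ_iff.mp hi
  nlinarith [h1, (Nat.cast_nonneg N : (0 : ℤ) ≤ N)]

include hN hJ hJ1 in
/-- The lowest coefficient of `P(J)`. -/
theorem aeval_coeff_lead (P : K[X]) (d : ℕ) (hd : P.natDegree ≤ d) :
    (aeval J P).coeff (-((N : ℤ) * d)) = P.coeff d := by
  rw [Polynomial.aeval_eq_sum_range' (Nat.lt_succ_of_le hd), Finset.sum_range_succ]
  simp only [Algebra.smul_def, algebraMap_eq_C]
  rw [HahnSeries.coeff_add]
  have hN' : (1 : ℤ) ≤ N := by exact_mod_cast hN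
  have h1 : OrdGE (∑ i ∈ Finset.range d, HahnSeries.C (P.coeff i) * J ^ i)
      (-((N : ℤ) * d) + 1) := by
    apply ordGE_sum
    intro i hi
    rw [Finset.mem_range] at hi
    refine ((hJ.pow i).C_mul (P.coeff i)).mono ?_
    have h2 : (i : ℤ) + 1 ≤ d := by exact_mod_cast hi
    nlinarith [h2, hN']
  rw [h1 _ (by omega), zero_add]
  have e : -((N : ℤ) * d) = (d : ℤ) * (-(N : ℤ)) := by ring
  rw [e, coeff_C_mul_of_ordGE (hJ.pow d), coeff_pow_of_ordGE hJ d, hJ1, one_pow, mul_one]

include hN hJ hJ1 in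
/-- The degree of `P` is bounded by the pole order of `P(J)`. -/
theorem natDegree_le_of_ordGE (P : K[X]) (D : ℕ) (m : ℤ) (hm : -((N : ℤ) * (D + 1)) < m)
    (h : OrdGE (aeval J P) m) : P.natDegree ≤ D := by
  by_contra hcon
  rw [not_le] at hcon
  have hP0 : P ≠ 0 := by
    rintro rfl
    simp at hcon
  have h1 := aeval_coeff_lead J N hN hJ hJ1 P P.natDegree le_rfl
  have hN' : (1 : ℤ) ≤ N := by exact_mod_cast hN
  have h2 : (D : ℤ) + 1 ≤ P.natDegree := by exact_mod_cast hcon
  have h3 : -((N : ℤ) * P.natDegree) < m := by nlinarith [h2, hN']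
  rw [h _ h3, Polynomial.coeff_natDegree] at h1
  exact (Polynomial.leadingCoeff_ne_zero.mpr hP0) h1.symm

include hN hJ hJ1 in
/-- **Integral Lemma J**: if `J` and `P(J)` have integral coefficients, so has `P`. -/
theorem isIntegral_coeff_of_aeval_mem (hJint : J ∈ intSer K) (P : K[X])
    (h : aeval J P ∈ intSer K) (i : ℕ) : IsIntegral ℤ (P.coeff i) := by
  suffices H : ∀ (d : ℕ) (P : K[X]), P.natDegree ≤ d → aeval J P ∈ intSer K →
      ∀ i, IsIntegral ℤ (P.coeff i) from H P.natDegree P le_rfl h i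
  intro d
  induction d with
  | zero =>
    intro P hd hP i
    have h0 := aeval_coeff_lead J N hN hJ hJ1 P 0 hd
    have h1 : IsIntegral ℤ (P.coeff 0) := by
      rw [← h0]
      exact hP _
    rcases Nat.eq_zero_or_pos i with rfl | hi
    · exact h1
    · rw [Polynomial.coeff_eq_zero_of_natDegree_lt (lt_of_le_of_lt hd hi)]
      exact isIntegral_zero
  | succ d ih =>
    intro P hd hP i
    have h0 := aeval_coeff_lead J N hN hJ hJ1 P (d + 1) hd
    have hc : IsIntegral ℤ (P.coeff (d + 1)) := by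
      rw [← h0]
      exact hP _
    -- remove the top term
    set Q : K[X] := P - Polynomial.C (P.coeff (d + 1)) * X ^ (d + 1) with hQ
    have hQc : ∀ k, Q.coeff k = if k = d + 1 then 0 else P.coeff k := by
      intro k
      rw [hQ, Polynomial.coeff_sub, Polynomial.coeff_C_mul, Polynomial.coeff_X_pow]
      split_ifs with hk
      · rw [hk, mul_one, sub_self]
      · rw [mul_zero, sub_zero]
    have hQd : Q.natDegree ≤ d := by
      rw [Polynomial.natDegree_le_iff_coeff_eq_zero]
      intro k hk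
      rw [hQc]
      split_ifs with hk'
      · rfl
      · exact Polynomial.coeff_eq_zero_of_natDegree_lt (by omega)
    have hQint : aeval J Q ∈ intSer K := by
      rw [hQ, map_sub, map_mul, map_pow, Polynomial.aeval_C, Polynomial.aeval_X,
        algebraMap_eq_C]
      exact (intSer K).sub_mem hP
        ((intSer K).mul_mem (C_mem_intSer hc) ((intSer K).pow_mem hJint _))
    have := ih Q hQd hQint i
    rw [hQc] at this
    split_ifs at this with hk
    · rw [hk]
      exact hc
    · exact this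

end IntSer

end Fermat.Agent.S15.H23
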