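import Fermat.Agent.S15.H26_CuspEisGood

/-!
# S15, package CUSP-eis (helper26): reduction of `Stmt_cuspEis p` to the generators

`stmt_cuspEis_of p hp hc hself : Stmt_cuspEis p`, where
* `hc : HeckeOperatorsCommuteBar p` (helper2: `Lib.HeckeComm.heckeOperatorsCommuteBar p`),
* `hself` : `U_p κ = κ` for the cuspidal class `κ = [P∞ - P0]` (the operator `T_p` of the prelude).

The good primes are `H26.heckeOperatorBar_ptClass` (`T_ℓ κ = (ℓ + 1) κ`, `ℓ ≠ p`).
-/

set_option autoImplicit false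
set_option synthInstance.maxHeartbeats 400000
set_option linter.style.haveILetI false
set_option linter.unusedSectionVars false
set_option linter.unusedVariables false

noncomputable section

open AlgebraicCurve ModularCurve

namespace Fermat.Agent.S15.H26

/-- `T_ℓ κ = ε(ℓ) κ` for all primes `ℓ`, given `U_p κ = κ`. -/
theorem heckeOperatorBar_ptClass_eis (p : ℕ) [NeZero p] (hp : p.Prime)
    (Pinf P0 : PlaceBar p) (h : IsCuspPair p Pinf P0)
    (hself : heckeOperatorBar p ⟨p, hp⟩ (ptClass Pinf P0 h.deg_inf h.deg_zero)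
      = ptClass Pinf P0 h.deg_inf h.deg_zero) (ℓ : Nat.Primes) :
    heckeOperatorBar p ℓ (ptClass Pinf P0 h.deg_inf h.deg_zero)
      = eisensteinSystem p ℓ • ptClass Pinf P0 h.deg_inf h.deg_zero := by
  by_cases hℓ : (ℓ : ℕ) = p
  · have e : ℓ = ⟨p, hp⟩ := Subtype.ext hℓ
    subst e
    have h1 : eisensteinSystem p (⟨p, hp⟩ : Nat.Primes) = 1 :=
      eisensteinSystem_of_dvd (N := p) (ℓ := ⟨p, hp⟩) (dvd_refl p)
    rw [h1, one_smul]
    exact hself
  · have hnd : ¬ (ℓ : ℕ) ∣ p := fun hd => hℓ ((Nat.prime_dvd_prime_iff_eq ℓ.2 hp).mp hd)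
    rw [eisensteinSystem_of_not_dvd hnd, heckeOperatorBar_ptClass p hp ℓ hℓ Pinf P0 h, add_comm]

/-- The action of the Hecke ring of the prelude on an eigenvector of all the `T_ℓ`. -/
theorem hsmul_eq_eisEval_smul (p : ℕ) [NeZero p] (hc : HeckeOperatorsCommuteBar p)
    (κ : JZero p) (hκ : ∀ ℓ : Nat.Primes, heckeOperatorBar p ℓ κ = eisensteinSystem p ℓ • κ)
    (t : HeckeAlg) : hsmul p t κ = eisEval p t • κ := by
  have h0 : hsmul p t κ = heckeEvalBar hc t κ := heckeModuleBar_smul_def hc t κ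
  rw [h0]
  clear h0
  induction t using MvPolynomial.induction_on with
  | C a =>
    rw [heckeEvalBar_C, Module.End.intCast_apply]
    congr 1
    show a = MvPolynomial.aeval (eisensteinSystem p) (MvPolynomial.C a)
    rw [MvPolynomial.aeval_C]
    rfl
  | add s t hs ht =>
    rw [map_add, LinearMap.add_apply, hs, ht, map_add]
    exact (add_zsmul _ _ _).symm
  | mul_X t ℓ ht =>
    have hX : heckeEvalBar hc (MvPolynomial.X ℓ) = heckeOperatorBar p ℓ :=
      heckeEvalBar_heckeGen hc ℓ
    have hε : eisEval p (t * MvPolynomial.X ℓ) = eisEval p t * eisensteinSystem p ℓ := by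
      rw [map_mul]
      congr 1
      show MvPolynomial.aeval (eisensteinSystem p) (MvPolynomial.X ℓ) = _
      rw [MvPolynomial.aeval_X]
    rw [map_mul, Module.End.mul_apply, hX, hκ ℓ, map_zsmul, ht, hε, smul_smul, mul_comm]

/-- **CUSP-eis** from the commutation of the Hecke operators and `U_p κ = κ`. -/
theorem stmt_cuspEis_of (p : ℕ) [NeZero p] (hp : p.Prime) (hc : HeckeOperatorsCommuteBar p)
    (hself : ∀ (Pinf P0 : PlaceBar p) (h : IsCuspPair p Pinf P0),
      heckeOperatorBar p ⟨p, hp⟩ (ptClass Pinf P0 h.deg_inf h.deg_zero)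
        = ptClass Pinf P0 h.deg_inf h.deg_zero) :
    Stmt_cuspEis p := by
  intro Pinf P0 h t
  exact hsmul_eq_eisEval_smul p hc _
    (heckeOperatorBar_ptClass_eis p hp Pinf P0 h (hself Pinf P0 h)) t

end Fermat.Agent.S15.H26
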