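import Fermat.Agent.S15.H26_CuspEis
import Fermat.Agent.S15.H2_CuspEisP
import Fermat.Agent.Lib.HeckeComm.H2_Comm

/-!
# S15, package CUSP-eis (helper26 + helper2): `Stmt_cuspEis p` for every prime `p`

`stmt_cuspEis p hp : Stmt_cuspEis p`, unconditional:
* good primes `ℓ ≠ p`: `H26.heckeOperatorBar_ptClass` (helper26),
* `ℓ = p`: `H2.heckeOperatorBar_ptClass_self` (helper2),
* commutation of the Hecke operators: `Lib.HeckeComm.heckeOperatorsCommuteBar` (helper2),
* reduction to the generators: `H26.stmt_cuspEis_of`.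
-/

set_option autoImplicit false

noncomputable section

namespace Fermat.Agent.S15.H26

/-- **CUSP-eis**: the cuspidal class `κ = [P∞ - P0]` of `J₀(p)` is an Eisenstein eigenvector:
`t κ = ε(t) κ` for every `t` in the Hecke ring. -/
theorem stmt_cuspEis (p : ℕ) [NeZero p] (hp : p.Prime) : Stmt_cuspEis p :=
  stmt_cuspEis_of p hp (Fermat.Agent.Lib.HeckeComm.heckeOperatorsCommuteBar p)
    (fun Pinf P0 h => Fermat.Agent.S15.H2.heckeOperatorBar_ptClass_self p hp Pinf P0 h)

end Fermat.Agent.S15.H26
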