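import Fermat.Agent.S15.BridgeDefs
import Fermat.Agent.S15.H22_CuspEx
import Fermat.Agent.S24.Closure.Val

/-!
# S15, package BR-PLACE (helper30): the place of `X₀(p)` at a point of `ℍ`

For `τ ∈ ℍ` the valuation "order of vanishing at `τ`" of the Galois closure (`S24.wN`) restricts
to `F_N` and defines a place `placeAt N τ`.  A function `x ∈ F_N` whose image in the closure is
a holomorphic function `f` vanishing at `τ` has positive order at `placeAt N τ`.
Hence `Stmt_BRplace`.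
-/

set_option autoImplicit false
set_option synthInstance.maxHeartbeats 400000

noncomputable section

open HahnSeries AlgebraicCurve ModularCurve UpperHalfPlane WithZero

namespace Fermat.Agent.S15.H30

open Fermat.Agent.S24
open Fermat.Agent.RED.KD.H22 (placeOfValuation exists_ord_placeOfValuation)

variable (N : ℕ) [NeZero N]

/-- The valuation of `F_N` at the point `τ`. -/
def valAt (τ : ℍ) : Valuation (FN N) ℤᵐ⁰ := (wN N τ).comap (phi N).toRingHom

theorem valAt_apply (τ : ℍ) (x : FN N) : valAt N τ x = wN N τ (phi N x) := rfl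

theorem valAt_of_phi (τ : ℍ) (x : FN N) (f : AT N) (h : phi N x = algebraMap (AT N) (LN N) f) :
    valAt N τ x = Hol.ordVal τ (valAT N f) := by
  rw [valAt_apply, h, wN_algebraMap_AT, wAT_apply]

theorem valAt_algebraMap_le (τ : ℍ) (c : Kbar) : valAt N τ (algebraMap Kbar (FN N) c) ≤ 1 := by
  rw [valAt_apply, (phi N).commutes]
  by_cases hc : c = 0
  · rw [hc, map_zero, map_zero]
    exact zero_le_one
  · rw [wN_algebraMap N τ c hc]

theorem phi_jF_sub (b : Kbar) :
    phi N (jF N - algebraMap Kbar (FN N) b)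
      = algebraMap (AT N) (LN N) (jT N - algebraMap Kbar (AT N) b) := by
  rw [map_sub, phi_jF, (phi N).commutes, map_sub,
    ← IsScalarTower.algebraMap_apply Kbar (AT N) (LN N)]

theorem valAt_jF_sub (τ : ℍ) (b : Kbar) (h : jAn τ = iotaC b) :
    valAt N τ (jF N - algebraMap Kbar (FN N) b) < 1 := by
  rw [valAt_of_phi N τ _ _ (phi_jF_sub N b), Hol.ordVal_lt_one_iff, valAT_j_sub_apply, h, sub_self]

theorem jF_sub_ne_zero (b : Kbar) : jF N - algebraMap Kbar (FN N) b ≠ 0 := by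
  intro h
  have h1 := congrArg (phi N) h
  rw [phi_jF_sub, map_zero] at h1
  have h2 : jT N - algebraMap Kbar (AT N) b = 0 :=
    (IsFractionRing.injective (AT N) (LN N)) (by rw [h1, map_zero])
  exact valAT_j_sub_ne_zero N b (by rw [h2, map_zero])

theorem valAt_nontrivial (τ : ℍ) (b : Kbar) (h : jAn τ = iotaC b) :
    ∃ x : FN N, x ≠ 0 ∧ valAt N τ x ≠ 1 :=
  ⟨_, jF_sub_ne_zero N b, (valAt_jF_sub N τ b h).ne⟩

/-- The place of `F_N` at a point `τ` with algebraic `j(τ)`. -/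
def placeAt (τ : ℍ) (b : Kbar) (h : jAn τ = iotaC b) : Place Kbar (FN N) :=
  placeOfValuation (valAt N τ) (valAt_algebraMap_le N τ) (valAt_nontrivial N τ b h)

/-- A nonzero function with valuation `< 1` has positive order. -/
theorem ord_placeAt_pos (τ : ℍ) (b : Kbar) (h : jAn τ = iotaC b) (x : FN N) (hx : x ≠ 0)
    (hv : valAt N τ x < 1) : 0 < (placeAt N τ b h).ord x := by
  obtain ⟨e, he, hord⟩ := exists_ord_placeOfValuation (valAt N τ) (valAt_algebraMap_le N τ)
    (valAt_nontrivial N τ b h)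
  have h1 := hord x hx
  have hv0 : valAt N τ x ≠ 0 := (Valuation.ne_zero_iff _).mpr hx
  have h2 : WithZero.log (valAt N τ x) < 0 := by
    rw [← WithZero.log_one]
    exact (WithZero.log_lt_log hv0 one_ne_zero).mpr hv
  have h3 : (0 : ℤ) < (e : ℤ) * (placeAt N τ b h).ord x := by
    have : (e : ℤ) * (placeAt N τ b h).ord x = -(WithZero.log (valAt N τ x)) := h1.symm
    rw [this]
    omega
  have he' : (0 : ℤ) < (e : ℤ) := by exact_mod_cast he
  exact (mul_pos_iff_of_pos_left he').mp h3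

theorem ord_placeAt_jF_sub (τ : ℍ) (b : Kbar) (h : jAn τ = iotaC b) :
    0 < (placeAt N τ b h).ord (jF N - algebraMap Kbar (FN N) b) :=
  ord_placeAt_pos N τ b h _ (jF_sub_ne_zero N b) (valAt_jF_sub N τ b h)

/-! ### The value of `j(d z)` -/

theorem phi_jdF_sub (d : ℕ) [NeZero d] (hd : d ∣ N) (a : Kbar) :
    phi N (jdF N d hd - algebraMap Kbar (FN N) a)
      = algebraMap (AT N) (LN N) (toAT N (jdA N d) - algebraMap Kbar (AT N) a) := by
  rw [map_sub, phi_jdF, (phi N).commutes, map_sub,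
    ← IsScalarTower.algebraMap_apply Kbar (AT N) (LN N)]

theorem valAT_jdA_sub_apply (d : ℕ) [NeZero d] (hd : d ∣ N) (a : Kbar) (τ : ℍ) :
    ((valAT N (toAT N (jdA N d) - algebraMap Kbar (AT N) a) : Hol) : ℍ → ℂ) τ
      = (JA !![(d : ℤ), 0; 0, 1] : ℍ → ℂ) τ - iotaC a := by
  have h1 : valAT N (toAT N (jdA N d) - algebraMap Kbar (AT N) a)
      = valAT N (toAT N (jdA N d)) - valAT N (algebraMap Kbar (AT N) a) := RingHom.map_sub _ _ _
  rw [h1]
  have h2 : valAT N (toAT N (jdA N d)) = ((jdA N d : Atil N) : Hol) := by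
    show (((toAT N).symm (toAT N (jdA N d)) : Atil N) : Hol) = _
    rw [AlgEquiv.symm_apply_apply]
  rw [h2, jdA_coe N d (Nat.pos_of_ne_zero (NeZero.ne d)) hd]
  rfl

theorem JA_diag_apply (d : ℕ) [NeZero d] (τ τ' : ℍ) (h : (τ' : ℂ) = (d : ℂ) * (τ : ℂ)) :
    (JA !![(d : ℤ), 0; 0, 1] : ℍ → ℂ) τ = jAn τ' := by
  have hdet : 0 < (!![(d : ℤ), 0; 0, 1] : Matrix (Fin 2) (Fin 2) ℤ).det := by
    simpa [Matrix.det_fin_two] using Nat.pos_of_ne_zero (NeZero.ne d)
  rw [JA_apply _ hdet]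
  congr 1
  apply UpperHalfPlane.ext
  rw [coe_intGL_smul, h]
  simp

theorem valAt_jdF_sub (d : ℕ) [NeZero d] (hd : d ∣ N) (τ τ' : ℍ)
    (h : (τ' : ℂ) = (d : ℂ) * (τ : ℂ)) (a : Kbar)
    (ha : jAn τ' = iotaC a) :
    valAt N τ (jdF N d hd - algebraMap Kbar (FN N) a) < 1 := by
  rw [valAt_of_phi N τ _ _ (phi_jdF_sub N d hd a), Hol.ordVal_lt_one_iff,
    valAT_jdA_sub_apply N d hd a τ, JA_diag_apply d τ τ' h, ha, sub_self]

theorem jdF_sub_ne_zero (d : ℕ) [NeZero d] (hd : d ∣ N) (a : Kbar) :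
    jdF N d hd - algebraMap Kbar (FN N) a ≠ 0 := by
  intro h
  have h1 : ((jdF N d hd : FN N) : LaurentSeries Kbar) = algebraMap Kbar (LaurentSeries Kbar) a := by
    have := congrArg (Subtype.val : FN N → LaurentSeries Kbar) (sub_eq_zero.mp h)
    exact this
  have h2 := congrArg HahnSeries.order h1
  rw [Fermat.Agent.S15.H22.jdF_coe, Fermat.Agent.S15.H22.order_qExpand d _
    Fermat.Agent.RED.KD.H22.jBar_ne_zero, Fermat.Agent.RED.KD.H22.jBar_order,
    algebraMap_laurentSeries_eq_single] at h2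
  have hd0 : (0 : ℤ) < (d : ℤ) := by exact_mod_cast Nat.pos_of_ne_zero (NeZero.ne d)
  by_cases ha : a = 0
  · rw [ha, HahnSeries.single_eq_zero, HahnSeries.order_zero] at h2
    omega
  · rw [HahnSeries.order_single ha] at h2
    omega

end Fermat.Agent.S15.H30

namespace Fermat.Agent.S15.H30

open Fermat.Agent.S24

/-- **BR-PLACE**. -/
theorem stmt_BRplace : Stmt_BRplace := by
  intro p _ hp b a ⟨τ₁, τ₂, hτ, hb, ha⟩
  refine ⟨placeAt p τ₁ b hb, Fermat.Agent.S15.H22.place_deg_eq_one p _, ?_, ?_⟩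
  · exact ord_placeAt_jF_sub p τ₁ b hb
  · exact ord_placeAt_pos p τ₁ b hb _ (jdF_sub_ne_zero p p dvd_rfl a)
      (valAt_jdF_sub p p dvd_rfl τ₁ τ₂ hτ a ha)

end Fermat.Agent.S15.H30
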