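import Fermat.Agent.S28.H30_CAStrong
import Fermat.Agent.RED.H73_GADegMod
import Fermat.Agent.RED.H30_CAL

/-!
# S15, package CUSP-tors (helper30), part 1: the modular unit `Δ(z)/Δ(pz)` over `ℂ`

The conjugate data (`Fermat.Agent.S28.CAData p`) of the eta quotient `u = Δ(z)/Δ(pz)` on `X₀(p)`,
`p` prime: the conjugate at the identity coset has `t`-order `-(p-1) p` (`t = q^(1/p)`), all
other conjugates have `t`-order `p - 1`; the norm `∏_q u_q` is a nonzero constant
(`prod_deltaU_eq_C`).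
-/

set_option autoImplicit false
set_option linter.unusedSectionVars false
set_option linter.unusedVariables false

open UpperHalfPlane ModularForm ModularCurve Function SlashInvariantForm
open scoped MatrixGroups ModularForm Manifold Real

noncomputable section

namespace Fermat.Agent.S15.H30

open Fermat.Agent.S23.H22 (G0 Q toSL piPerm q1 E12)
open Fermat.Agent.S28 Fermat.Agent.S28.H30

/-- The levels: `false ↦ Δ(z)`, `true ↦ Δ(pz)`. -/
def dM (p : ℕ) (i : Bool) : ℕ := if i then p else 1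

/-- The exponents of the numerator. -/
def dP (i : Bool) : ℕ := if i then 0 else 1

/-- The exponents of the denominator. -/
def dMm (i : Bool) : ℕ := if i then 1 else 0

lemma dM_dvd (p : ℕ) : ∀ i ∈ (Finset.univ : Finset Bool), dM p i ∣ p := by
  intro i _
  cases i
  · exact one_dvd p
  · exact dvd_rfl

variable (p : ℕ) [NeZero p]

/-- The conjugates of `Δ(z)/Δ(pz)`. -/
def deltaU (q : Q p) : LaurentSeries ℂ := Ueta p Finset.univ (dM p) dP dMm q

/-- The conjugates of `Δ(pz)/Δ(z)`. -/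
def deltaV (q : Q p) : LaurentSeries ℂ := Ueta p Finset.univ (dM p) dMm dP q

lemma uls_deltaU (γ : SL(2, ℤ)) :
    ULS (coeffRing p) (deltaU p (⟦toSL γ⟧ : Q p))
      ((p : ℤ) - ((Int.gcd ((γ⁻¹ : SL(2, ℤ)) 1 0) (p : ℤ) : ℕ) : ℤ) ^ 2) := by
  refine ULS.congr_ord (uls_Ueta (mp := dP) (mm := dMm) (dM_dvd p) γ) ?_
  have hp0 : 0 < p := Nat.pos_of_ne_zero (NeZero.ne p)
  rw [Fintype.sum_bool]
  simp only [dP, dMm, dM, ordAt, if_true, Bool.false_eq_true, if_false, Nat.cast_one,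
    Int.gcd_one, Nat.div_self hp0, Nat.div_one]
  push_cast
  ring

lemma deltaU_order_q1 : (deltaU p (q1 : Q p)).order = -(((p - 1 : ℕ) : ℤ) * (p : ℤ)) := by
  have hq : (q1 : Q p) = (⟦toSL (1 : SL(2, ℤ))⟧ : Q p) :=
    (mk_toSL_eq_q1' p (one_mem _)).symm
  rw [hq, (uls_deltaU p 1).ord]
  have hp0 : 1 ≤ p := Nat.pos_of_ne_zero (NeZero.ne p)
  have h0 : ((1 : SL(2, ℤ))⁻¹ : SL(2, ℤ)) 1 0 = 0 := by simp
  rw [h0, Int.gcd_zero_left, Int.natAbs_natCast, Nat.cast_sub hp0]
  push_cast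
  ring

lemma deltaU_order_of_ne (hp : p.Prime) (q : Q p) (hq : q ≠ q1) :
    (deltaU p q).order = (p : ℤ) - 1 := by
  obtain ⟨γ, rfl⟩ := exists_rep p q
  rw [(uls_deltaU p γ).ord]
  have hc := not_dvd_of_ne_q1 p hq
  have hg : Int.gcd ((γ⁻¹ : SL(2, ℤ)) 1 0) (p : ℤ) = 1 := by
    rw [Int.gcd_comm]
    have hpi : Prime (p : ℤ) := Nat.prime_iff_prime_int.mp hp
    exact Int.isCoprime_iff_gcd_eq_one.mp ((Prime.coprime_iff_not_dvd hpi).mpr hc)
  rw [hg]
  simp

lemma deltaU_order_pos (hp : p.Prime) (q : Q p) (hq : q ≠ q1) : 0 < (deltaU p q).order := by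
  rw [deltaU_order_of_ne p hp q hq]
  have : (2 : ℤ) ≤ p := by exact_mod_cast hp.two_le
  omega

/-- The conjugate data of `Δ(z)/Δ(pz)`. -/
def caDataDelta (hp : p.Prime) : CAData p where
  Q := Q p
  instFintype := inferInstance
  q₀ := q1
  D := p - 1
  D_pos := Nat.sub_pos_of_lt hp.one_lt
  U := deltaU p
  X := fun d q => Fermat.Agent.S28.H76.Xfam p d q
  U_coeff := fun q n => by
    obtain ⟨γ, rfl⟩ := exists_rep p q
    exact (uls_deltaU p γ).coeffs n
  U_ne := fun q => by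
    obtain ⟨γ, rfl⟩ := exists_rep p q
    exact (uls_deltaU p γ).ne
  U_lead := fun q => by
    obtain ⟨γ, rfl⟩ := exists_rep p q
    exact (uls_deltaU p γ).lead
  U_order₀ := deltaU_order_q1 p
  U_order_pos := fun q hq => deltaU_order_pos p hp q hq
  X_q₀ := fun d _ hd => Fermat.Agent.S28.H76.Xfam_q1 p hd
  sym := fun d hd c s =>
    sym_of_stmt (mp := dP) (mm := dMm) Fermat.Agent.S28.H76.stmt_sym
      (dM_dvd p) (by simp [dP, dMm]) hd c s

lemma caDataDelta_X_coeff (hp : p.Prime) (d : ℕ) (q : (caDataDelta p hp).Q) (n : ℤ)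
    (hd : d ∣ p) : ((caDataDelta p hp).X d q).coeff n ∈ coeffRing p :=
  Xfam_coeff_mem p hd q n

lemma caDataDelta_X_top (hp : p.Prime) (q : (caDataDelta p hp).Q)
    (hq : q ≠ (caDataDelta p hp).q₀) :
    ((caDataDelta p hp).X p q).coeff (-((p : ℤ) ^ 2)) = 0 :=
  Xfam_coeff_neg_sq p q hq

/-! ### The norm is constant -/

lemma deltaU_mul_deltaV (q : Q p) : deltaU p q * deltaV p q = 1 := by
  unfold deltaU deltaV Ueta
  have h1 : pexp p (prodF p Finset.univ (dM p) dP q) ≠ 0 :=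
    pexp_ne_zero (prodF_BPH (dM_dvd p) dP q) (z := UpperHalfPlane.I)
      (prodF_ne_zero (dM_dvd p) dP q _)
  have h2 : pexp p (prodF p Finset.univ (dM p) dMm q) ≠ 0 :=
    pexp_ne_zero (prodF_BPH (dM_dvd p) dMm q) (z := UpperHalfPlane.I)
      (prodF_ne_zero (dM_dvd p) dMm q _)
  field_simp

lemma prod_neg_deltaU_mem :
    (∏ q : Q p, (-deltaU p q)) ∈ Algebra.adjoin ℂ ({iotaN p jq} : Set (LaurentSeries ℂ)) := by
  have h := sym_of_stmt (N := p) (mp := dP) (mm := dMm) Fermat.Agent.S28.H76.stmt_sym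
    (dM_dvd p) (by simp [dP, dMm]) (one_dvd p) 0 0
  convert h using 1
  refine Finset.prod_congr rfl fun q _ => ?_
  rw [map_zero, zero_mul, sub_zero, zero_sub]
  rfl

lemma prod_neg_deltaV_mem :
    (∏ q : Q p, (-deltaV p q)) ∈ Algebra.adjoin ℂ ({iotaN p jq} : Set (LaurentSeries ℂ)) := by
  have h := sym_of_stmt (N := p) (mp := dMm) (mm := dP) Fermat.Agent.S28.H76.stmt_sym
    (dM_dvd p) (by simp [dP, dMm]) (one_dvd p) 0 0
  convert h using 1
  refine Finset.prod_congr rfl fun q _ => ?_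
  rw [map_zero, zero_mul, sub_zero, zero_sub]
  rfl

/-- A polynomial in a series `J` with a pole which is invertible among the polynomials in `J`
is a constant. -/
lemma eq_C_of_mul_eq_one {K : Type} [Field K] {J A B : LaurentSeries K} (hJ : J.order < 0)
    (hA : A ∈ Algebra.adjoin K ({J} : Set (LaurentSeries K)))
    (hB : B ∈ Algebra.adjoin K ({J} : Set (LaurentSeries K))) (hAB : A * B = 1) :
    ∃ c : K, c ≠ 0 ∧ A = HahnSeries.C c := by
  rw [Algebra.adjoin_singleton_eq_range_aeval] at hA hB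
  obtain ⟨a, ha⟩ := hA
  obtain ⟨b, hb⟩ := hB
  have ha' : Polynomial.aeval J a = A := ha
  have hb' : Polynomial.aeval J b = B := hb
  subst ha'
  subst hb'
  have hA0 : Polynomial.aeval J a ≠ 0 := left_ne_zero_of_mul_eq_one hAB
  have hB0 : Polynomial.aeval J b ≠ 0 := right_ne_zero_of_mul_eq_one hAB
  have ha0 : a ≠ 0 := by rintro rfl; exact hA0 (map_zero _)
  have hb0 : b ≠ 0 := by rintro rfl; exact hB0 (map_zero _)
  have hJ1 := Fermat.Agent.S28.H90.one_lt_tVal_of_order_neg hJ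
  have hva := Fermat.Agent.S28.H73.valuation_aeval_eq_pow (Fermat.Agent.S28.H90.tVal K)
    (fun _ hc => Fermat.Agent.S28.H90.tVal_algebraMap hc) hJ1 a ha0
  have hvb := Fermat.Agent.S28.H73.valuation_aeval_eq_pow (Fermat.Agent.S28.H90.tVal K)
    (fun _ hc => Fermat.Agent.S28.H90.tVal_algebraMap hc) hJ1 b hb0
  have hprod : Fermat.Agent.S28.H90.tVal K (Polynomial.aeval J a)
      * Fermat.Agent.S28.H90.tVal K (Polynomial.aeval J b) = 1 := by
    rw [← map_mul, hAB, map_one]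
  rw [hva, hvb, ← pow_add] at hprod
  have hdeg : a.natDegree + b.natDegree = 0 := by
    by_contra hne
    have := one_lt_pow₀ hJ1 hne
    rw [hprod] at this
    exact lt_irrefl _ this
  have hda : a.natDegree = 0 := by omega
  obtain ⟨c, hc⟩ := Polynomial.natDegree_eq_zero.mp hda
  refine ⟨c, ?_, ?_⟩
  · rintro rfl
    apply ha0
    rw [← hc, map_zero]
  · rw [← hc, Polynomial.aeval_C, LaurentSeries.algebraMap_apply]

lemma iotaN_jq_order : (iotaN p jq).order < 0 := by
  have h := Fermat.Agent.RED.H30.coeffMap_qExpand_jqModC_one (RingHom.id ℂ) p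
  rw [coeffMap_id] at h
  have h2 := Fermat.Agent.RED.H73.JL_order ℂ p
  unfold Fermat.Agent.RED.H73.JL at h2
  rw [h] at h2
  rw [h2]
  have : (0 : ℤ) < p := by exact_mod_cast Nat.pos_of_ne_zero (NeZero.ne p)
  omega

/-- **The norm of the modular unit is a nonzero constant.** -/
theorem prod_deltaU_eq_C : ∃ c : ℂ, c ≠ 0 ∧ ∏ q : Q p, deltaU p q = HahnSeries.C c := by
  have hAB : (∏ q : Q p, (-deltaU p q)) * (∏ q : Q p, (-deltaV p q)) = 1 := by
    rw [← Finset.prod_mul_distrib]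
    refine Finset.prod_eq_one fun q _ => ?_
    have e : -deltaU p q * -deltaV p q = deltaU p q * deltaV p q := by ring
    rw [e, deltaU_mul_deltaV]
  obtain ⟨c, hc, hA⟩ := eq_C_of_mul_eq_one (iotaN_jq_order p) (prod_neg_deltaU_mem p)
    (prod_neg_deltaV_mem p) hAB
  refine ⟨(-1) ^ Fintype.card (Q p) * c, mul_ne_zero (pow_ne_zero _ (by norm_num)) hc, ?_⟩
  have h0 : ∏ q : Q p, (-deltaU p q) = (-1) ^ Fintype.card (Q p) * ∏ q : Q p, deltaU p q := by
    have e : ∀ q : Q p, -deltaU p q = (-1) * deltaU p q := fun q => by ring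
    simp only [e]
    rw [Finset.prod_mul_distrib, Finset.prod_const, Finset.card_univ]
  have h1 : ∏ q : Q p, deltaU p q = (-1) ^ Fintype.card (Q p) * ∏ q : Q p, (-deltaU p q) := by
    have e2 : ((-1 : LaurentSeries ℂ) ^ Fintype.card (Q p)) * (-1) ^ Fintype.card (Q p) = 1 := by
      have e3 : (-1 : LaurentSeries ℂ) * (-1) = 1 := by ring
      rw [← mul_pow, e3, one_pow]
    rw [h0, ← mul_assoc, e2, one_mul]
  rw [h1, hA, map_mul, map_pow, map_neg, map_one]

end Fermat.Agent.S15.H30
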