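import Fermat.Agent.S15.H30_CuspUnitC

/-!
# S15, package CUSP-tors (helper30), part 2: the modular unit over `ℚ̄`

Transfer of conjugate data from `ℂ` to an algebraically closed field `K ⊂ ℂ`, keeping `D.D` and
the norm; `exists_unitDataBar p` : conjugate data over `ℚ̄` for `Δ(z)/Δ(pz)`, with `D = p - 1` and
constant norm.
-/

set_option autoImplicit false
set_option linter.unusedSectionVars false
set_option linter.unusedVariables false

open ModularCurve Polynomial

noncomputable section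

namespace Fermat.Agent.S15.H30

open Fermat.Agent.S28 (CAData coeffRing iotaN)
open Fermat.Agent.RED.H73 (CADataL coeffRingL)
open Fermat.Agent.RED.H30

section Transfer

variable {K : Type} [Field K] [IsAlgClosed K] (ι : K →+* ℂ) {N : ℕ} [NeZero N] (D : CAData N)

lemma exists_liftU (q : D.Q) : ∃ g : LaurentSeries K, coeffMap ι g = D.U q :=
  exists_coeffMap_eq ι fun n => mem_range_of_mem_coeffRing ι N (D.U_coeff q n)

/-- The conjugates over `K`. -/
def liftU (q : D.Q) : LaurentSeries K := Classical.choose (exists_liftU ι D q)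

lemma coeffMap_liftU (q : D.Q) : coeffMap ι (liftU ι D q) = D.U q :=
  Classical.choose_spec (exists_liftU ι D q)

variable (hXc : ∀ (d : ℕ) (q : D.Q) (n : ℤ), d ∣ N → (D.X d q).coeff n ∈ coeffRing N)

include hXc in
lemma exists_liftX (d : ℕ) (q : D.Q) :
    ∃ g : LaurentSeries K, d ∣ N → coeffMap ι g = D.X d q := by
  by_cases hd : d ∣ N
  · obtain ⟨g, hg⟩ :=
      exists_coeffMap_eq ι fun n => mem_range_of_mem_coeffRing ι N (hXc d q n hd)
    exact ⟨g, fun _ => hg⟩
  · exact ⟨0, fun h => absurd h hd⟩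

/-- The conjugates of `j(dz)` over `K`. -/
def liftX (d : ℕ) (q : D.Q) : LaurentSeries K := Classical.choose (exists_liftX ι D hXc d q)

lemma coeffMap_liftX {d : ℕ} (hd : d ∣ N) (q : D.Q) :
    coeffMap ι (liftX ι D hXc d q) = D.X d q :=
  Classical.choose_spec (exists_liftX ι D hXc d q) hd

variable (hXtop : ∀ q : D.Q, q ≠ D.q₀ → (D.X N q).coeff (-((N : ℤ) ^ 2)) = 0)

/-- **Transfer** of conjugate data from `ℂ` to `K`. -/
def caDataLOf : CADataL K N where
  Q := D.Q
  instFintype := D.instFintype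
  q₀ := D.q₀
  D := D.D
  D_pos := D.D_pos
  U := liftU ι D
  X := liftX ι D hXc
  U_coeff := fun q n => mem_coeffRingL_of_map_mem ι N (by
    rw [← coeffMap_coeff, coeffMap_liftU]; exact D.U_coeff q n)
  U_ne := fun q h => D.U_ne q (by rw [← coeffMap_liftU ι D q, h, map_zero])
  U_lead := fun q => mem_coeffRingL_of_map_mem ι N (by
    rw [map_inv₀, ← coeffMap_leadingCoeff, coeffMap_liftU]; exact D.U_lead q)
  U_order₀ := by rw [← coeffMap_order ι, coeffMap_liftU]; exact D.U_order₀
  U_order_pos := fun q hq => by rw [← coeffMap_order ι, coeffMap_liftU]; exact D.U_order_pos q hq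
  X_coeff := fun d q n hd => mem_coeffRingL_of_map_mem ι N (by
    rw [← coeffMap_coeff, coeffMap_liftX ι D hXc hd]; exact hXc d q n hd)
  X_q₀ := fun d _ hd => coeffMap_injective ι (by
    rw [coeffMap_liftX ι D hXc hd, D.X_q₀ d hd, coeffMap_qExpand_jqModC])
  X_top := fun q hq => ι.injective (by
    rw [← coeffMap_coeff, coeffMap_liftX ι D hXc dvd_rfl, map_zero]; exact hXtop q hq)
  sym := fun d hd c s => mem_adjoin_of_coeffMap_mem ι _ _ (by
    rw [coeffMap_qExpand_jqModC_one, map_prod]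
    have := D.sym d hd (ι c) (ι s)
    convert this using 2
    rename_i q _
    rw [map_sub, map_sub, map_mul, coeffMap_C, coeffMap_C, coeffMap_liftU,
      coeffMap_liftX ι D hXc hd])

lemma caDataLOf_D : (caDataLOf ι D hXc hXtop).D = D.D := rfl

/-- A constant norm stays constant. -/
lemma caDataLOf_prod {c₀ : ℂ} (hc₀ : c₀ ≠ 0) (h : ∏ q, D.U q = HahnSeries.C c₀) :
    ∃ c : K, c ≠ 0 ∧ ∏ q, (caDataLOf ι D hXc hXtop).U q = HahnSeries.C c := by
  set g : LaurentSeries K := ∏ q, (caDataLOf ι D hXc hXtop).U q with hg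
  have hmap : coeffMap ι g = HahnSeries.C c₀ := by
    rw [hg, map_prod, ← h]
    exact Finset.prod_congr rfl fun q _ => coeffMap_liftU ι D q
  have hcoeff : ∀ n : ℤ, ι (g.coeff n) = (HahnSeries.C c₀ : LaurentSeries ℂ).coeff n := fun n => by
    rw [← coeffMap_coeff, hmap]
  refine ⟨g.coeff 0, ?_, ?_⟩
  · intro h0
    have := hcoeff 0
    rw [h0, map_zero, HahnSeries.C_apply, HahnSeries.coeff_single_same] at this
    exact hc₀ this.symm
  · ext n
    by_cases hn : n = 0
    · subst hn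
      rw [HahnSeries.C_apply, HahnSeries.coeff_single_same]
    · rw [HahnSeries.C_apply, HahnSeries.coeff_single_of_ne hn]
      apply ι.injective
      rw [hcoeff n, map_zero, HahnSeries.C_apply, HahnSeries.coeff_single_of_ne hn]

end Transfer

/-- **The modular unit over `ℚ̄`**: conjugate data for `Δ(z)/Δ(pz)` with `D = p - 1` and constant
norm. -/
theorem exists_unitDataL {K : Type} [Field K] [IsAlgClosed K] (ι : K →+* ℂ) (p : ℕ) [NeZero p]
    (hp : p.Prime) :
    ∃ D : CADataL K p, D.D = p - 1 ∧ ∃ c : K, c ≠ 0 ∧ ∏ q, D.U q = HahnSeries.C c := by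
  obtain ⟨c₀, hc₀, hprod⟩ := prod_deltaU_eq_C p
  refine ⟨caDataLOf ι (caDataDelta p hp) (caDataDelta_X_coeff p hp) (caDataDelta_X_top p hp),
    rfl, ?_⟩
  exact caDataLOf_prod ι (caDataDelta p hp) _ _ hc₀ hprod

theorem exists_unitDataBar (p : ℕ) [NeZero p] (hp : p.Prime) :
    ∃ D : CADataL (AlgebraicClosure ℚ) p, D.D = p - 1 ∧
      ∃ c : AlgebraicClosure ℚ, c ≠ 0 ∧ ∏ q, D.U q = HahnSeries.C c :=
  haveI : Algebra.IsAlgebraic ℚ (AlgebraicClosure ℚ) := AlgebraicClosure.isAlgebraic ℚ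
  exists_unitDataL ((IsAlgClosed.lift : AlgebraicClosure ℚ →ₐ[ℚ] ℂ) : AlgebraicClosure ℚ →+* ℂ)
    p hp

end Fermat.Agent.S15.H30
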