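import Mathlib

/-!
# S15: the algebraic core in Selmer form (helper40)

`key_algebra_sel` replaces the Nakayama core `key_algebra` (helper83) of Mazur's specialisation
argument: instead of the Eisenstein descent `M = ℤ c + 𝔓 M` it uses the weaker statement

  (SELB)  `∀ z ∈ M, ∃ t, r ∤ ε t ∧ ∃ h ∈ M` of `r`-power order `∧ ∃ w ∈ M, t • z = h + r • w`,

which follows from the single inequality `dim Sel(V) ≤ dim V^G` for the Eisenstein part `V` of
`J[r]` (no statement on the rational torsion, no statement on the cuspidal class is needed, and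
`M` need not be finitely generated).

Proof.  Iterating (SELB) gives `t_k • y = h_k + r ^ k • w_k` for every `k`.  The images `X₁`, `X₂` of
`M` under the two reductions are finitely generated, so for large `k` an element of `r`-power
order of `r ^ k X_i` vanishes.  At the first place `red₁ y = 0` gives `red₁ h_k = 0`, hence
`h_k = 0` by the injectivity of `red₁` on torsion of `r`-power order.  At the second place
`red₂ (ε t_k • c) = r ^ k • red₂ w_k`; multiplying by the prime-to-`r` part of the order of `c` one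
gets an element of `r`-power order, so it vanishes and `r ∣ ε t_k`: contradiction.
-/

set_option autoImplicit false

namespace Fermat.Agent.S15.H40

/-- In a finitely generated subgroup of an abelian group the elements of `r`-power order are
killed by a fixed power of `r`. -/
theorem exists_pow_kill {Y : Type*} [AddCommGroup Y] (X : AddSubgroup Y) (hX : X.FG) (r : ℕ) :
    ∃ c : ℕ, ∀ v ∈ X, (∃ j : ℕ, r ^ j • v = 0) → r ^ c • v = 0 := by
  classical
  have hfg : AddGroup.FG X := (AddGroup.fg_iff_addSubgroup_fg X).mpr hX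
  have hfin : Module.Finite ℤ X := Module.Finite.iff_addGroup_fg.mpr hfg
  let P : Submodule ℤ X :=
    { carrier := {v | ∃ j : ℕ, r ^ j • v = 0}
      zero_mem' := ⟨0, smul_zero _⟩
      add_mem' := by
        rintro a b ⟨j, hj⟩ ⟨j', hj'⟩
        refine ⟨j + j', ?_⟩
        rw [smul_add, pow_add, mul_smul, mul_smul, hj', smul_zero, add_zero, smul_comm, hj,
          smul_zero]
      smul_mem' := by
        rintro n a ⟨j, hj⟩
        exact ⟨j, by rw [smul_comm, hj, smul_zero]⟩ }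
  have hPfg : P.FG := IsNoetherian.noetherian P
  obtain ⟨S, hS⟩ := hPfg
  have hSP : ∀ s ∈ S, ∃ j : ℕ, r ^ j • s = 0 := fun s hs => by
    have : s ∈ P := hS ▸ Submodule.subset_span hs
    exact this
  choose! jf hjf using hSP
  refine ⟨S.sup jf, ?_⟩
  intro v hv hvt
  have hvP : (⟨v, hv⟩ : X) ∈ P := by
    obtain ⟨j, hj⟩ := hvt
    exact ⟨j, Subtype.ext (by simpa using hj)⟩
  have key : ∀ u ∈ P, r ^ (S.sup jf) • u = 0 := by
    intro u hu
    rw [← hS] at hu
    induction hu using Submodule.span_induction with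
    | mem s hs =>
      have hle : jf s ≤ S.sup jf := Finset.le_sup hs
      obtain ⟨d, hd⟩ := Nat.exists_eq_add_of_le hle
      rw [hd, pow_add, mul_comm, mul_smul, hjf s hs, smul_zero]
    | zero => exact smul_zero _
    | add a b _ _ ha hb => rw [smul_add, ha, hb, add_zero]
    | smul n a _ ha => rw [smul_comm, ha, smul_zero]
  have := key _ hvP
  have h2 := congrArg (Subtype.val) this
  simpa using h2

/-- In a finitely generated subgroup `X`, for `k` large, an element of `r`-power order of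
`r ^ k X` vanishes. -/
theorem eq_zero_of_pow_smul {Y : Type*} [AddCommGroup Y] (X : AddSubgroup Y) (r c : ℕ)
    (hc : ∀ v ∈ X, (∃ j : ℕ, r ^ j • v = 0) → r ^ c • v = 0)
    {k : ℕ} (hk : c ≤ k) (u v : Y) (hv : v ∈ X) (huv : u = r ^ k • v)
    (hu : ∃ j : ℕ, r ^ j • u = 0) : u = 0 := by
  obtain ⟨j, hj⟩ := hu
  have h1 : r ^ (j + k) • v = 0 := by
    rw [pow_add, mul_smul, ← huv, hj]
  have h2 : r ^ c • v = 0 := hc v hv ⟨j + k, h1⟩
  obtain ⟨d, hd⟩ := Nat.exists_eq_add_of_le hk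
  rw [huv, hd, pow_add, mul_comm, mul_smul, h2, smul_zero]

variable {T J Y₁ Y₂ : Type*} [CommRing T] [AddCommGroup J] [Module T J]
  [AddCommGroup Y₁] [AddCommGroup Y₂]

/-- Iteration of (SELB). -/
theorem selB_iterate (M : Submodule T J) (ε : T →+* ℤ) (r : ℕ) (hr : r.Prime)
    (hsel : ∀ z ∈ M, ∃ t : T, ¬ (r : ℤ) ∣ ε t ∧ ∃ h ∈ M, (∃ j : ℕ, r ^ j • h = 0) ∧
      ∃ w ∈ M, t • z = h + r • w) (k : ℕ) :
    ∀ z ∈ M, ∃ t : T, ¬ (r : ℤ) ∣ ε t ∧ ∃ h ∈ M, (∃ j : ℕ, r ^ j • h = 0) ∧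
      ∃ w ∈ M, t • z = h + r ^ k • w := by
  have hrp : Prime (r : ℤ) := Nat.prime_iff_prime_int.mp hr
  induction k with
  | zero =>
    intro z hz
    refine ⟨1, ?_, 0, M.zero_mem, ⟨0, smul_zero _⟩, z, hz, ?_⟩
    · rw [map_one]
      exact fun h => hrp.not_isUnit (isUnit_of_dvd_one h)
    · rw [one_smul, zero_add, pow_zero, one_smul]
  | succ k ih =>
    intro z hz
    obtain ⟨t, ht, h, hM, ⟨j, hj⟩, w, hwM, htz⟩ := ih z hz
    obtain ⟨t', ht', h', hM', ⟨j', hj'⟩, w', hwM', htw⟩ := hsel w hwM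
    refine ⟨t' * t, ?_, t' • h + r ^ k • h', ?_, ⟨j + j', ?_⟩, w', hwM', ?_⟩
    · rw [map_mul]
      exact fun hd => (hrp.dvd_or_dvd hd).elim ht' ht
    · exact M.add_mem (M.smul_mem t' hM) (M.toAddSubgroup.nsmul_mem hM' _)
    · have e1 : r ^ (j + j') • (t' • h) = 0 := by
        rw [pow_add, mul_comm, mul_smul, smul_comm (r ^ j) t' h, hj, smul_zero, smul_zero]
      have e2 : r ^ (j + j') • (r ^ k • h') = 0 := by
        rw [pow_add, mul_smul, smul_comm (r ^ j') (r ^ k), hj', smul_zero, smul_zero]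
      rw [smul_add, e1, e2, add_zero]
    · have e3 : t' • (r ^ k • w) = r ^ k • (t' • w) := smul_comm t' (r ^ k) w
      rw [mul_smul, htz, smul_add, e3, htw, smul_add, add_assoc, pow_succ, mul_smul]

/-- **The algebraic core of Mazur's specialisation argument, Selmer form.** -/
theorem key_algebra_sel
    (M : Submodule T J) (red₁ : J →+ Y₁) (red₂ : J →+ Y₂)
    (hHR₁ : ∀ t : T, ∀ z ∈ M, red₁ z = 0 → red₁ (t • z) = 0)
    (hHR₂ : ∀ t : T, ∀ z ∈ M, red₂ z = 0 → red₂ (t • z) = 0)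
    (hfg₁ : (AddSubgroup.map red₁ M.toAddSubgroup).FG)
    (hfg₂ : (AddSubgroup.map red₂ M.toAddSubgroup).FG)
    (ε : T →+* ℤ) (c : J) (hcM : c ∈ M) (hc : ∀ t : T, t • c = ε t • c)
    (N : ℕ) (hN : N ≠ 0) (hcN : N • c = 0)
    (r : ℕ) (hr : r.Prime)
    (hsel : ∀ z ∈ M, ∃ t : T, ¬ (r : ℤ) ∣ ε t ∧ ∃ h ∈ M, (∃ j : ℕ, r ^ j • h = 0) ∧
      ∃ w ∈ M, t • z = h + r • w)
    (hinj₁ : ∀ h : J, (∃ j : ℕ, r ^ j • h = 0) → red₁ h = 0 → h = 0)
    (hinj₂ : ∀ k : ℤ, red₂ (k • c) = 0 → (r : ℤ) ∣ k)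
    (y : J) (hyM : y ∈ M) (hy₁ : red₁ y = 0) (hy₂ : red₂ (y - c) = 0) : False := by
  classical
  have hrp : Prime (r : ℤ) := Nat.prime_iff_prime_int.mp hr
  obtain ⟨c₁, hc₁⟩ := exists_pow_kill _ hfg₁ r
  obtain ⟨c₂, hc₂⟩ := exists_pow_kill _ hfg₂ r
  set k := max c₁ c₂ with hk
  obtain ⟨t, ht, h, hM, ⟨j, hj⟩, w, hwM, htz⟩ := selB_iterate M ε r hr hsel k y hyM
  -- the first place
  have e1 : red₁ (t • y) = 0 := hHR₁ t y hyM hy₁
  have e2 : red₁ h = r ^ k • red₁ (-w) := by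
    rw [htz, map_add, map_nsmul] at e1
    rw [map_neg, smul_neg]
    exact eq_neg_of_add_eq_zero_left e1
  have e3 : red₁ h = 0 :=
    eq_zero_of_pow_smul _ r c₁ hc₁ (le_max_left _ _) (red₁ h) (red₁ (-w))
      ⟨-w, M.neg_mem hwM, rfl⟩ e2 ⟨j, by rw [← map_nsmul, hj, map_zero]⟩
  have h0 : h = 0 := hinj₁ h ⟨j, hj⟩ e3
  rw [h0, zero_add] at htz
  -- the second place
  have e4 : red₂ (t • (y - c)) = 0 :=
    hHR₂ t (y - c) (M.sub_mem hyM hcM) hy₂
  have e5 : red₂ (ε t • c) = r ^ k • red₂ w := by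
    rw [smul_sub, map_sub, sub_eq_zero, htz, hc t, map_nsmul] at e4
    exact e4.symm
  obtain ⟨a, N', hN', hNeq⟩ := Nat.exists_eq_pow_mul_and_not_dvd hN r hr.ne_one
  -- `u = (N' * ε t) • c` has `r`-power order
  have e6 : red₂ (((N' : ℤ) * ε t) • c) = r ^ k • red₂ (N' • w) := by
    rw [mul_smul, map_zsmul, e5, map_nsmul, Nat.cast_smul_eq_nsmul, smul_comm]
  have e7 : r ^ a • (((N' : ℤ) * ε t) • c) = 0 := by
    have : r ^ a • (((N' : ℤ) * ε t) • c) = ε t • (N • c) := by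
      rw [hNeq, ← Nat.cast_smul_eq_nsmul ℤ (r ^ a), ← Nat.cast_smul_eq_nsmul ℤ (r ^ a * N'),
        smul_smul, smul_smul]
      congr 1
      push_cast
      ring
    rw [this, hcN, smul_zero]
  have e8 : red₂ (((N' : ℤ) * ε t) • c) = 0 :=
    eq_zero_of_pow_smul _ r c₂ hc₂ (le_max_right _ _) _ (red₂ (N' • w))
      ⟨N' • w, M.toAddSubgroup.nsmul_mem hwM _, rfl⟩ e6
      ⟨a, by rw [← map_nsmul, e7, map_zero]⟩
  have e9 : (r : ℤ) ∣ (N' : ℤ) * ε t := hinj₂ _ e8
  rcases hrp.dvd_or_dvd e9 with h1 | h1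
  · exact hN' (by exact_mod_cast h1)
  · exact ht h1

end Fermat.Agent.S15.H40
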