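import Fermat.Agent.S15.WiringB
import Fermat.Agent.S15.H40_SelAlg

/-!
# S15 from the Selmer inequality (helper40, coordinator of cluster M)

The Eisenstein descent `Stmt_descent` (`M = ℤ κ + 𝔓_r M`) is replaced by the weaker

  `Stmt_selB p` : for some prime `r ∣ ord κ`, every rational point `z` of `J₀(p)` satisfies
  `t • z = h + r • w` with `r ∤ ε t`, `h` rational of `r`-power order, `w` rational,

which is the content of the single inequality `dim Sel(V) ≤ dim V^G` (`V` the Eisenstein part of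
`J₀(p)[r]`): no statement on the rational torsion (TORS), no statement on the cuspidal class
(CHEAP) and no finite generation of `J₀(p)(ℚ)` are needed, and `r = 2` is allowed.

* `core_gen_sel` : helper83's `core_gen` with `hdesc` replaced by (SELB);
* `Stmt_eisDataSel`, `stmt_eisDataSel_of_leaves`, `core_of_eisDataSel`, `core'_of_eisDataSel`;
* `InputsSel`, `result_of_inputsSel : Stmt_S18 → (∀ p, InputsSel p) → <frozen S15>`.
-/

set_option autoImplicit false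
set_option synthInstance.maxHeartbeats 400000

noncomputable section

open HahnSeries IntermediateField AlgebraicCurve ModularCurve
open WeierstrassCurve WeierstrassCurve.Affine

namespace Fermat.Agent.S15

/-- (SELB) **the Selmer form of the Eisenstein descent**: for some prime `r` dividing the order
of the cuspidal class, every rational point `z` of `J₀(p)` has `t • z = h + r • w` with `t` a
Hecke polynomial, `r ∤ ε(t)`, `h` a rational point of `r`-power order and `w` a rational point. -/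
def Stmt_selB (p : ℕ) [NeZero p] : Prop :=
  ∀ (Pinf P0 : PlaceBar p) (h : IsCuspPair p Pinf P0),
    ∃ r : ℕ, r.Prime ∧ r ∣ addOrderOf (ptClass Pinf P0 h.deg_inf h.deg_zero) ∧
      ∀ z ∈ ratPts p, ∃ t : HeckeAlg, ¬ (r : ℤ) ∣ eisEval p t ∧
        ∃ h ∈ ratPts p, (∃ j : ℕ, r ^ j • h = 0) ∧ ∃ w ∈ ratPts p, hsmul p t z = h + r • w

namespace H40

set_option maxHeartbeats 1600000 in
/-- **CORE, general form, from (SELB)**. -/
theorem core_gen_sel (p : ℕ) [NeZero p] (hp : p.Prime) (hp2 : p ≠ 2) (hp3 : p ≠ 3)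
    (hS18 : Stmt_S18) (hFG : Stmt_redFG p)
    {T : Type*} [CommRing T] [Module T (JZero p)] (ε : T →+* ℤ)
    (hsub : ∀ (t : T) (z : JZero p), z ∈ ratPts p → t • z ∈ ratPts p)
    (hHR : ∀ ℓ : ℕ, ℓ.Prime → ℓ ≠ p → ∀ A : ValuationSubring (AlgebraicClosure ℚ),
      A.LiesOverPrime ℓ → ∀ (t : T) (z : JZero p), z ∈ ratPts p → reductionModL A p z = 0 →
        reductionModL A p (t • z) = 0)
    (Ca Cb : PlaceBar p) (ha : Ca.deg = 1) (hb : Cb.deg = 1)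
    (hafix : ∀ σ : GalQ, galPlace p σ Ca = Ca) (hbfix : ∀ σ : GalQ, galPlace p σ Cb = Cb)
    (hκtors : (p - 1) • ptClass Ca Cb ha hb = 0)
    (hκE : ∀ t : T, t • ptClass Ca Cb ha hb = ε t • ptClass Ca Cb ha hb)
    (r : ℕ) (hr : r.Prime) (hrκ : r ∣ addOrderOf (ptClass Ca Cb ha hb))
    (hsel : ∀ z ∈ ratPts p, ∃ t : T, ¬ (r : ℤ) ∣ ε t ∧
      ∃ h ∈ ratPts p, (∃ j : ℕ, r ^ j • h = 0) ∧ ∃ w ∈ ratPts p, t • z = h + r • w)
    (x : PlaceBar p) (hx1 : x.deg = 1) (hxfix : ∀ σ : GalQ, galPlace p σ x = x)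
    (A₂ : ValuationSubring (AlgebraicClosure ℚ)) (hA₂ : A₂.LiesOverPrime 2)
    (h₂ : ReductionInputsModL A₂ p)
    (hx₂ : placeReductionModL h₂ x = placeReductionModL h₂ Cb)
    (A₃ : ValuationSubring (AlgebraicClosure ℚ)) (hA₃ : A₃.LiesOverPrime 3)
    (h₃ : ReductionInputsModL A₃ p)
    (hx₃ : placeReductionModL h₃ x = placeReductionModL h₃ Cb)
    (ℓ : ℕ) (hℓ : ℓ.Prime) (hℓp : ℓ ≠ p) (hℓn : ¬ ℓ ∣ p - 1)
    (A : ValuationSubring (AlgebraicClosure ℚ)) (hA : A.LiesOverPrime ℓ)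
    (h : ReductionInputsModL A p)
    (hxℓ : placeReductionModL h x = placeReductionModL h Ca) : False := by
  classical
  set κ : JZero p := ptClass Ca Cb ha hb with hκ
  set y : JZero p := ptClass x Cb hx1 hb with hy
  have hp1 : 0 < p - 1 := by
    have := hp.two_le
    omega
  have hκord : addOrderOf κ ∣ p - 1 := addOrderOf_dvd_of_nsmul_eq_zero hκtors
  have hκ0 : addOrderOf κ ≠ 0 := fun h0 => by
    rw [h0, zero_dvd_iff] at hκord
    omega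
  have hrp1 : r ∣ p - 1 := hrκ.trans hκord
  have hrℓ : r ≠ ℓ := fun e => hℓn (e ▸ hrp1)
  -- the auxiliary prime `ℓ₀ ∈ {2, 3}`, `ℓ₀ ≠ r`
  obtain ⟨ℓ₀, hℓ₀, hℓ₀p, hℓ₀r, A₀, hA₀, h₀, hx₀⟩ :
      ∃ ℓ₀ : ℕ, ℓ₀.Prime ∧ ℓ₀ ≠ p ∧ ℓ₀ ≠ r ∧ ∃ (A₀ : ValuationSubring (AlgebraicClosure ℚ))
        (_ : A₀.LiesOverPrime ℓ₀) (h₀ : ReductionInputsModL A₀ p),
        placeReductionModL h₀ x = placeReductionModL h₀ Cb := by
    by_cases hr2 : r = 2
    · exact ⟨3, Nat.prime_three, fun e => hp3 e.symm, by omega, A₃, hA₃, h₃, hx₃⟩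
    · exact ⟨2, Nat.prime_two, fun e => hp2 e.symm, fun e => hr2 e.symm, A₂, hA₂, h₂, hx₂⟩
  -- the submodule of rational points
  let M : Submodule T (JZero p) :=
    { carrier := {z | z ∈ ratPts p}
      zero_mem' := (ratPts p).zero_mem
      add_mem' := fun {a b} ha hb => (ratPts p).add_mem ha hb
      smul_mem' := fun t z hz => hsub t z hz }
  have hMrat : M.toAddSubgroup = ratPts p := by
    ext z
    rfl
  have hκM : κ ∈ M := ptClass_mem_ratPts Ca Cb ha hb hafix hbfix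
  have hyM : y ∈ M := ptClass_mem_ratPts x Cb hx1 hb hxfix hbfix
  -- injectivity of the reduction at `ℓ₀` on torsion of `r`-power order
  have hinj₁ : ∀ z : JZero p, (∃ j : ℕ, r ^ j • z = 0) → reductionModL A₀ p z = 0 → z = 0 := by
    rintro z ⟨j, hj⟩ hz
    haveI : Fact ℓ₀.Prime := ⟨hℓ₀⟩
    have hℓ₀N : ¬ ℓ₀ ∣ p := fun hd => hℓ₀p ((Nat.prime_dvd_prime_iff_eq hℓ₀ hp).mp hd)
    have hℓ₀r' : ¬ ℓ₀ ∣ r ^ j := fun hd =>
      hℓ₀r ((Nat.prime_dvd_prime_iff_eq hℓ₀ hr).mp (hℓ₀.dvd_of_dvd_pow hd))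
    exact hS18 p hℓ₀N A₀ hA₀ h₀ (r ^ j) hℓ₀r' z hj hz
  -- injectivity of the reduction at `ℓ` on the multiples of `κ`
  have hinj₂ : ∀ k : ℤ, reductionModL A p (k • κ) = 0 → (r : ℤ) ∣ k := by
    intro k hk
    haveI : Fact ℓ.Prime := ⟨hℓ⟩
    have hℓN : ¬ ℓ ∣ p := fun hd => hℓp ((Nat.prime_dvd_prime_iff_eq hℓ hp).mp hd)
    have hℓr' : ¬ ℓ ∣ r := fun hd => hrℓ ((Nat.prime_dvd_prime_iff_eq hℓ hr).mp hd).symm
    exact dvd_of_red_zsmul_eq_zero (reductionModL A p) κ r hrκ hκ0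
      (fun z hz1 hz2 => hS18 p hℓN A hA h r hℓr' z hz1 hz2) k hk
  -- `y` reduces to `0` at `ℓ₀`
  have hy0 : reductionModL A₀ p y = 0 := by
    rw [hy, red_ptClass h₀]
    rw [ptClass_congr hx₀ rfl _ _
      (by rw [(isPlaceReductionModL_placeReductionModL h₀).1, hb])
      (by rw [(isPlaceReductionModL_placeReductionModL h₀).1, hb])]
    exact ptClass_self _ _
  -- `y - κ` reduces to `0` at `ℓ`
  have hyκ : reductionModL A p (y - κ) = 0 := by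
    have e1 := red_ptClass h x Cb hx1 hb
    have e2 := red_ptClass h Ca Cb ha hb
    rw [map_sub, sub_eq_zero, hy, hκ, e1, e2]
    exact ptClass_congr hxℓ rfl _ _ _ _
  exact key_algebra_sel M (reductionModL A₀ p) (reductionModL A p)
    (fun t z hz hz0 => hHR ℓ₀ hℓ₀ hℓ₀p A₀ hA₀ t z hz hz0)
    (fun t z hz hz0 => hHR ℓ hℓ hℓp A hA t z hz hz0)
    (by rw [hMrat]; exact hFG ℓ₀ hℓ₀ hℓ₀p A₀ hA₀)
    (by rw [hMrat]; exact hFG ℓ hℓ hℓp A hA)
    ε κ hκM hκE (p - 1) hp1.ne' hκtors r hr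
    (fun z hz => hsel z hz) hinj₁ hinj₂ y hyM hy0 hyκ

end H40

/-- (EIS-SEL) **abstract form of the Hecke inputs, Selmer form**: as `Stmt_eisData`, with the
Eisenstein descent replaced by (SELB). -/
def Stmt_eisDataSel (p : ℕ) [NeZero p] : Prop :=
  ∀ (Pinf P0 : PlaceBar p) (hc : IsCuspPair p Pinf P0),
    ∃ (T : Type) (_ : CommRing T) (_ : Module T (JZero p)) (ε : T →+* ℤ) (r : ℕ),
      (∀ (t : T) (z : JZero p), z ∈ ratPts p → t • z ∈ ratPts p) ∧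
      (∀ ℓ : ℕ, ℓ.Prime → ℓ ≠ p → ∀ A : ValuationSubring (AlgebraicClosure ℚ),
        A.LiesOverPrime ℓ → ∀ (t : T) (z : JZero p), z ∈ ratPts p → reductionModL A p z = 0 →
          reductionModL A p (t • z) = 0) ∧
      (∀ t : T, t • ptClass Pinf P0 hc.deg_inf hc.deg_zero =
        ε t • ptClass Pinf P0 hc.deg_inf hc.deg_zero) ∧
      r.Prime ∧ r ∣ addOrderOf (ptClass Pinf P0 hc.deg_inf hc.deg_zero) ∧
      ∀ z ∈ ratPts p, ∃ t : T, ¬ (r : ℤ) ∣ ε t ∧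
        ∃ h ∈ ratPts p, (∃ j : ℕ, r ^ j • h = 0) ∧ ∃ w ∈ ratPts p, t • z = h + r • w

namespace H40

/-- The abstract Hecke inputs (Selmer form) from the leaves on the Hecke ring of the prelude. -/
theorem stmt_eisDataSel_of_leaves (p : ℕ) [NeZero p] (hGH : Stmt_GH p) (hHR : Stmt_HR p)
    (hcE : Stmt_cuspEis p) (hD : Stmt_selB p) : Stmt_eisDataSel p := by
  intro Pinf P0 hc
  obtain ⟨r, hr, hrκ, hsel⟩ := hD Pinf P0 hc
  refine ⟨HeckeAlg, inferInstance, heckeModuleBar p, eisEval p, r, ?_, ?_, ?_, hr, hrκ, ?_⟩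
  · intro t z hz σ
    letI := heckeModuleBar p
    show σ • hsmul p t z = hsmul p t z
    rw [hGH σ t z, hz σ]
  · intro ℓ hℓ hℓp A hA t z hz hz0
    exact hHR ℓ hℓ hℓp A hA t z hz hz0
  · intro t
    exact hcE Pinf P0 hc t
  · intro z hz
    exact hsel z hz

/-- **CORE** from the Selmer form of the Hecke inputs. -/
theorem core_of_eisDataSel (p : ℕ) [NeZero p] (hp : p.Prime) (hp2 : p ≠ 2) (hp3 : p ≠ 3)
    (hS18 : Stmt_S18) (hFG : Stmt_redFG p)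
    (hcG : Stmt_cuspGal p) (hcT : Stmt_cuspTors p) (hE : Stmt_eisDataSel p)
    (Pinf P0 : PlaceBar p) (hc : IsCuspPair p Pinf P0)
    (x : PlaceBar p) (hx1 : x.deg = 1) (hxfix : ∀ σ : GalQ, galPlace p σ x = x)
    (A₂ : ValuationSubring (AlgebraicClosure ℚ)) (hA₂ : A₂.LiesOverPrime 2)
    (h₂ : ReductionInputsModL A₂ p)
    (hx₂ : placeReductionModL h₂ x = placeReductionModL h₂ P0)
    (A₃ : ValuationSubring (AlgebraicClosure ℚ)) (hA₃ : A₃.LiesOverPrime 3)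
    (h₃ : ReductionInputsModL A₃ p)
    (hx₃ : placeReductionModL h₃ x = placeReductionModL h₃ P0)
    (ℓ : ℕ) (hℓ : ℓ.Prime) (hℓp : ℓ ≠ p) (hℓn : ¬ ℓ ∣ p - 1)
    (A : ValuationSubring (AlgebraicClosure ℚ)) (hA : A.LiesOverPrime ℓ)
    (h : ReductionInputsModL A p)
    (hxℓ : placeReductionModL h x = placeReductionModL h Pinf) : False := by
  obtain ⟨T, iR, iM, ε, r, hsub, hHR, hκE, hr, hrκ, hsel⟩ := hE Pinf P0 hc
  exact core_gen_sel p hp hp2 hp3 hS18 hFG ε hsub hHR Pinf P0 hc.deg_inf hc.deg_zero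
    (fun σ => (hcG Pinf P0 hc σ).1) (fun σ => (hcG Pinf P0 hc σ).2) (hcT Pinf P0 hc) hκE r hr hrκ
    hsel x hx1 hxfix A₂ hA₂ h₂ hx₂ A₃ hA₃ h₃ hx₃ ℓ hℓ hℓp hℓn A hA h hxℓ

/-- **CORE, Fricke-dual form**, from the Selmer form of the Hecke inputs. -/
theorem core'_of_eisDataSel (p : ℕ) [NeZero p] (hp : p.Prime) (hp2 : p ≠ 2) (hp3 : p ≠ 3)
    (hS18 : Stmt_S18) (hFG : Stmt_redFG p)
    (hcG : Stmt_cuspGal p) (hcT : Stmt_cuspTors p) (hE : Stmt_eisDataSel p)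
    (Pinf P0 : PlaceBar p) (hc : IsCuspPair p Pinf P0)
    (x : PlaceBar p) (hx1 : x.deg = 1) (hxfix : ∀ σ : GalQ, galPlace p σ x = x)
    (A₂ : ValuationSubring (AlgebraicClosure ℚ)) (hA₂ : A₂.LiesOverPrime 2)
    (h₂ : ReductionInputsModL A₂ p)
    (hx₂ : placeReductionModL h₂ x = placeReductionModL h₂ Pinf)
    (A₃ : ValuationSubring (AlgebraicClosure ℚ)) (hA₃ : A₃.LiesOverPrime 3)
    (h₃ : ReductionInputsModL A₃ p)
    (hx₃ : placeReductionModL h₃ x = placeReductionModL h₃ Pinf)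
    (ℓ : ℕ) (hℓ : ℓ.Prime) (hℓp : ℓ ≠ p) (hℓn : ¬ ℓ ∣ p - 1)
    (A : ValuationSubring (AlgebraicClosure ℚ)) (hA : A.LiesOverPrime ℓ)
    (h : ReductionInputsModL A p)
    (hxℓ : placeReductionModL h x = placeReductionModL h P0) : False := by
  obtain ⟨T, iR, iM, ε, r, hsub, hHR, hκE, hr, hrκ, hsel⟩ := hE Pinf P0 hc
  have hsw : ptClass P0 Pinf hc.deg_zero hc.deg_inf = -ptClass Pinf P0 hc.deg_inf hc.deg_zero :=
    ptClass_swap Pinf P0 hc.deg_inf hc.deg_zero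
  refine core_gen_sel p hp hp2 hp3 hS18 hFG ε hsub hHR P0 Pinf hc.deg_zero hc.deg_inf
    (fun σ => (hcG Pinf P0 hc σ).2) (fun σ => (hcG Pinf P0 hc σ).1) ?_ ?_ r hr ?_ hsel
    x hx1 hxfix A₂ hA₂ h₂ hx₂ A₃ hA₃ h₃ hx₃ ℓ hℓ hℓp hℓn A hA h hxℓ
  · rw [hsw, neg_nsmul, hcT Pinf P0 hc, neg_zero]
  · intro t
    rw [hsw, smul_neg, hκE t]
    exact (zsmul_neg _ _).symm
  · rw [hsw, addOrderOf_neg]
    exact hrκ

end H40

/-- All inputs of S15 at a prime level `p` (Fricke-dual bridge, Selmer form of the Hecke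
inputs). -/
structure InputsSel (p : ℕ) [NeZero p] : Prop where
  redInputs : Stmt_redInputs p
  redFG : Stmt_redFG p
  cuspExists : Stmt_cuspExists p
  cuspGal : Stmt_cuspGal p
  cuspTors : Stmt_cuspTors p
  eis : Stmt_eisDataSel p
  bridge : Stmt_bridge' p

namespace H40

/-- **S15 from its inputs, Selmer form** (the statement below the hypotheses `hS18`, `hI` is the
frozen statement S15, verbatim). -/
theorem result_of_inputsSel (hS18 : Stmt_S18)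
    (hI : ∀ (p : ℕ) [NeZero p], p.Prime → p ∉ ({2, 3, 5, 7, 13} : Finset ℕ) → InputsSel p)
    {p : ℕ} (hp : p.Prime) (hp' : p ∉ ({2, 3, 5, 7, 13} : Finset ℕ))
    (W : WeierstrassCurve ℤ) (hΔ : W.Δ ≠ 0)
    (Q : ((W.map (Int.castRingHom ℚ))⁄(AlgebraicClosure ℚ)).Point)
    (hQfix : ∀ σ : AlgebraicClosure ℚ ≃ₐ[ℚ] AlgebraicClosure ℚ, σ • Q = Q)
    (hQord : addOrderOf Q = p)
    (h2Δ : (2 : ℤ) ∣ W.Δ) (h2c₄ : ¬ (2 : ℤ) ∣ W.c₄)
    (h2 : ∀ A : ValuationSubring (AlgebraicClosure ℚ), A.LiesOverPrime 2 →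
      ¬ W.InZeroComponentAt A Q)
    (h3Δ : (3 : ℤ) ∣ W.Δ) (h3c₄ : ¬ (3 : ℤ) ∣ W.c₄)
    (h3 : ∀ A : ValuationSubring (AlgebraicClosure ℚ), A.LiesOverPrime 3 →
      ¬ W.InZeroComponentAt A Q)
    {ℓ : ℕ} (hℓ : ℓ.Prime) (hℓp : ℓ ≠ p) (hℓΔ : (ℓ : ℤ) ∣ W.Δ) (hℓc₄ : ¬ (ℓ : ℤ) ∣ W.c₄)
    (A : ValuationSubring (AlgebraicClosure ℚ)) (hA : A.LiesOverPrime ℓ) :
    ¬ W.InZeroComponentAt A Q := by
  haveI : NeZero p := ⟨hp.ne_zero⟩
  -- the inputs in Selmer form give a contradiction exactly as in `result_of_inputsB`: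
  -- we run `result_of_inputsB`'s argument with `core'_of_eisDataSel`
  intro hin
  have hp2 : p ≠ 2 := fun e => hp' (by simp [e])
  have hp3 : p ≠ 3 := fun e => hp' (by simp [e])
  have I := hI p hp hp'
  obtain ⟨Pinf, P0, hc⟩ := I.cuspExists
  obtain ⟨x, hx1, hxfix, hxred⟩ := I.bridge W hΔ Q hQfix hQord h2Δ h2c₄ h2 Pinf P0 hc
  obtain ⟨A₂, hA₂⟩ := Fermat.Agent.Lib.FrobExists.exists_liesOverPrime 2 Nat.prime_two
  obtain ⟨A₃, hA₃⟩ := Fermat.Agent.Lib.FrobExists.exists_liesOverPrime 3 Nat.prime_three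
  have h₂ := I.redInputs 2 Nat.prime_two (Ne.symm hp2) A₂ hA₂
  have h₃ := I.redInputs 3 Nat.prime_three (Ne.symm hp3) A₃ hA₃
  have h := I.redInputs ℓ hℓ hℓp A hA
  have hx₂ := (hxred 2 Nat.prime_two (Ne.symm hp2) (by exact_mod_cast h2Δ)
    (by exact_mod_cast h2c₄) A₂ hA₂ h₂).1 (h2 A₂ hA₂)
  have hx₃ := (hxred 3 Nat.prime_three (Ne.symm hp3) (by exact_mod_cast h3Δ)
    (by exact_mod_cast h3c₄) A₃ hA₃ h₃).1 (h3 A₃ hA₃)
  have hxℓ := (hxred ℓ hℓ hℓp hℓΔ hℓc₄ A hA h).2 hin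
  have hℓn : ¬ ℓ ∣ p - 1 :=
    H83.not_dvd_pred_of_inZero hp hp3 W hΔ Q hQfix hQord hℓ hℓp hℓΔ hℓc₄ A hA hin
  exact core'_of_eisDataSel p hp hp2 hp3 hS18 I.redFG I.cuspGal I.cuspTors I.eis
    Pinf P0 hc x hx1 hxfix A₂ hA₂ h₂ hx₂ A₃ hA₃ h₃ hx₃ ℓ hℓ hℓp hℓn A hA h hxℓ

end H40

end Fermat.Agent.S15
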