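/-
S15 / BRIDGE, package BR-DEF (helper63): the `j`-invariant `β` of the explicit quotient curve
`E' = E / ⟨Q⟩` is a rational number (`Stmt_BRdef` of `S15/BridgeDefs.lean`).

* `quotJ_swap12`, `quotJ_swap23`: `quotJ` does not depend on the order of the roots;
* `perm_of_twoTors`: two factorisations of the 2-division polynomial differ by a permutation;
* `exists_twoTors`: over an algebraically closed field the 2-division polynomial splits;
* `Xi_smul`, `quotJ_smul`: Galois equivariance;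
* `stmt_BRdef : Stmt_BRdef`.
-/
import Fermat.Agent.S15.BridgeDefs
import Fermat.Agent.S13.H12_FixedRat

set_option autoImplicit false

namespace Fermat.Agent.S15.H63

open WeierstrassCurve WeierstrassCurve.Affine Polynomial Fermat.Agent.Lib.Torsion.H11
  Fermat.Agent.S12.H11

set_option linter.style.haveILetI false

/-! ### Symmetry of `jOfDiff` and `quotJ` -/

section sym

variable {K : Type*} [Field K]

lemma jOfDiff_swap12 (a b c : K) : jOfDiff b a c = jOfDiff a b c := by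
  unfold jOfDiff; congr 1 <;> ring

lemma jOfDiff_swap23 (a b c : K) : jOfDiff a c b = jOfDiff a b c := by
  unfold jOfDiff; congr 1 <;> ring

lemma jOfDiff_neg1 (a b c : K) : jOfDiff (-a) b c = jOfDiff a b c := by
  unfold jOfDiff; congr 1 <;> ring

lemma jOfDiff_neg2 (a b c : K) : jOfDiff a (-b) c = jOfDiff a b c := by
  unfold jOfDiff; congr 1 <;> ring

lemma jOfDiff_neg3 (a b c : K) : jOfDiff a b (-c) = jOfDiff a b c := by
  unfold jOfDiff; congr 1 <;> ring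

variable [DecidableEq K] (W : Affine K) (N : AddSubgroup W.Point) [Fintype N]

/-- `quotDiff e' e e'' = ± quotDiff e e' e''`. -/
lemma quotDiff_swap (e e' e'' : K) :
    quotDiff W N e' e e'' = quotDiff W N e e' e'' ∨
      quotDiff W N e' e e'' = -quotDiff W N e e' e'' := by
  unfold quotDiff
  rcases Nat.even_or_odd (Fintype.card N) with h | h
  · left
    have : (e - e') ^ Fintype.card N = (e' - e) ^ Fintype.card N := by
      rw [← h.neg_pow]; ring
    rw [this, mul_comm (Xi W N e') (Xi W N e)]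
  · right
    have : (e - e') ^ Fintype.card N = -(e' - e) ^ Fintype.card N := by
      rw [← h.neg_pow]; ring
    rw [this, mul_comm (Xi W N e') (Xi W N e)]
    ring

lemma quotJ_swap23 (e1 e2 e3 : K) : quotJ W N e1 e3 e2 = quotJ W N e1 e2 e3 := by
  unfold quotJ
  rw [jOfDiff_swap12]
  rcases quotDiff_swap W N e2 e3 e1 with h | h
  · rw [h]
  · rw [h, jOfDiff_neg3]

lemma quotJ_swap12 (e1 e2 e3 : K) : quotJ W N e2 e1 e3 = quotJ W N e1 e2 e3 := by
  unfold quotJ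
  -- `jOfDiff (D 2 1 3) (D 2 3 1) (D 1 3 2)` versus `jOfDiff (D 1 2 3) (D 1 3 2) (D 2 3 1)`
  rw [jOfDiff_swap23 (quotDiff W N e2 e1 e3)]
  rcases quotDiff_swap W N e1 e2 e3 with h | h
  · rw [h]
  · rw [h, jOfDiff_neg1]

end sym

/-! ### Factorisations of the 2-division polynomial -/

section roots

variable {K : Type*} [Field K] {W : Affine K}

/-- Two factorisations of the 2-division polynomial differ by a permutation of the roots. -/
lemma perm_of_twoTors {e1 e2 e3 f1 f2 f3 : K} (H : TwoTors W e1 e2 e3)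
    (H' : TwoTors W f1 f2 f3) :
    (f1 = e1 ∧ f2 = e2 ∧ f3 = e3) ∨ (f1 = e1 ∧ f2 = e3 ∧ f3 = e2) ∨
    (f1 = e2 ∧ f2 = e1 ∧ f3 = e3) ∨ (f1 = e2 ∧ f2 = e3 ∧ f3 = e1) ∨
    (f1 = e3 ∧ f2 = e1 ∧ f3 = e2) ∨ (f1 = e3 ∧ f2 = e2 ∧ f3 = e1) := by
  have h2 := H.two_ne
  have h4 : (4 : K) ≠ 0 := by
    have : (4 : K) = 2 * 2 := by norm_num
    rw [this]; exact mul_ne_zero h2 h2
  have s1 : f1 + f2 + f3 = e1 + e2 + e3 := by
    have := H.hb2.symm.trans H'.hb2
    apply mul_left_cancel₀ h4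
    linear_combination this
  have s2 : f1 * f2 + f1 * f3 + f2 * f3 = e1 * e2 + e1 * e3 + e2 * e3 := by
    have := H.hb4.symm.trans H'.hb4
    apply mul_left_cancel₀ h2
    linear_combination -this
  have s3 : f1 * f2 * f3 = e1 * e2 * e3 := by
    have := H.hb6.symm.trans H'.hb6
    apply mul_left_cancel₀ h4
    linear_combination this
  -- `f1` is a root
  have r1 : (f1 - e1) * (f1 - e2) * (f1 - e3) = 0 := by
    linear_combination f1 ^ 2 * s1 - f1 * s2 + s3
  -- the remaining two roots, given that `f1 = a` and `{a, b, c} = {e1, e2, e3}`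
  have key : ∀ a b c : K, f1 = a → a + b + c = e1 + e2 + e3 →
      a * b + a * c + b * c = e1 * e2 + e1 * e3 + e2 * e3 →
      (f2 = b ∧ f3 = c) ∨ (f2 = c ∧ f3 = b) := by
    intro a b c ha hs1 hs2
    have t1 : f2 + f3 = b + c := by linear_combination s1 - hs1 - ha
    have t2 : f2 * f3 = b * c := by
      linear_combination s2 - hs2 - (f2 + f3) * ha - a * t1
    have q : (f2 - b) * (f2 - c) = 0 := by linear_combination f2 * t1 - t2
    rcases mul_eq_zero.mp q with h | h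
    · left
      have hb : f2 = b := sub_eq_zero.mp h
      exact ⟨hb, by linear_combination t1 - hb⟩
    · right
      have hc : f2 = c := sub_eq_zero.mp h
      exact ⟨hc, by linear_combination t1 - hc⟩
  rcases mul_eq_zero.mp r1 with h | h
  · rcases mul_eq_zero.mp h with h | h
    · have ha : f1 = e1 := sub_eq_zero.mp h
      rcases key e1 e2 e3 ha rfl rfl with ⟨hb, hc⟩ | ⟨hb, hc⟩
      · exact Or.inl ⟨ha, hb, hc⟩
      · exact Or.inr (Or.inl ⟨ha, hb, hc⟩)
    · have ha : f1 = e2 := sub_eq_zero.mp h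
      rcases key e2 e1 e3 ha (by ring) (by ring) with ⟨hb, hc⟩ | ⟨hb, hc⟩
      · exact Or.inr (Or.inr (Or.inl ⟨ha, hb, hc⟩))
      · exact Or.inr (Or.inr (Or.inr (Or.inl ⟨ha, hb, hc⟩)))
  · have ha : f1 = e3 := sub_eq_zero.mp h
    rcases key e3 e1 e2 ha (by ring) (by ring) with ⟨hb, hc⟩ | ⟨hb, hc⟩
    · exact Or.inr (Or.inr (Or.inr (Or.inr (Or.inl ⟨ha, hb, hc⟩))))
    · exact Or.inr (Or.inr (Or.inr (Or.inr (Or.inr ⟨ha, hb, hc⟩))))

/-- `quotJ` does not depend on the factorisation. -/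
lemma quotJ_eq_of_twoTors [DecidableEq K] (N : AddSubgroup W.Point) [Fintype N]
    {e1 e2 e3 f1 f2 f3 : K} (H : TwoTors W e1 e2 e3) (H' : TwoTors W f1 f2 f3) :
    quotJ W N f1 f2 f3 = quotJ W N e1 e2 e3 := by
  rcases perm_of_twoTors H H' with ⟨rfl, rfl, rfl⟩ | ⟨rfl, rfl, rfl⟩ | ⟨rfl, rfl, rfl⟩ |
    ⟨rfl, rfl, rfl⟩ | ⟨rfl, rfl, rfl⟩ | ⟨rfl, rfl, rfl⟩
  · rfl
  · exact quotJ_swap23 W N _ _ _
  · exact quotJ_swap12 W N _ _ _
  · -- `(f1, f2, f3) = (e2, e3, e1)`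
    rw [quotJ_swap23, quotJ_swap12]
  · -- `(f1, f2, f3) = (e3, e1, e2)`
    rw [quotJ_swap12, quotJ_swap23]
  · -- `(f1, f2, f3) = (e3, e2, e1)`
    rw [quotJ_swap12, quotJ_swap23, quotJ_swap12]

/-- Over an algebraically closed field (with `2 ≠ 0`) the 2-division polynomial splits. -/
lemma exists_twoTors [IsAlgClosed K] (W : Affine K) (h2 : (2 : K) ≠ 0) :
    ∃ e1 e2 e3 : K, TwoTors W e1 e2 e3 := by
  have h4 : (4 : K) ≠ 0 := by
    have : (4 : K) = 2 * 2 := by norm_num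
    rw [this]; exact mul_ne_zero h2 h2
  set s : K := W.b₂ / 4 with hs
  set t : K := W.b₄ / 2 with ht
  set w : K := W.b₆ / 4 with hw
  -- a root of the cubic
  obtain ⟨e1, he1⟩ := IsAlgClosed.exists_root (X ^ 3 + C s * X ^ 2 + C t * X + C w : K[X]) (by
    have : (X ^ 3 + C s * X ^ 2 + C t * X + C w : K[X]).degree = 3 := by compute_degree!
    rw [this]; norm_num)
  simp only [IsRoot.def, eval_add, eval_mul, eval_pow, eval_X, eval_C] at he1
  -- a root of the quadratic quotient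
  obtain ⟨e2, he2⟩ := IsAlgClosed.exists_root
    (X ^ 2 + C (s + e1) * X + C (t + e1 * (s + e1)) : K[X]) (by
    have : (X ^ 2 + C (s + e1) * X + C (t + e1 * (s + e1)) : K[X]).degree = 2 := by
      compute_degree!
    rw [this]; norm_num)
  simp only [IsRoot.def, eval_add, eval_mul, eval_pow, eval_X, eval_C] at he2
  have hb2 : W.b₂ = 4 * s := by rw [hs]; field_simp
  have hb4 : W.b₄ = 2 * t := by rw [ht]; field_simp
  have hb6 : W.b₆ = 4 * w := by rw [hw]; field_simp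
  refine ⟨e1, e2, -(s + e1) - e2, h2, ?_, ?_, ?_⟩
  · rw [hb2]; ring
  · rw [hb4]; linear_combination 2 * he2
  · rw [hb6]; linear_combination 4 * he1 - 4 * e1 * he2

end roots

/-! ### Galois equivariance -/

section galois

variable (W₀ : Affine ℚ)

lemma xc_smul (σ : GalQ) (R : (W₀⁄Qb).Point) :
    xc (W₀⁄Qb) (σ • R) = σ (xc (W₀⁄Qb) R) := by
  rcases R with _ | ⟨x, y, h⟩
  · change xc (W₀⁄Qb) (0 : (W₀⁄Qb).Point) = σ 0
    rw [map_zero]
    rfl
  · rfl

variable {W₀}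

lemma twoTors_smul {e1 e2 e3 : Qb} (H : TwoTors (W₀⁄Qb) e1 e2 e3) (σ : GalQ) :
    TwoTors (W₀⁄Qb) (σ e1) (σ e2) (σ e3) := by
  have hb2 : σ ((W₀⁄Qb).b₂) = (W₀⁄Qb).b₂ := by
    change σ ((W₀.map (algebraMap ℚ Qb)).b₂) = (W₀.map (algebraMap ℚ Qb)).b₂
    rw [WeierstrassCurve.map_b₂]
    exact σ.commutes _
  have hb4 : σ ((W₀⁄Qb).b₄) = (W₀⁄Qb).b₄ := by
    change σ ((W₀.map (algebraMap ℚ Qb)).b₄) = (W₀.map (algebraMap ℚ Qb)).b₄
    rw [WeierstrassCurve.map_b₄]
    exact σ.commutes _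
  have hb6 : σ ((W₀⁄Qb).b₆) = (W₀⁄Qb).b₆ := by
    change σ ((W₀.map (algebraMap ℚ Qb)).b₆) = (W₀.map (algebraMap ℚ Qb)).b₆
    rw [WeierstrassCurve.map_b₆]
    exact σ.commutes _
  refine ⟨H.two_ne, ?_, ?_, ?_⟩
  · rw [← hb2, H.hb2]; simp only [map_mul, map_add, map_neg, map_ofNat]
  · rw [← hb4, H.hb4]; simp only [map_mul, map_add, map_ofNat]
  · rw [← hb6, H.hb6]; simp only [map_mul, map_neg, map_ofNat]

variable (N : AddSubgroup (W₀⁄Qb).Point) [Fintype N]
  (hN : ∀ (σ : GalQ) (R : (W₀⁄Qb).Point), R ∈ N → σ • R ∈ N)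
include hN

lemma Xi_smul (σ : GalQ) (e : Qb) :
    σ (Xi (W₀⁄Qb) N e) = Xi (W₀⁄Qb) N (σ e) := by
  unfold Xi
  rw [map_prod]
  refine Finset.prod_nbij' (fun R => (⟨σ • (R : (W₀⁄Qb).Point), hN σ R R.2⟩ : N))
    (fun R => (⟨σ⁻¹ • (R : (W₀⁄Qb).Point), hN σ⁻¹ R R.2⟩ : N)) ?_ ?_ ?_ ?_ ?_
  · intro R hR
    simp only [Finset.mem_erase, Finset.mem_univ, and_true, ne_eq] at hR ⊢
    intro h
    apply hR
    have h' : σ • (R : (W₀⁄Qb).Point) = 0 := congrArg Subtype.val h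
    rw [smul_eq_zero_iff_eq] at h'
    exact Subtype.ext h'
  · intro R hR
    simp only [Finset.mem_erase, Finset.mem_univ, and_true, ne_eq] at hR ⊢
    intro h
    apply hR
    have h' : σ⁻¹ • (R : (W₀⁄Qb).Point) = 0 := congrArg Subtype.val h
    rw [smul_eq_zero_iff_eq] at h'
    exact Subtype.ext h'
  · intro R _
    apply Subtype.ext
    simp
  · intro R _
    apply Subtype.ext
    simp
  · intro R _
    simp only
    rw [xc_smul, map_sub]

lemma quotDiff_smul (σ : GalQ) (e e' e'' : Qb) :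
    σ (quotDiff (W₀⁄Qb) N e e' e'') = quotDiff (W₀⁄Qb) N (σ e) (σ e') (σ e'') := by
  unfold quotDiff
  rw [map_div₀, map_mul, map_mul, map_pow, map_sub, Xi_smul N hN, Xi_smul N hN, Xi_smul N hN]

lemma quotJ_smul (σ : GalQ) (e1 e2 e3 : Qb) :
    σ (quotJ (W₀⁄Qb) N e1 e2 e3) = quotJ (W₀⁄Qb) N (σ e1) (σ e2) (σ e3) := by
  unfold quotJ jOfDiff
  rw [map_div₀, map_mul, map_pow, map_pow, map_add, map_add, map_pow, map_pow, map_pow, map_mul,
    map_mul, quotDiff_smul N hN, quotDiff_smul N hN, quotDiff_smul N hN, map_ofNat]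

/-- `quotJ` is Galois-invariant. -/
lemma quotJ_fixed {e1 e2 e3 : Qb} (H : TwoTors (W₀⁄Qb) e1 e2 e3) (σ : GalQ) :
    σ (quotJ (W₀⁄Qb) N e1 e2 e3) = quotJ (W₀⁄Qb) N e1 e2 e3 := by
  rw [quotJ_smul N hN]
  exact quotJ_eq_of_twoTors N H (twoTors_smul H σ)

/-- `quotJ` is a rational number. -/
lemma exists_rat_quotJ {e1 e2 e3 : Qb} (H : TwoTors (W₀⁄Qb) e1 e2 e3) :
    ∃ β : ℚ, ((β : ℚ) : Qb) = quotJ (W₀⁄Qb) N e1 e2 e3 := by
  obtain ⟨β, hβ⟩ := Fermat.Agent.S13.H12.fixed_rat _ (quotJ_fixed N hN H)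
  refine ⟨β, ?_⟩
  rw [← hβ]
  simp

end galois

/-- **(BR-DEF)** -/
theorem stmt_BRdef : Stmt_BRdef := by
  classical
  intro p hp _ W _ Q hfix hord
  have hfin : IsOfFinAddOrder Q := by
    rw [← addOrderOf_pos_iff, hord]
    exact hp.pos
  haveI : Finite (AddSubgroup.zmultiples Q) := by
    have := hfin.finite_zmultiples
    exact Set.finite_coe_iff.mpr this
  letI inst0 : Fintype (AddSubgroup.zmultiples Q) := Fintype.ofFinite _
  have hN : ∀ (σ : GalQ) (R : (EBar W).Point), R ∈ AddSubgroup.zmultiples Q →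
      σ • R ∈ AddSubgroup.zmultiples Q := by
    intro σ R hR
    obtain ⟨k, rfl⟩ := AddSubgroup.mem_zmultiples_iff.mp hR
    rw [Affine.Point.algEquiv_smul_zsmul, hfix σ]
    exact AddSubgroup.mem_zmultiples_iff.mpr ⟨k, rfl⟩
  obtain ⟨e1, e2, e3, H⟩ := exists_twoTors (EBar W) two_ne_zero
  obtain ⟨β, hβ⟩ := exists_rat_quotJ (AddSubgroup.zmultiples Q) hN H
  refine ⟨β, ?_⟩
  intro f1 f2 f3 inst H'
  have hinst : inst = inst0 := Subsingleton.elim _ _
  subst hinst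
  rw [hβ]
  exact (quotJ_eq_of_twoTors _ H H').symm

end Fermat.Agent.S15.H63
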