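/-
S15 / BRIDGE, package BR-GAL (helper63): the Galois action on places of `X₀(p)` is compatible
with the values of `j` and `j_p` (`Stmt_BRgal` of `S15/BridgeDefs.lean`).

`galPlace σ x = g • x` with `g = arithmeticGalois σ`; `g` fixes `j`, `j_p` (rational
`q`-expansions) and acts as `σ` on the constants; `ord_{g • x}(g • f) = ord_x(f)`.
-/
import Fermat.Agent.S15.BridgeDefs

set_option autoImplicit false
set_option synthInstance.maxHeartbeats 400000

namespace Fermat.Agent.S15.H63

open AlgebraicCurve ModularCurve

/-- `arithmeticGalois σ` fixes every element with rational `q`-expansion. -/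
lemma arithGal_smul_coeffEmb (N : ℕ) (σ : GalQ) (s : LaurentSeries ℚ)
    (hs : coeffEmb (AlgebraicClosure ℚ) s ∈ modularFunctionFieldBar N) :
    arithmeticGalois (modularFunctionFieldFull N) σ •
        (⟨coeffEmb (AlgebraicClosure ℚ) s, hs⟩ : modularFunctionFieldBar N) =
      ⟨coeffEmb (AlgebraicClosure ℚ) s, hs⟩ := by
  apply Subtype.ext
  rw [coe_arithmeticGalois_smul]
  exact coeffMap_coeffEmb σ s

lemma arithGal_smul_jBar (N : ℕ) (σ : GalQ) :
    arithmeticGalois (modularFunctionFieldFull N) σ • jBar N = jBar N :=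
  arithGal_smul_coeffEmb N σ _ _

lemma arithGal_smul_jBarN (N : ℕ) [NeZero N] (σ : GalQ) :
    arithmeticGalois (modularFunctionFieldFull N) σ • jBarN N = jBarN N :=
  arithGal_smul_coeffEmb N σ _ _

/-- The action on `f - c`, `f` with rational `q`-expansion, `c` a constant. -/
lemma arithGal_smul_sub_const (N : ℕ) (σ : GalQ) (f : modularFunctionFieldBar N)
    (hf : arithmeticGalois (modularFunctionFieldFull N) σ • f = f) (c : Qb) :
    arithmeticGalois (modularFunctionFieldFull N) σ •
        (f - algebraMap Qb (modularFunctionFieldBar N) c) =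
      f - algebraMap Qb (modularFunctionFieldBar N) (σ c) := by
  rw [smul_sub, hf, SemilinearAut.smul_algebraMap, baseAut_arithmeticGalois]
  rfl

/-- **(BR-GAL)** -/
theorem stmt_BRgal : Stmt_BRgal := by
  intro p _ _ x b a σ h
  obtain ⟨h1, h2⟩ := h
  unfold HasValues galPlace
  constructor
  · rw [← arithGal_smul_sub_const p σ (jBar p) (arithGal_smul_jBar p σ) b,
      SemilinearAut.ord_smul]
    exact h1
  · rw [← arithGal_smul_sub_const p σ (jBarN p) (arithGal_smul_jBarN p σ) a,
      SemilinearAut.ord_smul]
    exact h2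

end Fermat.Agent.S15.H63
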