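/-
S15 / BRIDGE, package BR-NEWTON, part PLACE-UNIQ (helper63): a simple point of a plane model
carries at most one place.

`F = K(X, Y)`, `Φ(X, Y) = 0`, `∂Φ/∂Y (b, a) ≠ 0`; `x`, `y` places with `X - b`, `Y - a` vanishing.
With `t = X - b`, `s = Y - a` and `R₀ = K[X, Y]`: the first-order Taylor expansion of `Φ` gives
`s U = t V` with `U, V ∈ R₀` and `U ≡ ∂Φ/∂Y (b, a)` modulo `(t, s)`.  By induction on `ord_x g`,
every nonzero `g ∈ R₀` satisfies `U^m g = t^m h` with `h ∈ R₀` of nonzero value at `(b, a)`; hence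
`ord_z g = m · ord_z t` for `z = x, y` with the same `m`, and the two valuation rings coincide.
-/
import Fermat.Agent.S15.H63_NewtonDefs
import Fermat.Agent.RED.H17_Place

set_option autoImplicit false

noncomputable section

open AlgebraicCurve Finset
open Fermat.Agent.RED.H17

namespace Fermat.Agent.S15.H63

section tay

variable {K F : Type*} [Field K] [Field F] [Algebra K F] (X Y : F) (b a : K)

/-- The coordinate ring `K[X, Y] ⊆ F`. -/
abbrev R0 (K : Type*) {F : Type*} [Field K] [Field F] [Algebra K F] (X Y : F) : Subalgebra K F :=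
  Algebra.adjoin K ({X, Y} : Set F)

lemma X_mem_R0 : X ∈ R0 K X Y := Algebra.subset_adjoin (by simp)

lemma Y_mem_R0 : Y ∈ R0 K X Y := Algebra.subset_adjoin (by simp)

lemma t_mem_R0 : X - algebraMap K F b ∈ R0 K X Y :=
  sub_mem (X_mem_R0 X Y) (Subalgebra.algebraMap_mem _ _)

lemma s_mem_R0 : Y - algebraMap K F a ∈ R0 K X Y :=
  sub_mem (Y_mem_R0 X Y) (Subalgebra.algebraMap_mem _ _)

/-- `g ≡ c + d (Y - a)` modulo `(X - b, (Y - a)^2)` in `K[X, Y]`. -/
def Tay (g : F) (c d : K) : Prop :=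
  ∃ α ∈ R0 K X Y, ∃ γ ∈ R0 K X Y,
    g = algebraMap K F c + algebraMap K F d * (Y - algebraMap K F a) +
      (X - algebraMap K F b) * α + (Y - algebraMap K F a) ^ 2 * γ

variable {X Y b a}

lemma Tay.mem {g : F} {c d : K} (h : Tay X Y b a g c d) : g ∈ R0 K X Y := by
  obtain ⟨α, hα, γ, hγ, rfl⟩ := h
  exact add_mem (add_mem (add_mem (Subalgebra.algebraMap_mem _ _)
    (mul_mem (Subalgebra.algebraMap_mem _ _) (s_mem_R0 X Y a))) (mul_mem (t_mem_R0 X Y b) hα))
    (mul_mem (pow_mem (s_mem_R0 X Y a) 2) hγ)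

lemma Tay.congr {g g' : F} {c c' d d' : K} (h : Tay X Y b a g c d) (hg : g = g') (hc : c = c')
    (hd : d = d') : Tay X Y b a g' c' d' := by
  subst hg hc hd
  exact h

variable (X Y b a)

lemma tay_const (r : K) : Tay X Y b a (algebraMap K F r) r 0 :=
  ⟨0, zero_mem _, 0, zero_mem _, by rw [map_zero]; ring⟩

lemma tay_X : Tay X Y b a X b 0 :=
  ⟨1, one_mem _, 0, zero_mem _, by rw [map_zero]; ring⟩

lemma tay_Y : Tay X Y b a Y a 1 :=
  ⟨0, zero_mem _, 0, zero_mem _, by rw [map_one]; ring⟩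

variable {X Y b a}

lemma Tay.add {g g' : F} {c c' d d' : K} (h : Tay X Y b a g c d) (h' : Tay X Y b a g' c' d') :
    Tay X Y b a (g + g') (c + c') (d + d') := by
  obtain ⟨α, hα, γ, hγ, rfl⟩ := h
  obtain ⟨α', hα', γ', hγ', rfl⟩ := h'
  exact ⟨α + α', add_mem hα hα', γ + γ', add_mem hγ hγ', by rw [map_add, map_add]; ring⟩

lemma Tay.neg {g : F} {c d : K} (h : Tay X Y b a g c d) : Tay X Y b a (-g) (-c) (-d) := by
  obtain ⟨α, hα, γ, hγ, rfl⟩ := h
  exact ⟨-α, neg_mem hα, -γ, neg_mem hγ, by rw [map_neg, map_neg]; ring⟩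

lemma Tay.sub {g g' : F} {c c' d d' : K} (h : Tay X Y b a g c d) (h' : Tay X Y b a g' c' d') :
    Tay X Y b a (g - g') (c - c') (d - d') :=
  (h.add h'.neg).congr (sub_eq_add_neg _ _).symm (sub_eq_add_neg _ _).symm
    (sub_eq_add_neg _ _).symm

lemma Tay.mul {g g' : F} {c c' d d' : K} (h : Tay X Y b a g c d) (h' : Tay X Y b a g' c' d') :
    Tay X Y b a (g * g') (c * c') (c * d' + d * c') := by
  have hg' := h'.mem
  obtain ⟨α, hα, γ, hγ, rfl⟩ := h
  obtain ⟨α', hα', γ', hγ', rfl⟩ := h'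
  have hs := s_mem_R0 (K := K) X Y a
  have hK : ∀ r : K, algebraMap K F r ∈ R0 K X Y := fun r => Subalgebra.algebraMap_mem _ _
  refine ⟨α * (algebraMap K F c' + algebraMap K F d' * (Y - algebraMap K F a) +
      (X - algebraMap K F b) * α' + (Y - algebraMap K F a) ^ 2 * γ') +
      (algebraMap K F c + algebraMap K F d * (Y - algebraMap K F a) +
        (Y - algebraMap K F a) ^ 2 * γ) * α', ?_,
    algebraMap K F (d * d') + algebraMap K F c * γ' + algebraMap K F c' * γ +
      algebraMap K F d * (Y - algebraMap K F a) * γ' +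
      algebraMap K F d' * (Y - algebraMap K F a) * γ +
      (Y - algebraMap K F a) ^ 2 * γ * γ', ?_, ?_⟩
  · exact add_mem (mul_mem hα hg') (mul_mem (add_mem (add_mem (hK _) (mul_mem (hK _) hs))
      (mul_mem (pow_mem hs 2) hγ)) hα')
  · exact add_mem (add_mem (add_mem (add_mem (add_mem (hK _) (mul_mem (hK _) hγ'))
      (mul_mem (hK _) hγ)) (mul_mem (mul_mem (hK _) hs) hγ'))
      (mul_mem (mul_mem (hK _) hs) hγ)) (mul_mem (mul_mem (pow_mem hs 2) hγ) hγ')
  · simp only [map_add, map_mul]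
    ring

lemma Tay.pow {g : F} {c d : K} (h : Tay X Y b a g c d) (n : ℕ) :
    Tay X Y b a (g ^ n) (c ^ n) ((n : ℕ) * c ^ (n - 1) * d) := by
  induction n with
  | zero =>
    refine (tay_const X Y b a (1 : K)).congr ?_ ?_ ?_
    · rw [map_one, pow_zero]
    · rw [pow_zero]
    · simp
  | succ n ih =>
    refine (ih.mul h).congr (pow_succ _ _).symm (pow_succ _ _).symm ?_
    rcases n with _ | m
    · simp
    · simp only [Nat.add_sub_cancel]
      push_cast
      ring

lemma tay_sum {ι : Type*} (s : Finset ι) (g : ι → F) (c d : ι → K)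
    (h : ∀ i ∈ s, Tay X Y b a (g i) (c i) (d i)) :
    Tay X Y b a (∑ i ∈ s, g i) (∑ i ∈ s, c i) (∑ i ∈ s, d i) := by
  classical
  induction s using Finset.induction_on with
  | empty =>
    simp only [sum_empty]
    exact (tay_const X Y b a (0 : K)).congr (map_zero _) rfl rfl
  | insert i s hi ih =>
    rw [sum_insert hi, sum_insert hi, sum_insert hi]
    exact (h i (mem_insert_self _ _)).add (ih fun j hj => h j (mem_insert_of_mem hj))

variable (X Y b a)

/-- The Taylor expansion of the modular polynomial. -/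
lemma tay_modEq (p : ℕ) (c : ℕ → ℕ → K) :
    Tay X Y b a (modEqVal p c X Y) (modEqVal p c b a) (modEqDerivY p c b a) := by
  have hX := tay_X (K := K) X Y b a
  have hY := tay_Y (K := K) X Y b a
  have h1 := hX.pow (p + 1)
  have h2 := hY.pow (p + 1)
  have h3 := (hX.pow p).mul (hY.pow p)
  have h4 := tay_sum (X := X) (Y := Y) (b := b) (a := a) (range (p + 1)) _ _ _ fun i _ =>
    tay_sum (X := X) (Y := Y) (b := b) (a := a) (range (p + 1)) _ _ _ fun k _ =>
      ((tay_const X Y b a (c i k)).mul (hX.pow i)).mul (hY.pow k)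
  refine (((h1.add h2).sub h3).add h4).congr rfl ?_ ?_
  · unfold modEqVal
    simp only [Algebra.algebraMap_self_apply]
  · unfold modEqDerivY
    simp only [mul_zero, zero_mul, add_zero, zero_add, mul_one, Nat.add_sub_cancel]
    ring

lemma exists_tay {g : F} (hg : g ∈ R0 K X Y) : ∃ c d : K, Tay X Y b a g c d := by
  induction hg using Algebra.adjoin_induction with
  | mem x hx =>
    rcases hx with rfl | hx
    · exact ⟨_, _, tay_X x Y b a⟩
    · rw [Set.mem_singleton_iff] at hx
      subst hx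
      exact ⟨_, _, tay_Y X x b a⟩
  | algebraMap r => exact ⟨_, _, tay_const X Y b a r⟩
  | add x y _ _ hx hy =>
    obtain ⟨c, d, h⟩ := hx
    obtain ⟨c', d', h'⟩ := hy
    exact ⟨_, _, h.add h'⟩
  | mul x y _ _ hx hy =>
    obtain ⟨c, d, h⟩ := hx
    obtain ⟨c', d', h'⟩ := hy
    exact ⟨_, _, h.mul h'⟩

/-! ### Specialisation at a place -/

variable {X Y b a}

lemma regAt_X (z : Place K F) (hzt : VanAt z (X - algebraMap K F b)) : RegAt z X := by
  have := hzt.regAt.add (regAt_algebraMap z b)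
  rwa [sub_add_cancel] at this

lemma regAt_of_mem_R0 (z : Place K F) (hzt : VanAt z (X - algebraMap K F b))
    (hzs : VanAt z (Y - algebraMap K F a)) {g : F} (hg : g ∈ R0 K X Y) : RegAt z g := by
  induction hg using Algebra.adjoin_induction with
  | mem x hx =>
    rcases hx with rfl | hx
    · exact regAt_X z hzt
    · rw [Set.mem_singleton_iff] at hx
      subst hx
      exact regAt_X z hzs
  | algebraMap r => exact regAt_algebraMap z r
  | add x y _ _ hx hy => exact hx.add hy
  | mul x y _ _ hx hy => exact hx.mul hy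

lemma Tay.vanAt (z : Place K F) (hzt : VanAt z (X - algebraMap K F b))
    (hzs : VanAt z (Y - algebraMap K F a)) {g : F} {c d : K} (h : Tay X Y b a g c d) :
    VanAt z (g - algebraMap K F c) := by
  obtain ⟨α, hα, γ, hγ, rfl⟩ := h
  have e : algebraMap K F c + algebraMap K F d * (Y - algebraMap K F a) +
      (X - algebraMap K F b) * α + (Y - algebraMap K F a) ^ 2 * γ - algebraMap K F c =
      algebraMap K F d * (Y - algebraMap K F a) + (X - algebraMap K F b) * α +
        (Y - algebraMap K F a) * ((Y - algebraMap K F a) * γ) := by ring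
  rw [e]
  exact (((regAt_algebraMap z d).mul_vanAt hzs).add
    (hzt.mul_regAt (regAt_of_mem_R0 z hzt hzs hα))).add
    (hzs.mul_regAt (hzs.regAt.mul (regAt_of_mem_R0 z hzt hzs hγ)))

/-- A function with nonzero value at the point is a unit at the place. -/
lemma ord_eq_zero_of_vanAt_sub (z : Place K F) {g : F} {c : K} (hc : c ≠ 0)
    (h : VanAt z (g - algebraMap K F c)) : g ≠ 0 ∧ z.ord g = 0 := by
  have hc' : algebraMap K F c ≠ 0 := (map_ne_zero_iff _ (algebraMap K F).injective).mpr hc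
  have e : g = algebraMap K F c + (g - algebraMap K F c) := by ring
  have h1 : z.ord (algebraMap K F c + (g - algebraMap K F c)) = z.ord (algebraMap K F c) := by
    apply ord_add_of_lt z hc'
    rcases (vanAt_iff_ord z _).mp h with h0 | h0
    · exact Or.inl h0
    · right
      rw [ord_algebraMap]
      exact h0
  rw [← e, ord_algebraMap] at h1
  refine ⟨?_, h1⟩
  rintro rfl
  rw [zero_sub] at h
  exact not_vanAt_algebraMap z hc (by simpa using h.neg)

/-! ### The key induction -/

/-- Every nonzero `g ∈ K[X, Y]` is, up to a power of the unit `U`, a power of `t` times a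
function with nonzero value. -/
lemma key_ind (x : Place K F) (hxt : 0 < x.ord (X - algebraMap K F b))
    (hxs : VanAt x (Y - algebraMap K F a)) {U V : F} (hV : V ∈ R0 K X Y) (hU : U ∈ R0 K X Y)
    (hU0 : U ≠ 0) (hUx : x.ord U = 0)
    (hrel : (Y - algebraMap K F a) * U = (X - algebraMap K F b) * V) :
    ∀ (n : ℕ) (g : F), g ∈ R0 K X Y → g ≠ 0 → x.ord g ≤ n →
      ∃ (m : ℕ) (h : F) (c d : K), c ≠ 0 ∧ Tay X Y b a h c d ∧
        U ^ m * g = (X - algebraMap K F b) ^ m * h := by
  have hxt' : VanAt x (X - algebraMap K F b) := vanAt_of_ord_pos hxt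
  have ht0 : X - algebraMap K F b ≠ 0 := by
    intro h0
    rw [h0, Place.ord_zero] at hxt
    exact lt_irrefl _ hxt
  intro n
  induction n with
  | zero =>
    intro g hg hg0 hord
    obtain ⟨c, d, hT⟩ := exists_tay X Y b a hg
    by_cases hc : c = 0
    · exfalso
      subst hc
      have h1 := hT.vanAt x hxt' hxs
      rw [map_zero, sub_zero] at h1
      have h2 := h1.ord_pos hg0
      omega
    · exact ⟨0, g, c, d, hc, hT, by simp⟩
  | succ n ih =>
    intro g hg hg0 hord
    obtain ⟨c, d, hT⟩ := exists_tay X Y b a hg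
    by_cases hc : c = 0
    · subst hc
      obtain ⟨α, hα, γ, hγ, rfl⟩ := hT
      have hs := s_mem_R0 (K := K) X Y a
      have hg₁ : V * (algebraMap K F d + (Y - algebraMap K F a) * γ) + α * U ∈ R0 K X Y :=
        add_mem (mul_mem hV (add_mem (Subalgebra.algebraMap_mem _ _) (mul_mem hs hγ)))
          (mul_mem hα hU)
      have e : U * (algebraMap K F 0 + algebraMap K F d * (Y - algebraMap K F a) +
          (X - algebraMap K F b) * α + (Y - algebraMap K F a) ^ 2 * γ) =
          (X - algebraMap K F b) *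
            (V * (algebraMap K F d + (Y - algebraMap K F a) * γ) + α * U) := by
        rw [map_zero]
        linear_combination (algebraMap K F d + (Y - algebraMap K F a) * γ) * hrel
      have hg₁0 : V * (algebraMap K F d + (Y - algebraMap K F a) * γ) + α * U ≠ 0 := by
        intro h0
        rw [h0, mul_zero] at e
        exact (mul_ne_zero hU0 hg0) e
      have hord₁ : x.ord (V * (algebraMap K F d + (Y - algebraMap K F a) * γ) + α * U) ≤ n := by
        have h3 := congrArg x.ord e
        rw [x.ord_mul hU0 hg0, x.ord_mul ht0 hg₁0, hUx] at h3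
        omega
      obtain ⟨m, h, c, d', hc, hT', hm⟩ := ih _ hg₁ hg₁0 hord₁
      refine ⟨m + 1, h, c, d', hc, hT', ?_⟩
      rw [pow_succ, pow_succ]
      linear_combination U ^ m * e + (X - algebraMap K F b) * hm
    · exact ⟨0, g, c, d, hc, hT, by simp⟩

lemma ord_of_key (z : Place K F) (hzt : VanAt z (X - algebraMap K F b))
    (hzs : VanAt z (Y - algebraMap K F a)) (ht0 : X - algebraMap K F b ≠ 0) {U : F}
    (hU0 : U ≠ 0) (hUz : z.ord U = 0) {m : ℕ} {g h : F} {c d : K} (hc : c ≠ 0)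
    (hT : Tay X Y b a h c d) (hg0 : g ≠ 0)
    (hm : U ^ m * g = (X - algebraMap K F b) ^ m * h) :
    z.ord g = m * z.ord (X - algebraMap K F b) := by
  obtain ⟨hh0, hh⟩ := ord_eq_zero_of_vanAt_sub z hc (hT.vanAt z hzt hzs)
  have h3 := congrArg z.ord hm
  rw [z.ord_mul (pow_ne_zero _ hU0) hg0, z.ord_mul (pow_ne_zero _ ht0) hh0, ord_pow, ord_pow,
    hUz, hh, mul_zero, zero_add, add_zero] at h3
  exact h3

end tay

/-! ### The statement -/

theorem placeUniq {K F : Type*} [Field K] [Field F] [Algebra K F] (X Y : F)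
    (hgen : IntermediateField.adjoin K ({X, Y} : Set F) = ⊤)
    (p : ℕ) (c : ℕ → ℕ → K) (hrel : modEqVal p c X Y = 0)
    (b a : K) (hD : modEqDerivY p c b a ≠ 0)
    (x y : Place K F) (hxt : 0 < x.ord (X - algebraMap K F b))
    (hxs : 0 < x.ord (Y - algebraMap K F a))
    (hyt : 0 < y.ord (X - algebraMap K F b)) (hys : 0 < y.ord (Y - algebraMap K F a)) :
    x = y := by
  have hxt' : VanAt x (X - algebraMap K F b) := vanAt_of_ord_pos hxt
  have hxs' : VanAt x (Y - algebraMap K F a) := vanAt_of_ord_pos hxs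
  have hyt' : VanAt y (X - algebraMap K F b) := vanAt_of_ord_pos hyt
  have hys' : VanAt y (Y - algebraMap K F a) := vanAt_of_ord_pos hys
  have ht0 : X - algebraMap K F b ≠ 0 := by
    intro h0
    rw [h0, Place.ord_zero] at hxt
    exact lt_irrefl _ hxt
  -- the Taylor expansion of the equation
  have hT := tay_modEq X Y b a p c
  rw [hrel] at hT
  have hc0 : modEqVal p c b a = 0 := by
    by_contra hne
    have h1 := hT.vanAt x hxt' hxs'
    rw [zero_sub] at h1
    exact not_vanAt_algebraMap x hne (by simpa using h1.neg)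
  rw [hc0] at hT
  obtain ⟨α, hα, γ, hγ, h0⟩ := hT
  set d₀ := modEqDerivY p c b a with hd₀
  have hs := s_mem_R0 (K := K) X Y a
  -- `U`, `V`
  have hU : algebraMap K F d₀ + (Y - algebraMap K F a) * γ ∈ R0 K X Y :=
    add_mem (Subalgebra.algebraMap_mem _ _) (mul_mem hs hγ)
  have hV : -α ∈ R0 K X Y := neg_mem hα
  have hUV : (Y - algebraMap K F a) * (algebraMap K F d₀ + (Y - algebraMap K F a) * γ) =
      (X - algebraMap K F b) * (-α) := by
    rw [map_zero] at h0
    linear_combination -h0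
  have hUvan : ∀ z : Place K F, VanAt z (X - algebraMap K F b) →
      VanAt z (Y - algebraMap K F a) →
      VanAt z (algebraMap K F d₀ + (Y - algebraMap K F a) * γ - algebraMap K F d₀) := by
    intro z hzt hzs
    rw [add_sub_cancel_left]
    exact hzs.mul_regAt (regAt_of_mem_R0 z hzt hzs hγ)
  obtain ⟨hU0, hUx⟩ := ord_eq_zero_of_vanAt_sub x hD (hUvan x hxt' hxs')
  obtain ⟨-, hUy⟩ := ord_eq_zero_of_vanAt_sub y hD (hUvan y hyt' hys')
  -- orders of elements of `R₀`
  have hR : ∀ g ∈ R0 K X Y, g ≠ 0 → ∃ m : ℕ,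
      x.ord g = m * x.ord (X - algebraMap K F b) ∧
      y.ord g = m * y.ord (X - algebraMap K F b) := by
    intro g hg hg0
    obtain ⟨n, hn⟩ := Int.eq_ofNat_of_zero_le (regAt_of_mem_R0 x hxt' hxs' hg).ord_nonneg
    obtain ⟨m, h, c', d', hc', hT', hm⟩ :=
      key_ind x hxt hxs' hV hU hU0 hUx hUV n g hg hg0 (le_of_eq hn)
    exact ⟨m, ord_of_key x hxt' hxs' ht0 hU0 hUx hc' hT' hg0 hm,
      ord_of_key y hyt' hys' ht0 hU0 hUy hc' hT' hg0 hm⟩
  -- the valuation rings coincide
  apply Place.ext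
  ext f
  rw [← regAt_iff_mem, ← regAt_iff_mem, regAt_iff_ord, regAt_iff_ord]
  rcases eq_or_ne f 0 with hf | hf
  · simp [hf]
  have hmem : f ∈ IntermediateField.adjoin K ({X, Y} : Set F) := by
    rw [hgen]
    exact IntermediateField.mem_top
  obtain ⟨g, hg, h, hh, rfl⟩ := IntermediateField.mem_adjoin_iff_div.mp hmem
  have hg0 : g ≠ 0 := by
    rintro rfl
    exact hf (zero_div _)
  have hh0 : h ≠ 0 := by
    rintro rfl
    exact hf (div_zero _)
  obtain ⟨m, hmx, hmy⟩ := hR g hg hg0
  obtain ⟨m', hmx', hmy'⟩ := hR h hh hh0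
  rw [or_iff_right hf, or_iff_right hf, ord_div x hg0 hh0, ord_div y hg0 hh0, hmx, hmx', hmy,
    hmy', ← sub_mul, ← sub_mul]
  rw [mul_nonneg_iff_of_pos_right hxt, mul_nonneg_iff_of_pos_right hyt]

theorem stmt_placeUniq : Stmt_placeUniq := by
  intro K F _ _ _ X Y hgen p c hrel b a hD x y hxt hxs hyt hys
  exact placeUniq X Y hgen p c hrel b a hD x y hxt hxs hyt hys

end Fermat.Agent.S15.H63
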