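/-
S15 / BRIDGE, package BR-NEWTON (helper63): assembly.

`Stmt_modEq → Stmt_BRnewton_dich ∧ Stmt_BRnewton_uniq`, from NEWTON-VAL (`H63_NewtonVal.lean`),
PLACE-UNIQ (`H63_PlaceUniq.lean`) and the generation `F_p = Q̄(j, j_p)` for `p` prime.
-/
import Fermat.Agent.S15.H63_NewtonVal
import Fermat.Agent.S15.H63_PlaceUniq

set_option autoImplicit false
set_option synthInstance.maxHeartbeats 400000

noncomputable section

open AlgebraicCurve ModularCurve IntermediateField
open Fermat.Agent.RED.H17

namespace Fermat.Agent.S15.H63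

/-- Algebraic integers lie in every valuation subring. -/
theorem val_le_one_of_integral {K : Type*} [Field K] (A : ValuationSubring K) (x : K)
    (hx : IsIntegral ℤ x) : A.valuation x ≤ 1 := by
  have h1 : IsIntegral A x := hx.tower_top
  rw [ValuationSubring.valuation_le_one_iff]
  have h2 := (Valuation.Integers.isIntegral_iff_v_le_one
    (Valuation.valuationSubring.integers A.valuation) (x := x)).mp
    (by rw [A.valuationSubring_valuation]; exact h1)
  exact (ValuationSubring.valuation_le_one_iff A x).mp h2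

/-! ### `F_p = Q̄(j, j_p)` for `p` prime -/

theorem full_prime_le (p : ℕ) [NeZero p] (hp : p.Prime) :
    modularFunctionFieldFull p ≤
      IntermediateField.adjoin ℚ ({jq, qExpand ℚ p jq} : Set (LaurentSeries ℚ)) := by
  rw [modularFunctionFieldFull, adjoin_le_iff]
  rintro x ⟨d, hd, hdvd, rfl⟩
  rcases (Nat.dvd_prime hp).mp hdvd with h | h
  · rw [qExpand_congr h jq, qExpand_one_apply]
    exact subset_adjoin ℚ _ (Set.mem_insert _ _)
  · rw [qExpand_congr h jq]
    exact subset_adjoin ℚ _ (Set.mem_insert_of_mem _ rfl)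

theorem coeffEmb_mem_adjoin_pair (p : ℕ) [NeZero p] {x : LaurentSeries ℚ}
    (hx : x ∈ IntermediateField.adjoin ℚ ({jq, qExpand ℚ p jq} : Set (LaurentSeries ℚ))) :
    coeffEmb Qb x ∈ IntermediateField.adjoin Qb
      ({coeffEmb Qb jq, coeffEmb Qb (qExpand ℚ p jq)} : Set (LaurentSeries Qb)) := by
  induction hx using IntermediateField.adjoin_induction with
  | mem y hy =>
    rcases hy with rfl | hy
    · exact subset_adjoin Qb _ (Set.mem_insert _ _)
    · rw [Set.mem_singleton_iff.mp hy]
      exact subset_adjoin Qb _ (Set.mem_insert_of_mem _ rfl)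
  | algebraMap r =>
    have : coeffEmb Qb (algebraMap ℚ (LaurentSeries ℚ) r)
        = algebraMap Qb (LaurentSeries Qb) (algebraMap ℚ Qb r) := by
      rw [coeffEmb, algebraMap_laurentSeries_eq_single, algebraMap_laurentSeries_eq_single,
        coeffMap_single]
    rw [this]
    exact IntermediateField.algebraMap_mem _ _
  | add y z _ _ hy hz => rw [map_add]; exact add_mem hy hz
  | mul y z _ _ hy hz => rw [map_mul]; exact mul_mem hy hz
  | inv y _ hy => rw [map_inv₀]; exact inv_mem hy

theorem bar_prime_le (p : ℕ) [NeZero p] (hp : p.Prime) :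
    modularFunctionFieldBar p ≤ IntermediateField.adjoin Qb
      ({coeffEmb Qb jq, coeffEmb Qb (qExpand ℚ p jq)} : Set (LaurentSeries Qb)) := by
  rw [modularFunctionFieldBar, laurentBaseChange, adjoin_le_iff]
  rintro _ ⟨x, hx, rfl⟩
  exact coeffEmb_mem_adjoin_pair p (full_prime_le p hp hx)

/-- `F_p = Q̄(j, j_p)`. -/
theorem adjoin_jBar_pair (p : ℕ) [NeZero p] (hp : p.Prime) :
    IntermediateField.adjoin Qb ({jBar p, jBarN p} : Set (modularFunctionFieldBar p)) = ⊤ := by
  rw [eq_top_iff]
  intro z _
  have hz : (z : LaurentSeries Qb) ∈ IntermediateField.adjoin Qb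
      ({coeffEmb Qb jq, coeffEmb Qb (qExpand ℚ p jq)} : Set (LaurentSeries Qb)) :=
    bar_prime_le p hp z.2
  have hmap : (IntermediateField.adjoin Qb
      ({jBar p, jBarN p} : Set (modularFunctionFieldBar p))).map (modularFunctionFieldBar p).val =
      IntermediateField.adjoin Qb
        ({coeffEmb Qb jq, coeffEmb Qb (qExpand ℚ p jq)} : Set (LaurentSeries Qb)) := by
    rw [adjoin_map, Set.image_pair]
    rfl
  rw [← hmap] at hz
  obtain ⟨y, hy, hyz⟩ := hz
  have : y = z := Subtype.ext hyz
  rwa [← this]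

/-! ### Specialisation of the equation -/

/-- The values of a place satisfy the equation. -/
theorem modEq_values {K F : Type*} [Field K] [Field F] [Algebra K F] (X Y : F)
    (p : ℕ) (c : ℕ → ℕ → K) (hrel : modEqVal p c X Y = 0) (b a : K) (x : Place K F)
    (hxt : 0 < x.ord (X - algebraMap K F b)) (hxs : 0 < x.ord (Y - algebraMap K F a)) :
    modEqVal p c b a = 0 := by
  have hT := tay_modEq X Y b a p c
  rw [hrel] at hT
  by_contra hne
  have h1 := hT.vanAt x (vanAt_of_ord_pos hxt) (vanAt_of_ord_pos hxs)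
  rw [zero_sub] at h1
  exact not_vanAt_algebraMap x hne (by simpa using h1.neg)

/-! ### BR-NEWTON -/

theorem brnewton_dich (hmod : Stmt_modEq) : Stmt_BRnewton_dich := by
  intro p _ hp x b a hv A ha
  obtain ⟨c, hc⟩ := hmod p hp
  have h0 := modEq_values (jBar p) (jBarN p) p c hc.rel b a x hv.1 hv.2
  exact newtonVal_dich A p hp.one_lt.le c
    (fun i k => val_le_one_of_integral A _ (hc.integral i k)) hc.top b a h0 ha

theorem brnewton_uniq (hmod : Stmt_modEq) : Stmt_BRnewton_uniq := by
  intro p _ hp x y b a hx hy A ha hba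
  obtain ⟨c, hc⟩ := hmod p hp
  have h0 := modEq_values (jBar p) (jBarN p) p c hc.rel b a x hx.1 hx.2
  have hD := newtonVal_simple A p hp.two_le c
    (fun i k => val_le_one_of_integral A _ (hc.integral i k)) hc.top b a h0 ha hba
  exact placeUniq (jBar p) (jBarN p) (adjoin_jBar_pair p hp) p c hc.rel b a hD x y
    hx.1 hx.2 hy.1 hy.2

end Fermat.Agent.S15.H63
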