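/-
S15 / BRIDGE, package BR-NEWTON (helper63): final, unconditional statements.

`stmt_BRnewton_dich : Stmt_BRnewton_dich`, `stmt_BRnewton_uniq : Stmt_BRnewton_uniq`, from
`H63_Newton.lean` (NEWTON-VAL, PLACE-UNIQ, generation) and MODEQ (`H23.stmt_modEq`, helper23).
-/
import Fermat.Agent.S15.H63_Newton
import Fermat.Agent.S15.H23_ModEq

set_option autoImplicit false

namespace Fermat.Agent.S15.H63

/-- **(BR-NEWTON a)** -/
theorem stmt_BRnewton_dich : Stmt_BRnewton_dich := brnewton_dich H23.stmt_modEq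

/-- **(BR-NEWTON b)** -/
theorem stmt_BRnewton_uniq : Stmt_BRnewton_uniq := brnewton_uniq H23.stmt_modEq

end Fermat.Agent.S15.H63
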