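/-
S15 / BRIDGE / BR-AN (helper67): assembly of the complex uniformisation.
`stmt_BRan : Stmt_BRan` from AN-UNIF (helper11), AN-LADDER (helper87), AN-BASIS (helper34),
AN-LIOUV (helper67) and `exists_twoTors` (helper63).
-/
import Fermat.Agent.S15.An.H67_LiouvMain
import Fermat.Agent.S15.An.H11_Unif
import Fermat.Agent.S15.An.H87_LadderFinal
import Fermat.Agent.S15.An.H34_BasisFinal
import Fermat.Agent.S15.H63_BrDef

set_option autoImplicit false
set_option synthInstance.maxHeartbeats 400000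

noncomputable section

open scoped PeriodPair
open WeierstrassCurve WeierstrassCurve.Affine Fermat.Agent.Lib.Torsion.H11

namespace Fermat.Agent.S15.H67

open Fermat.Agent.S15.An Fermat.Agent.S24

/-- The product over the nonzero elements of a cyclic group of order `p`. -/
theorem prod_nz_zmultiples {G M : Type*} [AddGroup G] [CommMonoid M] (Q : G) (p : ℕ)
    (hord : addOrderOf Q = p) (hp : 0 < p) [Fintype (AddSubgroup.zmultiples Q)]
    [DecidableEq (AddSubgroup.zmultiples Q)] (f : G → M) :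
    ∏ R ∈ (Finset.univ : Finset (AddSubgroup.zmultiples Q)).erase 0, f (R : G) =
      ∏ k ∈ Finset.Ico 1 p, f (k • Q) := by
  symm
  have hfin : IsOfFinAddOrder Q := by
    rw [← addOrderOf_pos_iff, hord]; exact hp
  refine Finset.prod_bij (fun k _ => (⟨k • Q, AddSubgroup.nsmul_mem_zmultiples Q k⟩ :
    AddSubgroup.zmultiples Q)) ?_ ?_ ?_ ?_
  · intro k hk
    rw [Finset.mem_Ico] at hk
    rw [Finset.mem_erase]
    refine ⟨?_, Finset.mem_univ _⟩
    intro h
    have h' : k • Q = 0 := congrArg Subtype.val h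
    have hdvd : addOrderOf Q ∣ k := addOrderOf_dvd_of_nsmul_eq_zero h'
    rw [hord] at hdvd
    exact absurd (Nat.le_of_dvd (by omega) hdvd) (by omega)
  · intro k hk k' hk' h
    rw [Finset.mem_Ico] at hk hk'
    have h' : k • Q = k' • Q := congrArg Subtype.val h
    have hmod := (nsmul_eq_nsmul_iff_modEq).mp h'
    rw [hord] at hmod
    exact Nat.ModEq.eq_of_lt_of_lt hmod hk.2 hk'.2
  · intro R hR
    rw [Finset.mem_erase] at hR
    have hmem := (hfin.mem_multiples_iff_mem_zmultiples (y := (R : G))).mpr R.2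
    obtain ⟨n, hn⟩ := (AddSubmonoid.mem_multiples_iff _ _).mp hmem
    refine ⟨n % p, ?_, ?_⟩
    · rw [Finset.mem_Ico]
      refine ⟨?_, Nat.mod_lt _ hp⟩
      rcases Nat.eq_zero_or_pos (n % p) with h0 | h0
      · exfalso
        apply hR.1
        apply Subtype.ext
        have : (n % p) • Q = n • Q := by rw [← hord]; exact mod_addOrderOf_nsmul Q n
        rw [← hn, ← this, h0, zero_smul]
        rfl
      · exact h0
    · apply Subtype.ext
      show (n % p) • Q = (R : G)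
      rw [← hn, ← hord]
      exact mod_addOrderOf_nsmul Q n
  · intro k _
    rfl

/-- `Ξ` of a cyclic subgroup of order `p` as a product over `0 < k < p`. -/
theorem Xi_zmultiples {K : Type*} [Field K] [DecidableEq K] (W : Affine K) (Q : W.Point)
    (p : ℕ) (hord : addOrderOf Q = p) (hp : 0 < p) [Fintype (AddSubgroup.zmultiples Q)]
    (e : K) :
    Fermat.Agent.S12.H11.Xi W (AddSubgroup.zmultiples Q) e =
      ∏ k ∈ Finset.Ico 1 p, (xc W (k • Q) - e) := by
  unfold Fermat.Agent.S12.H11.Xi Fermat.Agent.S12.H11.nz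
  exact prod_nz_zmultiples Q p hord hp (fun R => xc W R - e)

theorem iotaC_jOfDiff (a b c : Qb) :
    iotaC (jOfDiff a b c) = jOfDiff (iotaC a) (iotaC b) (iotaC c) := by
  unfold jOfDiff
  simp only [map_div₀, map_mul, map_pow, map_add, map_ofNat]

/-- `c₆ ≠ 0` when `c₄` is odd. -/
theorem c₆_ne_zero (W : WeierstrassCurve ℤ) (h2c4 : ¬ (2 : ℤ) ∣ W.c₄) : W.c₆ ≠ 0 := by
  intro h
  have hrel := W.c_relation
  rw [h] at hrel
  apply h2c4
  have h2 : (2 : ℤ) ∣ W.c₄ ^ 3 := by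
    have : W.c₄ ^ 3 = 2 * (864 * W.Δ) := by linear_combination -hrel
    rw [this]
    exact dvd_mul_right _ _
  exact Int.prime_two.dvd_of_dvd_pow h2

/-- The roots of the short cubic from a `TwoTors` triple. -/
theorem short_roots (W : WeierstrassCurve ℤ) {ε1 ε2 ε3 : Qb}
    (H : Fermat.Agent.S12.H11.TwoTors (EBar W) ε1 ε2 ε3) (x : ℂ) :
    4 * x ^ 3 - ((W.c₄ : ℂ) / 12) * x - ((W.c₆ : ℂ) / 216) =
      4 * ((x - (iotaC ε1 + (W.b₂ : ℂ) / 12)) * (x - (iotaC ε2 + (W.b₂ : ℂ) / 12)) *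
        (x - (iotaC ε3 + (W.b₂ : ℂ) / 12))) := by
  have hb2 := H.hb2
  have hb4 := H.hb4
  have hb6 := H.hb6
  rw [Fermat.Agent.S15.An.H87.EBar_b₂] at hb2
  rw [Fermat.Agent.S15.An.H87.EBar_b₄] at hb4
  rw [Fermat.Agent.S15.An.H87.EBar_b₆] at hb6
  have hb2' : (W.b₂ : ℂ) = -4 * (iotaC ε1 + iotaC ε2 + iotaC ε3) := by
    have := congrArg iotaC hb2
    simpa only [map_intCast, map_mul, map_neg, map_add, map_ofNat] using this
  have hb4' : (W.b₄ : ℂ) = 2 * (iotaC ε1 * iotaC ε2 + iotaC ε1 * iotaC ε3 +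
      iotaC ε2 * iotaC ε3) := by
    have := congrArg iotaC hb4
    simpa only [map_intCast, map_mul, map_neg, map_add, map_ofNat] using this
  have hb6' : (W.b₆ : ℂ) = -4 * (iotaC ε1 * iotaC ε2 * iotaC ε3) := by
    have := congrArg iotaC hb6
    simpa only [map_intCast, map_mul, map_neg, map_add, map_ofNat] using this
  have hc4 : (W.c₄ : ℂ) = (W.b₂ : ℂ) ^ 2 - 24 * (W.b₄ : ℂ) := by
    simp only [WeierstrassCurve.c₄]; push_cast; ring
  have hc6 : (W.c₆ : ℂ) = -(W.b₂ : ℂ) ^ 3 + 36 * (W.b₂ : ℂ) * (W.b₄ : ℂ) - 216 * (W.b₆ : ℂ) := by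
    simp only [WeierstrassCurve.c₆]; push_cast; ring
  rw [hc4, hc6, hb4', hb6', hb2']
  ring

/-- (BR-AN). -/
theorem stmt_BRan : Stmt_BRan := by
  intro p hp hp2 W hΔ _ h2c4 Q hord β hβ
  have hc4 : W.c₄ ≠ 0 := by
    intro h; apply h2c4; rw [h]; exact dvd_zero _
  have hc6 := c₆_ne_zero W h2c4
  have hc4C : (W.c₄ : ℂ) ≠ 0 := by exact_mod_cast hc4
  have hc6C : (W.c₆ : ℂ) ≠ 0 := by exact_mod_cast hc6
  have hΔC : (W.Δ : ℂ) ≠ 0 := by exact_mod_cast hΔ
  have hrelC : (1728 : ℂ) * (W.Δ : ℂ) = (W.c₄ : ℂ) ^ 3 - (W.c₆ : ℂ) ^ 2 := by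
    have := W.c_relation
    exact_mod_cast this
  have hdisc : ((W.c₄ : ℂ) / 12) ^ 3 - 27 * ((W.c₆ : ℂ) / 216) ^ 2 = (W.Δ : ℂ) := by
    linear_combination (-1 / 1728 : ℂ) * hrelC
  obtain ⟨L, hg2, hg3⟩ := Fermat.Agent.S15.An.H11.stmt_unif ((W.c₄ : ℂ) / 12)
    ((W.c₆ : ℂ) / 216) (div_ne_zero hc4C (by norm_num)) (div_ne_zero hc6C (by norm_num))
    (by rw [hdisc]; exact hΔC)
  obtain ⟨z₀, hz₀, hpz₀, hlad⟩ :=
    Fermat.Agent.S15.An.H87.stmt_ladder p hp hp2 W hΔ Q hord L hg2 hg3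
  obtain ⟨L', τ₁, τ₂, hL', hτ, hj1, hj2⟩ :=
    Fermat.Agent.S15.An.H34.stmt_basis L p z₀ hp hz₀ hpz₀
  refine ⟨τ₁, τ₂, hτ, ?_, ?_⟩
  · rw [← hj1]
    obtain ⟨ε1, ε2, ε3, Hε⟩ := Fermat.Agent.S15.H63.exists_twoTors (EBar W)
      (two_ne_zero : (2 : Qb) ≠ 0)
    have hfin : IsOfFinAddOrder Q := by
      rw [← addOrderOf_pos_iff, hord]; exact hp.pos
    have hfinite : Finite (AddSubgroup.zmultiples Q) := hfin.finite_zmultiples
    let inst : Fintype (AddSubgroup.zmultiples Q) := Fintype.ofFinite _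
    have hcard : Fintype.card (AddSubgroup.zmultiples Q) = p := by
      rw [← Nat.card_eq_fintype_card, Nat.card_zmultiples, hord]
    have hβ' := hβ ε1 ε2 ε3 inst Hε
    have hroots : ∀ x : ℂ, 4 * x ^ 3 - L.g₂ * x - L.g₃ =
        4 * ((x - (iotaC ε1 + (W.b₂ : ℂ) / 12)) * (x - (iotaC ε2 + (W.b₂ : ℂ) / 12)) *
          (x - (iotaC ε3 + (W.b₂ : ℂ) / 12))) := by
      intro x
      rw [hg2, hg3]
      exact short_roots W Hε x
    have hl := Fermat.Agent.S15.An.H67.stmt_liouv L L' p z₀ hp hp2 hz₀ hpz₀ hL' _ _ _ hroots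
    rw [hl, hβ']
    unfold quotJ
    rw [iotaC_jOfDiff]
    -- the `Ξ`'s
    have hXi : ∀ ε : Qb, iotaC (Fermat.Agent.S12.H11.Xi (EBar W) (AddSubgroup.zmultiples Q) ε) =
        XiAn L p z₀ (iotaC ε + (W.b₂ : ℂ) / 12) := by
      intro ε
      rw [Xi_zmultiples (EBar W) Q p hord hp.pos ε, map_prod]
      unfold XiAn
      refine Finset.prod_congr rfl fun k hk => ?_
      rw [Finset.mem_Ico] at hk
      rw [(hlad k (by omega) hk.2).2, map_sub]
      ring
    have hqd : ∀ a b c : Qb, iotaC (quotDiff (EBar W) (AddSubgroup.zmultiples Q) a b c) =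
        cdiff L p z₀ (iotaC a + (W.b₂ : ℂ) / 12) (iotaC b + (W.b₂ : ℂ) / 12)
          (iotaC c + (W.b₂ : ℂ) / 12) := by
      intro a b c
      unfold quotDiff cdiff
      rw [map_div₀, map_mul, map_mul, map_pow, map_sub, hXi, hXi, hXi, hcard]
      congr 2
      ring
    rw [hqd, hqd, hqd]
  · rw [← hj2]
    unfold jL jRat
    rw [hg2, hg3, hdisc, map_ratCast]
    push_cast
    field_simp
    norm_num

end Fermat.Agent.S15.H67
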