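/-
S15, package BRIDGE, assembly (helper67): `Stmt_bridge'` from the sub-packages of
`BridgeDefs.lean`.
-/
import Fermat.Agent.S15.BridgeDefs
import Fermat.Agent.S12.H67_RatUnit
import Fermat.Agent.Lib.FrobExists

set_option autoImplicit false
set_option synthInstance.maxHeartbeats 400000

noncomputable section

open AlgebraicCurve ModularCurve
open WeierstrassCurve WeierstrassCurve.Affine

namespace Fermat.Agent.S15.H67

open Fermat.Agent.S15 Fermat.Agent.S13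

/-- At a prime of multiplicative reduction `|j(W)| > 1`. -/
theorem one_lt_val_jRat (W : WeierstrassCurve ℤ) (hΔ : W.Δ ≠ 0) {ℓ : ℕ} (hℓ : ℓ.Prime)
    (hℓΔ : (ℓ : ℤ) ∣ W.Δ) (hℓc : ¬ (ℓ : ℤ) ∣ W.c₄) (A : ValuationSubring Qb)
    (hA : A.LiesOverPrime ℓ) : 1 < A.valuation ((jRat W : ℚ) : Qb) := by
  have h1 : A.valuation ((W.c₄ : ℤ) : Qb) = 1 :=
    H63.val_intCast_eq_one_of_not_dvd hℓ hA hℓc
  have h2 : A.valuation ((W.Δ : ℤ) : Qb) < 1 :=
    Fermat.Agent.S12.H67.val_intCast_lt_one_of_dvd hA hℓΔ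
  have h3 : A.valuation ((W.Δ : ℤ) : Qb) ≠ 0 := by
    rw [Ne, map_eq_zero]
    exact_mod_cast hΔ
  have hj : ((jRat W : ℚ) : Qb) = ((W.c₄ : ℤ) : Qb) ^ 3 / ((W.Δ : ℤ) : Qb) := by
    simp [jRat]
  rw [hj, map_div₀, map_pow, h1, one_pow]
  rw [one_lt_div₀ (zero_lt_iff.mpr h3)]
  exact h2

section order

variable {Γ : Type*} [LinearOrderedCommGroupWithZero Γ]

/-- From the dichotomy and the coarse bounds to the exact relations. -/
theorem exact_of_dich {a b : Γ} {p : ℕ} (hp : 2 ≤ p) (ha : 1 < a)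
    (hd : b ^ p = a ∨ b = a ^ p) :
    (b < a ^ p → b ^ p = a) ∧ (a ≤ b → b = a ^ p) := by
  refine ⟨fun h => ?_, fun h => ?_⟩
  · rcases hd with hd | hd
    · exact hd
    · exact absurd hd (ne_of_lt h)
  · rcases hd with hd | hd
    · exfalso
      have hb : 1 < b := by
        by_contra hb
        rw [not_lt] at hb
        have : b ^ p ≤ 1 := pow_le_one₀ zero_le' hb
        rw [hd] at this
        exact absurd ha (not_lt.mpr this)
      have h1 : b < b ^ p := by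
        calc b = b ^ 1 := (pow_one b).symm
          _ < b ^ p := pow_lt_pow_right₀ hb (by omega)
      rw [hd] at h1
      exact absurd h (not_le.mpr h1)
    · exact hd

end order

/-- **BRIDGE (Fricke-dual form) from its inputs.** -/
theorem bridge'_of_inputs (hdef : Stmt_BRdef) (hval : Stmt_BRval) (han : Stmt_BRan)
    (hplace : Stmt_BRplace) (hdich : Stmt_BRnewton_dich) (huniq : Stmt_BRnewton_uniq)
    (hgal : Stmt_BRgal) (hB3 : Stmt_B3)
    (p : ℕ) [NeZero p] (hp : p.Prime) (hp2 : p ≠ 2) : Stmt_bridge' p := by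
  intro W hΔ Q hQfix hQord h2Δ h2c h2 Pinf P0 hc
  obtain ⟨β, hβ⟩ := hdef p hp hp2 W hΔ Q hQfix hQord
  obtain ⟨x, hx1, hxv⟩ := hplace p hp ((β : ℚ) : Qb) ((jRat W : ℚ) : Qb)
    (han p hp hp2 W hΔ h2Δ h2c Q hQord β hβ)
  have hp2' : 2 ≤ p := hp.two_le
  -- the exact relations at a prime of multiplicative reduction
  have hexact : ∀ ℓ : ℕ, ℓ.Prime → ℓ ≠ p → (ℓ : ℤ) ∣ W.Δ → ¬ (ℓ : ℤ) ∣ W.c₄ →
      ∀ A : ValuationSubring Qb, A.LiesOverPrime ℓ →
        1 < A.valuation ((jRat W : ℚ) : Qb) ∧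
        (¬ W.InZeroComponentAt A Q →
          A.valuation ((β : ℚ) : Qb) ^ p = A.valuation ((jRat W : ℚ) : Qb)) ∧
        (W.InZeroComponentAt A Q →
          A.valuation ((β : ℚ) : Qb) = A.valuation ((jRat W : ℚ) : Qb) ^ p) := by
    intro ℓ hℓ hℓp hℓΔ hℓc A hA
    have ha := one_lt_val_jRat W hΔ hℓ hℓΔ hℓc A hA
    have hd := hdich p hp x _ _ hxv A ha
    have hv := hval p hp hp2 W hΔ Q hQfix hQord β hβ ℓ hℓ hℓp hℓΔ hℓc A hA
    have he := exact_of_dich hp2' ha hd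
    exact ⟨ha, fun h => he.1 (hv.2 h), fun h => he.2 (hv.1 h)⟩
  refine ⟨x, hx1, ?_, ?_⟩
  · -- Galois-fixed
    intro σ
    obtain ⟨A, hA⟩ := Fermat.Agent.Lib.FrobExists.exists_liesOverPrime 2 Nat.prime_two
    obtain ⟨ha, hb, -⟩ := hexact 2 Nat.prime_two (fun h => hp2 h.symm)
      (by exact_mod_cast h2Δ) (by exact_mod_cast h2c) A hA
    have hσ := hgal p hp x _ _ σ hxv
    have e1 : σ ((β : ℚ) : Qb) = ((β : ℚ) : Qb) := by
      rw [← eq_ratCast (algebraMap ℚ Qb) β]; exact σ.commutes β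
    have e2 : σ ((jRat W : ℚ) : Qb) = ((jRat W : ℚ) : Qb) := by
      rw [← eq_ratCast (algebraMap ℚ Qb) (jRat W)]; exact σ.commutes _
    rw [e1, e2] at hσ
    exact huniq p hp _ _ _ _ hσ hxv A ha (hb (h2 A hA))
  · intro ℓ hℓ hℓp hℓΔ hℓc A hA h
    obtain ⟨ha, hb, hb'⟩ := hexact ℓ hℓ hℓp hℓΔ hℓc A hA
    have h3 := hB3 p hp Pinf P0 hc x _ _ hxv ℓ hℓ hℓp A hA h ha
    exact ⟨fun hz => h3.1 (hb hz), fun hz => h3.2 (hb' hz)⟩

end Fermat.Agent.S15.H67
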