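/-
S15 / BRIDGE (coordinator helper67): `Stmt_bridge' p` from (B3) alone.
All other packages are theorems: BR-DEF, BR-GAL, BR-NEWTON (helper63), MODEQ (helper23),
BR-VAL (helper11, helper66, helper87), BR-PLACE (helper30), BR-AN (helper67 with helper11,
helper34, helper45, helper87).
-/
import Fermat.Agent.S15.H67_BridgeAsm
import Fermat.Agent.S15.H67_BRan
import Fermat.Agent.S15.H63_BrGal
import Fermat.Agent.S15.H63_Newton
import Fermat.Agent.S15.H23_ModEq
import Fermat.Agent.S15.H11_BRValFinal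
import Fermat.Agent.S15.H30_BRPlace

set_option autoImplicit false

namespace Fermat.Agent.S15.H67

/-- (BRIDGE) from (B3). -/
theorem bridge'_of_B3 (hB3 : Stmt_B3) (p : ℕ) [NeZero p] (hp : p.Prime) (hp2 : p ≠ 2) :
    Stmt_bridge' p :=
  bridge'_of_inputs Fermat.Agent.S15.H63.stmt_BRdef Fermat.Agent.S15.H11.stmt_BRval stmt_BRan
    Fermat.Agent.S15.H30.stmt_BRplace
    (Fermat.Agent.S15.H63.brnewton_dich Fermat.Agent.S15.H23.stmt_modEq)
    (Fermat.Agent.S15.H63.brnewton_uniq Fermat.Agent.S15.H23.stmt_modEq)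
    Fermat.Agent.S15.H63.stmt_BRgal hB3 p hp hp2

end Fermat.Agent.S15.H67
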