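import Mathlib

/-!
# S15 (Mazur's key step): the abstract end of the argument

Pure algebra; `J` plays the role of `J₀(p)(ℚ̄)` (or of its Galois-fixed points), `T` of the Hecke
algebra generated by the good Hecke operators, `ε : T → ℤ` of the Eisenstein character,
`c` of the cuspidal class, `y` of the class of `(x) - (cusp)` for the modular point `x`,
`red₂, red₃, redℓ` of the reduction maps, and `inj*` of S18 (prime-to-`s` torsion injects).

* `eq_zero_of_torsion_of_red_two_three` : a torsion element killed by `red₂` and `red₃` is zero.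
* `core_contradiction_rankZero` : the end of the argument from the rank-zero descent input (D0):
  `m • t • y = 0` with `n ∤ ε t`.
* `core_contradiction_cyclic` : the end of the argument from the cyclicity descent input (D):
  `M = ℤ c + 𝔓 M` (helper97), using Nakayama on a finite image; needs only one prime `s ≠ r`.
-/

set_option autoImplicit false

namespace Fermat.Agent.S15.H69

/-- A torsion element in the kernels of two maps which are injective on prime-to-`2`, resp.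
prime-to-`3` torsion, is zero. -/
theorem eq_zero_of_torsion_of_red_two_three {J J₂ J₃ : Type*} [AddCommGroup J] [AddCommGroup J₂]
    [AddCommGroup J₃] (red₂ : J →+ J₂) (red₃ : J →+ J₃)
    (inj₂ : ∀ (m : ℕ) (z : J), ¬ 2 ∣ m → m • z = 0 → red₂ z = 0 → z = 0)
    (inj₃ : ∀ (m : ℕ) (z : J), ¬ 3 ∣ m → m • z = 0 → red₃ z = 0 → z = 0)
    (z : J) (m : ℕ) (hm : m ≠ 0) (hz : m • z = 0) (h2 : red₂ z = 0) (h3 : red₃ z = 0) : z = 0 := by
  obtain ⟨a, m', hm', rfl⟩ := Nat.exists_eq_two_pow_mul_odd hm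
  have h1 : (2 ^ a) • z = 0 := by
    refine inj₂ m' _ (fun h => ?_) ?_ ?_
    · exact (Nat.not_even_iff_odd.mpr hm') (even_iff_two_dvd.mpr h)
    · rw [← mul_smul, mul_comm]; exact hz
    · rw [map_nsmul, h2, smul_zero]
  refine inj₃ (2 ^ a) z (fun h => ?_) h1 h3
  have := (Nat.Prime.dvd_of_dvd_pow Nat.prime_three h)
  omega

/-- **End of S15 from the rank-zero input (D0).**
`t • y` is torsion (`m • t • y = 0`), `y` reduces to `0` at `2` and `3` and to the cuspidal class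
`c` at `ℓ`; `T` acts on `c` through `ε`, `c` has exact order `n`, `ℓ ∤ n`.  Then `n ∣ ε t`. -/
theorem dvd_eps_of_rankZero {T J J₂ J₃ Jℓ : Type*} [CommRing T] [AddCommGroup J] [Module T J]
    [AddCommGroup J₂] [Module T J₂] [AddCommGroup J₃] [Module T J₃] [AddCommGroup Jℓ] [Module T Jℓ]
    (red₂ : J →ₗ[T] J₂) (red₃ : J →ₗ[T] J₃) (redℓ : J →ₗ[T] Jℓ) (ℓ n : ℕ)
    (inj₂ : ∀ (m : ℕ) (z : J), ¬ 2 ∣ m → m • z = 0 → red₂ z = 0 → z = 0)
    (inj₃ : ∀ (m : ℕ) (z : J), ¬ 3 ∣ m → m • z = 0 → red₃ z = 0 → z = 0)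
    (injℓ : ∀ (m : ℕ) (z : J), ¬ ℓ ∣ m → m • z = 0 → redℓ z = 0 → z = 0)
    (hℓn : ¬ ℓ ∣ n)
    (ε : T →+* ℤ) (c y : J) (hc : ∀ t : T, t • c = ε t • c)
    (hn : n • c = 0) (hord : ∀ k : ℤ, k • c = 0 → (n : ℤ) ∣ k)
    (h2 : red₂ y = 0) (h3 : red₃ y = 0) (hyℓ : redℓ y = redℓ c)
    (t : T) (m : ℕ) (hm : m ≠ 0) (htm : m • t • y = 0) : (n : ℤ) ∣ ε t := by
  -- `t • y = 0`
  have hty : t • y = 0 :=
    eq_zero_of_torsion_of_red_two_three red₂.toAddMonoidHom red₃.toAddMonoidHom inj₂ inj₃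
      (t • y) m hm htm (by simp [h2]) (by simp [h3])
  -- reduce at `ℓ`
  have h1 : redℓ (ε t • c) = 0 := by
    rw [← hc t, map_smul, ← hyℓ, ← map_smul, hty, map_zero]
  -- `ε t • c` is killed by `n`, prime to `ℓ`
  have h2' : n • (ε t • c) = 0 := by
    rw [smul_comm, hn, smul_zero]
  exact hord _ (injℓ n _ hℓn h2' h1)

/-- **End of S15 from (D0)**, as a contradiction: no `t` with `n ∤ ε t` can make `t • y` torsion. -/
theorem core_contradiction_rankZero {T J J₂ J₃ Jℓ : Type*} [CommRing T] [AddCommGroup J]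
    [Module T J] [AddCommGroup J₂] [Module T J₂] [AddCommGroup J₃] [Module T J₃]
    [AddCommGroup Jℓ] [Module T Jℓ]
    (red₂ : J →ₗ[T] J₂) (red₃ : J →ₗ[T] J₃) (redℓ : J →ₗ[T] Jℓ) (ℓ n : ℕ)
    (inj₂ : ∀ (m : ℕ) (z : J), ¬ 2 ∣ m → m • z = 0 → red₂ z = 0 → z = 0)
    (inj₃ : ∀ (m : ℕ) (z : J), ¬ 3 ∣ m → m • z = 0 → red₃ z = 0 → z = 0)
    (injℓ : ∀ (m : ℕ) (z : J), ¬ ℓ ∣ m → m • z = 0 → redℓ z = 0 → z = 0)
    (hℓn : ¬ ℓ ∣ n)
    (ε : T →+* ℤ) (c y : J) (hc : ∀ t : T, t • c = ε t • c)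
    (hn : n • c = 0) (hord : ∀ k : ℤ, k • c = 0 → (n : ℤ) ∣ k)
    (h2 : red₂ y = 0) (h3 : red₃ y = 0) (hyℓ : redℓ y = redℓ c)
    (hD0 : ∃ (t : T) (m : ℕ), m ≠ 0 ∧ ¬ (n : ℤ) ∣ ε t ∧ m • t • y = 0) : False := by
  obtain ⟨t, m, hm, hnt, htm⟩ := hD0
  exact hnt (dvd_eps_of_rankZero red₂ red₃ redℓ ℓ n inj₂ inj₃ injℓ hℓn ε c y hc hn hord
    h2 h3 hyℓ t m hm htm)

/-- the Eisenstein prime `𝔓 = {t | r ∣ ε t}` attached to `ε : T → ℤ` and a prime `r`. -/
def eisPrime {T : Type*} [CommRing T] (ε : T →+* ℤ) (r : ℕ) : Ideal T :=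
  RingHom.ker ((Int.castRingHom (ZMod r)).comp ε)

theorem mem_eisPrime {T : Type*} [CommRing T] (ε : T →+* ℤ) (r : ℕ) (t : T) :
    t ∈ eisPrime ε r ↔ (r : ℤ) ∣ ε t := by
  rw [eisPrime, RingHom.mem_ker, RingHom.comp_apply, eq_intCast, ZMod.intCast_zmod_eq_zero_iff_dvd]

/-- **Nakayama step for the cyclicity input (D).**  If `M = ℤ c + 𝔓 M` and the image of
`red : M → X` is a finitely generated `T`-module, then for every `y` there are `t ≡ 1 mod 𝔓` and an
integer `m` with `t • red y = m • red c`. -/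
theorem exists_smul_red_eq_of_cyclic {T M X : Type*} [CommRing T] [AddCommGroup M] [Module T M]
    [AddCommGroup X] [Module T X] (red : M →ₗ[T] X) (ε : T →+* ℤ) (r : ℕ)
    (c : M) (hc : ∀ t : T, t • c = ε t • c)
    (hD : ∀ x : M, ∃ a : ℤ, x - a • c ∈ eisPrime ε r • (⊤ : Submodule T M))
    (hfg : (LinearMap.range red).FG) (y : M) :
    ∃ (t : T) (m : ℤ), (r : ℤ) ∣ ε t - 1 ∧ t • red y = m • red c := by
  set C₀ : Submodule T X := Submodule.span T {red c} with hC₀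
  set N' : Submodule T (X ⧸ C₀) := (LinearMap.range red).map C₀.mkQ with hN'
  have hN'fg : N'.FG := hfg.map _
  have hle : N' ≤ eisPrime ε r • N' := by
    rintro _ ⟨_, ⟨x, rfl⟩, rfl⟩
    obtain ⟨a, ha⟩ := hD x
    have h1 : C₀.mkQ (red x) = C₀.mkQ (red (x - a • c)) := by
      rw [map_sub, map_sub, sub_eq_self.mpr]
      rw [map_zsmul, map_zsmul]
      have : C₀.mkQ (red c) = 0 := by
        rw [Submodule.mkQ_apply, Submodule.Quotient.mk_eq_zero]
        exact Submodule.subset_span rfl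
      rw [this, smul_zero]
    rw [h1]
    have h2 : eisPrime ε r • (⊤ : Submodule T M) ≤
        (eisPrime ε r • N').comap (C₀.mkQ.comp red) := by
      rw [Submodule.smul_le]
      intro t ht x _
      rw [Submodule.mem_comap, map_smul]
      exact Submodule.smul_mem_smul ht ⟨red x, ⟨x, rfl⟩, rfl⟩
    exact h2 ha
  obtain ⟨t, ht1, ht⟩ :=
    Submodule.exists_sub_one_mem_and_smul_eq_zero_of_fg_of_le_smul (eisPrime ε r) N' hN'fg hle
  have h3 : t • C₀.mkQ (red y) = 0 := ht _ ⟨red y, ⟨y, rfl⟩, rfl⟩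
  rw [← map_smul, Submodule.mkQ_apply, Submodule.Quotient.mk_eq_zero, hC₀,
    Submodule.mem_span_singleton] at h3
  obtain ⟨u, hu⟩ := h3
  refine ⟨t, ε u, ?_, ?_⟩
  · have := (mem_eisPrime ε r (t - 1)).mp ht1
    rwa [map_sub, map_one] at this
  · rw [← hu, ← map_smul, hc u, map_zsmul]

/-- **End of S15 from the cyclicity input (D)** (helper97's form): `M = ℤ c + 𝔓 M`, the image of
`(red_s, red_ℓ)` is a finitely generated `T`-module, `red_s` is injective on `r`-torsion,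
`red_ℓ` on `n`-torsion, `c` has exact order `n`, `r ∣ n` is prime, `y ↦ 0` at `s` and `y ↦ c` at
`ℓ`.  Contradiction. -/
theorem core_contradiction_cyclic {T M Xs Xℓ : Type*} [CommRing T] [AddCommGroup M] [Module T M]
    [AddCommGroup Xs] [Module T Xs] [AddCommGroup Xℓ] [Module T Xℓ]
    (reds : M →ₗ[T] Xs) (redℓ : M →ₗ[T] Xℓ) (ε : T →+* ℤ) (r n : ℕ) (hr : r.Prime) (hrn : r ∣ n)
    (hn0 : n ≠ 0) (c y : M) (hc : ∀ t : T, t • c = ε t • c)
    (hn : n • c = 0) (hord : ∀ k : ℤ, k • c = 0 → (n : ℤ) ∣ k)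
    (injs : ∀ z : M, r • z = 0 → reds z = 0 → z = 0)
    (injℓ : ∀ z : M, n • z = 0 → redℓ z = 0 → z = 0)
    (hD : ∀ x : M, ∃ a : ℤ, x - a • c ∈ eisPrime ε r • (⊤ : Submodule T M))
    (hfg : (LinearMap.range (reds.prod redℓ)).FG)
    (hys : reds y = 0) (hyℓ : redℓ y = redℓ c) : False := by
  obtain ⟨t, m, ht, hred⟩ := exists_smul_red_eq_of_cyclic (reds.prod redℓ) ε r c hc hD hfg y
  have hs : t • reds y = m • reds c := congrArg Prod.fst hred
  have hl : t • redℓ y = m • redℓ c := congrArg Prod.snd hred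
  obtain ⟨n', rfl⟩ := hrn
  have hn'0 : n' ≠ 0 := by rintro rfl; exact hn0 (mul_zero r)
  -- `r ∣ m`
  have hrm : (r : ℤ) ∣ m := by
    have h1 : reds (m • (n' • c)) = 0 := by
      rw [smul_comm, map_nsmul, map_zsmul, ← hs, hys, smul_zero, smul_zero]
    have h2 : r • (m • (n' • c)) = 0 := by
      rw [smul_comm, ← mul_smul, hn, smul_zero]
    have h3 := injs _ h2 h1
    have h4 : (m * (n' : ℤ)) • c = 0 := by
      rw [mul_smul, natCast_zsmul]; exact h3
    have h5 := hord _ h4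
    rw [Nat.cast_mul] at h5
    exact (mul_dvd_mul_iff_right (by exact_mod_cast hn'0)).mp h5
  -- `n ∣ ε t - m`
  have hεm : ((r * n' : ℕ) : ℤ) ∣ ε t - m := by
    apply hord
    apply injℓ
    · rw [smul_comm, hn, smul_zero]
    · have e1 : redℓ ((ε t - m) • c) = ε t • redℓ c - m • redℓ c := by
        rw [sub_smul, map_sub, map_zsmul, map_zsmul]
      have e2 : ε t • redℓ c = t • redℓ c := by
        rw [← map_zsmul, ← hc t, map_smul]
      rw [e1, e2, ← hl, hyℓ, sub_self]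
  have h6 : (r : ℤ) ∣ ε t - m := Dvd.dvd.trans (by rw [Nat.cast_mul]; exact dvd_mul_right _ _) hεm
  have h7 : (r : ℤ) ∣ 1 := by
    have := dvd_sub (dvd_add h6 hrm) ht
    simpa using this
  have := Int.natCast_dvd_natCast.mp (by simpa using h7 : ((r : ℕ) : ℤ) ∣ ((1 : ℕ) : ℤ))
  exact hr.one_lt.ne' (Nat.dvd_one.mp this)

end Fermat.Agent.S15.H69
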