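import Fermat.Agent.S15.H67_BridgeFinal
import Fermat.Agent.S15.B3.H83_Main

/-!
# S15, package BRIDGE: the unconditional statement

`stmt_bridge' p : Stmt_bridge' p` for every odd prime `p`
(helper67's assembly `bridge'_of_B3` + helper83's `stmt_B3`).
-/

set_option autoImplicit false

namespace Fermat.Agent.S15.H83

/-- **BRIDGE** (Fricke-dual form), unconditional. -/
theorem stmt_bridge' (p : ℕ) [NeZero p] (hp : p.Prime) (hp2 : p ≠ 2) : Stmt_bridge' p :=
  Fermat.Agent.S15.H67.bridge'_of_B3 Fermat.Agent.S15.B3.stmt_B3 p hp hp2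

end Fermat.Agent.S15.H83
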