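import Fermat.Agent.S15.H40_CoreSel
import Fermat.Agent.S15.H83_Bridge
import Fermat.Agent.S15.H17_RI
import Fermat.Agent.S15.H22_CuspEx
import Fermat.Agent.S15.H30_CuspTors
import Fermat.Agent.S15.H2_GH
import Fermat.Agent.S15.H26_CuspEisFinal
import Fermat.Agent.S15.FG.H11_Bridge
import Fermat.Agent.RED.H51_HRFinal
import Fermat.Agent.S18

/-!
# S15: assembly of everything that is proved (helper83, wiring owner)

`result_of_open` : the frozen statement S15 from the leaves that are still open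
(`OpenLeaves p` = HR, SELB), all other inputs being theorems:
S18 (`Fermat.Agent.S18.result`), RI (helper17 + G-RED `stmt_RM`), CUSP-ex (helper22),
CUSP-gal / CUSP-tors (helper30), CUSP-eis (helper26 + helper2), GH (helper2),
BRIDGE (helper67 et al. + B3), FG (helper11).
-/

set_option autoImplicit false
set_option synthInstance.maxHeartbeats 400000

open WeierstrassCurve WeierstrassCurve.Affine
open WeierstrassCurve

namespace Fermat.Agent.S15

/-- The leaves of S15 which are still open. -/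
structure OpenLeaves (p : ℕ) [NeZero p] : Prop where
  HR : Stmt_HR p
  selB : Stmt_selB p

namespace H83

theorem stmt_S18 : Stmt_S18 := @Fermat.Agent.S18.result

theorem inputsSel_of_open (p : ℕ) [NeZero p] (hp : p.Prime)
    (hp' : p ∉ ({2, 3, 5, 7, 13} : Finset ℕ)) (h : OpenLeaves p) : InputsSel p where
  redInputs := Fermat.Agent.S15.H17.stmt_redInputs_of Fermat.Agent.RED.H51.stmt_RM hp
  redFG := Fermat.Agent.S15.FG.H11.stmt_redFG hp
  cuspExists := Fermat.Agent.S15.H22.stmt_cuspExists p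
  cuspGal := Fermat.Agent.S15.H30.stmt_cuspGal p hp
  cuspTors := Fermat.Agent.S15.H30.stmt_cuspTors p hp
  eis := Fermat.Agent.S15.H40.stmt_eisDataSel_of_leaves p (Fermat.Agent.S15.H2.stmt_GH p) h.HR
    (Fermat.Agent.S15.H26.stmt_cuspEis p hp) h.selB
  bridge := stmt_bridge' p hp (fun e => hp' (by simp [e]))

/-- **S15 from the open leaves** (the statement below `hI` is the frozen statement, verbatim). -/
theorem result_of_open
    (hI : ∀ (p : ℕ) [NeZero p], p.Prime → p ∉ ({2, 3, 5, 7, 13} : Finset ℕ) → OpenLeaves p)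
    {p : ℕ} (hp : p.Prime) (hp' : p ∉ ({2, 3, 5, 7, 13} : Finset ℕ))
    (W : WeierstrassCurve ℤ) (hΔ : W.Δ ≠ 0)
    (Q : ((W.map (Int.castRingHom ℚ))⁄(AlgebraicClosure ℚ)).Point)
    (hQfix : ∀ σ : AlgebraicClosure ℚ ≃ₐ[ℚ] AlgebraicClosure ℚ, σ • Q = Q)
    (hQord : addOrderOf Q = p)
    (h2Δ : (2 : ℤ) ∣ W.Δ) (h2c₄ : ¬ (2 : ℤ) ∣ W.c₄)
    (h2 : ∀ A : ValuationSubring (AlgebraicClosure ℚ), A.LiesOverPrime 2 → ¬ W.InZeroComponentAt A Q)
    (h3Δ : (3 : ℤ) ∣ W.Δ) (h3c₄ : ¬ (3 : ℤ) ∣ W.c₄)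
    (h3 : ∀ A : ValuationSubring (AlgebraicClosure ℚ), A.LiesOverPrime 3 → ¬ W.InZeroComponentAt A Q)
    {ℓ : ℕ} (hℓ : ℓ.Prime) (hℓp : ℓ ≠ p) (hℓΔ : (ℓ : ℤ) ∣ W.Δ) (hℓc₄ : ¬ (ℓ : ℤ) ∣ W.c₄)
    (A : ValuationSubring (AlgebraicClosure ℚ)) (hA : A.LiesOverPrime ℓ) :
    ¬ W.InZeroComponentAt A Q :=
  Fermat.Agent.S15.H40.result_of_inputsSel stmt_S18
    (fun p _ hp hp' => inputsSel_of_open p hp hp' (hI p hp hp'))
    hp hp' W hΔ Q hQfix hQord h2Δ h2c₄ h2 h3Δ h3c₄ h3 hℓ hℓp hℓΔ hℓc₄ A hA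

end H83

end Fermat.Agent.S15
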