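/-
S15, package ELEM (helper83): a rational point of prime order `p` which lies in the identity
component at a prime `ℓ ≠ p` of multiplicative reduction forces `p ≤ ℓ + 1`.

Proof (`Lib/RedE0`): the `p - 1` nonzero multiples of `Q` are rational points of `E⁰ ∖ E¹`
(`E¹` has no `p`-torsion), they reduce to pairwise distinct nonsingular `𝔽_ℓ`-points of the nodal
cubic `Ẽ`, and `Ẽ` has at most `ℓ` nonsingular affine `𝔽_ℓ`-points (slopes through the node).

* `mem_E0_of_inZeroComponentAt` : the prelude's `InZeroComponentAt` gives membership in `E0`;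
* `stmt_elemLe : Stmt_elemLe`;
* `not_dvd_pred_of_inZero` : `ℓ ∤ p - 1` (the form used by the wiring).
-/
import Fermat.Agent.S15.Defs
import Fermat.Agent.Lib.RedE0.Torsion
import Fermat.Agent.Lib.EllFinite.H46_RedTorsStmt
import Fermat.Agent.S13.H12_FixedRat
import Fermat.Agent.S05.H15_Val

set_option autoImplicit false

namespace Fermat.Agent.S15

open WeierstrassCurve WeierstrassCurve.Affine IsLocalRing
open Fermat.Agent.Lib.RedE0
open Fermat.Agent.Lib.EllFinite Fermat.Agent.Lib.EllFinite.H4 Fermat.Agent.Lib.EllFinite.H46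

/-- (ELEM, weak form) a rational point of prime order `p` in the identity component at a prime
`ℓ ≠ p` of multiplicative reduction forces `p ≤ ℓ + 1`. -/
def Stmt_elemLe : Prop :=
  ∀ (p : ℕ), p.Prime → ∀ (W : WeierstrassCurve ℤ), W.Δ ≠ 0 →
  ∀ Q : ((W.map (Int.castRingHom ℚ))⁄(AlgebraicClosure ℚ)).Point,
    (∀ σ : GalQ, σ • Q = Q) → addOrderOf Q = p →
    ∀ ℓ : ℕ, ℓ.Prime → ℓ ≠ p → (ℓ : ℤ) ∣ W.Δ → ¬ (ℓ : ℤ) ∣ W.c₄ →
      ∀ (A : ValuationSubring (AlgebraicClosure ℚ)), A.LiesOverPrime ℓ →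
        W.InZeroComponentAt A Q → p ≤ ℓ + 1

namespace H83

section Bridge

variable (W : WeierstrassCurve ℤ) (A : ValuationSubring (AlgebraicClosure ℚ))

/-- The special fibre of the model over `A` is the prelude's reduced curve. -/
lemma Ek_WA_eq_map :
    Ek A (WA W A) = (W.map (Int.castRingHom (ResidueField A))).toAffine := by
  show (W.map (Int.castRingHom A)).map (residue A) = W.map (Int.castRingHom (ResidueField A))
  rw [WeierstrassCurve.map_map]
  exact congrArg W.map (RingHom.ext_int _ _)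

/-- Transport of the prelude's points to the model over `A`. -/
noncomputable def toEF :
    ((W.map (Int.castRingHom ℚ))⁄(AlgebraicClosure ℚ)).Point ≃+ (EF A (WA W A)).Point :=
  pointCongr (EF_WA_eq W A).symm

lemma toEF_zero : toEF W A 0 = 0 := map_zero _

lemma toEF_some {x y : AlgebraicClosure ℚ}
    (h : ((W.map (Int.castRingHom ℚ))⁄(AlgebraicClosure ℚ)).Nonsingular x y) :
    toEF W A (.some x y h) = .some x y ((EF_WA_eq W A).symm ▸ h) :=
  pointCongr_some _ _

lemma toEF_eq_some {P : ((W.map (Int.castRingHom ℚ))⁄(AlgebraicClosure ℚ)).Point}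
    {x y : AlgebraicClosure ℚ} (h : (EF A (WA W A)).Nonsingular x y)
    (e : toEF W A P = .some x y h) :
    P = .some x y ((EF_WA_eq W A) ▸ h) := by
  apply (toEF W A).injective
  rw [e, toEF_some]

variable [DecidableEq (ResidueField A)]

variable {W A} in
/-- The prelude's `InZeroComponentAt` gives membership in `E0`. -/
theorem mem_E0_of_inZeroComponentAt
    {Q : ((W.map (Int.castRingHom ℚ))⁄(AlgebraicClosure ℚ)).Point}
    (h : W.InZeroComponentAt A Q) :
    toEF W A Q ∈ E0 A (WA W A) := by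
  rcases h with h0 | ⟨x, y, hns, hQ, hx | ⟨hx, hy, hk⟩⟩
  · have e : toEF W A Q = 0 := by rw [h0]; exact toEF_zero W A
    rw [e]; exact (E0 A (WA W A)).zero_mem
  · have e : toEF W A Q = .some x y ((EF_WA_eq W A).symm ▸ hns) := by
      rw [hQ]; exact toEF_some W A hns
    rw [e]
    apply E1_le_E0
    rw [mem_E1_iff, inE1_some_iff]
    rw [← A.valuation_le_one_iff, not_le] at hx
    exact hx
  · have e : toEF W A Q = .some x y ((EF_WA_eq W A).symm ▸ hns) := by
      rw [hQ]; exact toEF_some W A hns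
    rw [e]
    have hk' : (Ek A (WA W A)).Nonsingular (residue A ⟨x, hx⟩) (residue A ⟨y, hy⟩) := by
      rw [Ek_WA_eq_map]; exact hk
    exact ⟨_, Or.inr (intRedTo_some (a := ⟨x, hx⟩) (b := ⟨y, hy⟩)
      ((EF_WA_eq W A).symm ▸ hns) hk')⟩

end Bridge

section Rat

variable {A : ValuationSubring (AlgebraicClosure ℚ)}

/-- The residue of a rational number which is integral at `A` lies in the prime field. -/
theorem residue_rat_mem_range {ℓ : ℕ} [Fact ℓ.Prime] (hA : A.LiesOverPrime ℓ)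
    (f : ZMod ℓ →+* ResidueField A) (a : A) (r : ℚ)
    (har : (a : AlgebraicClosure ℚ) = algebraMap ℚ (AlgebraicClosure ℚ) r) :
    residue A a ∈ f.range := by
  have hℓ : ℓ.Prime := Fact.out
  have hq : ((ℓ : ℕ) : AlgebraicClosure ℚ) ∈ A.nonunits := hA
  -- `a * den = num` in `A`
  have h1 : (a : AlgebraicClosure ℚ) * ((r.den : ℤ) : AlgebraicClosure ℚ)
      = ((r.num : ℤ) : AlgebraicClosure ℚ) := by
    rw [har]
    have : (r : ℚ) * (r.den : ℚ) = (r.num : ℚ) := Rat.mul_den_eq_num r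
    have h2 := congrArg (algebraMap ℚ (AlgebraicClosure ℚ)) this
    rw [map_mul] at h2
    simpa using h2
  -- `ℓ ∤ den`
  have hden : ¬ (ℓ : ℤ) ∣ (r.den : ℤ) := by
    intro hd
    have hv : A.valuation ((r.num : ℤ) : AlgebraicClosure ℚ) < 1 := by
      rw [← h1, map_mul]
      calc A.valuation (a : AlgebraicClosure ℚ) * A.valuation ((r.den : ℤ) : AlgebraicClosure ℚ)
          ≤ 1 * A.valuation ((r.den : ℤ) : AlgebraicClosure ℚ) := by
            gcongr; exact A.valuation_le_one a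
        _ = A.valuation ((r.den : ℤ) : AlgebraicClosure ℚ) := one_mul _
        _ < 1 := Fermat.Agent.S05.H15.valuation_intCast_lt_one_of_dvd hq hd
    have hn : (ℓ : ℤ) ∣ r.num := (Fermat.Agent.S05.H15.valuation_intCast_lt_one_iff hℓ hq).1 hv
    have hcop : Nat.Coprime r.num.natAbs r.den := r.reduced
    have h3 : ℓ ∣ r.num.natAbs := Int.natCast_dvd.1 hn
    have h4 : ℓ ∣ r.den := Int.natCast_dvd_natCast.1 hd
    have := Nat.dvd_gcd h3 h4
    rw [hcop.gcd_eq_one] at this
    exact hℓ.one_lt.ne' (Nat.dvd_one.1 this)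
  have hden' : ((r.den : ℤ) : ZMod ℓ) ≠ 0 := by
    rw [Ne, ZMod.intCast_zmod_eq_zero_iff_dvd]
    exact hden
  have hfden : f ((r.den : ℤ) : ZMod ℓ) ≠ 0 := (map_ne_zero f).2 hden'
  -- the identity in the residue field
  have h5 : residue A a * f ((r.den : ℤ) : ZMod ℓ) = f ((r.num : ℤ) : ZMod ℓ) := by
    have h6 : a * ((r.den : ℤ) : A) = ((r.num : ℤ) : A) := by
      apply Subtype.ext
      push_cast
      exact_mod_cast h1
    have h7 := congrArg (residue A) h6
    rw [map_mul, map_intCast, map_intCast] at h7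
    rw [map_intCast, map_intCast]
    exact h7
  refine ⟨((r.num : ℤ) : ZMod ℓ) / ((r.den : ℤ) : ZMod ℓ), ?_⟩
  rw [map_div₀, div_eq_iff hfden, h5]

end Rat

/-- **ELEM (weak form)**. -/
theorem stmt_elemLe : Stmt_elemLe := by
  classical
  intro p hp W _ Q hfix hord ℓ hℓ hℓp hℓΔ hℓc A hA hin
  have : Fact ℓ.Prime := ⟨hℓ⟩
  have hchar : CharP (ResidueField A) ℓ := charP_residueField A hℓ hA
  have hpk : (p : ResidueField A) ≠ 0 := natCast_residue_ne_zero hℓ hp (Ne.symm hℓp) hA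
  let f : ZMod ℓ →+* ResidueField A := ZMod.castHom (dvd_refl ℓ) (ResidueField A)
  set Q' : (EF A (WA W A)).Point := toEF W A Q with hQ'
  have hQ'ord : addOrderOf Q' = p := by
    rw [hQ', ← hord]
    exact (toEF W A).addOrderOf_eq Q
  have hQ'0 : Q' ∈ E0 A (WA W A) := mem_E0_of_inZeroComponentAt hin
  have hW₀ : (W.map (Int.castRingHom (ZMod ℓ))).map f = (WA W A).map (residue A) := by
    show (W.map (Int.castRingHom (ZMod ℓ))).map f = (W.map (Int.castRingHom A)).map (residue A)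
    rw [WeierstrassCurve.map_map, WeierstrassCurve.map_map]
    congr 1
    exact RingHom.ext_int _ _
  have hΔ₀ : (W.map (Int.castRingHom (ZMod ℓ))).Δ = 0 := by
    rw [WeierstrassCurve.map_Δ]
    show ((W.Δ : ℤ) : ZMod ℓ) = 0
    rw [ZMod.intCast_zmod_eq_zero_iff_dvd]
    exact hℓΔ
  have hc₀ : (W.map (Int.castRingHom (ZMod ℓ))).c₄ ≠ 0 := by
    rw [WeierstrassCurve.map_c₄]
    show ((W.c₄ : ℤ) : ZMod ℓ) ≠ 0
    rw [Ne, ZMod.intCast_zmod_eq_zero_iff_dvd]
    exact hℓc
  have hrat : ∀ (k : ℕ) (a b : A)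
      (h : (EF A (WA W A)).Nonsingular (a : AlgebraicClosure ℚ) (b : AlgebraicClosure ℚ)),
      k • Q' = .some _ _ h → residue A a ∈ f.range ∧ residue A b ∈ f.range := by
    intro k a b h hk
    -- back to the prelude's curve
    have hk'' : k • Q = .some (a : AlgebraicClosure ℚ) (b : AlgebraicClosure ℚ)
        ((EF_WA_eq W A) ▸ h) := by
      apply toEF_eq_some W A h
      rw [map_nsmul]
      exact hk
    have hfixk : ∀ σ : GalQ, σ • (k • Q) = k • Q := by
      intro σ
      have := Point.algEquiv_smul_zsmul (W' := (W.map (Int.castRingHom ℚ)).toAffine) σ (k : ℤ) Q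
      rw [natCast_zsmul, natCast_zsmul, hfix σ] at this
      exact this
    have hab : ∀ σ : GalQ, σ (a : AlgebraicClosure ℚ) = a ∧ σ (b : AlgebraicClosure ℚ) = b := by
      intro σ
      have h1 := hfixk σ
      rw [hk'', Point.algEquiv_smul_def, Point.map_some] at h1
      simp only [Point.some.injEq] at h1
      exact h1
    obtain ⟨ra, hra⟩ := Fermat.Agent.S13.H12.exists_rat_of_fixed (a : AlgebraicClosure ℚ)
      (fun σ => (hab σ).1)
    obtain ⟨rb, hrb⟩ := Fermat.Agent.S13.H12.exists_rat_of_fixed (b : AlgebraicClosure ℚ)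
      (fun σ => (hab σ).2)
    exact ⟨residue_rat_mem_range hA f a ra hra.symm, residue_rat_mem_range hA f b rb hrb.symm⟩
  have := order_le_card_add_one f (W.map (Int.castRingHom (ZMod ℓ))) hW₀ hΔ₀ hc₀ hpk hQ'ord hQ'0
    hrat
  rwa [Nat.card_zmod] at this

/-- The form used by the wiring: `ℓ ∤ p - 1`. -/
theorem not_dvd_pred_of_inZero {p : ℕ} (hp : p.Prime) (hp3 : p ≠ 3) (W : WeierstrassCurve ℤ)
    (hΔ : W.Δ ≠ 0) (Q : ((W.map (Int.castRingHom ℚ))⁄(AlgebraicClosure ℚ)).Point)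
    (hfix : ∀ σ : GalQ, σ • Q = Q) (hord : addOrderOf Q = p)
    {ℓ : ℕ} (hℓ : ℓ.Prime) (hℓp : ℓ ≠ p) (hℓΔ : (ℓ : ℤ) ∣ W.Δ) (hℓc : ¬ (ℓ : ℤ) ∣ W.c₄)
    (A : ValuationSubring (AlgebraicClosure ℚ)) (hA : A.LiesOverPrime ℓ)
    (hin : W.InZeroComponentAt A Q) : ¬ ℓ ∣ p - 1 := by
  intro hd
  have hle := stmt_elemLe p hp W hΔ Q hfix hord ℓ hℓ hℓp hℓΔ hℓc A hA hin
  have hp1 : 0 < p - 1 := by
    have := hp.two_le
    omega
  have hle' : ℓ ≤ p - 1 := Nat.le_of_dvd hp1 hd
  have hpl : p = ℓ + 1 := by omega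
  -- `p` and `ℓ = p - 1` both prime: `p = 3`
  rcases Nat.even_or_odd ℓ with he | ho
  · have : ℓ = 2 := (Nat.Prime.even_iff hℓ).mp he
    omega
  · have h2 : 2 ∣ p := by
      rw [hpl]
      exact (Nat.even_add_one.mpr (Nat.not_even_iff_odd.mpr ho)).two_dvd
    have := (Nat.prime_dvd_prime_iff_eq Nat.prime_two hp).1 h2
    have := hℓ.two_le
    omega

end H83

end Fermat.Agent.S15
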