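import Fermat.Agent.S15.H83_Assemble
import Fermat.Agent.S15.Desc.H69_SelBFinal
import Fermat.Agent.RED.H51_HRFinal

/-!
# S15: the statement from the core of (HR) alone  (helper83, row owner)

Everything of S15 is proved except `RED.H51.Stmt_HRcore` (the kernel of the reduction map on
divisors is stable under the Hecke correspondences `T_s`):

* (selB) = package DESC : `Desc.H69F.stmt_selB_uncond` (helper69 and the DESC team);
* (HR) : `RED.H51.stmt_HR_of_core` (helper51) from `Stmt_HRcore`.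

`result_of_core : RED.H51.Stmt_HRcore → <frozen S15>`.
-/

set_option autoImplicit false
open WeierstrassCurve WeierstrassCurve.Affine
open WeierstrassCurve

namespace Fermat.Agent.S15.H83

/-- The two open leaves of `H83_Assemble`, from the core of (HR). -/
theorem openLeaves_of_core (hcore : Fermat.Agent.RED.H51.Stmt_HRcore) (p : ℕ) [NeZero p]
    (hp : p.Prime) (hp' : p ∉ ({2, 3, 5, 7, 13} : Finset ℕ)) : OpenLeaves p where
  HR := Fermat.Agent.RED.H51.stmt_HR_of_core hcore p hp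
  selB := Fermat.Agent.S15.Desc.H69F.stmt_selB_uncond p hp hp'

/-- **S15 from the core of (HR)** (the statement below `hcore` is the frozen statement). -/
theorem result_of_core (hcore : Fermat.Agent.RED.H51.Stmt_HRcore)
    {p : ℕ} (hp : p.Prime) (hp' : p ∉ ({2, 3, 5, 7, 13} : Finset ℕ))
    (W : WeierstrassCurve ℤ) (hΔ : W.Δ ≠ 0)
    (Q : ((W.map (Int.castRingHom ℚ))⁄(AlgebraicClosure ℚ)).Point)
    (hQfix : ∀ σ : AlgebraicClosure ℚ ≃ₐ[ℚ] AlgebraicClosure ℚ, σ • Q = Q)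
    (hQord : addOrderOf Q = p)
    (h2Δ : (2 : ℤ) ∣ W.Δ) (h2c₄ : ¬ (2 : ℤ) ∣ W.c₄)
    (h2 : ∀ A : ValuationSubring (AlgebraicClosure ℚ), A.LiesOverPrime 2 → ¬ W.InZeroComponentAt A Q)
    (h3Δ : (3 : ℤ) ∣ W.Δ) (h3c₄ : ¬ (3 : ℤ) ∣ W.c₄)
    (h3 : ∀ A : ValuationSubring (AlgebraicClosure ℚ), A.LiesOverPrime 3 → ¬ W.InZeroComponentAt A Q)
    {ℓ : ℕ} (hℓ : ℓ.Prime) (hℓp : ℓ ≠ p) (hℓΔ : (ℓ : ℤ) ∣ W.Δ) (hℓc₄ : ¬ (ℓ : ℤ) ∣ W.c₄)
    (A : ValuationSubring (AlgebraicClosure ℚ)) (hA : A.LiesOverPrime ℓ) :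
    ¬ W.InZeroComponentAt A Q :=
  result_of_open (fun p _ hp hp' => openLeaves_of_core hcore p hp hp')
    hp hp' W hΔ Q hQfix hQord h2Δ h2c₄ h2 h3Δ h3c₄ h3 hℓ hℓp hℓΔ hℓc₄ A hA

end Fermat.Agent.S15.H83
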