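import Fermat.Agent.S15.Defs
import Fermat.Agent.S15.Algebra
import Fermat.Agent.Lib.FrobExists

/-!
# S15 (Mazur's key step): wiring  (helper83; plan `NOTES/plan/S15.md`)

Sorry-free proofs of

* `core` : the CORE statement on rational places of `X₀(p)` (no rational place reduces to the
  cusp `P0` at `2` and at `3` and to the cusp `P∞` at a prime `ℓ ≠ p`, `ℓ ∤ p - 1`), from the
  leaves `Stmt_S18`, `Stmt_GH`, `Stmt_HR`, `Stmt_redFG`, `Stmt_cusp*`, `Stmt_descent`;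
* `result_of_inputs` : the frozen statement S15 from `core`'s leaves, `Stmt_redInputs`,
  `Stmt_cuspExists`, `Stmt_bridge` and `Stmt_elem`;
* `stmt_redFG_of_S17` : `Stmt_redFG` follows from Mordell–Weil (frozen S17), if one prefers.
-/

set_option autoImplicit false
set_option synthInstance.maxHeartbeats 400000

noncomputable section

open HahnSeries IntermediateField AlgebraicCurve ModularCurve
open WeierstrassCurve WeierstrassCurve.Affine

namespace Fermat.Agent.S15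

/-! ## Classes of differences of places -/

section PtClass

variable {K F : Type*} [Field K] [Field F] [Algebra K F]

theorem ptClass_self (P : Place K F) (hP : P.deg = 1) : ptClass P P hP hP = 0 := by
  have h : (⟨Finsupp.single P 1 - Finsupp.single P 1, by
      rw [Divisor.mem_degZero, map_sub, sub_self]⟩ : Divisor.degZero (K := K) (F := F)) = 0 :=
    Subtype.ext (sub_self _)
  rw [ptClass, h]
  rfl

theorem ptClass_congr {P P' Q Q' : Place K F} (hPP : P = P') (hQQ : Q = Q')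
    (hP : P.deg = 1) (hQ : Q.deg = 1) (hP' : P'.deg = 1) (hQ' : Q'.deg = 1) :
    ptClass P Q hP hQ = ptClass P' Q' hP' hQ' := by
  subst hPP
  subst hQQ
  rfl

end PtClass

theorem red_ptClass {N : ℕ} {A : ValuationSubring (AlgebraicClosure ℚ)}
    (h : ReductionInputsModL A N) (P Q : PlaceBar N) (hP : P.deg = 1) (hQ : Q.deg = 1) :
    reductionModL A N (ptClass P Q hP hQ) =
      ptClass (placeReductionModL h P) (placeReductionModL h Q)
        (by rw [(isPlaceReductionModL_placeReductionModL h).1, hP])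
        (by rw [(isPlaceReductionModL_placeReductionModL h).1, hQ]) := by
  rw [ptClass, reductionModL_mk h]
  refine congrArg Pic0.mk (Subtype.ext ?_)
  rw [coe_reductionDegZeroAlong]
  show Finsupp.mapDomain (placeReductionModL h) (Finsupp.single P 1 - Finsupp.single Q 1) = _
  rw [Finsupp.mapDomain_sub, Finsupp.mapDomain_single, Finsupp.mapDomain_single]

theorem deg_galPlace {N : ℕ} (σ : GalQ) (P : PlaceBar N) : (galPlace N σ P).deg = P.deg :=
  SemilinearAut.deg_smul _ P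

theorem gal_smul_ptClass {N : ℕ} (σ : GalQ) (P Q : PlaceBar N) (hP : P.deg = 1)
    (hQ : Q.deg = 1) :
    σ • ptClass P Q hP hQ =
      ptClass (galPlace N σ P) (galPlace N σ Q)
        ((deg_galPlace σ P).trans hP) ((deg_galPlace σ Q).trans hQ) := by
  rw [ptClass, galois_smul_pic0_def, SemilinearAut.pic0_smul_mk]
  refine congrArg Pic0.mk (Subtype.ext ?_)
  rw [SemilinearAut.coe_degZeroSMulHom]
  show arithmeticGalois (modularFunctionFieldFull N) σ •
      (Finsupp.single P 1 - Finsupp.single Q 1 : Divisor (AlgebraicClosure ℚ) _) = _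
  rw [smul_sub, SemilinearAut.smul_single, SemilinearAut.smul_single]
  rfl

theorem ptClass_mem_ratPts {N : ℕ} (P Q : PlaceBar N) (hP : P.deg = 1) (hQ : Q.deg = 1)
    (hPfix : ∀ σ : GalQ, galPlace N σ P = P) (hQfix : ∀ σ : GalQ, galPlace N σ Q = Q) :
    ptClass P Q hP hQ ∈ ratPts N := by
  intro σ
  rw [gal_smul_ptClass]
  exact ptClass_congr (hPfix σ) (hQfix σ) _ _ _ _

/-! ## Torsion injectivity on multiples of the cuspidal class -/

/-- If `r ∣ addOrderOf κ`, `r` a prime different from the prime `ℓ₀`, and torsion of order `r`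
injects under `red` (S18), then `red (k • κ) = 0` forces `r ∣ k`. -/
theorem dvd_of_red_zsmul_eq_zero {G Y : Type*} [AddCommGroup G] [AddCommGroup Y] (red : G →+ Y)
    (κ : G) (r : ℕ) (hrκ : r ∣ addOrderOf κ) (hκ : addOrderOf κ ≠ 0)
    (hinj : ∀ z : G, r • z = 0 → red z = 0 → z = 0)
    (k : ℤ) (hk : red (k • κ) = 0) : (r : ℤ) ∣ k := by
  obtain ⟨q, hq⟩ := hrκ
  have hq0 : q ≠ 0 := by
    rintro rfl
    rw [mul_zero] at hq
    exact hκ hq
  set z : G := q • (k • κ) with hz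
  have h1 : r • z = 0 := by
    rw [hz, smul_smul, ← hq, smul_comm, addOrderOf_nsmul_eq_zero, smul_zero]
  have h2 : red z = 0 := by rw [hz, map_nsmul, hk, smul_zero]
  have h3 : z = 0 := hinj z h1 h2
  have h4 : ((q : ℤ) * k) • κ = 0 := by
    rw [mul_smul, Nat.cast_smul_eq_nsmul]
    exact h3
  have h5 : (addOrderOf κ : ℤ) ∣ (q : ℤ) * k := (addOrderOf_dvd_iff_zsmul_eq_zero).mpr h4
  rw [hq] at h5
  push_cast at h5
  have hq0' : (q : ℤ) ≠ 0 := by exact_mod_cast hq0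
  have h6 : (r : ℤ) * q ∣ k * q := by rwa [mul_comm k]
  exact (mul_dvd_mul_iff_right hq0').mp h6

/-! ## CORE -/

theorem ptClass_swap {K F : Type*} [Field K] [Field F] [Algebra K F] (P Q : Place K F)
    (hP : P.deg = 1) (hQ : Q.deg = 1) : ptClass Q P hQ hP = -ptClass P Q hP hQ := by
  have h : (⟨Finsupp.single Q 1 - Finsupp.single P 1, by
      rw [Divisor.mem_degZero, map_sub, Divisor.degree_single, Divisor.degree_single, hP, hQ,
        sub_self]⟩ : Divisor.degZero (K := K) (F := F)) =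
      -⟨Finsupp.single P 1 - Finsupp.single Q 1, by
        rw [Divisor.mem_degZero, map_sub, Divisor.degree_single, Divisor.degree_single, hP, hQ,
          sub_self]⟩ :=
    Subtype.ext (neg_sub _ _).symm
  rw [ptClass, ptClass, h]
  rfl

set_option maxHeartbeats 1600000 in
/-- **CORE, general form**: `T` is any commutative ring acting on `J₀(p)` and preserving the
rational points and the kernels of the reductions, `Ca`, `Cb` are two rational places of degree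
one whose class `κ = [Ca - Cb]` is torsion, Eisenstein (for the character `ε : T → ℤ`) and
generates `J₀(p)(ℚ)` modulo the Eisenstein prime over `r ∣ ord κ`.  Then no rational place of
`X₀(p)` reduces to `Cb` at `2` and at `3` and to `Ca` at a prime `ℓ ≠ p` with `ℓ ∤ p - 1`. -/
theorem core_gen (p : ℕ) [NeZero p] (hp : p.Prime) (hp2 : p ≠ 2) (hp3 : p ≠ 3)
    (hS18 : Stmt_S18) (hFG : Stmt_redFG p)
    {T : Type*} [CommRing T] [Module T (JZero p)] (ε : T →+* ℤ)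
    (hsub : ∀ (t : T) (z : JZero p), z ∈ ratPts p → t • z ∈ ratPts p)
    (hHR : ∀ ℓ : ℕ, ℓ.Prime → ℓ ≠ p → ∀ A : ValuationSubring (AlgebraicClosure ℚ),
      A.LiesOverPrime ℓ → ∀ (t : T) (z : JZero p), z ∈ ratPts p → reductionModL A p z = 0 →
        reductionModL A p (t • z) = 0)
    (Ca Cb : PlaceBar p) (ha : Ca.deg = 1) (hb : Cb.deg = 1)
    (hafix : ∀ σ : GalQ, galPlace p σ Ca = Ca) (hbfix : ∀ σ : GalQ, galPlace p σ Cb = Cb)
    (hκtors : (p - 1) • ptClass Ca Cb ha hb = 0)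
    (hκE : ∀ t : T, t • ptClass Ca Cb ha hb = ε t • ptClass Ca Cb ha hb)
    (r : ℕ) (hr : r.Prime) (hrκ : r ∣ addOrderOf (ptClass Ca Cb ha hb))
    (hdesc : ∀ z ∈ ratPts p, ∃ m : ℤ, z - m • ptClass Ca Cb ha hb ∈
      AddSubgroup.closure {v | ∃ t : T, (r : ℤ) ∣ ε t ∧ ∃ w ∈ ratPts p, v = t • w})
    (x : PlaceBar p) (hx1 : x.deg = 1) (hxfix : ∀ σ : GalQ, galPlace p σ x = x)
    (A₂ : ValuationSubring (AlgebraicClosure ℚ)) (hA₂ : A₂.LiesOverPrime 2)
    (h₂ : ReductionInputsModL A₂ p)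
    (hx₂ : placeReductionModL h₂ x = placeReductionModL h₂ Cb)
    (A₃ : ValuationSubring (AlgebraicClosure ℚ)) (hA₃ : A₃.LiesOverPrime 3)
    (h₃ : ReductionInputsModL A₃ p)
    (hx₃ : placeReductionModL h₃ x = placeReductionModL h₃ Cb)
    (ℓ : ℕ) (hℓ : ℓ.Prime) (hℓp : ℓ ≠ p) (hℓn : ¬ ℓ ∣ p - 1)
    (A : ValuationSubring (AlgebraicClosure ℚ)) (hA : A.LiesOverPrime ℓ)
    (h : ReductionInputsModL A p)
    (hxℓ : placeReductionModL h x = placeReductionModL h Ca) : False := by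
  classical
  set κ : JZero p := ptClass Ca Cb ha hb with hκ
  set y : JZero p := ptClass x Cb hx1 hb with hy
  have hp1 : 0 < p - 1 := by
    have := hp.two_le
    omega
  have hκord : addOrderOf κ ∣ p - 1 := addOrderOf_dvd_of_nsmul_eq_zero hκtors
  have hκ0 : addOrderOf κ ≠ 0 := fun h0 => by
    rw [h0, zero_dvd_iff] at hκord
    omega
  have hrp1 : r ∣ p - 1 := hrκ.trans hκord
  have hrℓ : r ≠ ℓ := fun e => hℓn (e ▸ hrp1)
  have hrp : r ≠ p := fun e => by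
    have h1 := Nat.le_of_dvd hp1 hrp1
    omega
  -- the auxiliary prime `ℓ₀ ∈ {2, 3}`, `ℓ₀ ≠ r`
  obtain ⟨ℓ₀, hℓ₀, hℓ₀p, hℓ₀r, A₀, hA₀, h₀, hx₀⟩ :
      ∃ ℓ₀ : ℕ, ℓ₀.Prime ∧ ℓ₀ ≠ p ∧ ℓ₀ ≠ r ∧ ∃ (A₀ : ValuationSubring (AlgebraicClosure ℚ))
        (_ : A₀.LiesOverPrime ℓ₀) (h₀ : ReductionInputsModL A₀ p),
        placeReductionModL h₀ x = placeReductionModL h₀ Cb := by
    by_cases hr2 : r = 2
    · exact ⟨3, Nat.prime_three, fun e => hp3 e.symm, by omega, A₃, hA₃, h₃, hx₃⟩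
    · exact ⟨2, Nat.prime_two, fun e => hp2 e.symm, fun e => hr2 e.symm, A₂, hA₂, h₂, hx₂⟩
  -- the submodule of rational points
  let M : Submodule T (JZero p) :=
    { carrier := {z | z ∈ ratPts p}
      zero_mem' := (ratPts p).zero_mem
      add_mem' := fun {a b} ha hb => (ratPts p).add_mem ha hb
      smul_mem' := fun t z hz => hsub t z hz }
  have hMrat : M.toAddSubgroup = ratPts p := by
    ext z
    rfl
  have hκM : κ ∈ M := ptClass_mem_ratPts Ca Cb ha hb hafix hbfix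
  have hyM : y ∈ M := ptClass_mem_ratPts x Cb hx1 hb hxfix hbfix
  -- injectivity of the two reductions on torsion of order `r`
  have hinj : ∀ (ℓ' : ℕ) (_ : ℓ'.Prime) (_ : ℓ' ≠ p) (_ : ℓ' ≠ r)
      (A' : ValuationSubring (AlgebraicClosure ℚ)) (_ : A'.LiesOverPrime ℓ')
      (_ : ReductionInputsModL A' p) (k : ℤ),
      reductionModL A' p (k • κ) = 0 → (r : ℤ) ∣ k := by
    intro ℓ' hℓ' hℓ'p hℓ'r A' hA' h' k hk
    haveI : Fact ℓ'.Prime := ⟨hℓ'⟩
    have hℓ'N : ¬ ℓ' ∣ p := fun hd => hℓ'p ((Nat.prime_dvd_prime_iff_eq hℓ' hp).mp hd)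
    have hℓ'r' : ¬ ℓ' ∣ r := fun hd => hℓ'r ((Nat.prime_dvd_prime_iff_eq hℓ' hr).mp hd)
    exact dvd_of_red_zsmul_eq_zero (reductionModL A' p) κ r hrκ hκ0
      (fun z hz1 hz2 => hS18 p hℓ'N A' hA' h' r hℓ'r' z hz1 hz2) k hk
  -- the Eisenstein prime
  set 𝔓 : Ideal T := Ideal.comap ε (Ideal.span {(r : ℤ)}) with h𝔓def
  have h𝔓 : ∀ t ∈ 𝔓, (r : ℤ) ∣ ε t := fun t ht =>
    Ideal.mem_span_singleton.mp (Ideal.mem_comap.mp ht)
  have hr1 : ¬ (r : ℤ) ∣ 1 := by
    intro hd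
    have := Int.natAbs_dvd_natAbs.mpr hd
    simp only [Int.natAbs_natCast, Int.natAbs_one, Nat.dvd_one] at this
    exact hr.one_lt.ne' this
  have hD' : ∀ z ∈ M, ∃ m : ℤ, z - m • κ ∈ 𝔓 • M := by
    intro z hz
    obtain ⟨m, hm⟩ := hdesc z hz
    refine ⟨m, ?_⟩
    have hle : AddSubgroup.closure {v | ∃ t : T, (r : ℤ) ∣ ε t ∧ ∃ w ∈ ratPts p, v = t • w}
        ≤ (𝔓 • M).toAddSubgroup := by
      rw [AddSubgroup.closure_le]
      rintro v ⟨t, ht, w, hw, rfl⟩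
      exact Submodule.smul_mem_smul (Ideal.mem_comap.mpr (Ideal.mem_span_singleton.mpr ht)) hw
    exact hle hm
  -- `y` reduces to `0` at `ℓ₀`
  have hy0 : reductionModL A₀ p y = 0 := by
    rw [hy, red_ptClass h₀]
    rw [ptClass_congr hx₀ rfl _ _
      (by rw [(isPlaceReductionModL_placeReductionModL h₀).1, hb])
      (by rw [(isPlaceReductionModL_placeReductionModL h₀).1, hb])]
    exact ptClass_self _ _
  -- `y - κ` reduces to `0` at `ℓ`
  have hyκ : reductionModL A p (y - κ) = 0 := by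
    have e1 := red_ptClass h x Cb hx1 hb
    have e2 := red_ptClass h Ca Cb ha hb
    rw [map_sub, sub_eq_zero, hy, hκ, e1, e2]
    exact ptClass_congr hxℓ rfl _ _ _ _
  exact key_algebra M (reductionModL A₀ p) (reductionModL A p)
    (fun t z hz hz0 => hHR ℓ₀ hℓ₀ hℓ₀p A₀ hA₀ t z hz hz0)
    (fun t z hz hz0 => hHR ℓ hℓ hℓp A hA t z hz hz0)
    (by rw [hMrat]; exact hFG ℓ₀ hℓ₀ hℓ₀p A₀ hA₀)
    (by rw [hMrat]; exact hFG ℓ hℓ hℓp A hA)
    ε κ hκM hκE (r : ℤ) hr1 𝔓 h𝔓 hD'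
    (hinj ℓ₀ hℓ₀ hℓ₀p hℓ₀r A₀ hA₀ h₀) (hinj ℓ hℓ hℓp (Ne.symm hrℓ) A hA h) y hyM hy0 hyκ

/-- (EIS) **abstract form of the Hecke inputs**: some commutative ring `T` acts on `J₀(p)`,
preserving the rational points and the kernels of the reductions modulo `ℓ ≠ p` on them, the
cuspidal class `κ = [P∞ - P0]` is an eigenvector with character `ε : T → ℤ`, and for some prime
`r ∣ ord κ` the group `J₀(p)(ℚ)` is generated by `κ` modulo `𝔓_r J₀(p)(ℚ)`,
`𝔓_r = {t | r ∣ ε t}`.  (The ring may be the full Hecke ring of the prelude, the anemic Hecke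
ring, or `ℤ[T_ℓ₀]` for a single good prime `ℓ₀`.) -/
def Stmt_eisData (p : ℕ) [NeZero p] : Prop :=
  ∀ (Pinf P0 : PlaceBar p) (hc : IsCuspPair p Pinf P0),
    ∃ (T : Type) (_ : CommRing T) (_ : Module T (JZero p)) (ε : T →+* ℤ) (r : ℕ),
      (∀ (t : T) (z : JZero p), z ∈ ratPts p → t • z ∈ ratPts p) ∧
      (∀ ℓ : ℕ, ℓ.Prime → ℓ ≠ p → ∀ A : ValuationSubring (AlgebraicClosure ℚ),
        A.LiesOverPrime ℓ → ∀ (t : T) (z : JZero p), z ∈ ratPts p → reductionModL A p z = 0 →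
          reductionModL A p (t • z) = 0) ∧
      (∀ t : T, t • ptClass Pinf P0 hc.deg_inf hc.deg_zero =
        ε t • ptClass Pinf P0 hc.deg_inf hc.deg_zero) ∧
      r.Prime ∧ r ∣ addOrderOf (ptClass Pinf P0 hc.deg_inf hc.deg_zero) ∧
      ∀ z ∈ ratPts p, ∃ m : ℤ, z - m • ptClass Pinf P0 hc.deg_inf hc.deg_zero ∈
        AddSubgroup.closure {v | ∃ t : T, (r : ℤ) ∣ ε t ∧ ∃ w ∈ ratPts p, v = t • w}

/-- The abstract Hecke inputs from the leaves on the Hecke ring of the prelude. -/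
theorem stmt_eisData_of_leaves (p : ℕ) [NeZero p] (hGH : Stmt_GH p) (hHR : Stmt_HR p)
    (hcE : Stmt_cuspEis p) (hD : Stmt_descent p) : Stmt_eisData p := by
  intro Pinf P0 hc
  obtain ⟨r, hr, hrκ, hdesc⟩ := hD Pinf P0 hc
  refine ⟨HeckeAlg, inferInstance, heckeModuleBar p, eisEval p, r, ?_, ?_, ?_, hr, hrκ, ?_⟩
  · intro t z hz σ
    letI := heckeModuleBar p
    show σ • hsmul p t z = hsmul p t z
    rw [hGH σ t z, hz σ]
  · intro ℓ hℓ hℓp A hA t z hz hz0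
    exact hHR ℓ hℓ hℓp A hA t z hz hz0
  · intro t
    exact hcE Pinf P0 hc t
  · intro z hz
    obtain ⟨m, hm⟩ := hdesc z hz
    exact ⟨m, hm⟩

/-- **CORE**: no rational place of `X₀(p)` reduces to the cusp `P0` at `2` and at `3` and to
the cusp `P∞` at a prime `ℓ ≠ p` with `ℓ ∤ p - 1`. -/
theorem core_of_eisData (p : ℕ) [NeZero p] (hp : p.Prime) (hp2 : p ≠ 2) (hp3 : p ≠ 3)
    (hS18 : Stmt_S18) (hFG : Stmt_redFG p)
    (hcG : Stmt_cuspGal p) (hcT : Stmt_cuspTors p) (hE : Stmt_eisData p)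
    (Pinf P0 : PlaceBar p) (hc : IsCuspPair p Pinf P0)
    (x : PlaceBar p) (hx1 : x.deg = 1) (hxfix : ∀ σ : GalQ, galPlace p σ x = x)
    (A₂ : ValuationSubring (AlgebraicClosure ℚ)) (hA₂ : A₂.LiesOverPrime 2)
    (h₂ : ReductionInputsModL A₂ p)
    (hx₂ : placeReductionModL h₂ x = placeReductionModL h₂ P0)
    (A₃ : ValuationSubring (AlgebraicClosure ℚ)) (hA₃ : A₃.LiesOverPrime 3)
    (h₃ : ReductionInputsModL A₃ p)
    (hx₃ : placeReductionModL h₃ x = placeReductionModL h₃ P0)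
    (ℓ : ℕ) (hℓ : ℓ.Prime) (hℓp : ℓ ≠ p) (hℓn : ¬ ℓ ∣ p - 1)
    (A : ValuationSubring (AlgebraicClosure ℚ)) (hA : A.LiesOverPrime ℓ)
    (h : ReductionInputsModL A p)
    (hxℓ : placeReductionModL h x = placeReductionModL h Pinf) : False := by
  obtain ⟨T, iR, iM, ε, r, hsub, hHR, hκE, hr, hrκ, hdesc⟩ := hE Pinf P0 hc
  exact core_gen p hp hp2 hp3 hS18 hFG ε hsub hHR Pinf P0 hc.deg_inf hc.deg_zero
    (fun σ => (hcG Pinf P0 hc σ).1) (fun σ => (hcG Pinf P0 hc σ).2) (hcT Pinf P0 hc) hκE r hr hrκ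
    hdesc x hx1 hxfix A₂ hA₂ h₂ hx₂ A₃ hA₃ h₃ hx₃ ℓ hℓ hℓp hℓn A hA h hxℓ

/-- **CORE, Fricke-dual form**: no rational place of `X₀(p)` reduces to the cusp `P∞` at `2`
and at `3` and to the cusp `P0` at a prime `ℓ ≠ p` with `ℓ ∤ p - 1`. -/
theorem core'_of_eisData (p : ℕ) [NeZero p] (hp : p.Prime) (hp2 : p ≠ 2) (hp3 : p ≠ 3)
    (hS18 : Stmt_S18) (hFG : Stmt_redFG p)
    (hcG : Stmt_cuspGal p) (hcT : Stmt_cuspTors p) (hE : Stmt_eisData p)
    (Pinf P0 : PlaceBar p) (hc : IsCuspPair p Pinf P0)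
    (x : PlaceBar p) (hx1 : x.deg = 1) (hxfix : ∀ σ : GalQ, galPlace p σ x = x)
    (A₂ : ValuationSubring (AlgebraicClosure ℚ)) (hA₂ : A₂.LiesOverPrime 2)
    (h₂ : ReductionInputsModL A₂ p)
    (hx₂ : placeReductionModL h₂ x = placeReductionModL h₂ Pinf)
    (A₃ : ValuationSubring (AlgebraicClosure ℚ)) (hA₃ : A₃.LiesOverPrime 3)
    (h₃ : ReductionInputsModL A₃ p)
    (hx₃ : placeReductionModL h₃ x = placeReductionModL h₃ Pinf)
    (ℓ : ℕ) (hℓ : ℓ.Prime) (hℓp : ℓ ≠ p) (hℓn : ¬ ℓ ∣ p - 1)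
    (A : ValuationSubring (AlgebraicClosure ℚ)) (hA : A.LiesOverPrime ℓ)
    (h : ReductionInputsModL A p)
    (hxℓ : placeReductionModL h x = placeReductionModL h P0) : False := by
  obtain ⟨T, iR, iM, ε, r, hsub, hHR, hκE, hr, hrκ, hdesc⟩ := hE Pinf P0 hc
  have hsw : ptClass P0 Pinf hc.deg_zero hc.deg_inf = -ptClass Pinf P0 hc.deg_inf hc.deg_zero :=
    ptClass_swap Pinf P0 hc.deg_inf hc.deg_zero
  refine core_gen p hp hp2 hp3 hS18 hFG ε hsub hHR P0 Pinf hc.deg_zero hc.deg_inf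
    (fun σ => (hcG Pinf P0 hc σ).2) (fun σ => (hcG Pinf P0 hc σ).1) ?_ ?_ r hr ?_ ?_
    x hx1 hxfix A₂ hA₂ h₂ hx₂ A₃ hA₃ h₃ hx₃ ℓ hℓ hℓp hℓn A hA h hxℓ
  · rw [hsw, neg_nsmul, hcT Pinf P0 hc, neg_zero]
  · intro t
    rw [hsw, smul_neg, hκE t]
    exact (zsmul_neg _ _).symm
  · rw [hsw, addOrderOf_neg]
    exact hrκ
  · intro z hz
    obtain ⟨m, hm⟩ := hdesc z hz
    refine ⟨-m, ?_⟩
    rw [hsw, neg_smul, smul_neg, neg_neg]
    exact hm

/-- **CORE** from the leaves on the Hecke ring of the prelude. -/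
theorem core (p : ℕ) [NeZero p] (hp : p.Prime) (hp2 : p ≠ 2) (hp3 : p ≠ 3)
    (hS18 : Stmt_S18) (hGH : Stmt_GH p) (hHR : Stmt_HR p) (hFG : Stmt_redFG p)
    (hcG : Stmt_cuspGal p) (hcT : Stmt_cuspTors p) (hcE : Stmt_cuspEis p)
    (hD : Stmt_descent p)
    (Pinf P0 : PlaceBar p) (hc : IsCuspPair p Pinf P0)
    (x : PlaceBar p) (hx1 : x.deg = 1) (hxfix : ∀ σ : GalQ, galPlace p σ x = x)
    (A₂ : ValuationSubring (AlgebraicClosure ℚ)) (hA₂ : A₂.LiesOverPrime 2)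
    (h₂ : ReductionInputsModL A₂ p)
    (hx₂ : placeReductionModL h₂ x = placeReductionModL h₂ P0)
    (A₃ : ValuationSubring (AlgebraicClosure ℚ)) (hA₃ : A₃.LiesOverPrime 3)
    (h₃ : ReductionInputsModL A₃ p)
    (hx₃ : placeReductionModL h₃ x = placeReductionModL h₃ P0)
    (ℓ : ℕ) (hℓ : ℓ.Prime) (hℓp : ℓ ≠ p) (hℓn : ¬ ℓ ∣ p - 1)
    (A : ValuationSubring (AlgebraicClosure ℚ)) (hA : A.LiesOverPrime ℓ)
    (h : ReductionInputsModL A p)
    (hxℓ : placeReductionModL h x = placeReductionModL h Pinf) : False :=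
  core_of_eisData p hp hp2 hp3 hS18 hFG hcG hcT (stmt_eisData_of_leaves p hGH hHR hcE hD)
    Pinf P0 hc x hx1 hxfix A₂ hA₂ h₂ hx₂ A₃ hA₃ h₃ hx₃ ℓ hℓ hℓp hℓn A hA h hxℓ

/-! ## `Stmt_redFG` from Mordell–Weil -/

theorem ratPts_eq_fixedPoints (N : ℕ) :
    ratPts N = FixedPoints.addSubgroup GalQ (JZero N) := by
  ext z
  rw [mem_ratPts, FixedPoints.mem_addSubgroup]

/-- The finiteness input (FG) follows from Mordell–Weil (the frozen statement S17 at level `p`).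
(It is much weaker: the reduction of `J₀(p)(ℚ)` modulo `ℓ` is a finite group.) -/
theorem stmt_redFG_of_S17 (p : ℕ) (h17 : Stmt_S17 p) : Stmt_redFG p := by
  classical
  intro ℓ _ _ A _
  have h1 : (ratPts p).FG := by
    rw [ratPts_eq_fixedPoints]
    exact (AddGroup.fg_iff_addSubgroup_fg _).mp h17
  obtain ⟨S, hS⟩ := h1
  refine ⟨S.image (reductionModL A p), ?_⟩
  rw [Finset.coe_image, ← AddMonoidHom.map_closure, hS]

/-! ## `Stmt_GH` from the commutation of the generators (G-TOR package GalHecke) -/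

/-- (GH) follows from the commutation of Galois with the generators `T_ℓ`
(the statement `Fermat.Agent.GTor.Stmt_GalHecke p`, restated here to keep imports small). -/
theorem stmt_GH_of_generators (p : ℕ) [NeZero p]
    (h : ∀ (ℓ : Nat.Primes) (σ : GalQ) (x : JZero p),
      σ • heckeOperatorBar p ℓ x = heckeOperatorBar p ℓ (σ • x)) :
    Stmt_GH p := by
  intro σ t z
  by_cases hc : HeckeOperatorsCommuteBar p
  · have key : ∀ (t : HeckeAlg) (z : JZero p),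
        σ • heckeEvalBar hc t z = heckeEvalBar hc t (σ • z) := by
      intro t
      induction t using MvPolynomial.induction_on with
      | C a =>
        intro z
        rw [heckeEvalBar_C, Module.End.intCast_apply, Module.End.intCast_apply]
        exact map_zsmul (DistribSMul.toAddMonoidHom (JZero p) σ) a z
      | add f g hf hg =>
        intro z
        rw [map_add, LinearMap.add_apply, LinearMap.add_apply, smul_add, hf, hg]
      | mul_X f ℓ hf =>
        intro z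
        rw [map_mul, Module.End.mul_apply, Module.End.mul_apply, hf]
        congr 1
        have hX : heckeEvalBar hc (MvPolynomial.X ℓ) = heckeOperatorBar p ℓ :=
          heckeEvalBar_heckeGen hc ℓ
        rw [hX]
        exact h ℓ σ z
    show σ • hsmul p t z = hsmul p t (σ • z)
    rw [hsmul, hsmul, heckeModuleBar_smul_def hc, heckeModuleBar_smul_def hc]
    exact key t z
  · show σ • hsmul p t z = hsmul p t (σ • z)
    rw [hsmul, hsmul, heckeModuleBar_smul_of_not hc, heckeModuleBar_smul_of_not hc]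
    exact map_zsmul (DistribSMul.toAddMonoidHom (JZero p) σ) _ z

/-! ## The frozen statement from the leaves -/

/-- All inputs of S15 at a prime level `p`. -/
structure Inputs (p : ℕ) [NeZero p] : Prop where
  redInputs : Stmt_redInputs p
  gh : Stmt_GH p
  hr : Stmt_HR p
  redFG : Stmt_redFG p
  cuspExists : Stmt_cuspExists p
  cuspGal : Stmt_cuspGal p
  cuspTors : Stmt_cuspTors p
  cuspEis : Stmt_cuspEis p
  descent : Stmt_descent p
  bridge : Stmt_bridge p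

/-- **S15 from its inputs** (the statement below the hypotheses `hS18`, `hE`, `hI` is the frozen
statement S15, verbatim). -/
theorem result_of_inputs (hS18 : Stmt_S18) (hE : Stmt_elem)
    (hI : ∀ (p : ℕ) [NeZero p], p.Prime → p ∉ ({2, 3, 5, 7, 13} : Finset ℕ) → Inputs p)
    {p : ℕ} (hp : p.Prime) (hp' : p ∉ ({2, 3, 5, 7, 13} : Finset ℕ))
    (W : WeierstrassCurve ℤ) (hΔ : W.Δ ≠ 0)
    (Q : ((W.map (Int.castRingHom ℚ))⁄(AlgebraicClosure ℚ)).Point)
    (hQfix : ∀ σ : AlgebraicClosure ℚ ≃ₐ[ℚ] AlgebraicClosure ℚ, σ • Q = Q)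
    (hQord : addOrderOf Q = p)
    (h2Δ : (2 : ℤ) ∣ W.Δ) (h2c₄ : ¬ (2 : ℤ) ∣ W.c₄)
    (h2 : ∀ A : ValuationSubring (AlgebraicClosure ℚ), A.LiesOverPrime 2 →
      ¬ W.InZeroComponentAt A Q)
    (h3Δ : (3 : ℤ) ∣ W.Δ) (h3c₄ : ¬ (3 : ℤ) ∣ W.c₄)
    (h3 : ∀ A : ValuationSubring (AlgebraicClosure ℚ), A.LiesOverPrime 3 →
      ¬ W.InZeroComponentAt A Q)
    {ℓ : ℕ} (hℓ : ℓ.Prime) (hℓp : ℓ ≠ p) (hℓΔ : (ℓ : ℤ) ∣ W.Δ) (hℓc₄ : ¬ (ℓ : ℤ) ∣ W.c₄)
    (A : ValuationSubring (AlgebraicClosure ℚ)) (hA : A.LiesOverPrime ℓ) :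
    ¬ W.InZeroComponentAt A Q := by
  intro hin
  haveI : NeZero p := ⟨hp.ne_zero⟩
  have hp2 : p ≠ 2 := fun e => hp' (by simp [e])
  have hp3 : p ≠ 3 := fun e => hp' (by simp [e])
  have I := hI p hp hp'
  obtain ⟨Pinf, P0, hc⟩ := I.cuspExists
  obtain ⟨x, hx1, hxfix, hxred⟩ :=
    I.bridge W hΔ Q hQfix hQord h2Δ h2c₄ h3Δ h3c₄ Pinf P0 hc
  -- the places over `2` and `3`
  obtain ⟨A₂, hA₂⟩ := Fermat.Agent.Lib.FrobExists.exists_liesOverPrime 2 Nat.prime_two
  obtain ⟨A₃, hA₃⟩ := Fermat.Agent.Lib.FrobExists.exists_liesOverPrime 3 Nat.prime_three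
  have h₂ := I.redInputs 2 Nat.prime_two (Ne.symm hp2) A₂ hA₂
  have h₃ := I.redInputs 3 Nat.prime_three (Ne.symm hp3) A₃ hA₃
  have h := I.redInputs ℓ hℓ hℓp A hA
  have hx₂ := (hxred 2 Nat.prime_two (Ne.symm hp2) (by exact_mod_cast h2Δ)
    (by exact_mod_cast h2c₄) A₂ hA₂ h₂).1 (h2 A₂ hA₂)
  have hx₃ := (hxred 3 Nat.prime_three (Ne.symm hp3) (by exact_mod_cast h3Δ)
    (by exact_mod_cast h3c₄) A₃ hA₃ h₃).1 (h3 A₃ hA₃)
  have hxℓ := (hxred ℓ hℓ hℓp hℓΔ hℓc₄ A hA h).2 hin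
  -- `ℓ ∤ p - 1`
  have hdvd : p ∣ (ℓ - 1) * (ℓ + 1) :=
    hE p hp W hΔ Q hQfix hQord ℓ hℓ hℓp hℓΔ hℓc₄ A hA hin
  have hℓn : ¬ ℓ ∣ p - 1 := by
    intro hd
    have hp1 : 0 < p - 1 := by
      have := hp.two_le
      omega
    have hle : ℓ ≤ p - 1 := Nat.le_of_dvd hp1 hd
    have hℓ2 := hℓ.two_le
    rcases (Nat.Prime.dvd_mul hp).mp hdvd with h1 | h1
    · have := Nat.le_of_dvd (by omega) h1
      omega
    · have h2' := Nat.le_of_dvd (by omega) h1
      have hpl : p = ℓ + 1 := by omega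
      -- `p` and `ℓ = p - 1` both prime: `p = 3`
      rcases Nat.Prime.eq_one_or_self_of_dvd hp 2 (by
        rcases Nat.even_or_odd ℓ with he | ho
        · -- `ℓ` even prime: `ℓ = 2`, `p = 3`
          exfalso
          have : ℓ = 2 := (Nat.Prime.even_iff hℓ).mp he
          omega
        · rw [hpl]
          exact (Nat.even_add_one.mpr (Nat.not_even_iff_odd.mpr ho)).two_dvd) with h3' | h3'
      · omega
      · omega
  exact core p hp hp2 hp3 hS18 I.gh I.hr I.redFG I.cuspGal I.cuspTors I.cuspEis I.descent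
    Pinf P0 hc x hx1 hxfix A₂ hA₂ h₂ hx₂ A₃ hA₃ h₃ hx₃ ℓ hℓ hℓp hℓn A hA h hxℓ

end Fermat.Agent.S15
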