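/-
S15 (helper83): the frozen statement from its leaves, FRICKE-DUAL form of the bridge
(`Stmt_bridge'` of `BridgeDefs.lean`, coordinator helper67), abstract Hecke inputs
(`Stmt_eisData` of `Wiring.lean`), ELEM proved (`H83_Elem.lean`).

`result_of_inputsB : Stmt_S18 → (∀ p, InputsB p) → <frozen S15 statement>`.
-/
import Fermat.Agent.S15.Wiring
import Fermat.Agent.S15.BridgeDefs
import Fermat.Agent.S15.H83_Elem

set_option autoImplicit false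
set_option synthInstance.maxHeartbeats 400000

noncomputable section

open HahnSeries IntermediateField AlgebraicCurve ModularCurve
open WeierstrassCurve WeierstrassCurve.Affine

namespace Fermat.Agent.S15

/-- All inputs of S15 at a prime level `p` (Fricke-dual bridge, abstract Hecke inputs). -/
structure InputsB (p : ℕ) [NeZero p] : Prop where
  redInputs : Stmt_redInputs p
  redFG : Stmt_redFG p
  cuspExists : Stmt_cuspExists p
  cuspGal : Stmt_cuspGal p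
  cuspTors : Stmt_cuspTors p
  eis : Stmt_eisData p
  bridge : Stmt_bridge' p

/-- **S15 from its inputs** (the statement below the hypotheses `hS18`, `hI` is the frozen
statement S15, verbatim). -/
theorem result_of_inputsB (hS18 : Stmt_S18)
    (hI : ∀ (p : ℕ) [NeZero p], p.Prime → p ∉ ({2, 3, 5, 7, 13} : Finset ℕ) → InputsB p)
    {p : ℕ} (hp : p.Prime) (hp' : p ∉ ({2, 3, 5, 7, 13} : Finset ℕ))
    (W : WeierstrassCurve ℤ) (hΔ : W.Δ ≠ 0)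
    (Q : ((W.map (Int.castRingHom ℚ))⁄(AlgebraicClosure ℚ)).Point)
    (hQfix : ∀ σ : AlgebraicClosure ℚ ≃ₐ[ℚ] AlgebraicClosure ℚ, σ • Q = Q)
    (hQord : addOrderOf Q = p)
    (h2Δ : (2 : ℤ) ∣ W.Δ) (h2c₄ : ¬ (2 : ℤ) ∣ W.c₄)
    (h2 : ∀ A : ValuationSubring (AlgebraicClosure ℚ), A.LiesOverPrime 2 →
      ¬ W.InZeroComponentAt A Q)
    (h3Δ : (3 : ℤ) ∣ W.Δ) (h3c₄ : ¬ (3 : ℤ) ∣ W.c₄)
    (h3 : ∀ A : ValuationSubring (AlgebraicClosure ℚ), A.LiesOverPrime 3 →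
      ¬ W.InZeroComponentAt A Q)
    {ℓ : ℕ} (hℓ : ℓ.Prime) (hℓp : ℓ ≠ p) (hℓΔ : (ℓ : ℤ) ∣ W.Δ) (hℓc₄ : ¬ (ℓ : ℤ) ∣ W.c₄)
    (A : ValuationSubring (AlgebraicClosure ℚ)) (hA : A.LiesOverPrime ℓ) :
    ¬ W.InZeroComponentAt A Q := by
  intro hin
  haveI : NeZero p := ⟨hp.ne_zero⟩
  have hp2 : p ≠ 2 := fun e => hp' (by simp [e])
  have hp3 : p ≠ 3 := fun e => hp' (by simp [e])
  have I := hI p hp hp'
  obtain ⟨Pinf, P0, hc⟩ := I.cuspExists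
  obtain ⟨x, hx1, hxfix, hxred⟩ := I.bridge W hΔ Q hQfix hQord h2Δ h2c₄ h2 Pinf P0 hc
  -- the places over `2` and `3`
  obtain ⟨A₂, hA₂⟩ := Fermat.Agent.Lib.FrobExists.exists_liesOverPrime 2 Nat.prime_two
  obtain ⟨A₃, hA₃⟩ := Fermat.Agent.Lib.FrobExists.exists_liesOverPrime 3 Nat.prime_three
  have h₂ := I.redInputs 2 Nat.prime_two (Ne.symm hp2) A₂ hA₂
  have h₃ := I.redInputs 3 Nat.prime_three (Ne.symm hp3) A₃ hA₃
  have h := I.redInputs ℓ hℓ hℓp A hA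
  have hx₂ := (hxred 2 Nat.prime_two (Ne.symm hp2) (by exact_mod_cast h2Δ)
    (by exact_mod_cast h2c₄) A₂ hA₂ h₂).1 (h2 A₂ hA₂)
  have hx₃ := (hxred 3 Nat.prime_three (Ne.symm hp3) (by exact_mod_cast h3Δ)
    (by exact_mod_cast h3c₄) A₃ hA₃ h₃).1 (h3 A₃ hA₃)
  have hxℓ := (hxred ℓ hℓ hℓp hℓΔ hℓc₄ A hA h).2 hin
  -- `ℓ ∤ p - 1`
  have hℓn : ¬ ℓ ∣ p - 1 :=
    H83.not_dvd_pred_of_inZero hp hp3 W hΔ Q hQfix hQord hℓ hℓp hℓΔ hℓc₄ A hA hin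
  exact core'_of_eisData p hp hp2 hp3 hS18 I.redFG I.cuspGal I.cuspTors I.eis
    Pinf P0 hc x hx1 hxfix A₂ hA₂ h₂ hx₂ A₃ hA₃ h₃ hx₃ ℓ hℓ hℓp hℓn A hA h hxℓ

end Fermat.Agent.S15
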